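/-
S59, piece FIN (E-side), part 1 (helper77): flatness at `p` passes to the base change along ANY
local homomorphism `φ : A → B` (no surjectivity), `B` with finite residue field.

* `s59fe_subquot`            : the sub-quotient lemma S32-B, re-assembled from its abstract pieces
                               (`S32.s32b_subquot_data`, `W1.hasFiniteFlatModel_pi`,
                               `W1.hasFiniteFlatModel_of_subquotient`) with a small import closure;
* `s59fe_isFlatAt_baseChange`: `ρ.IsFlatAt p → (ρ.baseChangeAlong φ hφ).IsFlatAt p`.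

Proof: for `I ⊆ B` of finite index put `J = φ⁻¹ I`; every element of `ℤ[G_ℚ]` which kills `V ⧸ J V`
kills `(B ⊗ V) ⧸ I (B ⊗ V)`, so the finite flat model of `V ⧸ J V` is transported by `s59fe_subquot`.
-/
import Fermat.Agent.S32.SubquotAbs
import Fermat.Agent.W1.SubQuot
import Fermat.Agent.W1.RatLocPID
import Fermat.Agent.TW.BC

set_option autoImplicit false
set_option linter.style.haveILetI false
set_option linter.unusedSectionVars false
set_option linter.unusedVariables false

namespace Fermat.Agent.S59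

open Fermat.Agent.W1 IsLocalRing TensorProduct

/-- The absolute Galois group of `ℚ`. -/
abbrev S59GQ : Type := AlgebraicClosure ℚ ≃ₐ[ℚ] AlgebraicClosure ℚ

/-- **S32-B** (sub-quotient lemma), with a small import closure. -/
theorem s59fe_subquot (R : Subring ℚ) [IsPrincipalIdealRing R] [IsFractionRing R ℚ]
    (X : Type) [AddCommGroup X] [Finite X] (actX : S59GQ → X → X)
    (Y : Type) [AddCommGroup Y] [Finite Y] (actY : S59GQ → Y → Y)
    (haddX : ∀ σ x x', actX σ (x + x') = actX σ x + actX σ x')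
    (hmulX : ∀ σ τ x, actX (σ * τ) x = actX σ (actX τ x))
    (haddY : ∀ σ y y', actY σ (y + y') = actY σ y + actY σ y')
    (hmulY : ∀ σ τ y, actY (σ * τ) y = actY σ (actY τ y))
    (honeY : ∀ y, actY 1 y = y)
    (hann : ∀ c : S59GQ →₀ ℤ, (∀ x : X, (c.sum fun g z => z • actX g x) = 0) →
      ∀ y : Y, (c.sum fun g z => z • actY g y) = 0)
    (hX : HasFiniteFlatModel R X actX) : HasFiniteFlatModel R Y actY := by
  obtain ⟨N, instN, actN, ι, π, hι, hιeq, hπ, hπeq⟩ :=
    Fermat.Agent.S32.s32b_subquot_data (G := S59GQ) X actX Y actY haddX hmulX haddY hmulY honeY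
      hann
  have hM : HasFiniteFlatModel R (Y × X → X) (fun σ f i => actX σ (f i)) :=
    hasFiniteFlatModel_pi hX (Y × X)
  exact hasFiniteFlatModel_of_subquotient hM actN ι hι hιeq π hπ hπeq

section Flat

variable {A B : Type} [CommRing A] [IsLocalRing A] [CommRing B] [IsLocalRing B]

theorem s59fe_levelAction_mk (ρ : GaloisRepAdic A) (I : Ideal A) (σ : S59GQ) (v : ρ.V) :
    ρ.levelAction I σ (Submodule.Quotient.mk v) = Submodule.Quotient.mk (ρ.ρ σ v) := rfl

theorem s59fe_levelAction_mul (ρ : GaloisRepAdic A) (I : Ideal A) (σ τ : S59GQ)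
    (y : ρ.V ⧸ (I • (⊤ : Submodule A ρ.V))) :
    ρ.levelAction I (σ * τ) y = ρ.levelAction I σ (ρ.levelAction I τ y) := by
  obtain ⟨v, rfl⟩ := Submodule.Quotient.mk_surjective _ y
  rw [s59fe_levelAction_mk, s59fe_levelAction_mk, s59fe_levelAction_mk, map_mul,
    Module.End.mul_apply]

theorem s59fe_levelAction_one (ρ : GaloisRepAdic A) (I : Ideal A)
    (y : ρ.V ⧸ (I • (⊤ : Submodule A ρ.V))) : ρ.levelAction I 1 y = y := by
  obtain ⟨v, rfl⟩ := Submodule.Quotient.mk_surjective _ y
  rw [s59fe_levelAction_mk, map_one, Module.End.one_apply]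

theorem s59fe_finite_level [Finite (ResidueField A)] (ρ : GaloisRepAdic A) (I : Ideal A)
    [Finite (A ⧸ I)] : Finite (ρ.V ⧸ (I • (⊤ : Submodule A ρ.V))) := by
  have : Module.Finite (A ⧸ I) (ρ.V ⧸ (I • (⊤ : Submodule A ρ.V))) :=
    Module.Finite.of_restrictScalars_finite A _ _
  exact Module.finite_of_finite (A ⧸ I)

/-- the sum over an element of `ℤ[G]` of the level action, on a class -/
theorem s59fe_sum_level (ρ : GaloisRepAdic A) (I : Ideal A) (c : S59GQ →₀ ℤ) (v : ρ.V) :
    (c.sum fun g z => z • ρ.levelAction I g (Submodule.Quotient.mk v)) =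
      (I • (⊤ : Submodule A ρ.V)).mkQ (c.sum fun g z => z • ρ.ρ g v) := by
  rw [Finsupp.sum, Finsupp.sum, map_sum]
  refine Finset.sum_congr rfl fun g _ => ?_
  rw [map_zsmul]
  rfl

/-- an element `b ⊗ x` with `x ∈ (φ⁻¹ I) V` lies in `I (B ⊗ V)` -/
theorem s59fe_tmul_mem [Algebra A B] {M : Type} [AddCommGroup M] [Module A M] (I : Ideal B)
    (b : B) {x : M} (hx : x ∈ (I.comap (algebraMap A B)) • (⊤ : Submodule A M)) :
    b ⊗ₜ[A] x ∈ I • (⊤ : Submodule B (B ⊗[A] M)) := by
  refine Submodule.smul_induction_on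
    (p := fun x => b ⊗ₜ[A] x ∈ I • (⊤ : Submodule B (B ⊗[A] M))) hx ?_ ?_
  · intro a ha w _
    have e : b ⊗ₜ[A] (a • w) = (algebraMap A B a) • (b ⊗ₜ[A] w) := by
      rw [TensorProduct.tmul_smul, TensorProduct.smul_tmul', TensorProduct.smul_tmul',
        Algebra.smul_def, smul_eq_mul]
    rw [e]
    exact Submodule.smul_mem_smul (Ideal.mem_comap.1 ha) Submodule.mem_top
  · intro x y hx hy
    rw [TensorProduct.tmul_add]
    exact Submodule.add_mem _ hx hy

/-- an element of `ℤ[G]` which maps `M` into `(φ⁻¹ I) M` maps `B ⊗ M` into `I (B ⊗ M)` -/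
theorem s59fe_sum_mem_aux [Algebra A B] {G : Type} {M : Type} [AddCommGroup M] [Module A M]
    (f : G → (M →ₗ[A] M)) (I : Ideal B) (c : G →₀ ℤ)
    (hc : ∀ v : M, (c.sum fun g z => z • f g v) ∈
      (I.comap (algebraMap A B)) • (⊤ : Submodule A M))
    (w : B ⊗[A] M) :
    (c.sum fun g z => z • (f g).baseChange B w) ∈ I • (⊤ : Submodule B (B ⊗[A] M)) := by
  induction w using TensorProduct.induction_on with
  | zero =>
    have : (c.sum fun g z => z • (f g).baseChange B (0 : B ⊗[A] M)) = 0 := by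
      rw [Finsupp.sum]
      refine Finset.sum_eq_zero fun g _ => ?_
      rw [map_zero, smul_zero]
    rw [this]
    exact Submodule.zero_mem _
  | tmul b v =>
    have : (c.sum fun g z => z • (f g).baseChange B (b ⊗ₜ[A] v)) =
        b ⊗ₜ[A] (c.sum fun g z => z • f g v) := by
      rw [Finsupp.sum, Finsupp.sum, TensorProduct.tmul_sum]
      refine Finset.sum_congr rfl fun g _ => ?_
      rw [LinearMap.baseChange_tmul, ← TensorProduct.tmul_smul]
    rw [this]
    exact s59fe_tmul_mem I b (hc v)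
  | add x y hx hy =>
    have : (c.sum fun g z => z • (f g).baseChange B (x + y)) =
        (c.sum fun g z => z • (f g).baseChange B x) +
          (c.sum fun g z => z • (f g).baseChange B y) := by
      rw [Finsupp.sum, Finsupp.sum, Finsupp.sum, ← Finset.sum_add_distrib]
      refine Finset.sum_congr rfl fun g _ => ?_
      rw [map_add, smul_add]
    rw [this]
    exact Submodule.add_mem _ hx hy

/-- an element of `ℤ[G]` which maps `V` into `(φ⁻¹ I) V` maps `B ⊗ V` into `I (B ⊗ V)` -/
theorem s59fe_sum_mem (φ : A →+* B) (hφ : IsLocalHom φ) (ρ : GaloisRepAdic A) (I : Ideal B)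
    (c : S59GQ →₀ ℤ)
    (hc : ∀ v : ρ.V, (c.sum fun g z => z • ρ.ρ g v) ∈ (I.comap φ) • (⊤ : Submodule A ρ.V))
    (w : (ρ.baseChangeAlong φ hφ).V) :
    (c.sum fun g z => z • (ρ.baseChangeAlong φ hφ).ρ g w) ∈
      I • (⊤ : Submodule B (ρ.baseChangeAlong φ hφ).V) :=
  @s59fe_sum_mem_aux A B _ _ _ _ φ.toAlgebra S59GQ ρ.V _ _ (fun g => ρ.ρ g) I c hc w

/-- **FIN-E, flat base change.**  Flatness at `p` passes to the base change along any local
homomorphism to a local ring with finite residue field. -/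
theorem s59fe_isFlatAt_baseChange [Finite (ResidueField B)] (φ : A →+* B) (hφ : IsLocalHom φ)
    (ρ : GaloisRepAdic A) (p : ℕ) [Fact p.Prime] (h : ρ.IsFlatAt p) :
    (ρ.baseChangeAlong φ hφ).IsFlatAt p := by
  classical
  rw [sq_isFlatAt_iff] at h ⊢
  obtain ⟨hfinA, hmodel⟩ := h
  refine ⟨inferInstance, fun I hI => ?_⟩
  haveI := hI
  haveI := hfinA
  haveI hJ : Finite (A ⧸ I.comap φ) := Fermat.Agent.TW.twbc_finite_quotient_comap φ I
  haveI hfinX : Finite (ρ.V ⧸ ((I.comap φ) • (⊤ : Submodule A ρ.V))) :=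
    s59fe_finite_level ρ (I.comap φ)
  haveI hfinY : Finite ((ρ.baseChangeAlong φ hφ).V ⧸
      (I • (⊤ : Submodule B (ρ.baseChangeAlong φ hφ).V))) :=
    s59fe_finite_level (ρ.baseChangeAlong φ hφ) I
  refine s59fe_subquot (GaloisRep.ratLocalizedAt p)
    (ρ.V ⧸ ((I.comap φ) • (⊤ : Submodule A ρ.V))) (fun σ => ρ.levelAction (I.comap φ) σ)
    ((ρ.baseChangeAlong φ hφ).V ⧸ (I • (⊤ : Submodule B (ρ.baseChangeAlong φ hφ).V)))
    (fun σ => (ρ.baseChangeAlong φ hφ).levelAction I σ) ?_ ?_ ?_ ?_ ?_ ?_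
    (hmodel (I.comap φ) hJ)
  · intro σ x x'
    exact map_add _ x x'
  · intro σ τ x
    exact s59fe_levelAction_mul ρ _ σ τ x
  · intro σ y y'
    exact map_add _ y y'
  · intro σ τ y
    exact s59fe_levelAction_mul _ I σ τ y
  · intro y
    exact s59fe_levelAction_one _ I y
  · intro c hc y
    obtain ⟨w, rfl⟩ := Submodule.Quotient.mk_surjective _ y
    have hc' : ∀ v : ρ.V, (c.sum fun g z => z • ρ.ρ g v) ∈
        (I.comap φ) • (⊤ : Submodule A ρ.V) := by
      intro v
      have h1 := hc (Submodule.Quotient.mk v)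
      rw [s59fe_sum_level, Submodule.mkQ_apply] at h1
      exact (Submodule.Quotient.mk_eq_zero _).1 h1
    rw [s59fe_sum_level, Submodule.mkQ_apply]
    exact (Submodule.Quotient.mk_eq_zero _).2 (s59fe_sum_mem φ hφ ρ I c hc' w)

end Flat

end Fermat.Agent.S59
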