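/-
S59, piece FIN (E-side), part 2 (helper77): the `p`-adic representation of a semistable curve `W`
with coefficients in `𝒪` is of type `twFlat` / `twOrd`.

Setting: `W : WeierstrassCurve ℤ`, `hΔ : W.Δ ≠ 0`, `p` a prime, `φ : ℤ_[p] →+* 𝒪` a local
homomorphism to a local ring `𝒪`.

* `s59feRep W hΔ p φ hφ   : GaloisRepAdic 𝒪`  = `(EC.tateRepInt W hΔ p).baseChangeAlong φ hφ`;
* `s59feBar W hΔ p φ hφ   : ResidualGaloisRep (ResidueField 𝒪)`
      = `(EC.tateRepInt W hΔ p).residual.baseChangeAlong (ResidueField.map φ)`  (the model of `ρ̄` of PROD-hyp);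
* `s59feSmin W hΔ p`      = `{p} ∪ {q ∣ Δ : ρ̄ ramified at q}`,
  `s59feSigma W hΔ p`     = `{q ∣ Δ : q ≠ p, ρ̄ unramified at q}`;
* `s59fe_detIsCyclotomic`, `s59fe_isUnramifiedAt`, `s59fe_isUnipotentOnInertiaAt`, `s59fe_isFlatAt`,
  `s59fe_isStrictOrdinaryAt` : the local conditions of `s59feRep`;
* `s59fe_twFlat_of` / `s59fe_twOrd_of` : `twFlat 𝒪 p Smin Q` / `twOrd 𝒪 p Smin Q` for ANY `Smin`, `Q`
  such that every bad prime `≠ p` of `W` lies in `Smin ∪ Q`;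
* `s59fe_twFlat` / `s59fe_twOrd` : the same for `Smin = s59feSmin`, `Q = s59feSigma`;
* `s59fe_charpoly_frob` : `charpoly (ρ (Frob_ℓ)) = X² − a_ℓ(W) X + ℓ` for the good primes `ℓ ≠ p`.
-/
import Fermat.Agent.S59.FinEFlat
import Fermat.Agent.TW.Plan
import Fermat.Agent.EC.TateDet
import Fermat.Agent.EC.TateFrobAll
import Fermat.Agent.EC.Flat.Final
import Fermat.Agent.EC.Ord.Final
import Fermat.Agent.RED.UnipTwoTate

set_option autoImplicit false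
set_option linter.style.haveILetI false
set_option linter.unusedSectionVars false
set_option linter.unusedVariables false

noncomputable section

namespace Fermat.Agent.S59

open IsLocalRing Polynomial Fermat.Agent.TW Fermat.Agent.EC

section Defs

variable (W : WeierstrassCurve ℤ) (hΔ : W.Δ ≠ 0) (p : ℕ) [hp : Fact p.Prime]
variable {𝒪 : Type} [CommRing 𝒪] [IsLocalRing 𝒪] (φ : ℤ_[p] →+* 𝒪) (hφ : IsLocalHom φ)

/-- The `p`-adic representation of `W` with coefficients in `𝒪`. -/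
def s59feRep : GaloisRepAdic 𝒪 := (tateRepInt W hΔ p).baseChangeAlong φ hφ

/-- The residual representation `ρ̄ = E[p] ⊗ k` (the model of PROD-hyp). -/
def s59feBar : ResidualGaloisRep (ResidueField 𝒪) :=
  (tateRepInt W hΔ p).residual.baseChangeAlong (haveI := hφ; ResidueField.map φ)

open Classical in
/-- `Smin = {p} ∪ {q ∣ Δ : ρ̄ ramified at q}`. -/
def s59feSmin : Finset ℕ :=
  insert p (W.Δ.natAbs.primeFactors.filter fun q =>
    ¬ (tateRepInt W hΔ p).residual.IsUnramifiedAt q)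

open Classical in
/-- `Σ = {q ∣ Δ : q ≠ p, ρ̄ unramified at q}`. -/
def s59feSigma : Finset ℕ :=
  W.Δ.natAbs.primeFactors.filter fun q =>
    q ≠ p ∧ (tateRepInt W hΔ p).residual.IsUnramifiedAt q

include hΔ in
theorem s59fe_mem_primeFactors {q : ℕ} (hq : q.Prime) (hbad : (q : ℤ) ∣ W.Δ) :
    q ∈ W.Δ.natAbs.primeFactors := by
  rw [Nat.mem_primeFactors]
  exact ⟨hq, Int.natCast_dvd.1 hbad, Int.natAbs_ne_zero.2 hΔ⟩

theorem s59fe_p_mem_Smin : p ∈ s59feSmin W hΔ p := Finset.mem_insert_self _ _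

theorem s59fe_prime_of_mem_Smin {q : ℕ} (h : q ∈ s59feSmin W hΔ p) : q.Prime := by
  classical
  rw [s59feSmin, Finset.mem_insert, Finset.mem_filter] at h
  rcases h with rfl | ⟨h, -⟩
  · exact hp.out
  · exact Nat.prime_of_mem_primeFactors h

theorem s59fe_prime_of_mem_Sigma {q : ℕ} (h : q ∈ s59feSigma W hΔ p) : q.Prime := by
  classical
  rw [s59feSigma, Finset.mem_filter] at h
  exact Nat.prime_of_mem_primeFactors h.1

theorem s59fe_disjoint : Disjoint (s59feSmin W hΔ p) (s59feSigma W hΔ p) := by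
  classical
  rw [Finset.disjoint_left]
  intro q h1 h2
  rw [s59feSmin, Finset.mem_insert, Finset.mem_filter] at h1
  rw [s59feSigma, Finset.mem_filter] at h2
  rcases h1 with rfl | ⟨-, h1⟩
  · exact h2.2.1 rfl
  · exact h1 h2.2.2

/-- every bad prime `≠ p` lies in `Smin ∪ Σ` -/
theorem s59fe_bad_mem {q : ℕ} (hq : q.Prime) (hbad : (q : ℤ) ∣ W.Δ) :
    q ∈ s59feSmin W hΔ p ∪ s59feSigma W hΔ p := by
  classical
  rw [Finset.mem_union, s59feSmin, s59feSigma, Finset.mem_insert, Finset.mem_filter,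
    Finset.mem_filter]
  have hmem := s59fe_mem_primeFactors W hΔ hq hbad
  by_cases hqp : q = p
  · exact Or.inl (Or.inl hqp)
  · by_cases hunr : (tateRepInt W hΔ p).residual.IsUnramifiedAt q
    · exact Or.inr ⟨hmem, hqp, hunr⟩
    · exact Or.inl (Or.inr ⟨hmem, hunr⟩)

end Defs

section Local

variable (W : WeierstrassCurve ℤ) (hΔ : W.Δ ≠ 0) (p : ℕ) [hp : Fact p.Prime]
variable {𝒪 : Type} [CommRing 𝒪] [IsLocalRing 𝒪] (φ : ℤ_[p] →+* 𝒪) (hφ : IsLocalHom φ)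

include hφ in
theorem s59fe_p_mem : (p : 𝒪) ∈ maximalIdeal 𝒪 := by
  have hpT : (p : ℤ_[p]) ∈ IsLocalRing.maximalIdeal ℤ_[p] := by
    rw [PadicInt.maximalIdeal_eq_span_p]
    exact Ideal.subset_span rfl
  have h := twbc_map_mem_maximalIdeal φ hφ hpT
  rwa [map_natCast] at h

theorem s59fe_detIsCyclotomic : (s59feRep W hΔ p φ hφ).DetIsCyclotomic p :=
  twbc_detIsCyclotomic φ hφ _ p (tateRepInt_detIsCyclotomic W hΔ p)

theorem s59fe_isUnramifiedAt {q : ℕ} (hq : q.Prime) (hgood : W.IsGoodPrimeFor q)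
    (hne : q ≠ p) : (s59feRep W hΔ p φ hφ).IsUnramifiedAt q :=
  twbc_isUnramifiedAt φ hφ _ q (tateRepInt_isUnramifiedAt W hΔ p hq hgood hne)

theorem s59fe_isUnipotentOnInertiaAt (hss : W.IsSemistableModel) (hp2 : p ≠ 2) {q : ℕ}
    (hq : q.Prime) (hne : q ≠ p) : (s59feRep W hΔ p φ hφ).IsUnipotentOnInertiaAt q :=
  twbc_isUnipotentOnInertiaAt φ hφ _ q
    (Fermat.Agent.RED.tateRepInt_isUnipotentOnInertiaAt_of_semistable_all W hΔ hss p hp2 hq hne)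

theorem s59fe_isFlatAt [Finite (ResidueField 𝒪)] (hgood : W.IsGoodPrimeFor p) :
    (s59feRep W hΔ p φ hφ).IsFlatAt p :=
  s59fe_isFlatAt_baseChange φ hφ _ p (tateRepInt_isFlatAt W hΔ p hgood)

theorem s59fe_isStrictOrdinaryAt (hp35 : p = 3 ∨ p = 5) (hbad : (p : ℤ) ∣ W.Δ)
    (hc₄ : ¬ (p : ℤ) ∣ W.c₄) : (s59feRep W hΔ p φ hφ).IsStrictOrdinaryAt p :=
  twbc_isStrictOrdinaryAt φ hφ _ p (tateRepInt_isStrictOrdinaryAt W hΔ p hp35 hbad hc₄)

/-- unramified outside a set which contains the bad primes `≠ p` and `p` -/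
theorem s59fe_unramified_outside (S : Finset ℕ) (hpS : p ∈ S)
    (hS : ∀ q : ℕ, q.Prime → (q : ℤ) ∣ W.Δ → q ∈ S) (q : ℕ) (hq : q.Prime) (hqS : q ∉ S) :
    (s59feRep W hΔ p φ hφ).IsUnramifiedAt q := by
  refine s59fe_isUnramifiedAt W hΔ p φ hφ hq (fun hbad => hqS (hS q hq hbad)) ?_
  rintro rfl
  exact hqS hpS

variable [Algebra 𝒪 𝒪]

/-- **FIN-E, flat type** (general `Smin`, `Q`). -/
theorem s59fe_twFlat_of [Finite (ResidueField 𝒪)] (hss : W.IsSemistableModel) (hp2 : p ≠ 2)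
    (hgood : W.IsGoodPrimeFor p) (Smin Q : Finset ℕ) (hpS : p ∈ Smin ∪ Q)
    (hS : ∀ q : ℕ, q.Prime → (q : ℤ) ∣ W.Δ → q ∈ Smin ∪ Q) :
    twFlat 𝒪 p Smin Q (s59feRep W hΔ p φ hφ) :=
  ⟨⟨s59fe_detIsCyclotomic W hΔ p φ hφ, s59fe_isFlatAt W hΔ p φ hφ hgood,
    s59fe_unramified_outside W hΔ p φ hφ _ hpS hS⟩,
    fun q _ hq hne => s59fe_isUnipotentOnInertiaAt W hΔ p φ hφ hss hp2 hq hne⟩

/-- **FIN-E, strictly ordinary type** (general `Smin`, `Q`). -/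
theorem s59fe_twOrd_of (hss : W.IsSemistableModel) (hp35 : p = 3 ∨ p = 5)
    (hbad : (p : ℤ) ∣ W.Δ) (Smin Q : Finset ℕ) (hpS : p ∈ Smin ∪ Q)
    (hS : ∀ q : ℕ, q.Prime → (q : ℤ) ∣ W.Δ → q ∈ Smin ∪ Q) :
    twOrd 𝒪 p Smin Q (s59feRep W hΔ p φ hφ) := by
  have hp2 : p ≠ 2 := by rcases hp35 with rfl | rfl <;> decide
  exact ⟨⟨s59fe_detIsCyclotomic W hΔ p φ hφ,
    s59fe_isStrictOrdinaryAt W hΔ p φ hφ hp35 hbad (hss p hp.out hbad),
    s59fe_unramified_outside W hΔ p φ hφ _ hpS hS⟩,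
    fun q _ hq hne => s59fe_isUnipotentOnInertiaAt W hΔ p φ hφ hss hp2 hq hne⟩

/-- **FIN-E, flat type**, for `Smin = s59feSmin`, `Q = s59feSigma`. -/
theorem s59fe_twFlat [Finite (ResidueField 𝒪)] (hss : W.IsSemistableModel) (hp2 : p ≠ 2)
    (hgood : W.IsGoodPrimeFor p) :
    twFlat 𝒪 p (s59feSmin W hΔ p) (s59feSigma W hΔ p) (s59feRep W hΔ p φ hφ) :=
  s59fe_twFlat_of W hΔ p φ hφ hss hp2 hgood _ _
    (Finset.mem_union_left _ (s59fe_p_mem_Smin W hΔ p))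
    (fun q hq hbad => s59fe_bad_mem W hΔ p hq hbad)

/-- **FIN-E, strictly ordinary type**, for `Smin = s59feSmin`, `Q = s59feSigma`. -/
theorem s59fe_twOrd (hss : W.IsSemistableModel) (hp35 : p = 3 ∨ p = 5)
    (hbad : (p : ℤ) ∣ W.Δ) :
    twOrd 𝒪 p (s59feSmin W hΔ p) (s59feSigma W hΔ p) (s59feRep W hΔ p φ hφ) :=
  s59fe_twOrd_of W hΔ p φ hφ hss hp35 hbad _ _
    (Finset.mem_union_left _ (s59fe_p_mem_Smin W hΔ p))
    (fun q hq hbad => s59fe_bad_mem W hΔ p hq hbad)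

end Local

section Frob

variable (W : WeierstrassCurve ℤ) (hΔ : W.Δ ≠ 0) (p : ℕ) [hp : Fact p.Prime]
variable {𝒪 : Type} [CommRing 𝒪] [IsLocalRing 𝒪] (φ : ℤ_[p] →+* 𝒪) (hφ : IsLocalHom φ)

/-- the characteristic polynomial of a base change -/
theorem s59fe_charpoly_baseChange (σ : S59GQ) :
    LinearMap.charpoly ((s59feRep W hΔ p φ hφ).ρ σ) =
      (LinearMap.charpoly ((tateRepInt W hΔ p).ρ σ)).map φ := by
  letI : Algebra ℤ_[p] 𝒪 := φ.toAlgebra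
  exact LinearMap.charpoly_baseChange (A := 𝒪) ((tateRepInt W hΔ p).ρ σ)

/-- **FIN-E, Frobenius.** -/
theorem s59fe_charpoly_frob {ℓ : ℕ} (hℓ : ℓ.Prime) (hgood : W.IsGoodPrimeFor ℓ) (hne : ℓ ≠ p)
    (A : ValuationSubring (AlgebraicClosure ℚ)) (hA : A.LiesOverPrime ℓ) (τ : S59GQ)
    (hτ : A.IsFrobeniusAt τ ℓ) :
    LinearMap.charpoly ((s59feRep W hΔ p φ hφ).ρ τ) =
      X ^ 2 - C ((W.apOfModel ℓ : ℤ) : 𝒪) * X + C ((ℓ : 𝒪)) := by
  rw [s59fe_charpoly_baseChange, tateRepInt_charpoly_frob_all W hΔ p hℓ hgood hne A hA τ hτ,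
    Polynomial.map_add, Polynomial.map_sub, Polynomial.map_mul, Polynomial.map_pow,
    Polynomial.map_X, Polynomial.map_C, Polynomial.map_C, map_intCast, map_natCast]

/-- the trace of a Frobenius -/
theorem s59fe_trace_frob {ℓ : ℕ} (hℓ : ℓ.Prime) (hgood : W.IsGoodPrimeFor ℓ) (hne : ℓ ≠ p)
    (A : ValuationSubring (AlgebraicClosure ℚ)) (hA : A.LiesOverPrime ℓ) (τ : S59GQ)
    (hτ : A.IsFrobeniusAt τ ℓ) :
    LinearMap.trace 𝒪 (s59feRep W hΔ p φ hφ).V ((s59feRep W hΔ p φ hφ).ρ τ) =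
      ((W.apOfModel ℓ : ℤ) : 𝒪) := by
  have h : LinearMap.trace 𝒪 (s59feRep W hΔ p φ hφ).V ((s59feRep W hΔ p φ hφ).ρ τ) =
      φ (LinearMap.trace ℤ_[p] (tateRepInt W hΔ p).V ((tateRepInt W hΔ p).ρ τ)) := by
    letI : Algebra ℤ_[p] 𝒪 := φ.toAlgebra
    exact LinearMap.trace_baseChange ((tateRepInt W hΔ p).ρ τ) 𝒪
  have h2 : LinearMap.trace ℤ_[p] (tateRepInt W hΔ p).V ((tateRepInt W hΔ p).ρ τ) =
      ((W.apOfModel ℓ : ℤ) : ℤ_[p]) :=
    tateRepInt_trace_frob_all W hΔ p hℓ hgood hne A hA τ hτ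
  rw [h, h2, map_intCast]

end Frob

end Fermat.Agent.S59
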