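/-
S59, piece FIN (E-side), part 3a (helper77): residual representations and base change.

* `s59fe_residual_baseChange` : for a local homomorphism `φ : A → B`,
    `(ρ.baseChangeAlong φ hφ).residual ≅ ρ.residual.baseChangeAlong (ResidueField.map φ)`;
* `s59fe_baseChangeAlong_id`  : `ρ̄.baseChangeAlong ι ≅ ρ̄` if `ι x = x` for all `x`;
* `s59fe_isEquiv_trace`       : equivalent representations have the same traces;
* `s59fe_trace_baseChangeAlong` : `trace ((ρ.baseChangeAlong φ hφ).ρ σ) = φ (trace (ρ.ρ σ))`.
-/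
import Fermat.Prelude.Def_GaloisRep_Adic
import Mathlib

set_option autoImplicit false
set_option linter.style.haveILetI false
set_option linter.unusedSectionVars false
set_option linter.unusedVariables false

noncomputable section

namespace Fermat.Agent.S59

open IsLocalRing TensorProduct

section Tensor

variable {R A k : Type} [CommRing R] [CommRing A] [Algebra R A] [CommRing k] [Algebra A k]
  [Algebra R k] [IsScalarTower R A k] {N : Type} [AddCommGroup N] [Module R N]

/-- `cancelBaseChange` commutes with the base change of an endomorphism -/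
theorem s59fe_cancel_baseChange (f : N →ₗ[R] N) (x : k ⊗[A] (A ⊗[R] N)) :
    TensorProduct.AlgebraTensorModule.cancelBaseChange R A k k N
        ((f.baseChange A).baseChange k x) =
      (f.baseChange k) (TensorProduct.AlgebraTensorModule.cancelBaseChange R A k k N x) := by
  induction x using TensorProduct.induction_on with
  | zero => simp only [map_zero]
  | tmul c y =>
    induction y using TensorProduct.induction_on with
    | zero => simp only [TensorProduct.tmul_zero, map_zero]
    | tmul a n =>
      rw [LinearMap.baseChange_tmul, LinearMap.baseChange_tmul,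
        TensorProduct.AlgebraTensorModule.cancelBaseChange_tmul,
        TensorProduct.AlgebraTensorModule.cancelBaseChange_tmul, LinearMap.baseChange_tmul]
    | add y z hy hz =>
      simp only [TensorProduct.tmul_add, map_add, hy, hz]
  | add x y hx hy => simp only [map_add, hx, hy]

end Tensor

section Res

variable {A B : Type} [CommRing A] [IsLocalRing A] [CommRing B] [IsLocalRing B]

/-- generic form of the comparison of the two residual base changes -/
theorem s59fe_residual_aux {A B kA kB V : Type} [CommRing A] [CommRing B] [Field kA]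
    [Field kB] [Algebra A B] [Algebra A kA] [Algebra B kB] [Algebra kA kB] [Algebra A kB]
    [IsScalarTower A B kB] [IsScalarTower A kA kB] [AddCommGroup V] [Module A V] :
    ∃ e : kB ⊗[B] (B ⊗[A] V) ≃ₗ[kB] kB ⊗[kA] (kA ⊗[A] V),
      ∀ (f : V →ₗ[A] V) (x : kB ⊗[B] (B ⊗[A] V)),
        e ((f.baseChange B).baseChange kB x) = (f.baseChange kA).baseChange kB (e x) := by
  let e1 : kB ⊗[B] (B ⊗[A] V) ≃ₗ[kB] kB ⊗[A] V :=
    TensorProduct.AlgebraTensorModule.cancelBaseChange A B kB kB V
  let e2 : kB ⊗[kA] (kA ⊗[A] V) ≃ₗ[kB] kB ⊗[A] V :=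
    TensorProduct.AlgebraTensorModule.cancelBaseChange A kA kB kB V
  refine ⟨e1.trans e2.symm, fun f x => ?_⟩
  change e2.symm (e1 ((f.baseChange B).baseChange kB x)) =
    (f.baseChange kA).baseChange kB (e2.symm (e1 x))
  apply e2.injective
  rw [LinearEquiv.apply_symm_apply]
  have h1 := s59fe_cancel_baseChange (R := A) (A := B) (k := kB) f x
  have h2 := s59fe_cancel_baseChange (R := A) (A := kA) (k := kB) f (e2.symm (e1 x))
  rw [show TensorProduct.AlgebraTensorModule.cancelBaseChange A kA kB kB V (e2.symm (e1 x)) =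
    e1 x from e2.apply_symm_apply (e1 x)] at h2
  exact h1.trans h2.symm

/-- **The residual representation of a base change.** -/
theorem s59fe_residual_baseChange (φ : A →+* B) (hφ : IsLocalHom φ) (ρ : GaloisRepAdic A) :
    (ρ.baseChangeAlong φ hφ).residual.IsEquiv
      (ρ.residual.baseChangeAlong (haveI := hφ; ResidueField.map φ)) := by
  haveI := hφ
  have t1 : @IsScalarTower A B (ResidueField B) φ.toAlgebra.toSMul _
      (((residue B).comp φ).toAlgebra).toSMul :=
    @IsScalarTower.of_algebraMap_eq A B (ResidueField B) _ _ _ φ.toAlgebra _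
      (((residue B).comp φ).toAlgebra) fun _ => rfl
  have t2 : @IsScalarTower A (ResidueField A) (ResidueField B) _
      ((ResidueField.map φ).toAlgebra).toSMul (((residue B).comp φ).toAlgebra).toSMul :=
    @IsScalarTower.of_algebraMap_eq A (ResidueField A) (ResidueField B) _ _ _ _
      ((ResidueField.map φ).toAlgebra) (((residue B).comp φ).toAlgebra) fun _ => rfl
  obtain ⟨e, he⟩ := @s59fe_residual_aux A B (ResidueField A) (ResidueField B) ρ.V _ _ _ _
    φ.toAlgebra _ _ ((ResidueField.map φ).toAlgebra) (((residue B).comp φ).toAlgebra) t1 t2 _ _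
  exact ⟨⟨e, fun σ x => he (ρ.ρ σ) x⟩⟩

end Res

section Id

/-- `k' ⊗[k] V ≃ V` when `k → k'` is onto and `V` is a `k'`-module -/
theorem s59fe_lift_equiv {k k' V : Type} [Field k] [Field k'] [Algebra k k'] [AddCommGroup V]
    [Module k V] [Module k' V] [IsScalarTower k k' V]
    (hsurj : Function.Surjective (algebraMap k k')) :
    ∃ e : k' ⊗[k] V ≃ₗ[k'] V, (∀ (c : k') (v : V), e (c ⊗ₜ[k] v) = c • v) ∧
      ∀ (f : V →ₗ[k] V) (f' : V →ₗ[k'] V), (∀ v, f' v = f v) →
        ∀ x : k' ⊗[k] V, e (f.baseChange k' x) = f' (e x) := by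
  let f : k' ⊗[k] V →ₗ[k'] V := (LinearMap.id : V →ₗ[k] V).liftBaseChange k'
  have hf : ∀ (c : k') (v : V), f (c ⊗ₜ[k] v) = c • v := fun c v => rfl
  have hleft : ∀ w : k' ⊗[k] V, (1 : k') ⊗ₜ[k] f w = w := by
    intro w
    induction w using TensorProduct.induction_on with
    | zero => rw [map_zero, TensorProduct.tmul_zero]
    | tmul c v =>
      obtain ⟨r, rfl⟩ := hsurj c
      rw [hf, algebraMap_smul, TensorProduct.tmul_smul, TensorProduct.smul_tmul',
        Algebra.smul_def, mul_one]
    | add x y hx hy => rw [map_add, TensorProduct.tmul_add, hx, hy]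
  have hinj : Function.Injective f := by
    intro w w' h
    rw [← hleft w, ← hleft w', h]
  have hsurj' : Function.Surjective f := fun v => ⟨(1 : k') ⊗ₜ[k] v, by rw [hf, one_smul]⟩
  refine ⟨LinearEquiv.ofBijective f ⟨hinj, hsurj'⟩, hf, fun g g' hg x => ?_⟩
  change f (g.baseChange k' x) = g' (f x)
  induction x using TensorProduct.induction_on with
  | zero => simp only [map_zero]
  | tmul c v => rw [LinearMap.baseChange_tmul, hf, hf, map_smul, hg]
  | add x y hx hy => simp only [map_add, hx, hy]

variable {k : Type} [Field k]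

/-- base change along the identity -/
theorem s59fe_baseChangeAlong_id (ι : k →+* k) (hι : ∀ x, ι x = x) (ρ : ResidualGaloisRep k) :
    (ρ.baseChangeAlong ι).IsEquiv ρ := by
  have tower : @IsScalarTower k k ρ.V ι.toAlgebra.toSMul _ _ := by
    refine @IsScalarTower.mk k k ρ.V ι.toAlgebra.toSMul _ _ fun r c v => ?_
    have h : (@HSMul.hSMul k k k (@instHSMul k k ι.toAlgebra.toSMul) r c) = r * c := by
      show ι r * c = r * c
      rw [hι]
    rw [h, mul_smul]
  have hsurj : Function.Surjective (@algebraMap k k _ _ ι.toAlgebra) := by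
    intro x
    refine ⟨x, ?_⟩
    show ι x = x
    exact hι x
  obtain ⟨e, he, he2⟩ := @s59fe_lift_equiv k k ρ.V _ _ ι.toAlgebra _ _ _ tower hsurj
  exact ⟨⟨e, fun σ x => he2 (ρ.ρ σ) (ρ.ρ σ) (fun _ => rfl) x⟩⟩

end Id

section Trace

variable {A B : Type} [CommRing A] [IsLocalRing A] [CommRing B] [IsLocalRing B]

/-- equivalent representations have the same traces -/
theorem s59fe_isEquiv_trace {ρ ρ' : GaloisRepAdic A} (h : ρ.IsEquiv ρ')
    (σ : AlgebraicClosure ℚ ≃ₐ[ℚ] AlgebraicClosure ℚ) :
    LinearMap.trace A ρ.V (ρ.ρ σ) = LinearMap.trace A ρ'.V (ρ'.ρ σ) := by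
  obtain ⟨e⟩ := h
  have h1 : ρ'.ρ σ = e.toLinearEquiv.conj (ρ.ρ σ) := by
    refine LinearMap.ext fun y => ?_
    rw [LinearEquiv.conj_apply_apply, e.map_apply, LinearEquiv.apply_symm_apply]
  rw [h1, LinearMap.trace_conj']

/-- the trace of a base change -/
theorem s59fe_trace_baseChangeAlong (φ : A →+* B) (hφ : IsLocalHom φ) (ρ : GaloisRepAdic A)
    (σ : AlgebraicClosure ℚ ≃ₐ[ℚ] AlgebraicClosure ℚ) :
    LinearMap.trace B (ρ.baseChangeAlong φ hφ).V ((ρ.baseChangeAlong φ hφ).ρ σ) =
      φ (LinearMap.trace A ρ.V (ρ.ρ σ)) := by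
  letI : Algebra A B := φ.toAlgebra
  exact LinearMap.trace_baseChange (ρ.ρ σ) B

end Trace

end Fermat.Agent.S59
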