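/-
S59, piece FIN (E-side), part 3b (helper77): the `𝒪`-point of a universal deformation ring given
by the curve `W`.

Setting: `𝒪` a complete discrete valuation ring, `φ : ℤ_[p] →+* 𝒪` local, `ρ̄ = s59feBar W hΔ p φ hφ`,
`ρ = s59feRep W hΔ p φ hφ`.

* `s59fe_residual_isEquiv`   : `ρ.residual ≅ ρ̄`;
* `s59fe_residual_isEquiv_bc`: `ρ.residual ≅ ρ̄.baseChangeAlong (ResidueField.map (algebraMap 𝒪 𝒪))`
                               (the form of `DeformationRingData.universal`);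
* `s59fe_point`      : for every `D : DeformationRingData 𝒪 ρ̄ 𝒟` with `𝒟 ρ` there is
                       `x : D.R →ₐ[𝒪] 𝒪` with `x (tr ρ_univ σ) = tr ρ σ` for all `σ`;
* `s59fe_point_frob` : … hence `x (tr ρ_univ (Frob_ℓ)) = a_ℓ(W)` for the good primes `ℓ ≠ p`;
* `s59fe_point_flat` / `s59fe_point_ord` : the two cases `𝒟 = twFlat / twOrd 𝒪 p Smin Σ`.
-/
import Fermat.Agent.S59.FinE
import Fermat.Agent.S59.FinERes
import Fermat.Prelude.Def_GaloisRep_DeformationRingData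

set_option autoImplicit false
set_option linter.style.haveILetI false
set_option linter.unusedSectionVars false
set_option linter.unusedVariables false

noncomputable section

namespace Fermat.Agent.S59

open IsLocalRing Polynomial Fermat.Agent.TW Fermat.Agent.EC

section Point

variable (W : WeierstrassCurve ℤ) (hΔ : W.Δ ≠ 0) (p : ℕ) [hp : Fact p.Prime]
variable {𝒪 : Type} [CommRing 𝒪] [IsDomain 𝒪] [IsDiscreteValuationRing 𝒪]
  [IsAdicComplete (maximalIdeal 𝒪) 𝒪] (φ : ℤ_[p] →+* 𝒪) (hφ : IsLocalHom φ)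

/-- the residual representation of `s59feRep` is `s59feBar` -/
theorem s59fe_residual_isEquiv :
    (s59feRep W hΔ p φ hφ).residual.IsEquiv (s59feBar W hΔ p φ hφ) :=
  s59fe_residual_baseChange φ hφ _

/-- the residual representation of `s59feRep`, in the form of the universal property -/
theorem s59fe_residual_isEquiv_bc :
    (s59feRep W hΔ p φ hφ).residual.IsEquiv
      ((s59feBar W hΔ p φ hφ).baseChangeAlong (ResidueField.map (algebraMap 𝒪 𝒪))) := by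
  obtain ⟨e1⟩ := s59fe_residual_isEquiv W hΔ p φ hφ
  obtain ⟨e2⟩ := s59fe_baseChangeAlong_id (ResidueField.map (algebraMap 𝒪 𝒪))
    (fun x => ResidueField.map_id_apply x) (s59feBar W hΔ p φ hφ)
  exact ⟨e1.trans e2.symm⟩

/-- **FIN-E, the point.** -/
theorem s59fe_point
    (𝒟 : ∀ ⦃A : Type⦄ [CommRing A] [IsLocalRing A] [Algebra 𝒪 A], GaloisRepAdic A → Prop)
    (D : GaloisRep.DeformationRingData 𝒪 (s59feBar W hΔ p φ hφ) 𝒟)
    (h𝒟 : 𝒟 (s59feRep W hΔ p φ hφ)) :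
    ∃ x : D.R →ₐ[𝒪] 𝒪, ∀ σ : S59GQ,
      x (LinearMap.trace D.R D.ρ.V (D.ρ.ρ σ)) =
        LinearMap.trace 𝒪 (s59feRep W hΔ p φ hφ).V ((s59feRep W hΔ p φ hφ).ρ σ) := by
  haveI : IsLocalHom (algebraMap 𝒪 𝒪) := ⟨fun a ha => ha⟩
  have hsurj : Function.Surjective (residue 𝒪 ∘ algebraMap 𝒪 𝒪) := fun y => by
    obtain ⟨a, rfl⟩ := residue_surjective y
    exact ⟨a, rfl⟩
  obtain ⟨x, ⟨hx, hEq⟩, -⟩ := D.universal 𝒪 hsurj (s59feRep W hΔ p φ hφ) h𝒟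
    (s59fe_residual_isEquiv_bc W hΔ p φ hφ)
  refine ⟨x, fun σ => ?_⟩
  rw [← s59fe_isEquiv_trace hEq σ]
  exact (s59fe_trace_baseChangeAlong (x : D.R →+* 𝒪) hx D.ρ σ).symm

/-- **FIN-E, the point and the Frobenius elements.** -/
theorem s59fe_point_frob
    (𝒟 : ∀ ⦃A : Type⦄ [CommRing A] [IsLocalRing A] [Algebra 𝒪 A], GaloisRepAdic A → Prop)
    (D : GaloisRep.DeformationRingData 𝒪 (s59feBar W hΔ p φ hφ) 𝒟)
    (h𝒟 : 𝒟 (s59feRep W hΔ p φ hφ)) :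
    ∃ x : D.R →ₐ[𝒪] 𝒪, ∀ ℓ : ℕ, ℓ.Prime → W.IsGoodPrimeFor ℓ → ℓ ≠ p →
      ∀ A : ValuationSubring (AlgebraicClosure ℚ), A.LiesOverPrime ℓ →
        ∀ τ : S59GQ, A.IsFrobeniusAt τ ℓ →
          x (LinearMap.trace D.R D.ρ.V (D.ρ.ρ τ)) = ((W.apOfModel ℓ : ℤ) : 𝒪) := by
  obtain ⟨x, hx⟩ := s59fe_point W hΔ p φ hφ 𝒟 D h𝒟
  refine ⟨x, fun ℓ hℓ hgood hne A hA τ hτ => ?_⟩
  rw [hx τ]
  exact s59fe_trace_frob W hΔ p φ hφ hℓ hgood hne A hA τ hτ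

/-- **FIN-E, flat case**: `W` good at `p`. -/
theorem s59fe_point_flat [Finite (ResidueField 𝒪)] (hss : W.IsSemistableModel) (hp2 : p ≠ 2)
    (hgood : W.IsGoodPrimeFor p)
    (D : GaloisRep.DeformationRingData 𝒪 (s59feBar W hΔ p φ hφ)
      (twFlat 𝒪 p (s59feSmin W hΔ p) (s59feSigma W hΔ p))) :
    ∃ x : D.R →ₐ[𝒪] 𝒪, ∀ ℓ : ℕ, ℓ.Prime → W.IsGoodPrimeFor ℓ → ℓ ≠ p →
      ∀ A : ValuationSubring (AlgebraicClosure ℚ), A.LiesOverPrime ℓ →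
        ∀ τ : S59GQ, A.IsFrobeniusAt τ ℓ →
          x (LinearMap.trace D.R D.ρ.V (D.ρ.ρ τ)) = ((W.apOfModel ℓ : ℤ) : 𝒪) :=
  s59fe_point_frob W hΔ p φ hφ _ D (s59fe_twFlat W hΔ p φ hφ hss hp2 hgood)

/-- **FIN-E, ordinary case**: `W` multiplicative at `p ∈ {3, 5}`. -/
theorem s59fe_point_ord (hss : W.IsSemistableModel) (hp35 : p = 3 ∨ p = 5)
    (hbad : (p : ℤ) ∣ W.Δ)
    (D : GaloisRep.DeformationRingData 𝒪 (s59feBar W hΔ p φ hφ)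
      (twOrd 𝒪 p (s59feSmin W hΔ p) (s59feSigma W hΔ p))) :
    ∃ x : D.R →ₐ[𝒪] 𝒪, ∀ ℓ : ℕ, ℓ.Prime → W.IsGoodPrimeFor ℓ → ℓ ≠ p →
      ∀ A : ValuationSubring (AlgebraicClosure ℚ), A.LiesOverPrime ℓ →
        ∀ τ : S59GQ, A.IsFrobeniusAt τ ℓ →
          x (LinearMap.trace D.R D.ρ.V (D.ρ.ρ τ)) = ((W.apOfModel ℓ : ℤ) : 𝒪) :=
  s59fe_point_frob W hΔ p φ hφ _ D (s59fe_twOrd W hΔ p φ hφ hss hp35 hbad)

end Point

end Fermat.Agent.S59
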