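import Fermat.Agent.S59.SelLen

/-!
# S59 / SEL, piece (c) DET (helper67): the local factor `c_q = (q - 1) (t² - (q + 1)²)`

Pure algebra, Mathlib only.  `g = (g₁ g₂; g₃ g₄)` a matrix over `R` with `det g = q`,
`N = (a b; c -a)` a trace-zero matrix with entries in an `R`-module `Ψ`, and `g N = q N g`
(the relation `Ad(ρ(Frob)) N = q N` satisfied by the logarithm `N` of tame inertia).

* `s59seldT g₁ g₂ g₃ g₄ q` : the matrix of `N ↦ (g N - q N g) adj(g) = g N adj(g) - q² N` on the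
  trace-zero matrices, in the basis `H, E, F`;
* `s59seld_det` : `det = q³ (q - 1) ((g₁ + g₄)² - (q + 1)²)` if `det g = q`;
* `s59seld_rel` : the relations `T (a, b, c) = 0`;
* `s59seld_length_le` (PID, `c_q ≠ 0`), `s59seld_length_le'` (PID, not a field, no condition) :
  `length (R a + R b + R c) ≤ length (R / c_q)`.
-/

set_option autoImplicit false

namespace Fermat.Agent.S59

section Det

variable {R : Type*} [CommRing R]

/-- the local factor `c_q(t) = (q - 1) (t² - (q + 1)²)` -/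
def s59seldC (q t : R) : R := (q - 1) * (t ^ 2 - (q + 1) ^ 2)

/-- the matrix of `N ↦ (g N - q N g) adj(g)` on trace-zero matrices: its rows are
`g₄ r₁₁ - g₃ r₁₂`, `-g₂ r₁₁ + g₁ r₁₂`, `g₄ r₂₁ - g₃ r₂₂`, where `r_{ij}` is the linear form
"entry `(i, j)` of `g N - q N g`" in `(a, b, c)`. -/
def s59seldT (g₁ g₂ g₃ g₄ q : R) : Matrix (Fin 3) (Fin 3) R :=
  !![g₄ * ((1 - q) * g₁) - g₃ * (-(1 + q) * g₂), g₄ * (-q * g₃) - g₃ * (g₁ - q * g₄), g₄ * g₂;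
     -g₂ * ((1 - q) * g₁) + g₁ * (-(1 + q) * g₂), -g₂ * (-q * g₃) + g₁ * (g₁ - q * g₄),
       -g₂ * g₂;
     g₄ * ((1 + q) * g₃) - g₃ * ((q - 1) * g₄), -g₃ * g₃, g₄ * (g₄ - q * g₁) - g₃ * (-q * g₂)]

theorem s59seld_det (g₁ g₂ g₃ g₄ q : R) (h : g₁ * g₄ - g₂ * g₃ = q) :
    (s59seldT g₁ g₂ g₃ g₄ q).det = q ^ 3 * s59seldC q (g₁ + g₄) := by
  subst h
  have e00 : s59seldT g₁ g₂ g₃ g₄ (g₁ * g₄ - g₂ * g₃) 0 0 =
      g₄ * ((1 - (g₁ * g₄ - g₂ * g₃)) * g₁) - g₃ * (-(1 + (g₁ * g₄ - g₂ * g₃)) * g₂) := rfl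
  have e01 : s59seldT g₁ g₂ g₃ g₄ (g₁ * g₄ - g₂ * g₃) 0 1 =
      g₄ * (-(g₁ * g₄ - g₂ * g₃) * g₃) - g₃ * (g₁ - (g₁ * g₄ - g₂ * g₃) * g₄) := rfl
  have e02 : s59seldT g₁ g₂ g₃ g₄ (g₁ * g₄ - g₂ * g₃) 0 2 = g₄ * g₂ := rfl
  have e10 : s59seldT g₁ g₂ g₃ g₄ (g₁ * g₄ - g₂ * g₃) 1 0 =
      -g₂ * ((1 - (g₁ * g₄ - g₂ * g₃)) * g₁) + g₁ * (-(1 + (g₁ * g₄ - g₂ * g₃)) * g₂) := rfl
  have e11 : s59seldT g₁ g₂ g₃ g₄ (g₁ * g₄ - g₂ * g₃) 1 1 =
      -g₂ * (-(g₁ * g₄ - g₂ * g₃) * g₃) + g₁ * (g₁ - (g₁ * g₄ - g₂ * g₃) * g₄) := rfl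
  have e12 : s59seldT g₁ g₂ g₃ g₄ (g₁ * g₄ - g₂ * g₃) 1 2 = -g₂ * g₂ := rfl
  have e20 : s59seldT g₁ g₂ g₃ g₄ (g₁ * g₄ - g₂ * g₃) 2 0 =
      g₄ * ((1 + (g₁ * g₄ - g₂ * g₃)) * g₃) - g₃ * (((g₁ * g₄ - g₂ * g₃) - 1) * g₄) := rfl
  have e21 : s59seldT g₁ g₂ g₃ g₄ (g₁ * g₄ - g₂ * g₃) 2 1 = -g₃ * g₃ := rfl
  have e22 : s59seldT g₁ g₂ g₃ g₄ (g₁ * g₄ - g₂ * g₃) 2 2 =
      g₄ * (g₄ - (g₁ * g₄ - g₂ * g₃) * g₁) - g₃ * (-(g₁ * g₄ - g₂ * g₃) * g₂) := rfl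
  rw [Matrix.det_fin_three, e00, e01, e02, e10, e11, e12, e20, e21, e22, s59seldC]
  ring

variable {Ψ : Type*} [AddCommGroup Ψ] [Module R Ψ]

/-- the relations: if `g N = q N g` for `N = (a b; c -a)` then `T (a, b, c) = 0` -/
theorem s59seld_rel (g₁ g₂ g₃ g₄ q : R) (a b c : Ψ)
    (h11 : ((1 - q) * g₁) • a + (-q * g₃) • b + g₂ • c = 0)
    (h12 : (-(1 + q) * g₂) • a + (g₁ - q * g₄) • b = 0)
    (h21 : ((1 + q) * g₃) • a + (g₄ - q * g₁) • c = 0)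
    (h22 : ((q - 1) * g₄) • a + g₃ • b + (-q * g₂) • c = 0) (i : Fin 3) :
    ∑ j, s59seldT g₁ g₂ g₃ g₄ q i j • (![a, b, c] : Fin 3 → Ψ) j = 0 := by
  have r0 : (g₄ * ((1 - q) * g₁) - g₃ * (-(1 + q) * g₂)) • a +
      (g₄ * (-q * g₃) - g₃ * (g₁ - q * g₄)) • b + (g₄ * g₂) • c = 0 := by
    linear_combination (norm := module) g₄ • h11 - g₃ • h12
  have r1 : (-g₂ * ((1 - q) * g₁) + g₁ * (-(1 + q) * g₂)) • a +
      (-g₂ * (-q * g₃) + g₁ * (g₁ - q * g₄)) • b + (-g₂ * g₂) • c = 0 := by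
    linear_combination (norm := module) (-g₂) • h11 + g₁ • h12
  have r2 : (g₄ * ((1 + q) * g₃) - g₃ * ((q - 1) * g₄)) • a + (-g₃ * g₃) • b +
      (g₄ * (g₄ - q * g₁) - g₃ * (-q * g₂)) • c = 0 := by
    linear_combination (norm := module) g₄ • h21 - g₃ • h22
  rw [Fin.sum_univ_three]
  fin_cases i
  · exact r0
  · exact r1
  · exact r2

end Det

section Length

variable {R : Type*} [CommRing R] [IsDomain R] [IsPrincipalIdealRing R]
variable {Ψ : Type*} [AddCommGroup Ψ] [Module R Ψ]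

/-- **LOC-ALG** (PID, `c_q ≠ 0`): the module generated by the entries of `N` has length
`≤ length (R / c_q)`. -/
theorem s59seld_length_le (g₁ g₂ g₃ g₄ q : R) (hq : IsUnit q) (hdet : g₁ * g₄ - g₂ * g₃ = q)
    (hc : s59seldC q (g₁ + g₄) ≠ 0) (a b c : Ψ)
    (h11 : ((1 - q) * g₁) • a + (-q * g₃) • b + g₂ • c = 0)
    (h12 : (-(1 + q) * g₂) • a + (g₁ - q * g₄) • b = 0)
    (h21 : ((1 + q) * g₃) • a + (g₄ - q * g₁) • c = 0)
    (h22 : ((q - 1) * g₄) • a + g₃ • b + (-q * g₂) • c = 0) :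
    Module.length R (Submodule.span R (Set.range (![a, b, c] : Fin 3 → Ψ))) ≤
      Module.length R (R ⧸ Ideal.span {s59seldC q (g₁ + g₄)}) := by
  have hd := s59seld_det g₁ g₂ g₃ g₄ q hdet
  have hT : (s59seldT g₁ g₂ g₃ g₄ q).det ≠ 0 := by
    rw [hd]
    exact mul_ne_zero (pow_ne_zero _ hq.ne_zero) hc
  have h := s59sell_length_span_le (s59seldT g₁ g₂ g₃ g₄ q) hT (![a, b, c] : Fin 3 → Ψ)
    (s59seld_rel g₁ g₂ g₃ g₄ q a b c h11 h12 h21 h22)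
  refine h.trans (le_of_eq ?_)
  rw [hd]
  refine s59sell_ord_associated ?_
  exact (associated_isUnit_mul_left_iff (hq.pow 3)).2 (Associated.refl _)

omit [IsPrincipalIdealRing R] in
/-- a domain which is not a field has infinite length over itself -/
theorem s59seld_length_self_eq_top (hR : ¬ IsField R) : Module.length R R = ⊤ := by
  by_contra h
  have h' : Module.length R R ≠ ⊤ := h
  rw [Module.length_ne_top_iff, isFiniteLength_iff_isNoetherian_isArtinian] at h'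
  have : IsArtinianRing R := h'.2
  exact hR (IsArtinianRing.isField_of_isDomain R)

/-- **LOC-ALG** (PID which is not a field, e.g. a DVR): no condition on `c_q`. -/
theorem s59seld_length_le' (hR : ¬ IsField R) (g₁ g₂ g₃ g₄ q : R) (hq : IsUnit q)
    (hdet : g₁ * g₄ - g₂ * g₃ = q) (a b c : Ψ)
    (h11 : ((1 - q) * g₁) • a + (-q * g₃) • b + g₂ • c = 0)
    (h12 : (-(1 + q) * g₂) • a + (g₁ - q * g₄) • b = 0)
    (h21 : ((1 + q) * g₃) • a + (g₄ - q * g₁) • c = 0)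
    (h22 : ((q - 1) * g₄) • a + g₃ • b + (-q * g₂) • c = 0) :
    Module.length R (Submodule.span R (Set.range (![a, b, c] : Fin 3 → Ψ))) ≤
      Module.length R (R ⧸ Ideal.span {s59seldC q (g₁ + g₄)}) := by
  by_cases hc : s59seldC q (g₁ + g₄) = 0
  · rw [hc]
    have e : Module.length R (R ⧸ Ideal.span {(0 : R)}) = Module.length R R := by
      have := Ring.ord_zero (R := R)
      rw [Ring.ord] at this
      exact this
    rw [e, s59seld_length_self_eq_top hR]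
    exact le_top
  · exact s59seld_length_le g₁ g₂ g₃ g₄ q hq hdet hc a b c h11 h12 h21 h22

end Length

end Fermat.Agent.S59
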