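import Fermat.Agent.S59.SelPlan2
import Fermat.Agent.S59.SelDet
import Fermat.Agent.S59.FinERes
import Fermat.Agent.TW.BC

/-!
# S59 / SEL, piece FIN (helper67)

`s59self_main : StmtSelCoreLen 𝒪 → StmtSelLocal 𝒪 → StmtSelFlat 𝒪 ∧ StmtSelOrd 𝒪`.

* `s59self_isUnramifiedAt_of_isEquiv` : unramifiedness passes through an equivalence;
* `s59self_length_add` : `length Φ = length N + length (Φ ⧸ N)`;
* `s59self_generic` : CORE + LOCAL give the inequality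
  `length Φ_{R'} ≤ length Φ_R + length (𝒪 ⧸ c_q)` for every pair of deformation conditions
  `𝒟₀ ⊆ 𝒟₁` which differ by "unramified at `q`" (`𝒟₁` with cyclotomic determinant, stable under
  surjective base change);
* `s59self_flat_*`, `s59self_ord_*` : these hypotheses for `twFlat`, `twOrd`.
-/

set_option autoImplicit false
set_option linter.unusedSectionVars false

namespace Fermat.Agent.S59

open IsLocalRing Fermat.Agent.TW

/-- `ℚ̄` -/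
local notation "Qbar" => AlgebraicClosure ℚ

section Basic

variable {A : Type} [CommRing A] [IsLocalRing A]

/-- unramifiedness passes through an equivalence -/
theorem s59self_isUnramifiedAt_of_isEquiv {ρ ρ' : GaloisRepAdic A} (h : ρ.IsEquiv ρ') (q : ℕ)
    (h' : ρ'.IsUnramifiedAt q) : ρ.IsUnramifiedAt q := by
  obtain ⟨e⟩ := h
  intro P hP σ hσ
  refine LinearMap.ext fun v => ?_
  apply e.toLinearEquiv.injective
  rw [e.map_apply, h' P hP σ hσ]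
  rfl

end Basic

section Length

variable {R : Type*} [Ring R] {M : Type*} [AddCommGroup M] [Module R M]

/-- `length M = length N + length (M ⧸ N)` -/
theorem s59self_length_add (N : Submodule R M) :
    Module.length R M = Module.length R N + Module.length R (M ⧸ N) :=
  Module.length_eq_add_of_exact N.subtype N.mkQ N.injective_subtype N.mkQ_surjective
    (LinearMap.exact_subtype_mkQ N)

end Length

section Generic

variable (𝒪 : Type) [CommRing 𝒪] [IsDomain 𝒪] [IsDiscreteValuationRing 𝒪]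
  [IsAdicComplete (maximalIdeal 𝒪) 𝒪] [Finite (ResidueField 𝒪)]

/-- **SEL-FIN, generic form.**  CORE + LOCAL for a pair of deformation conditions `𝒟₀ ⊆ 𝒟₁` which
differ by "unramified at `q`". -/
theorem s59self_generic (hcore : StmtSelCoreLen 𝒪) (hloc : StmtSelLocal 𝒪)
    (p : ℕ) [Fact p.Prime] (ρbar : ResidualGaloisRep (ResidueField 𝒪))
    (𝒟₀ 𝒟₁ : ∀ ⦃A : Type⦄ [CommRing A] [IsLocalRing A] [Algebra 𝒪 A], GaloisRepAdic A → Prop)
    (q : ℕ) (hq : q.Prime) (hqp : q ≠ p) (hp𝒪 : (p : 𝒪) ∈ maximalIdeal 𝒪)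
    (h01 : ∀ (A : Type) [CommRing A] [IsLocalRing A] [Algebra 𝒪 A] (ρ : GaloisRepAdic A),
      𝒟₀ ρ → 𝒟₁ ρ)
    (h10 : ∀ (A : Type) [CommRing A] [IsLocalRing A] [Algebra 𝒪 A] (ρ : GaloisRepAdic A),
      𝒟₁ ρ → ρ.IsUnramifiedAt q → 𝒟₀ ρ)
    (h0u : ∀ (A : Type) [CommRing A] [IsLocalRing A] [Algebra 𝒪 A] (ρ : GaloisRepAdic A),
      𝒟₀ ρ → ρ.IsUnramifiedAt q)
    (h1det : ∀ (A : Type) [CommRing A] [IsLocalRing A] [Algebra 𝒪 A] (ρ : GaloisRepAdic A),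
      𝒟₁ ρ → ρ.DetIsCyclotomic p)
    (h1bc : ∀ (A B : Type) [CommRing A] [IsLocalRing A] [Algebra 𝒪 A] [CommRing B]
      [IsLocalRing B] [Algebra 𝒪 B] (φ : A →ₐ[𝒪] B) (hφ : IsLocalHom (φ : A →+* B)),
      Function.Surjective φ →
      ∀ ρ : GaloisRepAdic A, 𝒟₁ ρ → 𝒟₁ (ρ.baseChangeAlong (φ : A →+* B) hφ))
    (D : GaloisRep.DeformationRingData 𝒪 ρbar 𝒟₀)
    (D' : GaloisRep.DeformationRingData 𝒪 ρbar 𝒟₁)
    (x : D.R →ₐ[𝒪] 𝒪) (x' : D'.R →ₐ[𝒪] 𝒪) (t : 𝒪)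
    (hsame : s59selSame 𝒪 D D' x x') (htr : s59selTrace 𝒪 D x q t) :
    s59p_phiLen 𝒪 x' ≤ s59p_phiLen 𝒪 x + Module.length 𝒪 (𝒪 ⧸ Ideal.span {s59p_cq 𝒪 q t}) := by
  by_cases hc : s59p_cq 𝒪 q t = 0
  · -- the right side is `⊤`
    rw [hc]
    have e : Module.length 𝒪 (𝒪 ⧸ Ideal.span {(0 : 𝒪)}) = Module.length 𝒪 𝒪 := by
      have := Ring.ord_zero (R := 𝒪)
      rw [Ring.ord] at this
      exact this
    rw [e, s59seld_length_self_eq_top (IsDiscreteValuationRing.not_isField 𝒪), add_top]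
    exact le_top
  · have h1 := hcore ρbar 𝒟₀ 𝒟₁ q hq h01 h10 h0u h1bc D D' x x' hsame
    obtain ⟨hx, hx', hE⟩ := hsame
    -- `ρ_{x'}` is unramified at `q`
    have hunr : (D'.ρ.baseChangeAlong (x' : D'.R →+* 𝒪) hx').IsUnramifiedAt q :=
      s59self_isUnramifiedAt_of_isEquiv hE q
        (twbc_isUnramifiedAt (x : D.R →+* 𝒪) hx D.ρ q (h0u D.R D.ρ D.isOfType))
    -- the traces of Frobenius at `q`
    have htr' : ∀ P : ValuationSubring Qbar, P.LiesOverPrime q → ∀ φ : S59G,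
        P.IsFrobeniusAt φ q → x' (LinearMap.trace D'.R D'.ρ.V (D'.ρ.ρ φ)) = t := by
      intro P hP φ hφ
      have e1 := s59fe_trace_baseChangeAlong (x' : D'.R →+* 𝒪) hx' D'.ρ φ
      have e2 := s59fe_trace_baseChangeAlong (x : D.R →+* 𝒪) hx D.ρ φ
      have e3 := s59fe_isEquiv_trace hE φ
      rw [e1, e2] at e3
      have e4 := htr P hP φ hφ
      exact e3.trans e4
    have h2 := hloc p q hq hqp hp𝒪 D'.R D'.ρ (h1det D'.R D'.ρ D'.isOfType) x' hx' t hunr htr' hc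
    have h3 := s59self_length_add (R := 𝒪) (s59selPhiN 𝒪 x' (s59selRam D'.ρ q))
    show Module.length 𝒪 (RingHom.ker (x' : D'.R →+* 𝒪)).Cotangent ≤ _
    rw [h3, add_comm]
    exact add_le_add h1 h2

end Generic

section Conditions

variable (𝒪 : Type) [CommRing 𝒪]

theorem s59self_flat_mono (p : ℕ) (Smin Sg : Finset ℕ) (q : ℕ)
    (A : Type) [CommRing A] [IsLocalRing A] [Algebra 𝒪 A] (ρ : GaloisRepAdic A)
    (h : twFlat 𝒪 p Smin Sg ρ) : twFlat 𝒪 p Smin (insert q Sg) ρ := by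
  refine ⟨⟨h.1.1, h.1.2.1, fun l hl hlS => h.1.2.2 l hl fun hl' => hlS ?_⟩, h.2⟩
  rcases Finset.mem_union.1 hl' with h1 | h1
  · exact Finset.mem_union_left _ h1
  · exact Finset.mem_union_right _ (Finset.mem_insert_of_mem h1)

theorem s59self_flat_of_unr (p : ℕ) (Smin Sg : Finset ℕ) (q : ℕ)
    (A : Type) [CommRing A] [IsLocalRing A] [Algebra 𝒪 A] (ρ : GaloisRepAdic A)
    (h : twFlat 𝒪 p Smin (insert q Sg) ρ) (hu : ρ.IsUnramifiedAt q) : twFlat 𝒪 p Smin Sg ρ := by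
  refine ⟨⟨h.1.1, h.1.2.1, fun l hl hlS => ?_⟩, h.2⟩
  by_cases hlq : l = q
  · rw [hlq]; exact hu
  · refine h.1.2.2 l hl fun hl' => hlS ?_
    rcases Finset.mem_union.1 hl' with h1 | h1
    · exact Finset.mem_union_left _ h1
    · rcases Finset.mem_insert.1 h1 with h2 | h2
      · exact absurd h2 hlq
      · exact Finset.mem_union_right _ h2

theorem s59self_flat_unr (p : ℕ) (Smin Sg : Finset ℕ) (q : ℕ) (hq : q.Prime)
    (hqSmin : q ∉ Smin) (hqSg : q ∉ Sg)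
    (A : Type) [CommRing A] [IsLocalRing A] [Algebra 𝒪 A] (ρ : GaloisRepAdic A)
    (h : twFlat 𝒪 p Smin Sg ρ) : ρ.IsUnramifiedAt q :=
  h.1.2.2 q hq fun hq' => (Finset.mem_union.1 hq').elim hqSmin hqSg

theorem s59self_flat_bc (p : ℕ) (Smin Sg : Finset ℕ)
    (A B : Type) [CommRing A] [IsLocalRing A] [Algebra 𝒪 A] [CommRing B] [IsLocalRing B]
    [Algebra 𝒪 B] (φ : A →ₐ[𝒪] B) (hφ : IsLocalHom (φ : A →+* B))
    (hsurj : Function.Surjective φ) (ρ : GaloisRepAdic A) (h : twFlat 𝒪 p Smin Sg ρ) :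
    twFlat 𝒪 p Smin Sg (ρ.baseChangeAlong (φ : A →+* B) hφ) :=
  ⟨twbc_flatCondition 𝒪 (φ : A →+* B) hφ hsurj p _ ρ h.1,
    fun l hl hlp hlne => twbc_isUnipotentOnInertiaAt _ hφ ρ l (h.2 l hl hlp hlne)⟩

theorem s59self_ord_mono (p : ℕ) (Smin Sg : Finset ℕ) (q : ℕ)
    (A : Type) [CommRing A] [IsLocalRing A] [Algebra 𝒪 A] (ρ : GaloisRepAdic A)
    (h : twOrd 𝒪 p Smin Sg ρ) : twOrd 𝒪 p Smin (insert q Sg) ρ := by
  refine ⟨⟨h.1.1, h.1.2.1, fun l hl hlS => h.1.2.2 l hl fun hl' => hlS ?_⟩, h.2⟩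
  rcases Finset.mem_union.1 hl' with h1 | h1
  · exact Finset.mem_union_left _ h1
  · exact Finset.mem_union_right _ (Finset.mem_insert_of_mem h1)

theorem s59self_ord_of_unr (p : ℕ) (Smin Sg : Finset ℕ) (q : ℕ)
    (A : Type) [CommRing A] [IsLocalRing A] [Algebra 𝒪 A] (ρ : GaloisRepAdic A)
    (h : twOrd 𝒪 p Smin (insert q Sg) ρ) (hu : ρ.IsUnramifiedAt q) : twOrd 𝒪 p Smin Sg ρ := by
  refine ⟨⟨h.1.1, h.1.2.1, fun l hl hlS => ?_⟩, h.2⟩
  by_cases hlq : l = q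
  · rw [hlq]; exact hu
  · refine h.1.2.2 l hl fun hl' => hlS ?_
    rcases Finset.mem_union.1 hl' with h1 | h1
    · exact Finset.mem_union_left _ h1
    · rcases Finset.mem_insert.1 h1 with h2 | h2
      · exact absurd h2 hlq
      · exact Finset.mem_union_right _ h2

theorem s59self_ord_unr (p : ℕ) (Smin Sg : Finset ℕ) (q : ℕ) (hq : q.Prime)
    (hqSmin : q ∉ Smin) (hqSg : q ∉ Sg)
    (A : Type) [CommRing A] [IsLocalRing A] [Algebra 𝒪 A] (ρ : GaloisRepAdic A)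
    (h : twOrd 𝒪 p Smin Sg ρ) : ρ.IsUnramifiedAt q :=
  h.1.2.2 q hq fun hq' => (Finset.mem_union.1 hq').elim hqSmin hqSg

theorem s59self_ord_bc (p : ℕ) (Smin Sg : Finset ℕ)
    (A B : Type) [CommRing A] [IsLocalRing A] [Algebra 𝒪 A] [CommRing B] [IsLocalRing B]
    [Algebra 𝒪 B] (φ : A →ₐ[𝒪] B) (hφ : IsLocalHom (φ : A →+* B))
    (ρ : GaloisRepAdic A) (h : twOrd 𝒪 p Smin Sg ρ) :
    twOrd 𝒪 p Smin Sg (ρ.baseChangeAlong (φ : A →+* B) hφ) :=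
  ⟨twbc_strictOrdinaryCondition 𝒪 (φ : A →+* B) hφ p _ ρ h.1,
    fun l hl hlp hlne => twbc_isUnipotentOnInertiaAt _ hφ ρ l (h.2 l hl hlp hlne)⟩

end Conditions

section Main

variable (𝒪 : Type) [CommRing 𝒪] [IsDomain 𝒪] [IsDiscreteValuationRing 𝒪]
  [IsAdicComplete (maximalIdeal 𝒪) 𝒪] [Finite (ResidueField 𝒪)]

/-- **SEL, flat case.** -/
theorem s59self_flat (hcore : StmtSelCoreLen 𝒪) (hloc : StmtSelLocal 𝒪) : StmtSelFlat 𝒪 := by
  intro p _ ρbar S Smin hyp Sg q hq hqSmin hqSg D D' x x' t hsame htr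
  have hqp : q ≠ p := fun h => hqSmin (h ▸ hyp.hpSmin)
  exact s59self_generic 𝒪 hcore hloc p ρbar (twFlat 𝒪 p Smin Sg) (twFlat 𝒪 p Smin (insert q Sg))
    q hq hqp hyp.hp𝒪
    (fun A _ _ _ ρ h => s59self_flat_mono 𝒪 p Smin Sg q A ρ h)
    (fun A _ _ _ ρ h hu => s59self_flat_of_unr 𝒪 p Smin Sg q A ρ h hu)
    (fun A _ _ _ ρ h => s59self_flat_unr 𝒪 p Smin Sg q hq hqSmin hqSg A ρ h)
    (fun A _ _ _ ρ h => h.1.1)
    (fun A B _ _ _ _ _ _ φ hφ hsurj ρ h => s59self_flat_bc 𝒪 p Smin _ A B φ hφ hsurj ρ h)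
    D D' x x' t hsame htr

/-- **SEL, ordinary case.** -/
theorem s59self_ord (hcore : StmtSelCoreLen 𝒪) (hloc : StmtSelLocal 𝒪) : StmtSelOrd 𝒪 := by
  intro p _ ρbar S Smin hyp Sg q hq hqSmin hqSg D D' x x' t hsame htr
  have hqp : q ≠ p := fun h => hqSmin (h ▸ hyp.hpSmin)
  exact s59self_generic 𝒪 hcore hloc p ρbar (twOrd 𝒪 p Smin Sg) (twOrd 𝒪 p Smin (insert q Sg))
    q hq hqp hyp.hp𝒪
    (fun A _ _ _ ρ h => s59self_ord_mono 𝒪 p Smin Sg q A ρ h)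
    (fun A _ _ _ ρ h hu => s59self_ord_of_unr 𝒪 p Smin Sg q A ρ h hu)
    (fun A _ _ _ ρ h => s59self_ord_unr 𝒪 p Smin Sg q hq hqSmin hqSg A ρ h)
    (fun A _ _ _ ρ h => h.1.1)
    (fun A B _ _ _ _ _ _ φ hφ _ ρ h => s59self_ord_bc 𝒪 p Smin _ A B φ hφ ρ h)
    D D' x x' t hsame htr

/-- **SEL-FIN.** -/
theorem s59self_main (hcore : StmtSelCoreLen 𝒪) (hloc : StmtSelLocal 𝒪) :
    StmtSelFlat 𝒪 ∧ StmtSelOrd 𝒪 :=
  ⟨s59self_flat 𝒪 hcore hloc, s59self_ord 𝒪 hcore hloc⟩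

end Main

end Fermat.Agent.S59
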