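/-
S59, piece FIN (E-side), part 4 (helper77): the hypotheses `TWHyp` of S56 / SEL / MIN for the
residual representation of a semistable curve at `p ∈ {3, 5}`.

* `s59fe_comm_three_five` : for every subgroup `H` of index 2 there are `σ, τ ∈ H` with
                            `tr ρ̄[σ, τ] ≠ 2`  (E-BIG, `p ∈ {3, 5}`, no ramification hypothesis);
* `s59fe_hTW`             : `hTW` for `ρ̄₁.baseChangeAlong ι`;
* `s59fe_residual_unramified` : `ρ̄₁` is unramified at the good primes `q ≠ p`;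
* `s59fe_hmin`            : `q ∈ s59feSmin ↔ ¬ ρ̄.IsUnramifiedAt q` (`q ≠ p` prime);
* `s59fe_twHyp`           : `TWHyp 𝒪 p (s59feBar W hΔ p φ hφ) S (s59feSmin W hΔ p)` for every set of
                            primes `S ⊇ s59feSmin`, over every `𝒪` in whose residue field the
                            monic quadratic polynomials over `𝔽_p` split (e.g. `k1o2Ring p`).
(habs / hdet / hsplit are helper63's WIRE: `RT/Prod/HypWire.lean`.)
-/
import Fermat.Agent.S59.FinE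
import Fermat.Agent.RT.Prod.HypWire
import Fermat.Agent.EC.Big.Five

set_option autoImplicit false
set_option linter.style.haveILetI false
set_option linter.unusedSectionVars false
set_option linter.unusedVariables false

noncomputable section

namespace Fermat.Agent.S59

open IsLocalRing Polynomial Fermat.Agent.TW Fermat.Agent.EC Fermat.Agent.RT.Prod

section Hyp

variable (W : WeierstrassCurve ℤ) (hΔ : W.Δ ≠ 0) (p : ℕ) [hp : Fact p.Prime]

/-- **E-BIG, commutator form, `p ∈ {3, 5}`.** -/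
theorem s59fe_comm_three_five (hp35 : p = 3 ∨ p = 5) (hss : W.IsSemistableModel)
    (hirr : W.ModRepIsIrreducible p) (H : Subgroup S59GQ) (hH : H.index = 2) :
    ∃ σ ∈ H, ∃ τ ∈ H, LinearMap.trace _ (tateRepInt W hΔ p).residual.V
      ((tateRepInt W hΔ p).residual.ρ (σ * τ * σ⁻¹ * τ⁻¹)) ≠ 2 := by
  rcases hp35 with rfl | rfl
  · exact ecbig_tateResInt_comm_three W hΔ hss hirr H hH
  · exact ecbig_tateResInt_comm_five W hΔ hss hirr H hH

/-- `hTW` for the base change of `ρ̄₁` along `ι`, `p ∈ {3, 5}` -/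
theorem s59fe_hTW {K : Type} [Field K] (ι : ResidueField ℤ_[p] →+* K) (hp35 : p = 3 ∨ p = 5)
    (hss : W.IsSemistableModel) (hirr : W.ModRepIsIrreducible p)
    (K' : Type) [Field K'] [Algebra K K'] (G : Subgroup S59GQ) (hG : G.index = 2)
    (V : Submodule K' (((tateRepInt W hΔ p).residual.baseChangeAlong ι).baseChange K').V)
    (hV : ∀ σ ∈ G, ∀ x ∈ V,
      (((tateRepInt W hΔ p).residual.baseChangeAlong ι).baseChange K').ρ σ x ∈ V) :
    V = ⊥ ∨ V = ⊤ := by
  obtain ⟨σ, hσ, τ, hτ, htr⟩ := s59fe_comm_three_five W hΔ p hp35 hss hirr G hG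
  letI : Algebra (ResidueField ℤ_[p]) K := ι.toAlgebra
  exact ecbig_hTW_baseChange (tateRepInt W hΔ p).residual K G hσ hτ htr K' V hV

/-- `ρ̄₁` is unramified at the good primes `q ≠ p` -/
theorem s59fe_residual_unramified {q : ℕ} (hq : q.Prime) (hgood : W.IsGoodPrimeFor q)
    (hne : q ≠ p) : (tateRepInt W hΔ p).residual.IsUnramifiedAt q := by
  intro A hA σ hσ
  have h1 := tateRepInt_isUnramifiedAt W hΔ p hq hgood hne A hA σ hσ
  have h2 : (tateRepInt W hΔ p).residual.ρ σ = (tateRepInt W hΔ p).residual.ρ 1 := by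
    show ((tateRepInt W hΔ p).ρ σ).baseChange _ = ((tateRepInt W hΔ p).ρ 1).baseChange _
    rw [h1, map_one]
  rw [h2, map_one]

/-- `hmin` for `ρ̄₁` and `Smin = s59feSmin` -/
theorem s59fe_hmin_res {q : ℕ} (hq : q.Prime) (hne : q ≠ p) :
    q ∈ s59feSmin W hΔ p ↔ ¬ (tateRepInt W hΔ p).residual.IsUnramifiedAt q := by
  classical
  rw [s59feSmin, Finset.mem_insert, Finset.mem_filter]
  constructor
  · rintro (h | ⟨-, h⟩)
    · exact absurd h hne
    · exact h
  · intro h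
    refine Or.inr ⟨?_, h⟩
    by_contra hmem
    apply h
    refine s59fe_residual_unramified W hΔ p hq (fun hbad => hmem ?_) hne
    exact s59fe_mem_primeFactors W hΔ hq hbad

variable {𝒪 : Type} [CommRing 𝒪] [IsDomain 𝒪] [IsDiscreteValuationRing 𝒪]
  [IsAdicComplete (maximalIdeal 𝒪) 𝒪] [Finite (ResidueField 𝒪)]
  (φ : ℤ_[p] →+* 𝒪) (hφ : IsLocalHom φ)

/-- `hmin` for `ρ̄ = s59feBar` and `Smin = s59feSmin` -/
theorem s59fe_hmin {q : ℕ} (hq : q.Prime) (hne : q ≠ p) :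
    q ∈ s59feSmin W hΔ p ↔ ¬ (s59feBar W hΔ p φ hφ).IsUnramifiedAt q := by
  rw [s59feBar, rtphw_isUnramifiedAt_iff]
  exact s59fe_hmin_res W hΔ p hq hne

/-- **FIN-E, `TWHyp`** for `p ∈ {3, 5}`. -/
theorem s59fe_twHyp (hp35 : p = 3 ∨ p = 5)
    (hK : ∀ (ψ : ZMod p →+* ResidueField 𝒪) (f : (ZMod p)[X]), f.Monic → f.natDegree = 2 →
      ∃ α β : ResidueField 𝒪, f.map ψ = (X - C α) * (X - C β))
    (hss : W.IsSemistableModel) (hirr : W.ModRepIsIrreducible p)
    (S : Finset ℕ) (hSmin : s59feSmin W hΔ p ⊆ S) (hS : ∀ q ∈ S, q.Prime) :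
    TWHyp 𝒪 p (s59feBar W hΔ p φ hφ) S (s59feSmin W hΔ p) where
  hp2 := by rcases hp35 with rfl | rfl <;> decide
  hp𝒪 := s59fe_p_mem p φ hφ
  habs := rtphw_habs W hΔ p _ (by rcases hp35 with rfl | rfl <;> decide) hirr
  hdet := rtphw_hdet W hΔ p _
  hsplit := rtphw_hsplit W hΔ p _ hK
  hTW := fun K' _ _ G hG V hV => s59fe_hTW W hΔ p _ hp35 hss hirr K' G hG V hV
  hpSmin := s59fe_p_mem_Smin W hΔ p
  hSmin := hSmin
  hS := hS
  hmin := fun q hq hne => s59fe_hmin W hΔ p φ hφ hq hne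

/-- **FIN-E, `TWHyp`** with `S = Smin ∪ Σ`. -/
theorem s59fe_twHyp_union (hp35 : p = 3 ∨ p = 5)
    (hK : ∀ (ψ : ZMod p →+* ResidueField 𝒪) (f : (ZMod p)[X]), f.Monic → f.natDegree = 2 →
      ∃ α β : ResidueField 𝒪, f.map ψ = (X - C α) * (X - C β))
    (hss : W.IsSemistableModel) (hirr : W.ModRepIsIrreducible p) :
    TWHyp 𝒪 p (s59feBar W hΔ p φ hφ) (s59feSmin W hΔ p ∪ s59feSigma W hΔ p)
      (s59feSmin W hΔ p) :=
  s59fe_twHyp W hΔ p φ hφ hp35 hK hss hirr _ Finset.subset_union_left (fun q hq => by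
    rcases Finset.mem_union.1 hq with h | h
    · exact s59fe_prime_of_mem_Smin W hΔ p h
    · exact s59fe_prime_of_mem_Sigma W hΔ p h)

/-- **FIN-E, `TWHyp`** with `S = Smin`. -/
theorem s59fe_twHyp_min (hp35 : p = 3 ∨ p = 5)
    (hK : ∀ (ψ : ZMod p →+* ResidueField 𝒪) (f : (ZMod p)[X]), f.Monic → f.natDegree = 2 →
      ∃ α β : ResidueField 𝒪, f.map ψ = (X - C α) * (X - C β))
    (hss : W.IsSemistableModel) (hirr : W.ModRepIsIrreducible p) :
    TWHyp 𝒪 p (s59feBar W hΔ p φ hφ) (s59feSmin W hΔ p) (s59feSmin W hΔ p) :=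
  s59fe_twHyp W hΔ p φ hφ hp35 hK hss hirr _ (Finset.Subset.refl _)
    (fun q hq => s59fe_prime_of_mem_Smin W hΔ p hq)

end Hyp

end Fermat.Agent.S59
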