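/-
S59 (modularity lifting, R = T at p ∈ {3, 5}; row 53, 0.052) — INTERFACE, part 1 (helper69).
Plan and piece table: NOTES/S59-plan.md (v2).

Part 1 (this file, sorry-free):
* `s59p_StmtS58`   : the frozen type of S58 (conductor–level matching), as a `Prop`;
* `s59p_StmtLift`  : (LIFT) — the curve is modular of SOME cube-free level `N`, divisible by all bad
                     primes, with `p² ∤ N`;
* `s59p_of_lift`   : frozen S59 from `s59p_StmtS58` and `s59p_StmtLift` (formal).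

Part 2 (this file): the PURE COMMUTATIVE ALGEBRA of Wiles' numerical criterion, as `Prop`s
(`s59p_StmtNCIso`, `s59p_StmtNCCI`, `s59p_StmtNCStep`) — no arithmetic, no K-machine: they can be
proved now.

Part 3 (arithmetic `Prop`s SEL / ETA / MIN / MINLEV / FIN on the prelude's objects):
`Fermat/Agent/S59/PlanArith.lean`.
-/
import Mathlib
import Fermat.Prelude.Def_WeierstrassCurve_Mlc1RowStatement
import Fermat.Prelude.Def_WeierstrassCurve_ConductorLevel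
import Fermat.Prelude.Def_FLTPrelim_ModularRep

set_option autoImplicit false

namespace Fermat.Agent.S59

/-! ## Part 1: S59 ⇐ S58 + (LIFT) -/

/-- The frozen type of S58 (conductor–level matching). -/
def s59p_StmtS58 : Prop :=
  ∀ (W : WeierstrassCurve ℤ) (_hss : W.IsSemistableModel) (N : ℕ)
    (p : ℕ) [Fact p.Prime] (_hp2 : p ≠ 2) (_hirr : W.ModRepIsIrreducible p)
    (_hp2N : ¬ p ^ 2 ∣ N)
    (_hN : W.IsModularModelOfLevel N) (_hbad : ∀ ℓ : ℕ, ℓ.Prime → (ℓ : ℤ) ∣ W.Δ → ℓ ∣ N)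
    (_hN3 : ∀ q : ℕ, q.Prime → ¬ q ^ 3 ∣ N),
    W.IsModularModelOfLevel W.conductorLevel

/-- **(LIFT)**: under the hypotheses of S59 the curve is modular of SOME level `N` which is
cube-free, divisible by all bad primes, and not divisible by `p²`.
(Raising the level is free, so `N` may be any convenient level: NOTES/S59-plan.md, Reduction B.) -/
def s59p_StmtLift : Prop :=
  ∀ (p : ℕ), (p = 3 ∨ p = 5) → ∀ (W : WeierstrassCurve ℤ), W.Δ ≠ 0 → W.IsSemistableModel →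
    W.ModRepIsIrreducible p → ∀ (M₀ : ℕ) [NeZero M₀], W.IsResiduallyModularOfLevel p M₀ →
    ¬ p ^ 2 ∣ M₀ → (∀ q : ℕ, q.Prime → q ≠ p → ¬ q ^ 3 ∣ M₀) →
    ∃ N : ℕ, ¬ p ^ 2 ∣ N ∧ (∀ q : ℕ, q.Prime → ¬ q ^ 3 ∣ N) ∧
      (∀ ℓ : ℕ, ℓ.Prime → (ℓ : ℤ) ∣ W.Δ → ℓ ∣ N) ∧ W.IsModularModelOfLevel N

/-- **Glue**: the frozen statement S59 from S58 and (LIFT). -/
theorem s59p_of_lift (h58 : s59p_StmtS58) (hL : s59p_StmtLift)
    (p : ℕ) (hp : p = 3 ∨ p = 5)
    (W : WeierstrassCurve ℤ) (hΔ : W.Δ ≠ 0) (hW : W.IsSemistableModel)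
    (hirr : W.ModRepIsIrreducible p)
    (M₀ : ℕ) [NeZero M₀] (hres₀ : W.IsResiduallyModularOfLevel p M₀)
    (hM₀ : ¬ p ^ 2 ∣ M₀)
    (hM₀3 : ∀ q : ℕ, q.Prime → q ≠ p → ¬ q ^ 3 ∣ M₀) :
    Mlc1IsModularModelOfExactConductorLevel W := by
  obtain ⟨N, hpN, hN3, hbad, hmod⟩ := hL p hp W hΔ hW hirr M₀ hres₀ hM₀ hM₀3
  have hpp : p.Prime := by rcases hp with rfl | rfl <;> norm_num
  have : Fact p.Prime := ⟨hpp⟩
  have hp2 : p ≠ 2 := by rcases hp with rfl | rfl <;> norm_num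
  refine ⟨W.conductorLevel, W.conductorLevel_pos, W.squarefree_conductorLevel,
    fun q hq => W.prime_dvd_conductorLevel_iff hΔ hq, ?_⟩
  exact h58 W hW N p hp2 hirr hpN hmod hbad hN3

/-! ## Part 2: the numerical criterion (pure commutative algebra)

Setting (Wiles, Lenstra, de Smit–Rubin–Schoof): `𝒪` a discrete valuation ring, `A` a local
`𝒪`-algebra with an augmentation `π : A →ₐ[𝒪] 𝒪`;
`Φ_A = ker π / (ker π)²` (an `𝒪`-module), `η_A = π (Ann_A (ker π))` (an ideal of `𝒪`). -/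

section NC

variable (𝒪 : Type) [CommRing 𝒪]

/-- The congruence ideal `η_A = π (Ann_A (ker π))`. -/
def s59p_eta {A : Type} [CommRing A] [Algebra 𝒪 A] (π : A →ₐ[𝒪] 𝒪) : Ideal 𝒪 :=
  Ideal.map π (Submodule.annihilator (RingHom.ker (π : A →+* 𝒪)))

/-- The length over `𝒪` of the cotangent space `Φ_A = ker π / (ker π)²`. -/
noncomputable def s59p_phiLen {A : Type} [CommRing A] [Algebra 𝒪 A] (π : A →ₐ[𝒪] 𝒪) : ℕ∞ :=
  Module.length 𝒪 (RingHom.ker (π : A →+* 𝒪)).Cotangent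

variable [IsDomain 𝒪] [IsDiscreteValuationRing 𝒪]

/-- **NC-Iso (the numerical criterion, hard direction).**  `φ : R ↠ T` a surjection of local
`𝒪`-algebras, `R` Noetherian and complete, `T` finite free over `𝒪`, `π_T : T → 𝒪`,
`π_R = π_T ∘ φ`, `η_T ≠ 0`.  If `length Φ_R ≤ length (𝒪 ⧸ η_T)` then `φ` is bijective. -/
def s59p_StmtNCIso : Prop :=
  ∀ (R T : Type) [CommRing R] [CommRing T] [Algebra 𝒪 R] [Algebra 𝒪 T]
    [IsLocalRing R] [IsNoetherianRing R] [IsAdicComplete (IsLocalRing.maximalIdeal R) R]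
    [IsLocalRing T] [Module.Finite 𝒪 T] [Module.Free 𝒪 T]
    (φ : R →ₐ[𝒪] T) (πT : T →ₐ[𝒪] 𝒪), Function.Surjective φ →
    s59p_eta 𝒪 πT ≠ ⊥ →
    s59p_phiLen 𝒪 (πT.comp φ) ≤ Module.length 𝒪 (𝒪 ⧸ s59p_eta 𝒪 πT) →
    Function.Bijective φ

/-- **NC-CI (complete intersections satisfy the numerical equality; Tate).**  If `T` is finite
free over `𝒪` and `T ≅ 𝒪⟦X₁,…,X_r⟧ / (f₁,…,f_r)` (as many relations as variables), then for every
augmentation `π_T` : `length Φ_T ≤ length (𝒪 ⧸ η_T)` (and `η_T ≠ 0` as soon as `T ⊗ K` is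
reduced at `π_T`, which is a separate input). -/
def s59p_StmtNCCI : Prop :=
  ∀ (T : Type) [CommRing T] [Algebra 𝒪 T] [IsLocalRing T] [Module.Finite 𝒪 T] [Module.Free 𝒪 T]
    (r : ℕ) (γ : MvPowerSeries (Fin r) 𝒪 →ₐ[𝒪] T) (f : Fin r → MvPowerSeries (Fin r) 𝒪),
    Function.Surjective γ → RingHom.ker (γ : MvPowerSeries (Fin r) 𝒪 →+* T) =
      Ideal.span (Set.range f) →
    ∀ πT : T →ₐ[𝒪] 𝒪, s59p_phiLen 𝒪 πT ≤ Module.length 𝒪 (𝒪 ⧸ s59p_eta 𝒪 πT)

/-- **NC-Step (the induction step; arithmetic of lengths in a DVR).**  If the numerical inequality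
holds at `(R, T)`, the cotangent space grows at most by `length (𝒪 ⧸ c)` (SEL) and the congruence
ideal shrinks at least by the factor `c` (ETA), then the numerical inequality holds at
`(R', T')`. -/
def s59p_StmtNCStep : Prop :=
  ∀ (lR lR' : ℕ∞) (η η' : Ideal 𝒪) (c : 𝒪), c ≠ 0 → η ≠ ⊥ →
    lR ≤ Module.length 𝒪 (𝒪 ⧸ η) →
    lR' ≤ lR + Module.length 𝒪 (𝒪 ⧸ Ideal.span {c}) →
    η' ≤ Ideal.span {c} * η →
    lR' ≤ Module.length 𝒪 (𝒪 ⧸ η')

end NC

end Fermat.Agent.S59
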