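/-
S59 (modularity lifting, R = T at p ∈ {3, 5}) — INTERFACE, part 3 (helper69): the ARITHMETIC inputs of
Wiles' induction on the set `Σ` of non-minimal primes, as `Prop`s on the PRELUDE's objects
(`GaloisRep.DeformationRingData`, `CuspForm.HeckeGaloisRepDatum`) and the conditions
`twFlat` / `twOrd` of `Fermat/Agent/TW/Plan.lean` (unramified outside `Smin ∪ Σ`, unipotent on
inertia at the primes `≠ p` of `Smin`, flat / strictly ordinary at `p`, `det = χ`).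

STATUS: DRAFT statements (they type-check; the glue `MIN + SEL + ETA + NC ⇒ R_Σ ≅ T_Σ` is formal
— `s59p_StmtNCStep`, `s59p_StmtNCIso` of `S59/Plan.lean` — but the final step FIN and MINLEV are only
described in NOTES/S59-plan.md §4).  Whoever takes a piece may STRENGTHEN hypotheses that are
harmless for the glue (say so in NOTES/S59-plan.md).
-/
import Fermat.Agent.S59.Plan
import Fermat.Agent.TW.Plan
import Fermat.Prelude.Def_CuspForm_HeckeGaloisRepDatum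

set_option autoImplicit false

namespace Fermat.Agent.S59

open IsLocalRing Fermat.Agent.TW

section Arith

variable (𝒪 : Type) [CommRing 𝒪] [IsDomain 𝒪] [IsDiscreteValuationRing 𝒪]
  [IsAdicComplete (maximalIdeal 𝒪) 𝒪] [Finite (ResidueField 𝒪)]

/-- The Galois group of `ℚ`. -/
abbrev S59G : Type := AlgebraicClosure ℚ ≃ₐ[ℚ] AlgebraicClosure ℚ

/-- Wiles' local factor at a prime `q ≠ p` : `c_q = (q − 1) (t² − (q + 1)²)`, `t = tr ρ(Frob_q)`. -/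
def s59p_cq (q : ℕ) (t : 𝒪) : 𝒪 := ((q : 𝒪) - 1) * (t ^ 2 - ((q : 𝒪) + 1) ^ 2)

/-- **SEL (Selmer growth at one prime `q ∉ Smin ∪ Σ`, `q ≠ p`).**
`𝒟 Σ` is `twFlat 𝒪 p Smin Σ` or `twOrd 𝒪 p Smin Σ`.  For universal rings `D` of type `Σ` and `D'` of
type `Σ ∪ {q}` and augmentations `x`, `x'` with the same traces (i.e. the same lift `ρ_x` of `ρ̄`
to `𝒪`, of type `Σ`), with `t = tr ρ_x(Frob_q)`:
`length Φ_{R', x'} ≤ length Φ_{R, x} + length (𝒪 ⧸ c_q)`.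
(Proof: `Hom (Φ_R, K/𝒪) = H¹_Σ(ℚ, ad⁰ ρ_x ⊗ K/𝒪)`, and
`H¹_{Σ ∪ q} / H¹_Σ ↪ H¹(I_q, ad⁰ ρ_x ⊗ K/𝒪)^{Frob_q} = (ad⁰ ρ_x ⊗ K/𝒪)(−1)^{Frob_q}`.) -/
def s59p_StmtSel
    (𝒟 : Finset ℕ → ∀ ⦃A : Type⦄ [CommRing A] [IsLocalRing A] [Algebra 𝒪 A],
      GaloisRepAdic A → Prop) : Prop :=
  ∀ (p : ℕ) [Fact p.Prime] (ρbar : ResidualGaloisRep (ResidueField 𝒪)) (S Smin : Finset ℕ),
    TWHyp 𝒪 p ρbar S Smin → ∀ (Sg : Finset ℕ) (q : ℕ), q.Prime → q ∉ Smin → q ∉ Sg →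
    ∀ (D : GaloisRep.DeformationRingData 𝒪 ρbar (𝒟 Sg))
      (D' : GaloisRep.DeformationRingData 𝒪 ρbar (𝒟 (insert q Sg)))
      (x : D.R →ₐ[𝒪] 𝒪) (x' : D'.R →ₐ[𝒪] 𝒪) (t : 𝒪),
      (∀ σ : S59G, x' (LinearMap.trace D'.R D'.ρ.V (D'.ρ.ρ σ)) =
        x (LinearMap.trace D.R D.ρ.V (D.ρ.ρ σ))) →
      (∀ P : ValuationSubring (AlgebraicClosure ℚ), P.LiesOverPrime q →
        ∀ φ : S59G, P.IsFrobeniusAt φ q → x (LinearMap.trace D.R D.ρ.V (D.ρ.ρ φ)) = t) →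
      s59p_phiLen 𝒪 x' ≤ s59p_phiLen 𝒪 x + Module.length 𝒪 (𝒪 ⧸ Ideal.span {s59p_cq 𝒪 q t})

/-- `𝒪` is LARGE for `(N, S, θ)`: every eigensystem of level `N` lifting `θ` with values in a finite
extension `𝒪₁` of `𝒪` has its values in `𝒪`. -/
def s59p_IsBig (N : ℕ) [NeZero N] (S : Set ℕ)
    (θ : CuspForm.heckeAlgebra N 2 S →+* ResidueField 𝒪) : Prop :=
  ∀ (𝒪₁ : Type) [CommRing 𝒪₁] [IsDomain 𝒪₁] [IsDiscreteValuationRing 𝒪₁] [Algebra 𝒪 𝒪₁]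
    [Module.Finite 𝒪 𝒪₁] [IsLocalHom (algebraMap 𝒪 𝒪₁)]
    (χ₁ : CuspForm.heckeAlgebra N 2 S →+* 𝒪₁),
    (∀ t, residue 𝒪₁ (χ₁ t) = ResidueField.map (algebraMap 𝒪 𝒪₁) (θ t)) →
    ∀ t, χ₁ t ∈ Set.range (algebraMap 𝒪 𝒪₁)

/-- The Hecke ring `T` of a datum is the FULL localised Hecke algebra: `𝒪` is large and `T` embeds
in the product of its `𝒪`-points. -/
def s59p_IsFull (N : ℕ) [NeZero N] (S : Set ℕ)
    (θ : CuspForm.heckeAlgebra N 2 S →+* ResidueField 𝒪)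
    (T : Type) [CommRing T] [Algebra 𝒪 T] : Prop :=
  s59p_IsBig 𝒪 N S θ ∧ ∀ y : T, (∀ ψ : T →ₐ[𝒪] 𝒪, ψ y = 0) → y = 0

/-- **ETA, RING FORM — SUPERSEDED** (helper72, tested by lead + helper69, 23:50Z): as stated it needs the
lattice `L = H¹(X₀(N), 𝒪)_𝔪` to be free over a Gorenstein `T` at EVERY level.  The induction is run
with the MODULE congruence ideal `η_L` instead (`GEN : η_T ≤ η_L`, `ETA′ : η_{L'} ≤ c_q η_L`,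
`MIN′`); the Props are in `Fermat/Agent/S59/EtaPlan.lean` (sub-captain helper72), and
`s59p_StmtNCStep`, `s59p_StmtNCIso`, `s59p_StmtSel` are used unchanged (with `η := η_L`).
This Prop is kept only for reference.

ETA (growth of the congruence ideal at one prime `q ∤ N`, `q ∉ S`, `q ≠ p`).
`H` a datum of level `N` away from `S`, `H'` a datum of level `N q²` away from `S ∪ {q}`, both
FULL, `ψ`, `ψ'` augmentations with the same `T_ℓ`-eigenvalues for `ℓ ∉ S ∪ {q}`, `ℓ ∤ N`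
(i.e. `ψ'` is the eigensystem of `ψ` seen at level `N q²`).  Then
`η_{T', ψ'} ≤ c_q · η_{T, ψ}`, `c_q = (q − 1) (ψ(T_q)² − (q + 1)²)`, and `η_{T', ψ'} ≠ 0`.
(Wiles, Ch. 2 §2: Ihara's lemma at `q` — in S41's closure — and the perfect pairing on
`H¹(X₀(N), 𝒪)_𝔪`; the residual representation is absolutely irreducible by `H.residual_absIrr`.) -/
def s59p_StmtEta : Prop :=
  ∀ (p : ℕ) [Fact p.Prime], p ≠ 2 → (p : 𝒪) ∈ maximalIdeal 𝒪 →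
  ∀ (N : ℕ) [NeZero N] (q : ℕ) [NeZero (N * q ^ 2)] (hq : q.Prime) (hqN : ¬ q ∣ N) (S : Set ℕ)
    (hqS : q ∉ S), p ∈ S → (∀ ℓ : ℕ, ℓ.Prime → ℓ ∣ N → ℓ ∈ S) → q ≠ p →
  ∀ (θ : CuspForm.heckeAlgebra N 2 S →+* ResidueField 𝒪)
    (θ' : CuspForm.heckeAlgebra (N * q ^ 2) 2 (S ∪ {q}) →+* ResidueField 𝒪)
    (T T' : Type) [CommRing T] [IsLocalRing T] [IsNoetherianRing T]
    [IsAdicComplete (maximalIdeal T) T] [Algebra 𝒪 T] [IsLocalHom (algebraMap 𝒪 T)]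
    [Module.Finite 𝒪 T] [Module.Free 𝒪 T]
    [CommRing T'] [IsLocalRing T'] [IsNoetherianRing T']
    [IsAdicComplete (maximalIdeal T') T'] [Algebra 𝒪 T'] [IsLocalHom (algebraMap 𝒪 T')]
    [Module.Finite 𝒪 T'] [Module.Free 𝒪 T']
    (H : CuspForm.HeckeGaloisRepDatum N S 𝒪 θ T)
    (H' : CuspForm.HeckeGaloisRepDatum (N * q ^ 2) (S ∪ {q}) 𝒪 θ' T'),
    s59p_IsFull 𝒪 N S θ T → s59p_IsFull 𝒪 (N * q ^ 2) (S ∪ {q}) θ' T' →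
  ∀ (ψ : T →ₐ[𝒪] 𝒪) (ψ' : T' →ₐ[𝒪] 𝒪),
    (∀ (ℓ : ℕ) (hℓ : ℓ.Prime) (hℓN : ¬ ℓ ∣ N) (hℓN' : ¬ ℓ ∣ N * q ^ 2) (hℓS : ℓ ∉ S)
      (hℓS' : ℓ ∉ S ∪ {q}),
      ψ' (H'.π (CuspForm.heckeAlgebra.T hℓ hℓN' hℓS')) =
        ψ (H.π (CuspForm.heckeAlgebra.T hℓ hℓN hℓS))) →
    s59p_eta 𝒪 ψ' ≠ ⊥ ∧
    s59p_eta 𝒪 ψ' ≤
      Ideal.span {s59p_cq 𝒪 q (ψ (H.π (CuspForm.heckeAlgebra.T hq hqN hqS)))} * s59p_eta 𝒪 ψ

/-- **MIN (the minimal case, with the numerical equality).**  For the MINIMAL condition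
`𝒟 ∅` (`twFlat 𝒪 p Smin ∅` or `twOrd 𝒪 p Smin ∅`), a universal ring `D`, a FULL Hecke datum `H` whose
representation is of type `𝒟 ∅` and lifts `ρ̄`, the surjection `φ : D.R ↠ T` of S54 and an
augmentation `ψ` of `T`:  `length Φ_{R, ψ ∘ φ} ≤ length (𝒪 ⧸ η_{T, ψ})` and `η_{T, ψ} ≠ 0`.
(Taylor–Wiles patching in Diamond's form: S56 + S57 + the patching theorem give `R ≅ T` and
`T ≅ 𝒪⟦X₁..X_r⟧ / (f₁..f_r)`; then `s59p_StmtNCCI`.) -/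
def s59p_StmtMin
    (𝒟 : Finset ℕ → ∀ ⦃A : Type⦄ [CommRing A] [IsLocalRing A] [Algebra 𝒪 A],
      GaloisRepAdic A → Prop) : Prop :=
  ∀ (p : ℕ) [Fact p.Prime] (ρbar : ResidualGaloisRep (ResidueField 𝒪)) (Smin : Finset ℕ),
    TWHyp 𝒪 p ρbar Smin Smin →
  ∀ (D : GaloisRep.DeformationRingData 𝒪 ρbar (𝒟 ∅))
    (N : ℕ) [NeZero N] (S : Set ℕ), (∀ ℓ : ℕ, ℓ.Prime → ℓ ∣ N → ℓ ∈ S) → p ∈ S →
  ∀ (θ : CuspForm.heckeAlgebra N 2 S →+* ResidueField 𝒪)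
    (T : Type) [CommRing T] [IsLocalRing T] [IsNoetherianRing T]
    [IsAdicComplete (maximalIdeal T) T] [Algebra 𝒪 T] [IsLocalHom (algebraMap 𝒪 T)]
    [Module.Finite 𝒪 T] [Module.Free 𝒪 T]
    (H : CuspForm.HeckeGaloisRepDatum N S 𝒪 θ T), s59p_IsFull 𝒪 N S θ T → 𝒟 ∅ H.ρ →
    H.ρ.residual.IsEquiv (ρbar.baseChangeAlong (ResidueField.map (algebraMap 𝒪 T))) →
  ∀ (φ : D.R →ₐ[𝒪] T), Function.Surjective φ → ∀ ψ : T →ₐ[𝒪] 𝒪,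
    s59p_eta 𝒪 ψ ≠ ⊥ ∧
    s59p_phiLen 𝒪 (ψ.comp φ) ≤ Module.length 𝒪 (𝒪 ⧸ s59p_eta 𝒪 ψ)

end Arith

end Fermat.Agent.S59
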