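/-
S59, piece FIN (helper77): from `R_Σ ≅ T_Σ` to the modularity of the curve.

* `s59fin_eigenform_of_char` (Hecke side): a character `χ : heckeAlgebra N 2 S → A` (`A` a local domain
  of characteristic zero and residue characteristic `p`) with INTEGER values `a ℓ` at the `T_ℓ`,
  `ℓ ∉ S`, is the eigensystem of a normalised eigenform `f` of level `N`: `a_ℓ(f) = a ℓ` (`ℓ ∉ S`).
  (K-machine INTERP `rtint_point`.)
* `s59fin_eigenform` : `D` a universal deformation ring of type `𝒟` for `ρ̄ = s59feBar`, with `𝒟` satisfied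
  by `ρ_{W,p} ⊗ 𝒪`; `H` a Hecke–Galois datum of level `N` away from `S` over `T`; `γ : D.R →ₐ[𝒪] T`
  BIJECTIVE and compatible with the traces (`R = T`).  Then there is a normalised eigenform `f` of
  level `N` with `a_ℓ(f) = a_ℓ(W)` for all primes `ℓ ∉ S`.
* `s59fin_modular` : … hence `W.IsModularModelOfLevel C` for every multiple `C ≠ 0` of `N` which is
  divisible by the good primes of `S` (STAB).
* `s59fin_lift` : … hence the conclusion of (LIFT) (`S59/Plan.lean`), if `N` is cube-free, `p² ∤ N`,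
  the bad primes divide `N` and `S ⊆ {p} ∪ {ℓ ∣ N}`.
* `s59fin_trace_compat` : the compatibility of `γ` with the traces from the form
  `(D.ρ.baseChangeAlong γ).IsEquiv H.ρ` of S54.
-/
import Fermat.Agent.S59.FinEPoint
import Fermat.Agent.RT.Interp.Eigen
import Fermat.Agent.S31.Helpers
import Fermat.Agent.S58.Stab
import Fermat.Agent.Common.FrobExists
import Fermat.Prelude.Def_CuspForm_HeckeGaloisRepDatum

set_option autoImplicit false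
set_option linter.style.haveILetI false
set_option linter.unusedSectionVars false
set_option linter.unusedVariables false

noncomputable section

namespace Fermat.Agent.S59

open IsLocalRing Polynomial Fermat.Agent.TW Fermat.Agent.EC ModularCurve ModularFormClass
  CongruenceSubgroup Fermat.Agent.S31

section Hecke

variable {N : ℕ} [NeZero N]

/-- the trace of an endomorphism of a free module of rank 2 with characteristic polynomial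
`X² − a X + b` -/
theorem s59fin_trace_of_charpoly {R : Type} [CommRing R] [Nontrivial R] {M : Type}
    [AddCommGroup M] [Module R M] [Module.Free R M] [Module.Finite R M]
    (hM : Module.finrank R M = 2) (f : Module.End R M) (a b : R)
    (h : LinearMap.charpoly f = X ^ 2 - C a * X + C b) : LinearMap.trace R M f = a := by
  classical
  let bas := Module.Free.chooseBasis R M
  have hcard : Fintype.card (Module.Free.ChooseBasisIndex R M) = 2 := by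
    rw [← Module.finrank_eq_card_chooseBasisIndex, hM]
  have : Nonempty (Module.Free.ChooseBasisIndex R M) := by
    rw [← Fintype.card_pos_iff, hcard]; norm_num
  rw [LinearMap.trace_eq_matrix_trace R bas f, Matrix.trace_eq_neg_charpoly_coeff, hcard,
    LinearMap.charpoly_toMatrix, h]
  simp [Polynomial.coeff_C]

/-- a character of `heckeAlgebra N 2 S`, evaluated on a Hecke polynomial outside `S` -/
theorem s59fin_char_evalS (S : Set ℕ) (hNS : ∀ ℓ : ℕ, ℓ.Prime → ℓ ∣ N → ℓ ∈ S)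
    {A : Type} [CommRing A] (χ : CuspForm.heckeAlgebra N 2 S →+* A) (a : Nat.Primes → A)
    (hχ : ∀ (ℓ : ℕ) (hℓ : ℓ.Prime) (hℓN : ¬ ℓ ∣ N) (hℓS : ℓ ∉ S),
      χ (CuspForm.heckeAlgebra.T hℓ hℓN hℓS) = a ⟨ℓ, hℓ⟩)
    {t : HeckeAlg} (ht : t ∈ MvPolynomial.supported ℤ (outsideVars S)) :
    χ (evalS N S t) = MvPolynomial.aeval a t := by
  set f₁ : HeckeAlg →+* A := χ.comp (evalS N S).toRingHom with hf₁
  set f₂ : HeckeAlg →+* A := (MvPolynomial.aeval a : HeckeAlg →ₐ[ℤ] A).toRingHom with hf₂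
  have key : f₁ t = f₂ t := by
    apply MvPolynomial.hom_congr_vars
    · exact RingHom.ext_int _ _
    · intro i hi _
      have hiS : i ∈ outsideVars S := (MvPolynomial.mem_supported.mp ht) (Finset.mem_coe.mpr hi)
      have h2 : (i : ℕ) ∉ S := hiS
      have h1 : ¬ (i : ℕ) ∣ N := fun h => h2 (hNS i i.2 h)
      have e1 : evalS N S (MvPolynomial.X i) = CuspForm.heckeAlgebra.T i.2 h1 h2 :=
        evalS_heckeGen i.2 h1 h2
      show χ (evalS N S (MvPolynomial.X i)) = MvPolynomial.aeval a (MvPolynomial.X i)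
      rw [e1, hχ, MvPolynomial.aeval_X]
      rfl
    · rfl
  exact key

/-- **FIN, Hecke side.** -/
theorem s59fin_eigenform_of_char (S : Set ℕ) (hNS : ∀ ℓ : ℕ, ℓ.Prime → ℓ ∣ N → ℓ ∈ S)
    {A : Type} [CommRing A] [IsLocalRing A] [IsDomain A] [CharZero A]
    {p : ℕ} (hp : p.Prime) (hpA : (p : A) ∈ maximalIdeal A)
    (χ : CuspForm.heckeAlgebra N 2 S →+* A) (a : ℕ → ℤ)
    (hχ : ∀ (ℓ : ℕ) (hℓ : ℓ.Prime) (hℓN : ¬ ℓ ∣ N) (hℓS : ℓ ∉ S),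
      χ (CuspForm.heckeAlgebra.T hℓ hℓN hℓS) = ((a ℓ : ℤ) : A)) :
    ∃ f : CuspForm (Gamma0 N) 2, f.IsNormalizedEigenform ∧
      ∀ ℓ : ℕ, ℓ.Prime → ℓ ∉ S → qCoeff ⇑f ℓ = ((a ℓ : ℤ) : ℂ) := by
  classical
  set aA : Nat.Primes → A := fun ℓ => ((a (ℓ : ℕ) : ℤ) : A) with haA
  have hocc : ∀ t ∈ MvPolynomial.supported ℤ (outsideVars S),
      CuspForm.heckeEvalForms N 2 t = 0 → MvPolynomial.aeval aA t = 0 := by
    intro t ht h0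
    have hSg : ∀ ℓ ∈ outsideVars S, ¬ ((ℓ : Nat.Primes) : ℕ) ∣ N ∧ ((ℓ : Nat.Primes) : ℕ) ∉ S :=
      fun ℓ hℓ => ⟨fun h => hℓ (hNS ℓ ℓ.2 h), hℓ⟩
    have h1 := coe_evalS_eq (N := N) (S := S) hSg ht
    rw [h0, ZeroMemClass.coe_zero] at h1
    have h2 : evalS N S t = 0 := (ZeroMemClass.coe_eq_zero).1 h1
    rw [← s59fin_char_evalS S hNS χ aA (fun ℓ hℓ hℓN hℓS => hχ ℓ hℓ hℓN hℓS) ht, h2, map_zero]
  obtain ⟨f, 𝔪', hf, -, -, hconj, -⟩ :=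
    Fermat.Agent.RT.Interp.rtint_point S hNS hp hpA aA hocc
  refine ⟨f, hf, fun ℓ hℓ hℓS => ?_⟩
  obtain ⟨q, hq⟩ : ∃ q : Nat.Primes, (q : ℕ) = ℓ := ⟨⟨ℓ, hℓ⟩, rfl⟩
  subst hq
  obtain ⟨t, ht⟩ : ∃ t : HeckeAlg, t = heckeGen q - algebraMap ℤ HeckeAlg (a (q : ℕ)) :=
    ⟨_, rfl⟩
  have hmem : t ∈ MvPolynomial.supported ℤ (outsideVars S) := by
    rw [ht]
    exact Subalgebra.sub_mem _ ((MvPolynomial.X_mem_supported (R := ℤ)).mpr hℓS)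
      (Subalgebra.algebraMap_mem _ _)
  have h0 : MvPolynomial.aeval aA t = 0 := by
    rw [ht, map_sub, aeval_heckeGen, AlgHom.commutes, haA, eq_intCast, sub_self]
  have h1 := (hconj t hmem).2 h0
  have hX : Fermat.Agent.ES.heckeValue f (heckeGen q) = qCoeff ⇑f (q : ℕ) :=
    Fermat.Agent.STB.stb_p1_heckeValue_X f q
  rw [ht, Fermat.Agent.STB.stb_p1_heckeValue_sub, hX,
    Fermat.Agent.STB.stb_p1_heckeValue_algebraMap, sub_eq_zero] at h1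
  exact h1

end Hecke

section Glue

variable (W : WeierstrassCurve ℤ) (hΔ : W.Δ ≠ 0) (p : ℕ) [hp : Fact p.Prime]
variable {𝒪 : Type} [CommRing 𝒪] [IsDomain 𝒪] [IsDiscreteValuationRing 𝒪]
  [IsAdicComplete (maximalIdeal 𝒪) 𝒪] [CharZero 𝒪] (φ : ℤ_[p] →+* 𝒪) (hφ : IsLocalHom φ)
variable {N : ℕ} [NeZero N] {S : Set ℕ}
  {θ : CuspForm.heckeAlgebra N 2 S →+* ResidueField 𝒪}
  {T : Type} [CommRing T] [IsLocalRing T] [IsNoetherianRing T]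
  [IsAdicComplete (maximalIdeal T) T] [Algebra 𝒪 T] [IsLocalHom (algebraMap 𝒪 T)]
  [Module.Finite 𝒪 T] [Module.Free 𝒪 T]

/-- the compatibility with the traces, from the form of S54 -/
theorem s59fin_trace_compat
    {𝒟 : ∀ ⦃A : Type⦄ [CommRing A] [IsLocalRing A] [Algebra 𝒪 A], GaloisRepAdic A → Prop}
    {ρbar : ResidualGaloisRep (ResidueField 𝒪)}
    (D : GaloisRep.DeformationRingData 𝒪 ρbar 𝒟) (ρT : GaloisRepAdic T)
    (γ : D.R →ₐ[𝒪] T) (hγ : IsLocalHom (γ : D.R →+* T))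
    (h : (D.ρ.baseChangeAlong (γ : D.R →+* T) hγ).IsEquiv ρT) (σ : S59GQ) :
    γ (LinearMap.trace D.R D.ρ.V (D.ρ.ρ σ)) = LinearMap.trace T ρT.V (ρT.ρ σ) := by
  rw [← s59fe_isEquiv_trace h σ]
  exact (s59fe_trace_baseChangeAlong (γ : D.R →+* T) hγ D.ρ σ).symm

/-- **FIN: the eigenform.** -/
theorem s59fin_eigenform
    (𝒟 : ∀ ⦃A : Type⦄ [CommRing A] [IsLocalRing A] [Algebra 𝒪 A], GaloisRepAdic A → Prop)
    (D : GaloisRep.DeformationRingData 𝒪 (s59feBar W hΔ p φ hφ) 𝒟)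
    (h𝒟 : 𝒟 (s59feRep W hΔ p φ hφ))
    (H : CuspForm.HeckeGaloisRepDatum N S 𝒪 θ T)
    (hNS : ∀ ℓ : ℕ, ℓ.Prime → ℓ ∣ N → ℓ ∈ S)
    (hSgood : ∀ ℓ : ℕ, ℓ.Prime → ℓ ∉ S → W.IsGoodPrimeFor ℓ ∧ ℓ ≠ p)
    (γ : D.R →ₐ[𝒪] T) (hγ : Function.Bijective γ)
    (hγρ : ∀ σ : S59GQ, γ (LinearMap.trace D.R D.ρ.V (D.ρ.ρ σ)) =
      LinearMap.trace T H.ρ.V (H.ρ.ρ σ)) :
    ∃ f : CuspForm (Gamma0 N) 2, f.IsNormalizedEigenform ∧
      ∀ ℓ : ℕ, ℓ.Prime → ℓ ∉ S → qCoeff ⇑f ℓ = ((W.apOfModel ℓ : ℤ) : ℂ) := by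
  obtain ⟨x, hx⟩ := s59fe_point_frob W hΔ p φ hφ 𝒟 D h𝒟
  -- the point of `T`
  let e : D.R ≃+* T := RingEquiv.ofBijective (γ : D.R →+* T) hγ
  let χ : CuspForm.heckeAlgebra N 2 S →+* 𝒪 :=
    ((x : D.R →+* 𝒪).comp (e.symm : T →+* D.R)).comp H.π
  have hχ : ∀ (ℓ : ℕ) (hℓ : ℓ.Prime) (hℓN : ¬ ℓ ∣ N) (hℓS : ℓ ∉ S),
      χ (CuspForm.heckeAlgebra.T hℓ hℓN hℓS) = ((W.apOfModel ℓ : ℤ) : 𝒪) := by
    intro ℓ hℓ hℓN hℓS
    obtain ⟨A, τ, hA, hτ⟩ := Fermat.Agent.Common.exists_isFrobeniusAt ℓ hℓ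
    have hcp := H.charpoly_frob ℓ hℓ hℓN hℓS A hA τ hτ
    have htr := s59fin_trace_of_charpoly H.ρ.finrank_eq (H.ρ.ρ τ) _ _ hcp
    have h1 : e.symm (H.π (CuspForm.heckeAlgebra.T hℓ hℓN hℓS)) =
        LinearMap.trace D.R D.ρ.V (D.ρ.ρ τ) := by
      rw [RingEquiv.symm_apply_eq, ← htr]
      exact (hγρ τ).symm
    show x (e.symm (H.π (CuspForm.heckeAlgebra.T hℓ hℓN hℓS))) = _
    rw [h1]
    exact hx ℓ hℓ (hSgood ℓ hℓ hℓS).1 (hSgood ℓ hℓ hℓS).2 A hA τ hτ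
  exact s59fin_eigenform_of_char S hNS hp.out (s59fe_p_mem p φ hφ) χ (fun ℓ => W.apOfModel ℓ) hχ

/-- **FIN: modularity.** -/
theorem s59fin_modular
    (𝒟 : ∀ ⦃A : Type⦄ [CommRing A] [IsLocalRing A] [Algebra 𝒪 A], GaloisRepAdic A → Prop)
    (D : GaloisRep.DeformationRingData 𝒪 (s59feBar W hΔ p φ hφ) 𝒟)
    (h𝒟 : 𝒟 (s59feRep W hΔ p φ hφ))
    (H : CuspForm.HeckeGaloisRepDatum N S 𝒪 θ T)
    (hNS : ∀ ℓ : ℕ, ℓ.Prime → ℓ ∣ N → ℓ ∈ S)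
    (hSgood : ∀ ℓ : ℕ, ℓ.Prime → ℓ ∉ S → W.IsGoodPrimeFor ℓ ∧ ℓ ≠ p)
    (γ : D.R →ₐ[𝒪] T) (hγ : Function.Bijective γ)
    (hγρ : ∀ σ : S59GQ, γ (LinearMap.trace D.R D.ρ.V (D.ρ.ρ σ)) =
      LinearMap.trace T H.ρ.V (H.ρ.ρ σ))
    (C : ℕ) (hC : C ≠ 0) (hNC : N ∣ C)
    (hSC : ∀ ℓ : ℕ, ℓ.Prime → ℓ ∈ S → W.IsGoodPrimeFor ℓ → ℓ ∣ C) :
    W.IsModularModelOfLevel C := by
  obtain ⟨f, hf, hfq⟩ := s59fin_eigenform W hΔ p φ hφ 𝒟 D h𝒟 H hNS hSgood γ hγ hγρ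
  obtain ⟨h, hh, hq⟩ := Fermat.Agent.S58.stab_exists_prime hC hNC f hf
  refine ⟨h, hh, fun ℓ hℓ hgood hℓC => ?_⟩
  rw [hq ℓ hℓ hℓC]
  have hℓS : ℓ ∉ S := fun hS => hℓC (hSC ℓ hℓ hS hgood)
  rw [hfq ℓ hℓ hℓS]

/-- **FIN ⇒ (LIFT).** -/
theorem s59fin_lift
    (𝒟 : ∀ ⦃A : Type⦄ [CommRing A] [IsLocalRing A] [Algebra 𝒪 A], GaloisRepAdic A → Prop)
    (D : GaloisRep.DeformationRingData 𝒪 (s59feBar W hΔ p φ hφ) 𝒟)
    (h𝒟 : 𝒟 (s59feRep W hΔ p φ hφ))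
    (H : CuspForm.HeckeGaloisRepDatum N S 𝒪 θ T)
    (hNS : ∀ ℓ : ℕ, ℓ.Prime → ℓ ∣ N → ℓ ∈ S)
    (hS : ∀ ℓ : ℕ, ℓ ∈ S → ℓ = p ∨ ℓ ∣ N) (hpS : p ∈ S)
    (hbad : ∀ ℓ : ℕ, ℓ.Prime → (ℓ : ℤ) ∣ W.Δ → ℓ ∣ N)
    (hp2N : ¬ p ^ 2 ∣ N) (hN3 : ∀ q : ℕ, q.Prime → ¬ q ^ 3 ∣ N)
    (γ : D.R →ₐ[𝒪] T) (hγ : Function.Bijective γ)
    (hγρ : ∀ σ : S59GQ, γ (LinearMap.trace D.R D.ρ.V (D.ρ.ρ σ)) =
      LinearMap.trace T H.ρ.V (H.ρ.ρ σ)) :
    ∃ N' : ℕ, ¬ p ^ 2 ∣ N' ∧ (∀ q : ℕ, q.Prime → ¬ q ^ 3 ∣ N') ∧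
      (∀ ℓ : ℕ, ℓ.Prime → (ℓ : ℤ) ∣ W.Δ → ℓ ∣ N') ∧ W.IsModularModelOfLevel N' := by
  have hN0 : N ≠ 0 := NeZero.ne N
  have hSgood : ∀ ℓ : ℕ, ℓ.Prime → ℓ ∉ S → W.IsGoodPrimeFor ℓ ∧ ℓ ≠ p := by
    intro ℓ hℓ hℓS
    refine ⟨fun hb => hℓS (hNS ℓ hℓ (hbad ℓ hℓ hb)), ?_⟩
    rintro rfl
    exact hℓS hpS
  by_cases hpN : p ∣ N
  · refine ⟨N, hp2N, hN3, hbad, ?_⟩
    refine s59fin_modular W hΔ p φ hφ 𝒟 D h𝒟 H hNS hSgood γ hγ hγρ N hN0 dvd_rfl ?_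
    intro ℓ hℓ hℓS _
    rcases hS ℓ hℓS with rfl | h
    · exact hpN
    · exact h
  · have hcop : Nat.Coprime p N := (Nat.Prime.coprime_iff_not_dvd hp.out).2 hpN
    refine ⟨N * p, ?_, ?_, ?_, ?_⟩
    · intro h
      have h1 : p ^ 2 ∣ p * N := by rwa [mul_comm] at h
      rw [pow_two] at h1
      have h2 : p ∣ N := (Nat.mul_dvd_mul_iff_left hp.out.pos).1 h1
      exact hpN h2
    · intro q hq h
      by_cases hqp : q = p
      · subst hqp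
        have h1 : q ^ 2 ∣ N * q := (pow_dvd_pow q (by norm_num : 2 ≤ 3)).trans h
        have h2 : q ^ 2 ∣ q * N := by rwa [mul_comm] at h1
        rw [pow_two] at h2
        exact hpN ((Nat.mul_dvd_mul_iff_left hq.pos).1 h2)
      · have hc : Nat.Coprime (q ^ 3) p :=
          Nat.Coprime.pow_left 3 ((Nat.coprime_primes hq hp.out).2 hqp)
        exact hN3 q hq (hc.dvd_of_dvd_mul_right h)
    · intro ℓ hℓ hb
      exact (hbad ℓ hℓ hb).trans (dvd_mul_right N p)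
    · refine s59fin_modular W hΔ p φ hφ 𝒟 D h𝒟 H hNS hSgood γ hγ hγρ (N * p)
        (mul_ne_zero hN0 hp.out.ne_zero) (dvd_mul_right N p) ?_
      intro ℓ hℓ hℓS _
      rcases hS ℓ hℓS with rfl | h
      · exact dvd_mul_left _ _
      · exact h.trans (dvd_mul_right N _)

end Glue

end Fermat.Agent.S59
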