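/-
S59, piece FIN (E-side), part 5 (helper77): a concrete coefficient ring.

* `s59fe_isLocalHom_of_p_mem` : a ring homomorphism `φ : ℤ_[p] →+* 𝒪` to a local ring with `p ∈ 𝔪_𝒪`
                                is local;
* `s59feKφ p : ℤ_[p] →+* k1o2Ring p` (the ring `𝒪₂ = ℤ_p[ζ_p][Y]/(Y² − u)` of K1-O2, residue field
  `𝔽_{p²}`), `s59feK_isLocalHom`;
* `s59feK_twHyp` : `TWHyp (k1o2Ring p) p ρ̄ S Smin` for `p ∈ {3, 5}` (no further hypothesis on the ring).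
-/
import Fermat.Agent.S59.FinEHyp
import Fermat.Agent.RT.K1.Coeff2

set_option autoImplicit false
set_option linter.style.haveILetI false
set_option linter.unusedSectionVars false
set_option linter.unusedVariables false

noncomputable section

namespace Fermat.Agent.S59

open IsLocalRing Polynomial Fermat.Agent.TW Fermat.Agent.EC Fermat.Agent.RT.K1

/-- a homomorphism `ℤ_[p] →+* 𝒪` with `p ∈ 𝔪_𝒪` is local -/
theorem s59fe_isLocalHom_of_p_mem (p : ℕ) [hp : Fact p.Prime] {𝒪 : Type} [CommRing 𝒪]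
    [IsLocalRing 𝒪] (φ : ℤ_[p] →+* 𝒪) (h : (p : 𝒪) ∈ maximalIdeal 𝒪) : IsLocalHom φ := by
  refine ⟨fun a ha => ?_⟩
  by_contra hna
  have hmem : a ∈ maximalIdeal ℤ_[p] := (IsLocalRing.mem_maximalIdeal a).2 hna
  rw [PadicInt.maximalIdeal_eq_span_p, Ideal.mem_span_singleton] at hmem
  obtain ⟨b, rfl⟩ := hmem
  have h1 : φ ((p : ℤ_[p]) * b) ∈ maximalIdeal 𝒪 := by
    rw [map_mul, map_natCast]
    exact Ideal.mul_mem_right _ _ h
  exact (IsLocalRing.mem_maximalIdeal _).1 h1 ha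

section K

variable (p : ℕ) [hp : Fact p.Prime] [hp2 : Fact (p ≠ 2)]

/-- the structure map `ℤ_[p] → 𝒪₂` -/
def s59feKφ : ℤ_[p] →+* k1o2Ring p := algebraMap ℤ_[p] (k1o2Ring p)

theorem s59feK_isLocalHom : IsLocalHom (s59feKφ p) :=
  s59fe_isLocalHom_of_p_mem p _ (k1o2_p_mem p)

variable (W : WeierstrassCurve ℤ) (hΔ : W.Δ ≠ 0)

/-- **FIN-E, `TWHyp` over `𝒪₂`**, `p ∈ {3, 5}`. -/
theorem s59feK_twHyp (hp35 : p = 3 ∨ p = 5) (hss : W.IsSemistableModel)
    (hirr : W.ModRepIsIrreducible p) (S : Finset ℕ) (hSmin : s59feSmin W hΔ p ⊆ S)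
    (hS : ∀ q ∈ S, q.Prime) :
    TWHyp (k1o2Ring p) p (s59feBar W hΔ p (s59feKφ p) (s59feK_isLocalHom p)) S
      (s59feSmin W hΔ p) :=
  s59fe_twHyp W hΔ p _ _ hp35 (k1o2_residue_split p) hss hirr S hSmin hS

end K

end Fermat.Agent.S59
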