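/-
S59 (modularity lifting) — GLUE, part 1 (helper69, captain): the ALGEBRA of Wiles' induction.

* `s59g_stmtNCStep` : `s59p_StmtNCStep 𝒪` (PROVED; lengths in a discrete valuation ring);
* `s59g_chain`      : the induction on the number of non-minimal primes:
                      MIN′ at level `0` + SEL and ETA′ at every step ⇒ the numerical inequality
                      `length Φ_{R_n} ≤ length (𝒪 ⧸ η_{L_n})` at level `n`;
* `s59g_end`        : END: the numerical inequality for the MODULE congruence ideal `η_L`,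
                      GEN (`η_T ≤ η_L`) and NC-Iso ⇒ `R ≅ T`;
* `s59g_iso`        : all together.

The module congruence ideals `η_L` are abstract ideals of `𝒪` here (helper72's module form:
`S59/EtaPlan.lean`).
-/
import Fermat.Agent.S59.Plan
import Fermat.Agent.S59.NC.LenDet

set_option autoImplicit false

namespace Fermat.Agent.S59

open IsLocalRing

section

variable (𝒪 : Type) [CommRing 𝒪] [IsDomain 𝒪] [IsDiscreteValuationRing 𝒪]

omit [IsDomain 𝒪] [IsDiscreteValuationRing 𝒪] in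
/-- `I ≤ J ⇒ length (𝒪 ⧸ J) ≤ length (𝒪 ⧸ I)`. -/
theorem s59g_length_anti {I J : Ideal 𝒪} (h : I ≤ J) :
    Module.length 𝒪 (𝒪 ⧸ J) ≤ Module.length 𝒪 (𝒪 ⧸ I) := by
  refine Module.length_le_of_surjective (Submodule.mapQ I J LinearMap.id ?_) ?_
  · intro x hx
    exact h hx
  · intro y
    obtain ⟨x, rfl⟩ := Submodule.Quotient.mk_surjective J y
    exact ⟨Submodule.Quotient.mk x, rfl⟩

/-- **NC-Step**, proved. -/
theorem s59g_stmtNCStep : s59p_StmtNCStep 𝒪 := by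
  intro lR lR' η η' c hc hη h1 h2 h3
  obtain ⟨e, he⟩ : ∃ e : 𝒪, η = Ideal.span {e} :=
    ⟨_, (IsPrincipalIdealRing.principal η).principal.choose_spec⟩
  have he0 : e ≠ 0 := by
    rintro rfl
    apply hη
    rw [he]
    exact Ideal.span_singleton_eq_bot.2 rfl
  have h4 : Ideal.span {c} * η = Ideal.span {c * e} := by
    rw [he, Ideal.span_singleton_mul_span_singleton]
  rw [h4] at h3
  calc lR' ≤ lR + Module.length 𝒪 (𝒪 ⧸ Ideal.span {c}) := h2
    _ ≤ Module.length 𝒪 (𝒪 ⧸ η) + Module.length 𝒪 (𝒪 ⧸ Ideal.span {c}) := by gcongr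
    _ = Module.length 𝒪 (𝒪 ⧸ Ideal.span {c * e}) := by
        rw [he, Fermat.Agent.S59.NC.s59ncld_length_span_mul hc he0, add_comm]
    _ ≤ Module.length 𝒪 (𝒪 ⧸ η') := s59g_length_anti 𝒪 h3

/-- **The induction** (Wiles' induction on the set of non-minimal primes, numerical part).
`lPhi i = length Φ_{R_i}`, `etaL i = η_{L_i}` at the `i`-th level `Σ_i = {q_0, …, q_{i-1}}`,
`c i = c_{q_i}`.  -/
theorem s59g_chain (n : ℕ) (lPhi : ℕ → ℕ∞) (etaL : ℕ → Ideal 𝒪) (c : ℕ → 𝒪)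
    (hmin : lPhi 0 ≤ Module.length 𝒪 (𝒪 ⧸ etaL 0))
    (hne : ∀ i ≤ n, etaL i ≠ ⊥)
    (hsel : ∀ i < n, lPhi (i + 1) ≤ lPhi i + Module.length 𝒪 (𝒪 ⧸ Ideal.span {c i}))
    (heta : ∀ i < n, etaL (i + 1) ≤ Ideal.span {c i} * etaL i) :
    lPhi n ≤ Module.length 𝒪 (𝒪 ⧸ etaL n) := by
  have key : ∀ i, i ≤ n → lPhi i ≤ Module.length 𝒪 (𝒪 ⧸ etaL i) := by
    intro i
    induction i with
    | zero => exact fun _ => hmin
    | succ i ih =>
      intro hi
      have hi' : i < n := hi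
      have hc : c i ≠ 0 := by
        intro h0
        apply hne (i + 1) hi
        have := heta i hi'
        rw [h0, Ideal.span_singleton_eq_bot.2 rfl, Ideal.bot_mul, le_bot_iff] at this
        exact this
      exact s59g_stmtNCStep 𝒪 (lPhi i) (lPhi (i + 1)) (etaL i) (etaL (i + 1)) (c i) hc
        (hne i hi'.le) (ih hi'.le) (hsel i hi') (heta i hi')
  exact key n le_rfl

/-- **END**: the numerical inequality for the module congruence ideal `η_L`, GEN (`η_T ≤ η_L`)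
and NC-Iso give `R ≅ T`. -/
theorem s59g_end (hIso : s59p_StmtNCIso 𝒪)
    (R T : Type) [CommRing R] [CommRing T] [Algebra 𝒪 R] [Algebra 𝒪 T]
    [IsLocalRing R] [IsNoetherianRing R] [IsAdicComplete (maximalIdeal R) R]
    [IsLocalRing T] [Module.Finite 𝒪 T] [Module.Free 𝒪 T]
    (φ : R →ₐ[𝒪] T) (πT : T →ₐ[𝒪] 𝒪) (hφ : Function.Surjective φ)
    (hT : s59p_eta 𝒪 πT ≠ ⊥) (etaL : Ideal 𝒪) (hgen : s59p_eta 𝒪 πT ≤ etaL)
    (h : s59p_phiLen 𝒪 (πT.comp φ) ≤ Module.length 𝒪 (𝒪 ⧸ etaL)) :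
    Function.Bijective φ :=
  hIso R T φ πT hφ hT (h.trans (s59g_length_anti 𝒪 hgen))

/-- **The algebra of Wiles' induction**: MIN′ + SEL + ETA′ + GEN + NC-Iso ⇒ `R_n ≅ T_n`. -/
theorem s59g_iso (hIso : s59p_StmtNCIso 𝒪) (n : ℕ) (lPhi : ℕ → ℕ∞) (etaL : ℕ → Ideal 𝒪)
    (c : ℕ → 𝒪)
    (hmin : lPhi 0 ≤ Module.length 𝒪 (𝒪 ⧸ etaL 0))
    (hne : ∀ i ≤ n, etaL i ≠ ⊥)
    (hsel : ∀ i < n, lPhi (i + 1) ≤ lPhi i + Module.length 𝒪 (𝒪 ⧸ Ideal.span {c i}))
    (heta : ∀ i < n, etaL (i + 1) ≤ Ideal.span {c i} * etaL i)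
    (R T : Type) [CommRing R] [CommRing T] [Algebra 𝒪 R] [Algebra 𝒪 T]
    [IsLocalRing R] [IsNoetherianRing R] [IsAdicComplete (maximalIdeal R) R]
    [IsLocalRing T] [Module.Finite 𝒪 T] [Module.Free 𝒪 T]
    (φ : R →ₐ[𝒪] T) (πT : T →ₐ[𝒪] 𝒪) (hφ : Function.Surjective φ)
    (hT : s59p_eta 𝒪 πT ≠ ⊥) (hgen : s59p_eta 𝒪 πT ≤ etaL n)
    (hn : s59p_phiLen 𝒪 (πT.comp φ) = lPhi n) :
    Function.Bijective φ :=
  s59g_end 𝒪 hIso R T φ πT hφ hT (etaL n) hgen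
    (hn ▸ s59g_chain 𝒪 n lPhi etaL c hmin hne hsel heta)

end

end Fermat.Agent.S59
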