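/-
S59, piece R3 = TOP (helper69, captain), part 7: MINLEV GLUE — the induction on the level.

`s59topm_lower` (pure arithmetic, abstract in the predicate `Mod M` = "`ρ̄` is modular of level `M`"):
from a level `M₀` (`p² ∤ M₀`, cube-free away from `p`) to the level `∏_{q ∈ R} q`, `R` = the primes
`≠ p` that cannot be removed, given
* (sq)    M1 = LOWER-SQ  : `Mod (q² M') → Mod (q M')`            (`q ≠ p`, `q ∤ M'`),
* (lowp)  M4 = LOWER-P   : `Mod M → Mod (M / p)`                 (`p ∥ M`),
* (lowq)  M2 ∪ M3 = LOWER-Q : `Mod M → Mod (M / q)`              (`M` squarefree, `q ∣ M`, `q ≠ p`, `q ∉ R`),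
* (raise) RAISE ✓        : `Mod M → Mod C`                       (`M ∣ C ≠ 0`).
-/
import Mathlib

set_option autoImplicit false
set_option linter.unusedVariables false
set_option linter.style.longLine false

namespace Fermat.Agent.S59

/-- a squarefree number all of whose prime factors lie in `R` divides `∏_{q ∈ R} q` -/
theorem s59topm_dvd_prod {M : ℕ} (hM : Squarefree M) (R : Finset ℕ)
    (h : ∀ q : ℕ, q.Prime → q ∣ M → q ∈ R) : M ∣ ∏ q ∈ R, q := by
  have h1 : ∏ q ∈ M.primeFactors, q = M := Nat.prod_primeFactors_of_squarefree hM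
  have h2 : M.primeFactors ⊆ R := fun q hq =>
    h q (Nat.prime_of_mem_primeFactors hq) (Nat.dvd_of_mem_primeFactors hq)
  calc M = ∏ q ∈ M.primeFactors, q := h1.symm
    _ ∣ ∏ q ∈ R, q := Finset.prod_dvd_prod_of_subset _ _ _ h2

/-- **MINLEV, the induction on the level** (see the header). -/
theorem s59topm_lower (Mod : ℕ → Prop) (p : ℕ) (hp : p.Prime) (R : Finset ℕ)
    (hR : ∀ q ∈ R, q.Prime)
    (hsq : ∀ q M' : ℕ, q.Prime → q ≠ p → 0 < M' → ¬ q ∣ M' → Mod (q ^ 2 * M') → Mod (q * M'))
    (hlowp : ∀ M : ℕ, 0 < M → p ∣ M → ¬ p ^ 2 ∣ M → Mod M → Mod (M / p))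
    (hlowq : ∀ M q : ℕ, Squarefree M → ¬ p ∣ M → q.Prime → q ≠ p → q ∣ M → q ∉ R → Mod M →
      Mod (M / q))
    (hraise : ∀ M C : ℕ, C ≠ 0 → M ∣ C → Mod M → Mod C) :
    ∀ M₀ : ℕ, 0 < M₀ → ¬ p ^ 2 ∣ M₀ → (∀ q : ℕ, q.Prime → q ≠ p → ¬ q ^ 3 ∣ M₀) → Mod M₀ →
      Mod (∏ q ∈ R, q) := by
  intro M₀
  induction M₀ using Nat.strong_induction_on with
  | _ M ih =>
    intro hM hp2 h3 hmod
    by_cases hA : ∃ q : ℕ, q.Prime ∧ q ≠ p ∧ q ^ 2 ∣ M
    · -- remove a square
      obtain ⟨q, hq, hqp, M', rfl⟩ := hA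
      have hM' : 0 < M' := Nat.pos_of_ne_zero (by rintro rfl; simp at hM)
      have hqM' : ¬ q ∣ M' := by
        rintro ⟨k, rfl⟩
        exact h3 q hq hqp ⟨k, by ring⟩
      have hdvd : q * M' ∣ q ^ 2 * M' := ⟨q, by ring⟩
      have hlt : q * M' < q ^ 2 * M' := by
        have h2 : q * M' * 1 < q * M' * q :=
          Nat.mul_lt_mul_of_pos_left hq.one_lt (Nat.mul_pos hq.pos hM')
        calc q * M' = q * M' * 1 := (mul_one _).symm
          _ < q * M' * q := h2
          _ = q ^ 2 * M' := by ring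
      exact ih (q * M') hlt (Nat.mul_pos hq.pos hM') (fun h => hp2 (h.trans hdvd))
        (fun q' hq' hq'p h => h3 q' hq' hq'p (h.trans hdvd)) (hsq q M' hq hqp hM' hqM' hmod)
    · by_cases hB : p ∣ M
      · -- remove `p`
        have hdvd : M / p ∣ M := Nat.div_dvd_of_dvd hB
        have hpos : 0 < M / p := Nat.div_pos (Nat.le_of_dvd hM hB) hp.pos
        have hlt : M / p < M := Nat.div_lt_self hM hp.one_lt
        exact ih (M / p) hlt hpos (fun h => hp2 (h.trans hdvd))
          (fun q' hq' hq'p h => h3 q' hq' hq'p (h.trans hdvd)) (hlowp M hM hB hp2 hmod)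
      · -- `M` is squarefree and prime to `p`
        have hsqf : Squarefree M := by
          rw [Nat.squarefree_iff_prime_squarefree]
          intro x hx hxx
          by_cases hxp : x = p
          · subst hxp
            exact hB (Dvd.dvd.trans (Dvd.intro x rfl) hxx)
          · exact hA ⟨x, hx, hxp, by rwa [pow_two]⟩
        by_cases hC : ∃ q : ℕ, q.Prime ∧ q ∣ M ∧ q ∉ R
        · obtain ⟨q, hq, hqM, hqR⟩ := hC
          have hqp : q ≠ p := by
            rintro rfl
            exact hB hqM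
          have hdvd : M / q ∣ M := Nat.div_dvd_of_dvd hqM
          have hpos : 0 < M / q := Nat.div_pos (Nat.le_of_dvd hM hqM) hq.pos
          have hlt : M / q < M := Nat.div_lt_self hM hq.one_lt
          exact ih (M / q) hlt hpos (fun h => hp2 (h.trans hdvd))
            (fun q' hq' hq'p h => h3 q' hq' hq'p (h.trans hdvd))
            (hlowq M q hsqf hB hq hqp hqM hqR hmod)
        · -- all prime factors are in `R`
          have hall : ∀ q : ℕ, q.Prime → q ∣ M → q ∈ R := by
            intro q hq hqM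
            by_contra hqR
            exact hC ⟨q, hq, hqM, hqR⟩
          have hne : (∏ q ∈ R, q) ≠ 0 :=
            Finset.prod_ne_zero_iff.2 (fun q hq => (hR q hq).ne_zero)
          exact hraise M _ hne (s59topm_dvd_prod hsqf R hall) hmod

/-- **MINLEV, the induction on the level**, with LOWER-P available at EVEN levels only (the case
`p = 3`): an odd level is first raised by `2`. -/
theorem s59topm_lower_even (Mod : ℕ → Prop) (p : ℕ) (hp : p.Prime) (hp2' : p ≠ 2)
    (R : Finset ℕ) (hR : ∀ q ∈ R, q.Prime)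
    (hsq : ∀ q M' : ℕ, q.Prime → q ≠ p → 0 < M' → ¬ q ∣ M' → Mod (q ^ 2 * M') → Mod (q * M'))
    (hlowp : ∀ M : ℕ, 0 < M → 2 ∣ M → p ∣ M → ¬ p ^ 2 ∣ M → Mod M → Mod (M / p))
    (hlowq : ∀ M q : ℕ, Squarefree M → ¬ p ∣ M → q.Prime → q ≠ p → q ∣ M → q ∉ R → Mod M →
      Mod (M / q))
    (hraise : ∀ M C : ℕ, C ≠ 0 → M ∣ C → Mod M → Mod C) :
    ∀ M₀ : ℕ, 0 < M₀ → ¬ p ^ 2 ∣ M₀ → (∀ q : ℕ, q.Prime → q ≠ p → ¬ q ^ 3 ∣ M₀) → Mod M₀ →
      Mod (∏ q ∈ R, q) := by
  have hp3 : 3 ≤ p := by
    have := hp.two_le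
    omega
  have hcop2 : Nat.Coprime p 2 := (Nat.coprime_primes hp Nat.prime_two).2 hp2'
  intro M₀
  induction M₀ using Nat.strong_induction_on with
  | _ M ih =>
    intro hM hp2 h3 hmod
    by_cases hA : ∃ q : ℕ, q.Prime ∧ q ≠ p ∧ q ^ 2 ∣ M
    · obtain ⟨q, hq, hqp, M', rfl⟩ := hA
      have hM' : 0 < M' := Nat.pos_of_ne_zero (by rintro rfl; simp at hM)
      have hqM' : ¬ q ∣ M' := by
        rintro ⟨k, rfl⟩
        exact h3 q hq hqp ⟨k, by ring⟩
      have hdvd : q * M' ∣ q ^ 2 * M' := ⟨q, by ring⟩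
      have hlt : q * M' < q ^ 2 * M' := by
        have h2 : q * M' * 1 < q * M' * q :=
          Nat.mul_lt_mul_of_pos_left hq.one_lt (Nat.mul_pos hq.pos hM')
        calc q * M' = q * M' * 1 := (mul_one _).symm
          _ < q * M' * q := h2
          _ = q ^ 2 * M' := by ring
      exact ih (q * M') hlt (Nat.mul_pos hq.pos hM') (fun h => hp2 (h.trans hdvd))
        (fun q' hq' hq'p h => h3 q' hq' hq'p (h.trans hdvd)) (hsq q M' hq hqp hM' hqM' hmod)
    · by_cases hB : p ∣ M
      · by_cases h2M : 2 ∣ M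
        · have hdvd : M / p ∣ M := Nat.div_dvd_of_dvd hB
          have hpos : 0 < M / p := Nat.div_pos (Nat.le_of_dvd hM hB) hp.pos
          have hlt : M / p < M := Nat.div_lt_self hM hp.one_lt
          exact ih (M / p) hlt hpos (fun h => hp2 (h.trans hdvd))
            (fun q' hq' hq'p h => h3 q' hq' hq'p (h.trans hdvd)) (hlowp M hM h2M hB hp2 hmod)
        · -- raise by `2`, then remove `p`
          obtain ⟨k, rfl⟩ := hB
          have hk : 0 < k := Nat.pos_of_ne_zero (by rintro rfl; simp at hM)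
          have hpk : ¬ p ∣ k := by
            rintro ⟨j, rfl⟩
            exact hp2 ⟨j, by ring⟩
          have h2k : ¬ 2 ∣ k := fun h => h2M (Dvd.dvd.mul_left h p)
          have hmod2 : Mod (2 * (p * k)) :=
            hraise (p * k) (2 * (p * k)) (by positivity) (Dvd.intro_left 2 rfl) hmod
          have hnp2 : ¬ p ^ 2 ∣ 2 * (p * k) := by
            intro h
            have h' : p ^ 2 ∣ p * k :=
              (Nat.Coprime.pow_left 2 hcop2).dvd_of_dvd_mul_left h
            exact hp2 h'
          have hmod3 : Mod (2 * (p * k) / p) :=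
            hlowp (2 * (p * k)) (by positivity) (Dvd.intro _ rfl)
              (Dvd.dvd.mul_left (Dvd.intro _ rfl) 2) hnp2 hmod2
          have heq : 2 * (p * k) / p = 2 * k := by
            rw [show 2 * (p * k) = p * (2 * k) by ring]
            exact Nat.mul_div_cancel_left _ hp.pos
          rw [heq] at hmod3
          have hlt : 2 * k < p * k := Nat.mul_lt_mul_of_pos_right (by omega) hk
          refine ih (2 * k) hlt (by positivity) ?_ ?_ hmod3
          · intro h
            have h1 : p ∣ 2 * k := Dvd.dvd.trans (Dvd.intro_left (p ^ 1) (by ring)) h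
            exact hpk (hcop2.dvd_of_dvd_mul_left h1)
          · intro q hq hqp h
            by_cases hq2 : q = 2
            · subst hq2
              have h4 : 2 * 4 ∣ 2 * k := by
                have : (2 : ℕ) ^ 3 = 2 * 4 := by norm_num
                rwa [this] at h
              have h5 : 4 ∣ k := (Nat.mul_dvd_mul_iff_left (by norm_num)).1 h4
              exact h2k (Dvd.dvd.trans (by norm_num) h5)
            · have hc : Nat.Coprime (q ^ 3) 2 :=
                Nat.Coprime.pow_left 3 ((Nat.coprime_primes hq Nat.prime_two).2 hq2)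
              have h5 : q ^ 3 ∣ k := hc.dvd_of_dvd_mul_left h
              exact h3 q hq hqp (Dvd.dvd.mul_left h5 p)
      · have hsqf : Squarefree M := by
          rw [Nat.squarefree_iff_prime_squarefree]
          intro x hx hxx
          by_cases hxp : x = p
          · subst hxp
            exact hB (Dvd.dvd.trans (Dvd.intro x rfl) hxx)
          · exact hA ⟨x, hx, hxp, by rwa [pow_two]⟩
        by_cases hC : ∃ q : ℕ, q.Prime ∧ q ∣ M ∧ q ∉ R
        · obtain ⟨q, hq, hqM, hqR⟩ := hC
          have hqp : q ≠ p := by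
            rintro rfl
            exact hB hqM
          have hdvd : M / q ∣ M := Nat.div_dvd_of_dvd hqM
          have hpos : 0 < M / q := Nat.div_pos (Nat.le_of_dvd hM hqM) hq.pos
          have hlt : M / q < M := Nat.div_lt_self hM hq.one_lt
          exact ih (M / q) hlt hpos (fun h => hp2 (h.trans hdvd))
            (fun q' hq' hq'p h => h3 q' hq' hq'p (h.trans hdvd))
            (hlowq M q hsqf hB hq hqp hqM hqR hmod)
        · have hall : ∀ q : ℕ, q.Prime → q ∣ M → q ∈ R := by
            intro q hq hqM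
            by_contra hqR
            exact hC ⟨q, hq, hqM, hqR⟩
          have hne : (∏ q ∈ R, q) ≠ 0 :=
            Finset.prod_ne_zero_iff.2 (fun q hq => (hR q hq).ne_zero)
          exact hraise M _ hne (s59topm_dvd_prod hsqf R hall) hmod

end Fermat.Agent.S59
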