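/-
S59, piece R3 = TOP (helper69, captain), part 8: MINLEV-A — the base level of case (a), wired.

For `W` semistable, GOOD at `p ∈ {3, 5}`, `ρ̄_{W,p}` irreducible and modular of a level `M₀`
(`p² ∤ M₀`, cube-free away from `p`):  `ρ̄_{W,p}` is modular of the level
`N₀ = ∏_{q ∈ Smin, q ≠ p} q`  (`Smin = {p} ∪ {q ∣ Δ : ρ̄ ramified at q}`), from the walls

* M1 = `s59lsq_StmtWall`              (LOWER-SQ, `S59/LowSq/Plan.lean`, deputy helper48),
* M2 ∪ M3 = `s59topm_StmtLowQ`        (LOWER-Q: the frozen S38 shape with `ρ̄ = tateRepInt.residual`),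
* M4 = `s59topm_StmtLowPGood`         (LOWER-P at EVEN levels for `W` good at `p`: the frozen S40 shape),
* RAISE ✓ = `LowQ.s59lq_StmtRaise`.

Also: `s59topm_N0_dvd_iff`, `s59topm_N0_squarefree` (the hypotheses `hN0`, `hN0sq` of the STEP).
-/
import Fermat.Agent.S59.TopMinLev
import Fermat.Agent.S59.FinEHyp
import Fermat.Agent.S59.LowSq.Plan
import Fermat.Agent.S59.LowQ.Plan

set_option autoImplicit false
set_option linter.style.haveILetI false
set_option linter.unusedSectionVars false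
set_option linter.unusedVariables false
set_option linter.style.longLine false

noncomputable section

namespace Fermat.Agent.S59

open IsLocalRing Fermat.Agent.TW Fermat.Agent.EC

/-- **LOWER-Q in the form consumed by MINLEV** (= the frozen S38 shape, `ρ̄` = the residual
representation of `tateRepInt W`; `q = 2` allowed; squarefree levels prime to `p`). -/
def s59topm_StmtLowQ : Prop :=
  ∀ (p : ℕ) [Fact p.Prime], (p = 3 ∨ p = 5) → ∀ (W : WeierstrassCurve ℤ) (hΔ : W.Δ ≠ 0),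
    W.IsSemistableModel → W.ModRepIsIrreducible p →
    ∀ M q : ℕ, Squarefree M → ¬ p ∣ M → q.Prime → q ≠ p → q ∣ M →
      (tateRepInt W hΔ p).residual.IsUnramifiedAt q →
      W.IsResiduallyModularOfLevel p M → W.IsResiduallyModularOfLevel p (M / q)

/-- **LOWER-P for `W` good at `p`, at EVEN levels** (= the frozen S40 shape at even levels). -/
def s59topm_StmtLowPGood : Prop :=
  ∀ (p : ℕ) [Fact p.Prime], (p = 3 ∨ p = 5) → ∀ (W : WeierstrassCurve ℤ), W.Δ ≠ 0 →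
    W.IsSemistableModel → W.ModRepIsIrreducible p → W.IsGoodPrimeFor p →
    ∀ M : ℕ, 0 < M → 2 ∣ M → p ∣ M → ¬ p ^ 2 ∣ M →
      W.IsResiduallyModularOfLevel p M → W.IsResiduallyModularOfLevel p (M / p)

section N0

variable (W : WeierstrassCurve ℤ) (hΔ : W.Δ ≠ 0) (p : ℕ) [hp : Fact p.Prime]

/-- the base level of case (a) -/
def s59topmN0 : ℕ := ∏ q ∈ (s59feSmin W hΔ p).erase p, q

theorem s59topm_prime_of_mem {q : ℕ} (h : q ∈ (s59feSmin W hΔ p).erase p) : q.Prime :=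
  s59fe_prime_of_mem_Smin W hΔ p (Finset.mem_of_mem_erase h)

theorem s59topm_N0_dvd_iff (ℓ : ℕ) (hℓ : ℓ.Prime) :
    ℓ ∣ s59topmN0 W hΔ p ↔ ℓ ∈ s59feSmin W hΔ p ∧ ℓ ≠ p := by
  unfold s59topmN0
  constructor
  · intro h
    obtain ⟨a, ha, hd⟩ := (Prime.dvd_finsetProd_iff hℓ.prime _).1 h
    have := (Nat.prime_dvd_prime_iff_eq hℓ (s59topm_prime_of_mem W hΔ p ha)).1 hd
    subst this
    exact ⟨Finset.mem_of_mem_erase ha, Finset.ne_of_mem_erase ha⟩
  · rintro ⟨h1, h2⟩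
    exact Finset.dvd_prod_of_mem (fun q => q) (Finset.mem_erase.2 ⟨h2, h1⟩)

theorem s59topm_N0_squarefree : Squarefree (s59topmN0 W hΔ p) := by
  classical
  rw [Nat.squarefree_iff_prime_squarefree]
  intro x hx hxx
  have hxN : x ∣ s59topmN0 W hΔ p := Dvd.dvd.trans (Dvd.intro x rfl) hxx
  have hmem : x ∈ (s59feSmin W hΔ p).erase p :=
    Finset.mem_erase.2 ⟨((s59topm_N0_dvd_iff W hΔ p x hx).1 hxN).2,
      ((s59topm_N0_dvd_iff W hΔ p x hx).1 hxN).1⟩
  unfold s59topmN0 at hxx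
  rw [← Finset.mul_prod_erase _ _ hmem] at hxx
  have h1 : x ∣ ∏ q ∈ ((s59feSmin W hΔ p).erase p).erase x, q :=
    (Nat.mul_dvd_mul_iff_left hx.pos).1 hxx
  obtain ⟨a, ha, hd⟩ := (Prime.dvd_finsetProd_iff hx.prime _).1 h1
  have hap : a.Prime := s59topm_prime_of_mem W hΔ p (Finset.mem_of_mem_erase ha)
  have := (Nat.prime_dvd_prime_iff_eq hx hap).1 hd
  subst this
  exact (Finset.notMem_erase x _) ha

theorem s59topm_N0_ne_zero : s59topmN0 W hΔ p ≠ 0 :=
  (s59topm_N0_squarefree W hΔ p).ne_zero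

end N0

/-- **MINLEV-A**: the base level of case (a). -/
theorem s59topm_minlev_good (hM1 : s59lsq_StmtWall) (hQ : s59topm_StmtLowQ)
    (hP : s59topm_StmtLowPGood) (hraise : LowQ.s59lq_StmtRaise)
    (p : ℕ) [Fact p.Prime] (hp : p = 3 ∨ p = 5) (W : WeierstrassCurve ℤ) (hΔ : W.Δ ≠ 0)
    (hW : W.IsSemistableModel) (hirr : W.ModRepIsIrreducible p) (hgood : W.IsGoodPrimeFor p)
    (M₀ : ℕ) (hM₀ : 0 < M₀) (hres : W.IsResiduallyModularOfLevel p M₀) (hp2 : ¬ p ^ 2 ∣ M₀)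
    (h3 : ∀ q : ℕ, q.Prime → q ≠ p → ¬ q ^ 3 ∣ M₀) :
    W.IsResiduallyModularOfLevel p (s59topmN0 W hΔ p) := by
  classical
  have hpp : p.Prime := Fact.out
  have hp2' : p ≠ 2 := by rcases hp with rfl | rfl <;> decide
  refine s59topm_lower_even (fun M => W.IsResiduallyModularOfLevel p M) p hpp hp2'
    ((s59feSmin W hΔ p).erase p) (fun q hq => s59topm_prime_of_mem W hΔ p hq) ?_ ?_ ?_ ?_
    M₀ hM₀ hp2 h3 hres
  · intro q M' hq hqp hM' hqM' h
    exact hM1 p hp W hΔ hW hirr q M' hq hqp hM' hqM' trivial h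
  · intro M hM h2 hpM hp2M h
    exact hP p hp W hΔ hW hirr hgood M hM h2 hpM hp2M h
  · intro M q hsq hpM hq hqp hqM hqR h
    refine hQ p hp W hΔ hW hirr M q hsq hpM hq hqp hqM ?_ h
    by_contra hram
    exact hqR (Finset.mem_erase.2 ⟨hqp, (s59fe_hmin_res W hΔ p hq hqp).2 hram⟩)
  · intro M C hC hMC h
    exact hraise W p M C hC hMC h

end Fermat.Agent.S59

end
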