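/-
S59, piece SEL (Selmer growth at one prime `q`) — INTERFACE (helper48, sub-captain).
Plan and piece table: NOTES/S59-SEL.md.

`R` universal of type `Σ`, `R'` universal of type `Σ ∪ {q}`, `x`, `x'` augmentations with the same
lift `ρ_x` of `ρ̄` to `𝒪`.  Then `length Φ_{R'} ≤ length Φ_R + length (𝒪 ⧸ c_q)`,
`c_q = (q − 1) (t² − (q + 1)²)`, `t = tr ρ_x(Frob_q)`.

NO cohomology: everything is done with the finite sets `Der_x(R, 𝒪 ⧸ 𝔪ⁿ)` of `𝒪`-derivations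
(= maps `R → (𝒪 ⧸ 𝔪ⁿ)[ε]` over `x`), by COUNTING.

Pieces (one `Prop` each):
* `StmtSelAlg`  (ALG, Mathlib only): `#Der_{x'}(R', 𝒪⧸𝔪ⁿ) ≤ #Der_x(R, 𝒪⧸𝔪ⁿ) · #(𝒪 ⧸ c)` for all `n`
  ⇒ `length Φ_{R'} ≤ length Φ_R + length (𝒪 ⧸ c)`;
* `StmtSelLin`  (LIN, Mathlib only): `#{C ∈ sl₂(𝒪 ⧸ 𝔪ⁿ) : Fr C = q C Fr} ≤ #(𝒪 ⧸ c_q)`;
* `StmtSelTame` (TAME): tame inertia at `q`, for target groups of exponent prime to `q`
  (generalisation of `TW.L.ltame_global`, which is the case of prime exponent);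
* `StmtSelCore` (CORE): the counting inequality from the universal properties, for an abstract
  pair of deformation conditions `𝒟₀ ⊆ 𝒟₁` which differ by "unramified at `q`";
* final statements `StmtSelFlat`, `StmtSelOrd` (= `s59p_StmtSel` of `S59/PlanArith.lean` for
  `twFlat`, `twOrd`, with `p`, `Smin` bound correctly and with the hypothesis "same traces"
  replaced by "equivalent specialisations"; the bridge is Carayol's lemma, piece CAR).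
-/
import Fermat.Agent.S59.PlanArith

set_option autoImplicit false

namespace Fermat.Agent.S59

open IsLocalRing Fermat.Agent.TW

/-- `ℚ̄` -/
local notation "Qbar" => AlgebraicClosure ℚ

section Der

variable (𝒪 : Type) [CommRing 𝒪] [IsLocalRing 𝒪]

/-- The `𝒪`-derivations `R → 𝒪 ⧸ 𝔪ⁿ` over the augmentation `x : R → 𝒪` (`d (a b) = x a · d b +
x b · d a`, `d` additive, `d = 0` on `𝒪`), as an additive subgroup of the functions.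
`d ↦ (r ↦ (x r mod 𝔪ⁿ) + ε · d r)` identifies it with the set of `𝒪`-algebra maps
`R → (𝒪 ⧸ 𝔪ⁿ)[ε]` over `x`, and with `Hom_𝒪 (ker x ⧸ (ker x)², 𝒪 ⧸ 𝔪ⁿ)`. -/
def s59selDer {R : Type} [CommRing R] [Algebra 𝒪 R] (x : R →ₐ[𝒪] 𝒪) (n : ℕ) :
    AddSubgroup (R → 𝒪 ⧸ maximalIdeal 𝒪 ^ n) where
  carrier := {d | (∀ a b, d (a + b) = d a + d b) ∧
    (∀ a b, d (a * b) = Ideal.Quotient.mk _ (x a) * d b + Ideal.Quotient.mk _ (x b) * d a) ∧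
    ∀ c : 𝒪, d (algebraMap 𝒪 R c) = 0}
  zero_mem' := ⟨fun _ _ => by simp, fun _ _ => by simp, fun _ => rfl⟩
  add_mem' := by
    rintro d e ⟨hd1, hd2, hd3⟩ ⟨he1, he2, he3⟩
    refine ⟨fun a b => ?_, fun a b => ?_, fun c => ?_⟩
    · simp only [Pi.add_apply, hd1, he1]; abel
    · simp only [Pi.add_apply, hd2, he2]; ring
    · simp only [Pi.add_apply, hd3, he3, add_zero]
  neg_mem' := by
    rintro d ⟨hd1, hd2, hd3⟩
    refine ⟨fun a b => ?_, fun a b => ?_, fun c => ?_⟩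
    · simp only [Pi.neg_apply, hd1]; abel
    · simp only [Pi.neg_apply, hd2]; ring
    · simp only [Pi.neg_apply, hd3, neg_zero]

end Der

section Pieces

variable (𝒪 : Type) [CommRing 𝒪] [IsDomain 𝒪] [IsDiscreteValuationRing 𝒪]
  [Finite (ResidueField 𝒪)]

/-- **SEL-ALG** (Mathlib only).  From the counting inequalities for the derivations to
`𝒪 ⧸ 𝔪ⁿ`, all `n`, to the inequality of lengths of the cotangent spaces.
(`Der_x(R, 𝒪⧸𝔪ⁿ) = Hom_𝒪(Φ, 𝒪⧸𝔪ⁿ)`, `Φ = ker x ⧸ (ker x)²` finitely generated over `𝒪`;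
structure theorem over the PID `𝒪`; `#(M) = #k ^ length M`.) -/
def StmtSelAlg : Prop :=
  ∀ (R R' : Type) [CommRing R] [CommRing R'] [Algebra 𝒪 R] [Algebra 𝒪 R']
    [IsNoetherianRing R] [IsNoetherianRing R'] (x : R →ₐ[𝒪] 𝒪) (x' : R' →ₐ[𝒪] 𝒪) (c : 𝒪),
    c ≠ 0 →
    (∀ n : ℕ, Nat.card (s59selDer 𝒪 x' n) ≤
      Nat.card (s59selDer 𝒪 x n) * Nat.card (𝒪 ⧸ Ideal.span {c})) →
    s59p_phiLen 𝒪 x' ≤ s59p_phiLen 𝒪 x + Module.length 𝒪 (𝒪 ⧸ Ideal.span {c})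

/-- **SEL-LIN** (Mathlib only).  `Fr ∈ M₂(𝒪)` with `det Fr = q` a unit, `t = tr Fr`,
`c = (q − 1)(t² − (q + 1)²) ≠ 0`: the trace-zero matrices `C` over `𝒪 ⧸ 𝔪ⁿ` with
`Fr C = q C Fr` are at most `#(𝒪 ⧸ c)`.
(`T C = Fr C Fr^{adj} − q² C` on `sl₂(𝒪)` has determinant `q³ c` (explicit `3 × 3` determinant);
`# ker (T mod 𝔪ⁿ) = # coker (T mod 𝔪ⁿ) ≤ # coker T = #(𝒪 ⧸ det T)` (Smith normal form).) -/
def StmtSelLin : Prop :=
  ∀ (Fr : Matrix (Fin 2) (Fin 2) 𝒪) (q : 𝒪) (n : ℕ), IsUnit q → Fr.det = q →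
    (q - 1) * (Fr.trace ^ 2 - (q + 1) ^ 2) ≠ 0 →
    Nat.card {C : Matrix (Fin 2) (Fin 2) (𝒪 ⧸ maximalIdeal 𝒪 ^ n) // C.trace = 0 ∧
        Fr.map (Ideal.Quotient.mk (maximalIdeal 𝒪 ^ n)) * C =
          Ideal.Quotient.mk (maximalIdeal 𝒪 ^ n) q •
            (C * Fr.map (Ideal.Quotient.mk (maximalIdeal 𝒪 ^ n)))} ≤
      Nat.card (𝒪 ⧸ Ideal.span {(q - 1) * (Fr.trace ^ 2 - (q + 1) ^ 2)})

end Pieces

section Tame

/-- **SEL-TAME.**  `A` a place of `ℚ̄` over `q`, `F` a finite level.  There is `t` in the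
inertia group `I_A` such that every homomorphism `h` from `I_A` to a group of exponent `N` prime
to `q` which is trivial on the elements fixing `F` has its image in the powers of `h t`, and
`h (φ t φ⁻¹) = h t ^ q` for every Frobenius element `φ` at `A`.
(`TW.L.ltame_global` is the case of a prime exponent; same proof.) -/
def StmtSelTame : Prop :=
  ∀ (q : ℕ), q.Prime → ∀ A : ValuationSubring Qbar, A.LiesOverPrime q →
    ∀ F : IntermediateField ℚ Qbar, FiniteDimensional ℚ F →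
    ∃ t : ↥(A.inertiaSubgroupIn ℚ), ∀ (N : ℕ), Nat.Coprime q N →
      ∀ (B : Type) [Group B] (h : ↥(A.inertiaSubgroupIn ℚ) →* B),
      (∀ a : B, a ^ N = 1) → (∀ y : ↥(A.inertiaSubgroupIn ℚ), (y : S59G) ∈ F.fixingSubgroup →
        h y = 1) →
      (∀ y, ∃ n : ℕ, h y = h t ^ n) ∧
      ∀ (t' : ↥(A.inertiaSubgroupIn ℚ)) (φ : S59G), A.IsFrobeniusAt φ q →
        (t' : S59G) = φ * (t : S59G) * φ⁻¹ → h t' = h t ^ q

end Tame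

section Core

variable (𝒪 : Type) [CommRing 𝒪] [IsDomain 𝒪] [IsDiscreteValuationRing 𝒪]
  [IsAdicComplete (maximalIdeal 𝒪) 𝒪] [Finite (ResidueField 𝒪)]

/-- The hypothesis "`x` and `x'` give the same lift of `ρ̄` to `𝒪`". -/
def s59selSame {ρbar : ResidualGaloisRep (ResidueField 𝒪)}
    {𝒟₀ 𝒟₁ : ∀ ⦃A : Type⦄ [CommRing A] [IsLocalRing A] [Algebra 𝒪 A], GaloisRepAdic A → Prop}
    (D : GaloisRep.DeformationRingData 𝒪 ρbar 𝒟₀) (D' : GaloisRep.DeformationRingData 𝒪 ρbar 𝒟₁)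
    (x : D.R →ₐ[𝒪] 𝒪) (x' : D'.R →ₐ[𝒪] 𝒪) : Prop :=
  ∃ (hx : IsLocalHom (x : D.R →+* 𝒪)) (hx' : IsLocalHom (x' : D'.R →+* 𝒪)),
    (D'.ρ.baseChangeAlong (x' : D'.R →+* 𝒪) hx').IsEquiv (D.ρ.baseChangeAlong (x : D.R →+* 𝒪) hx)

/-- The hypothesis "`t` is the trace of Frobenius at `q` of `ρ_x`". -/
def s59selTrace {ρbar : ResidualGaloisRep (ResidueField 𝒪)}
    {𝒟₀ : ∀ ⦃A : Type⦄ [CommRing A] [IsLocalRing A] [Algebra 𝒪 A], GaloisRepAdic A → Prop}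
    (D : GaloisRep.DeformationRingData 𝒪 ρbar 𝒟₀) (x : D.R →ₐ[𝒪] 𝒪) (q : ℕ) (t : 𝒪) : Prop :=
  ∀ P : ValuationSubring Qbar, P.LiesOverPrime q → ∀ φ : S59G, P.IsFrobeniusAt φ q →
    x (LinearMap.trace D.R D.ρ.V (D.ρ.ρ φ)) = t

/-- **SEL-CORE.**  `𝒟₀ ⊆ 𝒟₁` two deformation conditions which differ by "unramified at `q`"
(`q ≠ p`), `𝒟₁` has cyclotomic determinant and is stable under base change along SURJECTIVE local
maps; `D`, `D'` universal of type `𝒟₀`, `𝒟₁`.  Then the counting inequality holds for every `n`.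
(Universal properties + TAME + LIN; NOTES/S59-SEL.md §3.) -/
def StmtSelCore : Prop :=
  ∀ (p : ℕ) [Fact p.Prime] (ρbar : ResidualGaloisRep (ResidueField 𝒪))
    (𝒟₀ 𝒟₁ : ∀ ⦃A : Type⦄ [CommRing A] [IsLocalRing A] [Algebra 𝒪 A], GaloisRepAdic A → Prop)
    (q : ℕ), q.Prime → q ≠ p → (p : 𝒪) ∈ maximalIdeal 𝒪 →
    (∀ (A : Type) [CommRing A] [IsLocalRing A] [Algebra 𝒪 A] (ρ : GaloisRepAdic A),
      𝒟₀ ρ → 𝒟₁ ρ) →
    (∀ (A : Type) [CommRing A] [IsLocalRing A] [Algebra 𝒪 A] (ρ : GaloisRepAdic A),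
      𝒟₁ ρ → ρ.IsUnramifiedAt q → 𝒟₀ ρ) →
    (∀ (A : Type) [CommRing A] [IsLocalRing A] [Algebra 𝒪 A] (ρ : GaloisRepAdic A),
      𝒟₀ ρ → ρ.IsUnramifiedAt q) →
    (∀ (A : Type) [CommRing A] [IsLocalRing A] [Algebra 𝒪 A] (ρ : GaloisRepAdic A),
      𝒟₁ ρ → ρ.DetIsCyclotomic p) →
    (∀ (A B : Type) [CommRing A] [IsLocalRing A] [Algebra 𝒪 A] [CommRing B] [IsLocalRing B]
      [Algebra 𝒪 B] (φ : A →ₐ[𝒪] B) (hφ : IsLocalHom (φ : A →+* B)), Function.Surjective φ →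
      ∀ ρ : GaloisRepAdic A, 𝒟₁ ρ → 𝒟₁ (ρ.baseChangeAlong (φ : A →+* B) hφ)) →
    ∀ (D : GaloisRep.DeformationRingData 𝒪 ρbar 𝒟₀)
      (D' : GaloisRep.DeformationRingData 𝒪 ρbar 𝒟₁)
      (x : D.R →ₐ[𝒪] 𝒪) (x' : D'.R →ₐ[𝒪] 𝒪) (t : 𝒪),
      s59selSame 𝒪 D D' x x' → s59selTrace 𝒪 D x q t → s59p_cq 𝒪 q t ≠ 0 →
      ∀ n : ℕ, Nat.card (s59selDer 𝒪 x' n) ≤
        Nat.card (s59selDer 𝒪 x n) * Nat.card (𝒪 ⧸ Ideal.span {s59p_cq 𝒪 q t})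

/-- **SEL, flat case** (corrected form of `s59p_StmtSel 𝒪 (twFlat 𝒪 p Smin)`). -/
def StmtSelFlat : Prop :=
  ∀ (p : ℕ) [Fact p.Prime] (ρbar : ResidualGaloisRep (ResidueField 𝒪)) (S Smin : Finset ℕ),
    TWHyp 𝒪 p ρbar S Smin → ∀ (Sg : Finset ℕ) (q : ℕ), q.Prime → q ∉ Smin → q ∉ Sg →
    ∀ (D : GaloisRep.DeformationRingData 𝒪 ρbar (twFlat 𝒪 p Smin Sg))
      (D' : GaloisRep.DeformationRingData 𝒪 ρbar (twFlat 𝒪 p Smin (insert q Sg)))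
      (x : D.R →ₐ[𝒪] 𝒪) (x' : D'.R →ₐ[𝒪] 𝒪) (t : 𝒪),
      s59selSame 𝒪 D D' x x' → s59selTrace 𝒪 D x q t →
      s59p_phiLen 𝒪 x' ≤ s59p_phiLen 𝒪 x + Module.length 𝒪 (𝒪 ⧸ Ideal.span {s59p_cq 𝒪 q t})

/-- **SEL, ordinary case** (corrected form of `s59p_StmtSel 𝒪 (twOrd 𝒪 p Smin)`). -/
def StmtSelOrd : Prop :=
  ∀ (p : ℕ) [Fact p.Prime] (ρbar : ResidualGaloisRep (ResidueField 𝒪)) (S Smin : Finset ℕ),
    TWHyp 𝒪 p ρbar S Smin → ∀ (Sg : Finset ℕ) (q : ℕ), q.Prime → q ∉ Smin → q ∉ Sg →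
    ∀ (D : GaloisRep.DeformationRingData 𝒪 ρbar (twOrd 𝒪 p Smin Sg))
      (D' : GaloisRep.DeformationRingData 𝒪 ρbar (twOrd 𝒪 p Smin (insert q Sg)))
      (x : D.R →ₐ[𝒪] 𝒪) (x' : D'.R →ₐ[𝒪] 𝒪) (t : 𝒪),
      s59selSame 𝒪 D D' x x' → s59selTrace 𝒪 D x q t →
      s59p_phiLen 𝒪 x' ≤ s59p_phiLen 𝒪 x + Module.length 𝒪 (𝒪 ⧸ Ideal.span {s59p_cq 𝒪 q t})

end Core

end Fermat.Agent.S59
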