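/-
S59, piece SEL — INTERFACE, part 2 (helper48): the LENGTH route of helper67's note (23:43Z), which is
the route in progress.  (The counting Props `StmtSelAlg`, `StmtSelLin`, `StmtSelCore` of
`SelPlan.lean` are the alternative route and need NOT be proved.)

`Φ' = ker x' ⧸ (ker x')²`, `Φ_N ⊆ Φ'` the image of the ramification ideal `𝔞` at `q`
(`s59selRam`, `s59selPhiN`).
* `StmtSelCoreLen` (CORE, helper74): `length (Φ' ⧸ Φ_N) ≤ length Φ`  (universal properties);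
* `StmtSelLocal`   (LOCAL, helper48): `length Φ_N ≤ length (𝒪 ⧸ c_q)`, from
  - `StmtSelLinLen` (LIN, length form; Mathlib only): the entries of a trace-zero matrix `C` over
    an `𝒪`-module with `Fr C = q C Fr` span a module of length `≤ length (𝒪 ⧸ c_q)`;
  - `StmtSelLimit`  (LIMIT; Mathlib only): a submodule of a finitely generated `𝒪`-module `Φ` all
    of whose images in `Φ ⧸ 𝔪ⁿ Φ` have length `≤ B` has length `≤ B`;
  - GAL (helper48): `StmtSelLinLen → StmtSelLimit → StmtSelLocal` (tame inertia `s59selt_add`);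
* FIN (helper48): `StmtSelCoreLen → StmtSelLocal → StmtSelFlat ∧ StmtSelOrd`.
-/
import Fermat.Agent.S59.SelPlan

set_option autoImplicit false

namespace Fermat.Agent.S59

open IsLocalRing Fermat.Agent.TW

/-- `ℚ̄` -/
local notation "Qbar" => AlgebraicClosure ℚ

/-- The ramification ideal at `q` of a representation `ρ` over `A`: the ideal generated by the
"matrix entries" `ℓ (ρ σ v - v)` (`ℓ` a linear form, `v` a vector) for `σ` in the inertia groups of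
the places over `q`; the smallest ideal modulo which `ρ` is unramified at `q`. -/
def s59selRam {A : Type} [CommRing A] [IsLocalRing A] (ρ : GaloisRepAdic A) (q : ℕ) : Ideal A :=
  Ideal.span {r | ∃ P : ValuationSubring Qbar, P.LiesOverPrime q ∧
    ∃ σ ∈ P.inertiaSubgroupIn ℚ, ∃ (ℓ : Module.Dual A ρ.V) (v : ρ.V), r = ℓ (ρ.ρ σ v - v)}

section

variable (𝒪 : Type) [CommRing 𝒪]

/-- The `𝒪`-submodule of the cotangent space `ker x ⧸ (ker x)²` spanned by the classes of the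
elements of `𝔞 ∩ ker x`. -/
def s59selPhiN {A : Type} [CommRing A] [Algebra 𝒪 A] (x : A →ₐ[𝒪] 𝒪) (𝔞 : Ideal A) :
    Submodule 𝒪 (RingHom.ker (x : A →+* 𝒪)).Cotangent :=
  Submodule.span 𝒪 {y | ∃ (r : A) (hr : r ∈ RingHom.ker (x : A →+* 𝒪)), r ∈ 𝔞 ∧
    y = (RingHom.ker (x : A →+* 𝒪)).toCotangent ⟨r, hr⟩}

/-- **SEL-LIN, length form** (Mathlib only).  `Fr ∈ M₂(𝒪)` with `det Fr = q`, `t = tr Fr`,
`c = (q − 1)(t² − (q + 1)²) ≠ 0`, `C` a `2 × 2` matrix with entries in an `𝒪`-module `X`,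
`tr C = 0`, `Fr C = q • (C Fr)`.  Then the span of the entries of `C` has length
`≤ length (𝒪 ⧸ c)`.
(`T = Ad Fr − q` on `sl₂(𝒪)` has determinant `c` (DET); the relations say that
`(c₀₀, c₀₁, c₁₀) ↦` entries kills the rows of `T`, so the span is a quotient of the cokernel of
`Tᵀ`, of length `v(det T)` (LEN).) -/
def StmtSelLinLen [IsDomain 𝒪] [IsDiscreteValuationRing 𝒪] : Prop :=
  ∀ (Fr : Matrix (Fin 2) (Fin 2) 𝒪) (q : 𝒪), IsUnit q → Fr.det = q →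
    (q - 1) * (Fr.trace ^ 2 - (q + 1) ^ 2) ≠ 0 →
  ∀ (X : Type) [AddCommGroup X] [Module 𝒪 X] (C : Matrix (Fin 2) (Fin 2) X),
    C 0 0 + C 1 1 = 0 →
    (∀ i j, ∑ k, Fr i k • C k j = q • ∑ k, Fr k j • C i k) →
    Module.length 𝒪 (Submodule.span 𝒪 (Set.range fun ij : Fin 2 × Fin 2 => C ij.1 ij.2)) ≤
      Module.length 𝒪 (𝒪 ⧸ Ideal.span {(q - 1) * (Fr.trace ^ 2 - (q + 1) ^ 2)})

/-- **SEL-LIMIT** (Mathlib only).  `Φ` a finitely generated module over the discrete valuation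
ring `𝒪`, `N` a submodule, all of whose images in `Φ ⧸ 𝔪ⁿ Φ` have length `≤ B`.  Then `N` has
length `≤ B`.
(The lengths of `N ⧸ (N ∩ 𝔪ⁿ Φ)` increase and are bounded, so `N ∩ 𝔪ⁿ Φ` is stationary, hence `0`
by Krull's intersection theorem.) -/
def StmtSelLimit [IsDomain 𝒪] [IsDiscreteValuationRing 𝒪] : Prop :=
  ∀ (Φ : Type) [AddCommGroup Φ] [Module 𝒪 Φ] [Module.Finite 𝒪 Φ] (N : Submodule 𝒪 Φ) (B : ℕ∞),
    (∀ n : ℕ, Module.length 𝒪
      (N.map ((maximalIdeal 𝒪 ^ n) • (⊤ : Submodule 𝒪 Φ)).mkQ) ≤ B) →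
    Module.length 𝒪 N ≤ B

variable [IsDomain 𝒪] [IsDiscreteValuationRing 𝒪]
  [IsAdicComplete (maximalIdeal 𝒪) 𝒪] [Finite (ResidueField 𝒪)]

/-- **SEL-LOCAL.**  `ρ` over a complete noetherian local `𝒪`-algebra `A` with cyclotomic
determinant, `x : A → 𝒪` an augmentation such that `ρ_x` is unramified at `q ≠ p`,
`t = tr ρ_x(Frob_q)`, `c_q ≠ 0`: the image `Φ_N` of the ramification ideal at `q` in the cotangent
space at `x` has length `≤ length (𝒪 ⧸ c_q)`. -/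
def StmtSelLocal : Prop :=
  ∀ (p : ℕ) [Fact p.Prime] (q : ℕ), q.Prime → q ≠ p → (p : 𝒪) ∈ maximalIdeal 𝒪 →
  ∀ (A : Type) [CommRing A] [IsLocalRing A] [IsNoetherianRing A]
    [IsAdicComplete (maximalIdeal A) A] [Algebra 𝒪 A] (ρ : GaloisRepAdic A),
    ρ.DetIsCyclotomic p →
  ∀ (x : A →ₐ[𝒪] 𝒪) (hx : IsLocalHom (x : A →+* 𝒪)) (t : 𝒪),
    (ρ.baseChangeAlong (x : A →+* 𝒪) hx).IsUnramifiedAt q →
    (∀ P : ValuationSubring Qbar, P.LiesOverPrime q → ∀ φ : S59G, P.IsFrobeniusAt φ q →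
      x (LinearMap.trace A ρ.V (ρ.ρ φ)) = t) →
    s59p_cq 𝒪 q t ≠ 0 →
    Module.length 𝒪 (s59selPhiN 𝒪 x (s59selRam ρ q)) ≤
      Module.length 𝒪 (𝒪 ⧸ Ideal.span {s59p_cq 𝒪 q t})

/-- **SEL-CORE, length form.**  `𝒟₀ ⊆ 𝒟₁` two deformation conditions which differ by
"unramified at `q`", `𝒟₁` stable under base change along SURJECTIVE local maps; `D`, `D'`
universal of type `𝒟₀`, `𝒟₁`, `x`, `x'` augmentations with equivalent specialisations.  Then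
`length (Φ' ⧸ Φ_N) ≤ length Φ`.
(`R″ = R' ⧸ ((ker x')² + 𝔞)`: the push-forward of `D'.ρ` is of type `𝒟₀`, so `R → R″`, which is
onto because `R' → R → R″` is; `Φ ↠ Φ″ = Φ' ⧸ Φ_N`.) -/
def StmtSelCoreLen : Prop :=
  ∀ (ρbar : ResidualGaloisRep (ResidueField 𝒪))
    (𝒟₀ 𝒟₁ : ∀ ⦃A : Type⦄ [CommRing A] [IsLocalRing A] [Algebra 𝒪 A], GaloisRepAdic A → Prop)
    (q : ℕ), q.Prime →
    (∀ (A : Type) [CommRing A] [IsLocalRing A] [Algebra 𝒪 A] (ρ : GaloisRepAdic A),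
      𝒟₀ ρ → 𝒟₁ ρ) →
    (∀ (A : Type) [CommRing A] [IsLocalRing A] [Algebra 𝒪 A] (ρ : GaloisRepAdic A),
      𝒟₁ ρ → ρ.IsUnramifiedAt q → 𝒟₀ ρ) →
    (∀ (A : Type) [CommRing A] [IsLocalRing A] [Algebra 𝒪 A] (ρ : GaloisRepAdic A),
      𝒟₀ ρ → ρ.IsUnramifiedAt q) →
    (∀ (A B : Type) [CommRing A] [IsLocalRing A] [Algebra 𝒪 A] [CommRing B] [IsLocalRing B]
      [Algebra 𝒪 B] (φ : A →ₐ[𝒪] B) (hφ : IsLocalHom (φ : A →+* B)), Function.Surjective φ →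
      ∀ ρ : GaloisRepAdic A, 𝒟₁ ρ → 𝒟₁ (ρ.baseChangeAlong (φ : A →+* B) hφ)) →
    ∀ (D : GaloisRep.DeformationRingData 𝒪 ρbar 𝒟₀)
      (D' : GaloisRep.DeformationRingData 𝒪 ρbar 𝒟₁)
      (x : D.R →ₐ[𝒪] 𝒪) (x' : D'.R →ₐ[𝒪] 𝒪),
      s59selSame 𝒪 D D' x x' →
      Module.length 𝒪 ((RingHom.ker (x' : D'.R →+* 𝒪)).Cotangent ⧸
          s59selPhiN 𝒪 x' (s59selRam D'.ρ q)) ≤ s59p_phiLen 𝒪 x

end

end Fermat.Agent.S59
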