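/-
S59, piece SEL / GAL-TOOLS (helper64): the Galois-side tools T1–T6 for `StmtSelLocal`
(contract: helper48's note, 00:10Z).

`Gal = Qbar ≃ₐ[ℚ] Qbar`, `M = Fermat.Agent.S53.matOfBasis ρ b : Gal →* M₂(A)`.

* (T1) `s59sellt_det_inertia` : `det ρ = cyc`, `q ≠ p`, `σ ∈ I_P`, `P ∣ q` ⇒ `det ρ(σ) = 1`;
* (T2) `s59sellt_det_frob`    : `φ` a Frobenius at `P ∣ q` ⇒ `det ρ(φ) = q`;
* (T3) `s59sellt_map_eq_one`  : `ρ_x` unramified at `q`, `σ ∈ I_P` ⇒ `x(M σ) = 1`;
* (T4) `s59sellt_trace`, `s59sellt_det` : trace / determinant of `M σ`;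
* (T5) `s59sellt_conj_places` : all inertia groups over `q` are conjugate;
       `s59sellt_conj_frob`   : a Frobenius at `P` normalises `I_P`;
* (T6) `s59sellt_ram_le`      : if the entries of `M σ − 1`, `σ ∈ I_P` for ONE place `P ∣ q`, lie
       in `J`, then `s59selRam ρ q ≤ J`.
-/
import Fermat.Agent.S59.SelPlan2
import Fermat.Agent.S53.Matrix
import Fermat.Agent.S31.Cyclo
import Fermat.Agent.TW.S.ConjPlaces
import Fermat.Agent.PT.B.NormalClosure

set_option autoImplicit false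

namespace Fermat.Agent.S59

open IsLocalRing
open scoped Pointwise

/-- `ℚ̄` -/
local notation "Qbar" => AlgebraicClosure ℚ

/-- `G_ℚ` -/
local notation "GalQ" => (AlgebraicClosure ℚ ≃ₐ[ℚ] AlgebraicClosure ℚ)

section Det

variable {A : Type} [CommRing A] [IsLocalRing A] [IsNoetherianRing A]

/-- The determinant of a representation with cyclotomic determinant over a noetherian local ring
is determined by the action on the `p`-power roots of unity. -/
theorem s59sellt_det_eq (p : ℕ) (ρ : GaloisRepAdic A) (hdet : ρ.DetIsCyclotomic p) (g : GalQ)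
    (a : ℕ) (h : ∀ (n : ℕ) (μ : Qbar), μ ^ p ^ n = 1 → g μ = μ ^ a) :
    LinearMap.det (ρ.ρ g) = (a : A) := by
  have hmem : ∀ n, LinearMap.det (ρ.ρ g) - (a : A) ∈ maximalIdeal A ^ n := by
    intro n
    have h1 := hdet.2 n g a (h n)
    have h2 : Ideal.span {((p ^ n : ℕ) : A)} ≤ maximalIdeal A ^ n := by
      rw [Ideal.span_singleton_le_iff_mem, Nat.cast_pow]
      exact Ideal.pow_mem_pow hdet.1 n
    exact h2 h1
  have h3 : LinearMap.det (ρ.ρ g) - (a : A) ∈ ⨅ n, maximalIdeal A ^ n :=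
    (Ideal.mem_iInf).mpr hmem
  rw [Ideal.iInf_pow_eq_bot_of_isLocalRing _ (Ideal.IsMaximal.ne_top inferInstance)] at h3
  exact sub_eq_zero.mp h3

/-- **(T1)** `det ρ` is trivial on the inertia groups at `q ≠ p`. -/
theorem s59sellt_det_inertia (p q : ℕ) (hp : p.Prime) (hq : q.Prime) (hqp : q ≠ p)
    (ρ : GaloisRepAdic A) (hdet : ρ.DetIsCyclotomic p)
    (P : ValuationSubring Qbar) (hP : P.LiesOverPrime q)
    (σ : GalQ) (hσ : σ ∈ P.inertiaSubgroupIn ℚ) :
    LinearMap.det (ρ.ρ σ) = 1 := by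
  have := s59sellt_det_eq p ρ hdet σ 1 (fun n _ hμ => by
    rw [pow_one]
    exact Fermat.Agent.S31.inertia_rootOfUnity P
      (Fermat.Agent.S31.natCast_pow_not_mem_nonunits P hp hq hqp hP n)
      (pow_ne_zero n hp.ne_zero) hσ hμ)
  rw [this, Nat.cast_one]

/-- **(T2)** `det ρ (Frob_q) = q` for `q ≠ p`. -/
theorem s59sellt_det_frob (p q : ℕ) (hp : p.Prime) (hq : q.Prime) (hqp : q ≠ p)
    (ρ : GaloisRepAdic A) (hdet : ρ.DetIsCyclotomic p)
    (P : ValuationSubring Qbar) (hP : P.LiesOverPrime q)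
    (φ : GalQ) (hφ : P.IsFrobeniusAt φ q) :
    LinearMap.det (ρ.ρ φ) = (q : A) :=
  s59sellt_det_eq p ρ hdet φ q (fun n _ hμ =>
    Fermat.Agent.S31.frob_rootOfUnity P
      (Fermat.Agent.S31.natCast_pow_not_mem_nonunits P hp hq hqp hP n)
      (pow_ne_zero n hp.ne_zero) hφ hμ)

end Det

section Mat

variable {A : Type} [CommRing A] [IsLocalRing A]

/-- **(T3)** If the specialisation `ρ_x` is unramified at `q`, then `x (M σ) = 1` for `σ` in an
inertia group over `q`. -/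
theorem s59sellt_map_eq_one {B : Type} [CommRing B] [IsLocalRing B]
    (ρ : GaloisRepAdic A) (x : A →+* B) (hx : IsLocalHom x) (q : ℕ)
    (hunr : (ρ.baseChangeAlong x hx).IsUnramifiedAt q) (b : Module.Basis (Fin 2) A ρ.V)
    (P : ValuationSubring Qbar) (hP : P.LiesOverPrime q)
    (σ : GalQ) (hσ : σ ∈ P.inertiaSubgroupIn ℚ) :
    (Fermat.Agent.S53.matOfBasis ρ b σ).map x = 1 := by
  letI : Algebra A B := x.toAlgebra
  have h1 : (ρ.ρ σ).baseChange B = 1 := hunr P hP σ hσ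
  have h2 := LinearMap.toMatrix_baseChange (A := B) (ρ.ρ σ) b b
  rw [h1] at h2
  rw [Fermat.Agent.S53.matOfBasis_apply]
  have h3 : (LinearMap.toMatrix b b (ρ.ρ σ)).map (algebraMap A B) = 1 := by
    rw [← h2]
    exact LinearMap.toMatrix_one _
  exact h3

/-- **(T4)** the trace of `M σ`. -/
theorem s59sellt_trace (ρ : GaloisRepAdic A) (b : Module.Basis (Fin 2) A ρ.V) (σ : GalQ) :
    (Fermat.Agent.S53.matOfBasis ρ b σ).trace = LinearMap.trace A ρ.V (ρ.ρ σ) := by
  rw [Fermat.Agent.S53.matOfBasis_apply]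
  exact (LinearMap.trace_eq_matrix_trace A b (ρ.ρ σ)).symm

/-- **(T4)** the determinant of `M σ`. -/
theorem s59sellt_det (ρ : GaloisRepAdic A) (b : Module.Basis (Fin 2) A ρ.V) (σ : GalQ) :
    (Fermat.Agent.S53.matOfBasis ρ b σ).det = LinearMap.det (ρ.ρ σ) := by
  rw [Fermat.Agent.S53.matOfBasis_apply]
  exact LinearMap.det_toMatrix b (ρ.ρ σ)

end Mat

section Conj

/-- **(T5)** The inertia groups of two places over `q` are conjugate. -/
theorem s59sellt_conj_places (q : ℕ) (hq : q.Prime) (P P' : ValuationSubring Qbar)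
    (hP : P.LiesOverPrime q) (hP' : P'.LiesOverPrime q) :
    ∃ τ : GalQ, ∀ σ ∈ P'.inertiaSubgroupIn ℚ, τ * σ * τ⁻¹ ∈ P.inertiaSubgroupIn ℚ := by
  obtain ⟨τ, hτ⟩ := Fermat.Agent.TW.S.sconjp_exists_smul_eq q hq P' P hP' hP
  refine ⟨τ, fun σ hσ => ?_⟩
  have := Fermat.Agent.PT.B.conj_mem_inertiaSubgroupIn (K := ℚ) P' τ σ hσ
  rwa [hτ] at this

/-- **(T5)** A Frobenius at `P` normalises the inertia group of `P`. -/
theorem s59sellt_conj_frob (q : ℕ) (P : ValuationSubring Qbar) (φ : GalQ)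
    (hφ : P.IsFrobeniusAt φ q) (σ : GalQ) (hσ : σ ∈ P.inertiaSubgroupIn ℚ) :
    φ * σ * φ⁻¹ ∈ P.inertiaSubgroupIn ℚ := by
  have h := Fermat.Agent.PT.B.conj_mem_inertiaSubgroupIn (K := ℚ) P φ σ hσ
  have hD : φ • P = P := MulAction.mem_stabilizer_iff.mp hφ.mem_decompositionSubgroup
  rwa [hD] at h

/-- the inverse of a Frobenius at `P` normalises the inertia group of `P` as well -/
theorem s59sellt_conj_frob_inv (q : ℕ) (P : ValuationSubring Qbar) (φ : GalQ)
    (hφ : P.IsFrobeniusAt φ q) (σ : GalQ) (hσ : σ ∈ P.inertiaSubgroupIn ℚ) :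
    φ⁻¹ * σ * φ ∈ P.inertiaSubgroupIn ℚ := by
  have h := Fermat.Agent.PT.B.conj_mem_inertiaSubgroupIn (K := ℚ) P φ⁻¹ σ hσ
  have hD : φ • P = P := MulAction.mem_stabilizer_iff.mp hφ.mem_decompositionSubgroup
  have hD' : φ⁻¹ • P = P := by
    conv_lhs => rw [← hD]
    rw [inv_smul_smul]
  rw [hD', inv_inv] at h
  exact h

end Conj

section Ram

variable {A : Type} [CommRing A] [IsLocalRing A]

omit [IsLocalRing A] in
/-- If the matrix of an endomorphism `f` has its entries in `J`, every "matrix entry" `ℓ (f v)`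
lies in `J`. -/
theorem s59sellt_dual_mem (V : Type) [AddCommGroup V] [Module A V]
    (b : Module.Basis (Fin 2) A V) (J : Ideal A) (f : Module.End A V)
    (h : ∀ i j, LinearMap.toMatrix b b f i j ∈ J) (ℓ : Module.Dual A V) (v : V) :
    ℓ (f v) ∈ J := by
  have h1 : f v = ∑ i, b.repr (f v) i • b i := (b.sum_repr (f v)).symm
  rw [h1, map_sum]
  refine Ideal.sum_mem _ fun i _ => ?_
  rw [map_smul, smul_eq_mul]
  refine Ideal.mul_mem_right _ _ ?_
  have h2 := congrFun (LinearMap.toMatrix_mulVec_repr b b f v) i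
  rw [← h2, Matrix.mulVec, dotProduct]
  exact Ideal.sum_mem _ fun j _ => Ideal.mul_mem_right _ _ (h i j)

/-- **(T6)** If the entries of `M σ − 1` lie in `J` for all `σ` in the inertia group of ONE place
`P` over `q`, then the ramification ideal `s59selRam ρ q` is contained in `J`. -/
theorem s59sellt_ram_le (ρ : GaloisRepAdic A) (b : Module.Basis (Fin 2) A ρ.V) (J : Ideal A)
    (q : ℕ) (hq : q.Prime) (P : ValuationSubring Qbar) (hP : P.LiesOverPrime q)
    (h : ∀ σ ∈ P.inertiaSubgroupIn ℚ, ∀ i j,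
      (Fermat.Agent.S53.matOfBasis ρ b σ - 1) i j ∈ J) :
    s59selRam ρ q ≤ J := by
  rw [s59selRam, Ideal.span_le]
  rintro r ⟨P', hP', σ', hσ', ℓ, v, rfl⟩
  obtain ⟨τ, hτ⟩ := s59sellt_conj_places q hq P P' hP hP'
  have hσ := hτ σ' hσ'
  set M := Fermat.Agent.S53.matOfBasis ρ b with hMdef
  have hM : M σ' - 1 = M τ⁻¹ * (M (τ * σ' * τ⁻¹) - 1) * M τ := by
    have e1 : M τ⁻¹ * M τ = 1 := by rw [← map_mul, inv_mul_cancel, map_one]
    have e2 : M τ⁻¹ * M (τ * σ' * τ⁻¹) * M τ = M σ' := by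
      rw [← map_mul, ← map_mul]
      congr 1
      group
    rw [mul_sub, sub_mul, mul_one, e1, e2]
  have hent : ∀ i j, (M σ' - 1) i j ∈ J := by
    intro i j
    rw [hM]
    exact Fermat.Agent.S53.matrix_mul_mem_ideal_right _
      (fun i j => Fermat.Agent.S53.matrix_mul_mem_ideal_left _ (h _ hσ) i j) i j
  have hf : ∀ i j, LinearMap.toMatrix b b (ρ.ρ σ' - 1) i j ∈ J := by
    intro i j
    have := hent i j
    rwa [hMdef, Fermat.Agent.S53.matOfBasis_apply, ← LinearMap.toMatrix_one b, ← map_sub] at this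
  have := s59sellt_dual_mem ρ.V b J (ρ.ρ σ' - 1) hf ℓ v
  simpa [LinearMap.sub_apply] using this

end Ram

end Fermat.Agent.S59
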