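import Fermat.Agent.TW.L.Tame

/-!
# S59 / SEL, piece TAME-p (helper67): tame inertia with values in an arbitrary `p`-group

`TW/L/Tame.lean` (`ltame_global`, helper48) treats homomorphisms from inertia at `q` to groups of
EXPONENT `p`.  For the growth of the cotangent space at a prime `q ≠ p` (SEL) the target is the
additive group of matrices over `Φ / λⁿ Φ`, a finite abelian `p`-group of larger exponent.  The
proof is the same (the kernel of the tame character consists of elements of `q`-power order).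

* `s59selt_abstract` : abstract form (Dedekind domain, faithful finite group action);
* `s59selt_global`   : `A` a place of `ℚ̄` over `q`, `F` a number field, `r : J → G_ℚ` with values
  in the inertia group of `A`: there is `t : J` such that for every prime `p ≠ q` and every
  homomorphism `h : J → B` which is trivial on `r⁻¹(Gal(ℚ̄/F))`, `B` a group all of whose
  elements have `p`-power order: `h x ∈ ⟨h t⟩` for all `x`, and `h t' = h t ^ q` whenever
  `r t' = φ (r t) φ⁻¹` for a Frobenius `φ` at `A`;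
* `s59selt_add` : the additive form used by SEL (`B` an additive group killed by `p ^ e`).
-/

set_option autoImplicit false
set_option linter.style.haveILetI false

open NumberField

namespace Fermat.Agent.S59

open Fermat.Agent.TW.L Fermat.Agent.PT Fermat.Agent.PT.B Fermat.Agent.Cheb

section Abstract

variable {R : Type*} [CommRing R] {G : Type*} [Group G] [MulSemiringAction G R] {P : Ideal R}

/-- **Abstract tame inertia**, for targets in which every element has `p`-power order. -/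
theorem s59selt_abstract [IsDedekindDomain R] [P.IsPrime] (hP : P ≠ ⊥) [Finite G]
    (hfaith : ∀ σ : G, (∀ x : R, σ • x = x) → σ = 1) {q : ℕ} (hq : q.Prime)
    (hqP : (q : R) ∈ P) {J : Type*} [Group J] (ρ : J →* G) (hρ : ∀ y, LtameInert P (ρ y)) :
    ∃ t : J, ∀ (p : ℕ), p.Prime → q ≠ p → ∀ (A : Type) [Group A] (h : J →* A),
      (∀ a : A, ∃ e : ℕ, a ^ p ^ e = 1) → (∀ y, ρ y = 1 → h y = 1) →
      (∀ x, ∃ n : ℕ, h x = h t ^ n) ∧
      ∀ (t' : J) (φ : G), (∀ x : R, φ • x - x ^ q ∈ P) → ρ t' = φ * ρ t * φ⁻¹ →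
        h t' = h t ^ q := by
  classical
  have hPtop : P ≠ ⊤ := Ideal.IsPrime.ne_top inferInstance
  -- a uniformiser
  obtain ⟨π, hπ1, hπ2⟩ := SetLike.exists_of_lt (Ideal.pow_succ_lt_pow hP 1)
  rw [pow_one] at hπ1
  have hπ2' : π ∉ P ^ 2 := hπ2
  obtain ⟨θ, hθ⟩ := ltame_exists_theta (G := G) hP hπ1 hπ2'
  let ρ' : J →* ltameInertia G P := ρ.codRestrict (ltameInertia G P) hρ
  let Θ : J →* (R ⧸ P)ˣ := θ.comp ρ'
  -- the kernel of `Θ` consists of wild elements
  have hker : ∀ y : J, Θ y = 1 → LtameWild P (ρ y) := by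
    intro y hy
    obtain ⟨d, hd, hd'⟩ := hθ (ρ' y)
    have h1 : Ideal.Quotient.mk P d = Ideal.Quotient.mk P 1 := by
      rw [← hd', map_one]
      have : θ (ρ' y) = 1 := hy
      rw [this]; rfl
    rw [Ideal.Quotient.eq] at h1
    exact ltame_wild_of_theta_one hP hπ1 hπ2' (hρ y) (ltame_theta_congr hπ1 hd h1)
  -- the range of `Θ` is finite cyclic
  haveI : Finite (ltameInertia G P) := inferInstance
  haveI : Finite θ.range := Set.finite_range θ
  have hle : Θ.range ≤ θ.range := by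
    rintro _ ⟨y, rfl⟩
    exact ⟨ρ' y, rfl⟩
  haveI : Finite Θ.range := Finite.of_injective (Subgroup.inclusion hle)
    (Subgroup.inclusion_injective hle)
  obtain ⟨⟨g, ⟨t, rfl⟩⟩, hg⟩ := (isCyclic_subgroup_units Θ.range).exists_generator
  have hgen : ∀ x : J, ∃ n : ℕ, Θ x = Θ t ^ n := by
    intro x
    have h1 := hg ⟨Θ x, ⟨x, rfl⟩⟩
    have h2 : IsOfFinOrder (⟨Θ t, ⟨t, rfl⟩⟩ : Θ.range) := isOfFinOrder_of_finite _
    rw [← h2.mem_powers_iff_mem_zpowers] at h1
    obtain ⟨n, hn⟩ := h1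
    refine ⟨n, ?_⟩
    have := congrArg (fun z : Θ.range => (z : (R ⧸ P)ˣ)) hn
    simpa using this.symm
  refine ⟨t, ?_⟩
  intro p hp hqp A _ h hA hh
  -- the key: `h` kills the kernel of `Θ`
  have hK : ∀ y : J, Θ y = 1 → h y = 1 := by
    intro y hy
    obtain ⟨m, hm⟩ := ltame_wild_pow_eq_one hPtop hfaith hq hqP (hker y hy)
    have h1 : h y ^ (q ^ m) = 1 := by
      rw [← map_pow]
      exact hh _ (by rw [map_pow, hm])
    obtain ⟨e, he⟩ := hA (h y)
    have h2 := pow_gcd_eq_one.mpr ⟨h1, he⟩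
    have h3 : Nat.gcd (q ^ m) (p ^ e) = 1 :=
      Nat.Coprime.pow m e ((Nat.coprime_primes hq hp).mpr hqp)
    rwa [h3, pow_one] at h2
  have hK' : ∀ (x : J) (n : ℕ), Θ x = Θ t ^ n → h x = h t ^ n := by
    intro x n hx
    have h1 : h (x * (t ^ n)⁻¹) = 1 := by
      apply hK
      rw [map_mul, map_inv, map_pow, hx, mul_inv_cancel]
    rw [map_mul, map_inv, map_pow, mul_inv_eq_one] at h1
    exact h1
  refine ⟨fun x => ?_, fun t' φ hφ ht' => ?_⟩
  · obtain ⟨n, hn⟩ := hgen x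
    exact ⟨n, hK' x n hn⟩
  · apply hK'
    obtain ⟨d, hd, hd'⟩ := hθ (ρ' t)
    obtain ⟨d', hd2, hd2'⟩ := hθ (ρ' t')
    have h1 : LtameTheta P π (ρ t') (d ^ q) := by
      rw [ht']
      exact ltame_theta_frob hP hπ1 hπ2' (hρ t) hd q hq.ne_zero φ hφ
    have h2 : d' - d ^ q ∈ P := ltame_theta_unique hP hπ2' hd2 h1
    apply Units.ext
    rw [Units.val_pow_eq_pow_val]
    show ((θ (ρ' t') : (R ⧸ P)ˣ) : R ⧸ P) = ((θ (ρ' t) : (R ⧸ P)ˣ) : R ⧸ P) ^ q
    rw [hd', hd2', ← map_pow, Ideal.Quotient.eq]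
    exact h2

end Abstract

section Global

/-- **Tame inertia, global form**, for targets in which every element has `p`-power order. -/
theorem s59selt_global {q : ℕ} (hq : q.Prime) (A : ValuationSubring (AlgebraicClosure ℚ))
    (hA : A.LiesOverPrime q) (F : IntermediateField ℚ (AlgebraicClosure ℚ))
    [FiniteDimensional ℚ F] {J : Type*} [Group J]
    (r : J →* (AlgebraicClosure ℚ ≃ₐ[ℚ] AlgebraicClosure ℚ))
    (hr : ∀ y, r y ∈ A.inertiaSubgroupIn ℚ) :
    ∃ t : J, ∀ (p : ℕ), p.Prime → q ≠ p → ∀ (B : Type) [Group B] (h : J →* B),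
      (∀ a : B, ∃ e : ℕ, a ^ p ^ e = 1) → (∀ y, r y ∈ F.fixingSubgroup → h y = 1) →
      (∀ x, ∃ n : ℕ, h x = h t ^ n) ∧
      ∀ (t' : J) (φ : AlgebraicClosure ℚ ≃ₐ[ℚ] AlgebraicClosure ℚ), A.IsFrobeniusAt φ q →
        r t' = φ * r t * φ⁻¹ → h t' = h t ^ q := by
  classical
  haveI : IsAlgClosure ℚ (AlgebraicClosure ℚ) := ⟨inferInstance, AlgebraicClosure.isAlgebraic ℚ⟩
  haveI : Normal ℚ (AlgebraicClosure ℚ) := IsAlgClosure.normal ℚ (AlgebraicClosure ℚ)
  -- the normal closure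
  let F' : IntermediateField ℚ (AlgebraicClosure ℚ) :=
    IntermediateField.normalClosure ℚ F (AlgebraicClosure ℚ)
  have hFF' : F ≤ F' := IntermediateField.le_normalClosure F
  haveI : Normal ℚ F' := normalClosure.normal ℚ F (AlgebraicClosure ℚ)
  haveI : FiniteDimensional ℚ F' := normalClosure.is_finiteDimensional ℚ F (AlgebraicClosure ℚ)
  haveI : NumberField F' := ⟨⟩
  haveI : IsGalois ℚ F' := ⟨⟩
  haveI : Finite (F' ≃ₐ[ℚ] F') := inferInstance
  let P : Ideal (𝓞 F') := ltamePrime F' A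
  have hP0 : P ≠ ⊥ := ltame_prime_ne_bot F' A hq hA
  have hqP : ((q : ℕ) : 𝓞 F') ∈ P := ltame_natCast_mem F' A hA
  have hfaith : ∀ σ : F' ≃ₐ[ℚ] F', (∀ x : 𝓞 F', σ • x = x) → σ = 1 := by
    intro σ hσ
    apply algEquiv_eq_of_toAlgHom_eq F'
    ext x
    have := hσ x
    simpa using congrArg (fun z : 𝓞 F' => (z : F')) this
  let ρ : J →* (F' ≃ₐ[ℚ] F') := (AlgEquiv.restrictNormalHom F').comp r
  have hcomm : ∀ (g : AlgebraicClosure ℚ ≃ₐ[ℚ] AlgebraicClosure ℚ) (x : 𝓞 F'),
      intEmb F' ((AlgEquiv.restrictNormalHom F' g) • x) = g (intEmb F' x) := by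
    intro g x
    exact AlgEquiv.restrictNormal_commutes g F' (x : F')
  have hρ : ∀ y, LtameInert P (ρ y) := by
    intro y x
    have e : intEmb F' (ρ y • x) = (r y) (intEmb F' x) := hcomm (r y) x
    rw [ltame_mem_prime, map_sub, e]
    exact ((mem_inertiaSubgroupIn_iff A (r y)).mp (hr y)).2 _ (intEmb_mem F' A x)
  obtain ⟨t, ht⟩ := s59selt_abstract (P := P) hP0 hfaith hq hqP ρ hρ
  refine ⟨t, fun p hp hqp B _ h hB hh => ?_⟩
  have hh' : ∀ y, ρ y = 1 → h y = 1 := by
    intro y hy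
    apply hh
    rw [IntermediateField.mem_fixingSubgroup_iff]
    intro x hx
    have h1 := AlgEquiv.restrictNormal_commutes (r y) F' ⟨x, hFF' hx⟩
    have h2 : (r y).restrictNormal F' = 1 := hy
    rw [h2] at h1
    exact h1.symm
  obtain ⟨h1, h2⟩ := ht p hp hqp B h hB hh'
  refine ⟨h1, fun t' φ hφ ht' => ?_⟩
  refine h2 t' (AlgEquiv.restrictNormalHom F' φ) ?_ ?_
  · intro x
    rw [ltame_mem_prime, map_sub, hcomm, map_pow]
    exact sub_pow_mem_nonunits_of_isFrobeniusAt A φ q hφ _ (intEmb_mem F' A x)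
  · show AlgEquiv.restrictNormalHom F' (r t') = _
    rw [ht', map_mul, map_mul, map_inv]
    rfl

/-- **Tame inertia, additive form**: `N : J → M` additive with values in an abelian group killed
by a power of `p`, trivial on `r⁻¹(Gal(ℚ̄/F))`: the image of `N` is `ℕ · N t`, and
`N t' = q • N t` whenever `r t' = φ (r t) φ⁻¹` for a Frobenius `φ` at `A`. -/
theorem s59selt_add {q : ℕ} (hq : q.Prime) (A : ValuationSubring (AlgebraicClosure ℚ))
    (hA : A.LiesOverPrime q) (F : IntermediateField ℚ (AlgebraicClosure ℚ))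
    [FiniteDimensional ℚ F] {J : Type*} [Group J]
    (r : J →* (AlgebraicClosure ℚ ≃ₐ[ℚ] AlgebraicClosure ℚ))
    (hr : ∀ y, r y ∈ A.inertiaSubgroupIn ℚ) :
    ∃ t : J, ∀ (p : ℕ), p.Prime → q ≠ p → ∀ (M : Type) [AddCommGroup M] (N : J → M),
      (∀ x y, N (x * y) = N x + N y) → (∃ e : ℕ, ∀ m : M, (p ^ e) • m = 0) →
      (∀ y, r y ∈ F.fixingSubgroup → N y = 0) →
      (∀ x, ∃ n : ℕ, N x = n • N t) ∧
      ∀ (t' : J) (φ : AlgebraicClosure ℚ ≃ₐ[ℚ] AlgebraicClosure ℚ), A.IsFrobeniusAt φ q →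
        r t' = φ * r t * φ⁻¹ → N t' = q • N t := by
  obtain ⟨t, ht⟩ := s59selt_global hq A hA F r hr
  refine ⟨t, fun p hp hqp M _ N hadd hM hF => ?_⟩
  obtain ⟨e, he⟩ := hM
  have hN1 : N 1 = 0 := by
    have h := hadd 1 1
    rw [mul_one] at h
    have h2 : N 1 + 0 = N 1 + N 1 := by rw [add_zero]; exact h
    exact (add_left_cancel h2).symm
  let h : J →* Multiplicative M :=
    { toFun := fun x => Multiplicative.ofAdd (N x)
      map_one' := by rw [hN1]; rfl
      map_mul' := fun x y => by rw [hadd]; rfl }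
  have hB : ∀ a : Multiplicative M, ∃ e : ℕ, a ^ p ^ e = 1 := fun a =>
    ⟨e, by
      have := he (Multiplicative.toAdd a)
      exact congrArg Multiplicative.ofAdd this⟩
  have hh : ∀ y, r y ∈ F.fixingSubgroup → h y = 1 := fun y hy => by
    show Multiplicative.ofAdd (N y) = 1
    rw [hF y hy]; rfl
  obtain ⟨h1, h2⟩ := ht p hp hqp (Multiplicative M) h hB hh
  refine ⟨fun x => ?_, fun t' φ hφ ht' => ?_⟩
  · obtain ⟨n, hn⟩ := h1 x
    exact ⟨n, congrArg Multiplicative.toAdd hn⟩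
  · exact congrArg Multiplicative.toAdd (h2 t' φ hφ ht')

end Global

end Fermat.Agent.S59
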