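/-
S59 (modularity lifting at p ∈ {3, 5}), piece R3 = TOP (helper69, captain): THE FRAME.

* `s59top_StmtRT` : **(RT)**, the `R = T` package for `(W, p)` in the EXACT shape that FIN
  (`s59fin_lift`, `S59/Fin.lean`, helper77) consumes: under the hypotheses of the frozen S59 there are
  a complete discrete valuation ring `𝒪` over `ℤ_p`, a level `N` (cube-free, `p² ∤ N`, divisible by
  the bad primes of `W`), a set `S` of primes (`p ∈ S`, `S = {p} ∪ {ℓ ∣ N}`), a deformation condition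
  `𝒟` satisfied by `ρ_{W,p} ⊗ 𝒪`, a universal ring `D` of type `𝒟` for `ρ̄_{W,p}`, a Hecke–Galois datum
  `H` of level `N` away from `S` over `T`, and a BIJECTIVE `γ : D.R → T` compatible with the traces.
* `s59top_lift : (RT) → (LIFT)` and `s59top_result : S58 → (RT) → frozen S59` (PROVED here).

So S59 ⇐ S58 ✓ + (RT).  (RT) is what the walls M1–M4 (MINLEV), R1 (MIN′), R2 (ETA′) of
NOTES/S59-walls.md must deliver together with SEL ✓, NC ✓, HGD ✓, S53 ✓, S54 ✓ (`s59g_iso`).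

* `s59top_StmtChain` : **(CHAIN)**, the numerical form: the same package with `γ` only SURJECTIVE
  (S54), an augmentation `πT` of `T`, and Wiles' chain of inequalities (`lPhi`, `etaL`, `c`):
  `hmin` (R1 = MIN′), `hsel` (SEL ✓), `heta` (R2 = ETA′), `hne`, GEN (`η_T ≤ etaL n`).
* `s59top_rt_of_chain : (CHAIN) → (RT)` (PROVED here, by `s59g_iso` and NC-Iso ✓).
-/
import Fermat.Agent.S59.Fin
import Fermat.Agent.S59.Plan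
import Fermat.Agent.S59.Glue
import Fermat.Agent.S59.NC.Final

set_option autoImplicit false
set_option linter.style.haveILetI false
set_option linter.unusedSectionVars false
set_option linter.unusedVariables false
set_option linter.style.longLine false

noncomputable section

namespace Fermat.Agent.S59

open IsLocalRing

/-- **(RT)**: the `R = T` package of `(W, p)`, in the shape of the hypotheses of `s59fin_lift`. -/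
def s59top_StmtRT : Prop :=
  ∀ (p : ℕ) [Fact p.Prime], (p = 3 ∨ p = 5) → ∀ (W : WeierstrassCurve ℤ) (hΔ : W.Δ ≠ 0),
    W.IsSemistableModel → W.ModRepIsIrreducible p →
    ∀ (M₀ : ℕ) [NeZero M₀], W.IsResiduallyModularOfLevel p M₀ → ¬ p ^ 2 ∣ M₀ →
    (∀ q : ℕ, q.Prime → q ≠ p → ¬ q ^ 3 ∣ M₀) →
    ∃ (𝒪 : Type) (_ : CommRing 𝒪) (_ : IsDomain 𝒪) (_ : IsDiscreteValuationRing 𝒪)
      (_ : IsAdicComplete (maximalIdeal 𝒪) 𝒪) (_ : CharZero 𝒪)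
      (φ : ℤ_[p] →+* 𝒪) (hφ : IsLocalHom φ)
      (N : ℕ) (_ : NeZero N) (S : Set ℕ)
      (θ : CuspForm.heckeAlgebra N 2 S →+* ResidueField 𝒪)
      (T : Type) (_ : CommRing T) (_ : IsLocalRing T) (_ : IsNoetherianRing T)
      (_ : IsAdicComplete (maximalIdeal T) T) (_ : Algebra 𝒪 T)
      (_ : IsLocalHom (algebraMap 𝒪 T)) (_ : Module.Finite 𝒪 T) (_ : Module.Free 𝒪 T)
      (𝒟 : ∀ ⦃A : Type⦄ [CommRing A] [IsLocalRing A] [Algebra 𝒪 A], GaloisRepAdic A → Prop)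
      (D : GaloisRep.DeformationRingData 𝒪 (s59feBar W hΔ p φ hφ) 𝒟)
      (H : CuspForm.HeckeGaloisRepDatum N S 𝒪 θ T)
      (γ : D.R →ₐ[𝒪] T),
      𝒟 (s59feRep W hΔ p φ hφ) ∧
      (∀ ℓ : ℕ, ℓ.Prime → ℓ ∣ N → ℓ ∈ S) ∧
      (∀ ℓ : ℕ, ℓ ∈ S → ℓ = p ∨ ℓ ∣ N) ∧ p ∈ S ∧
      (∀ ℓ : ℕ, ℓ.Prime → (ℓ : ℤ) ∣ W.Δ → ℓ ∣ N) ∧
      ¬ p ^ 2 ∣ N ∧ (∀ q : ℕ, q.Prime → ¬ q ^ 3 ∣ N) ∧
      Function.Bijective γ ∧
      ∀ σ : S59GQ, γ (LinearMap.trace D.R D.ρ.V (D.ρ.ρ σ)) =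
        LinearMap.trace T H.ρ.V (H.ρ.ρ σ)

/-- **(RT) ⇒ (LIFT)**. -/
theorem s59top_lift (h : s59top_StmtRT) : s59p_StmtLift := by
  intro p hp W hΔ hW hirr M₀ _ hres hM₀ hM₀3
  have hpp : p.Prime := by rcases hp with rfl | rfl <;> norm_num
  haveI : Fact p.Prime := ⟨hpp⟩
  obtain ⟨𝒪, i1, i2, i3, i4, i5, φ, hφ, N, i6, S, θ, T, j1, j2, j3, j4, j5, j6, j7, j8, 𝒟, D, H,
    γ, h𝒟, hNS, hS, hpS, hbad, hp2N, hN3, hγ, hγρ⟩ := h p hp W hΔ hW hirr M₀ hres hM₀ hM₀3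
  exact s59fin_lift W hΔ p φ hφ 𝒟 D h𝒟 H hNS hS hpS hbad hp2N hN3 γ hγ hγρ

/-- **(CHAIN)**: the numerical package.  `lPhi i = length Φ_{R_i}`, `etaL i = η_{L_i}` (module
congruence ideal) at the `i`-th level of Wiles' induction, `c i = c_{q_i}`; at the top level `n`
the surjection `γ : R_n ↠ T_n` of S54, an augmentation `πT` of `T_n` with `η_T ≠ 0`,
GEN (`η_T ≤ etaL n`) and `length Φ_{R_n, πT ∘ γ} = lPhi n`. -/
def s59top_StmtChain : Prop :=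
  ∀ (p : ℕ) [Fact p.Prime], (p = 3 ∨ p = 5) → ∀ (W : WeierstrassCurve ℤ) (hΔ : W.Δ ≠ 0),
    W.IsSemistableModel → W.ModRepIsIrreducible p →
    ∀ (M₀ : ℕ) [NeZero M₀], W.IsResiduallyModularOfLevel p M₀ → ¬ p ^ 2 ∣ M₀ →
    (∀ q : ℕ, q.Prime → q ≠ p → ¬ q ^ 3 ∣ M₀) →
    ∃ (𝒪 : Type) (_ : CommRing 𝒪) (_ : IsDomain 𝒪) (_ : IsDiscreteValuationRing 𝒪)
      (_ : IsAdicComplete (maximalIdeal 𝒪) 𝒪) (_ : CharZero 𝒪)
      (φ : ℤ_[p] →+* 𝒪) (hφ : IsLocalHom φ)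
      (n : ℕ) (lPhi : ℕ → ℕ∞) (etaL : ℕ → Ideal 𝒪) (c : ℕ → 𝒪)
      (N : ℕ) (_ : NeZero N) (S : Set ℕ)
      (θ : CuspForm.heckeAlgebra N 2 S →+* ResidueField 𝒪)
      (T : Type) (_ : CommRing T) (_ : IsLocalRing T) (_ : IsNoetherianRing T)
      (_ : IsAdicComplete (maximalIdeal T) T) (_ : Algebra 𝒪 T)
      (_ : IsLocalHom (algebraMap 𝒪 T)) (_ : Module.Finite 𝒪 T) (_ : Module.Free 𝒪 T)
      (𝒟 : ∀ ⦃A : Type⦄ [CommRing A] [IsLocalRing A] [Algebra 𝒪 A], GaloisRepAdic A → Prop)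
      (D : GaloisRep.DeformationRingData 𝒪 (s59feBar W hΔ p φ hφ) 𝒟)
      (H : CuspForm.HeckeGaloisRepDatum N S 𝒪 θ T)
      (γ : D.R →ₐ[𝒪] T) (πT : T →ₐ[𝒪] 𝒪),
      -- Wiles' chain
      lPhi 0 ≤ Module.length 𝒪 (𝒪 ⧸ etaL 0) ∧
      (∀ i ≤ n, etaL i ≠ ⊥) ∧
      (∀ i < n, lPhi (i + 1) ≤ lPhi i + Module.length 𝒪 (𝒪 ⧸ Ideal.span {c i})) ∧
      (∀ i < n, etaL (i + 1) ≤ Ideal.span {c i} * etaL i) ∧
      -- the top level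
      s59p_eta 𝒪 πT ≠ ⊥ ∧ s59p_eta 𝒪 πT ≤ etaL n ∧ s59p_phiLen 𝒪 (πT.comp γ) = lPhi n ∧
      Function.Surjective γ ∧
      (∀ σ : S59GQ, γ (LinearMap.trace D.R D.ρ.V (D.ρ.ρ σ)) =
        LinearMap.trace T H.ρ.V (H.ρ.ρ σ)) ∧
      -- the curve and the level
      𝒟 (s59feRep W hΔ p φ hφ) ∧
      (∀ ℓ : ℕ, ℓ.Prime → ℓ ∣ N → ℓ ∈ S) ∧
      (∀ ℓ : ℕ, ℓ ∈ S → ℓ = p ∨ ℓ ∣ N) ∧ p ∈ S ∧
      (∀ ℓ : ℕ, ℓ.Prime → (ℓ : ℤ) ∣ W.Δ → ℓ ∣ N) ∧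
      ¬ p ^ 2 ∣ N ∧ (∀ q : ℕ, q.Prime → ¬ q ^ 3 ∣ N)

/-- **(CHAIN) ⇒ (RT)**: the numerical criterion (`s59g_iso`, NC-Iso ✓). -/
theorem s59top_rt_of_chain (h : s59top_StmtChain) : s59top_StmtRT := by
  intro p _ hp W hΔ hW hirr M₀ _ hres hM₀ hM₀3
  obtain ⟨𝒪, i1, i2, i3, i4, i5, φ, hφ, n, lPhi, etaL, c, N, i6, S, θ, T, j1, j2, j3, j4, j5, j6,
    j7, j8, 𝒟, D, H, γ, πT, hmin, hne, hsel, heta, hT, hgen, hn, hγ, hγρ, h𝒟, hNS, hS, hpS, hbad,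
    hp2N, hN3⟩ := h p hp W hΔ hW hirr M₀ hres hM₀ hM₀3
  have hbij : Function.Bijective γ :=
    s59g_iso 𝒪 (NC.s59nc_ncIso 𝒪) n lPhi etaL c hmin hne hsel heta D.R T γ πT hγ hT hgen hn
  exact ⟨𝒪, i1, i2, i3, i4, i5, φ, hφ, N, i6, S, θ, T, j1, j2, j3, j4, j5, j6, j7, j8, 𝒟, D, H,
    γ, h𝒟, hNS, hS, hpS, hbad, hp2N, hN3, hbij, hγρ⟩

/-- **S59 ⇐ S58 + (RT)**: the frozen statement. -/
theorem s59top_result (h58 : s59p_StmtS58) (h : s59top_StmtRT)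
    (p : ℕ) (hp : p = 3 ∨ p = 5)
    (W : WeierstrassCurve ℤ) (hΔ : W.Δ ≠ 0) (hW : W.IsSemistableModel)
    (hirr : W.ModRepIsIrreducible p)
    (M₀ : ℕ) [NeZero M₀] (hres₀ : W.IsResiduallyModularOfLevel p M₀)
    (hM₀ : ¬ p ^ 2 ∣ M₀)
    (hM₀3 : ∀ q : ℕ, q.Prime → q ≠ p → ¬ q ^ 3 ∣ M₀) :
    Mlc1IsModularModelOfExactConductorLevel W :=
  s59p_of_lift h58 (s59top_lift h) p hp W hΔ hW hirr M₀ hres₀ hM₀ hM₀3

end Fermat.Agent.S59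

end
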