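/-
S59, piece R3 = TOP (helper69, captain), part 3: THE STAGES OF WILES' INDUCTION, concretely.

* `S59Stage 𝒪 ρ̄ 𝒟` : ONE stage = a level `N`, a set `S`, a Hecke–Galois datum `H` over `T`, a
  universal ring `D` of type `𝒟`, a SURJECTION `γ : D.R ↠ T` compatible with the traces (S54 ✓), an
  augmentation `πT : T → 𝒪` with `η_T ≠ 0`, and an ideal `etaL` of `𝒪` (the MODULE congruence
  ideal `J = B(x, E)` of R2) with GEN (`η_T ≤ etaL`) and `etaL ≠ 0`.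
* `s59topw_induct` : BASE + STEP ⇒ a stage for `Σ_W` with the numerical inequality
  `length Φ_{R} ≤ length (𝒪 ⧸ etaL)`   (Finset induction + `s59g_stmtNCStep` ✓).
* `s59topw_iso` : at such a stage `γ` is BIJECTIVE (`s59g_end` + NC-Iso ✓).
* `s59topw_StmtStages` : **(STAGES)** = for every `(p, W)` as in the frozen S59 there are `𝒪`, `φ`,
  conditions `𝒟 Σ`, an invariant `inv`, a set `Σ_W` with BASE (R1 = MIN′ + MINLEV M1–M4),
  STEP (SEL ✓ + R2 + HGD ✓ + S54 ✓ + DEF-COND + S32/S34 ✓) and END (FinE ✓).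
* `s59topw_rt : (STAGES) → (RT)` and `s59topw_result : S58 → (STAGES) → frozen S59`  (PROVED).
-/
import Fermat.Agent.S59.Top

set_option autoImplicit false
set_option linter.style.haveILetI false
set_option linter.unusedSectionVars false
set_option linter.unusedVariables false
set_option linter.style.longLine false

noncomputable section

namespace Fermat.Agent.S59

open IsLocalRing

section Stage

variable (𝒪 : Type) [CommRing 𝒪] [IsDomain 𝒪] [IsDiscreteValuationRing 𝒪]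
  [IsAdicComplete (maximalIdeal 𝒪) 𝒪]

/-- ONE STAGE of Wiles' induction (see the header). -/
structure S59Stage (ρbar : ResidualGaloisRep (ResidueField 𝒪))
    (𝒟 : ∀ ⦃A : Type⦄ [CommRing A] [IsLocalRing A] [Algebra 𝒪 A], GaloisRepAdic A → Prop) :
    Type 1 where
  /-- the level -/
  N : ℕ
  [instN : NeZero N]
  /-- the set of primes away from which the Hecke algebra is generated -/
  S : Set ℕ
  /-- the residual eigensystem -/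
  θ : CuspForm.heckeAlgebra N 2 S →+* ResidueField 𝒪
  /-- the Hecke ring -/
  T : Type
  [instCommRing : CommRing T]
  [instIsLocalRing : IsLocalRing T]
  [instIsNoetherianRing : IsNoetherianRing T]
  [instIsAdicComplete : IsAdicComplete (maximalIdeal T) T]
  [instAlgebra : Algebra 𝒪 T]
  [instIsLocalHom : IsLocalHom (algebraMap 𝒪 T)]
  [instFinite : Module.Finite 𝒪 T]
  [instFree : Module.Free 𝒪 T]
  /-- the Hecke–Galois datum -/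
  H : CuspForm.HeckeGaloisRepDatum N S 𝒪 θ T
  /-- the universal ring of type `𝒟` -/
  D : GaloisRep.DeformationRingData 𝒪 ρbar 𝒟
  /-- `R ↠ T` (S54) -/
  γ : D.R →ₐ[𝒪] T
  /-- the augmentation of `T` (the base form, depleted at the primes of `Σ`) -/
  πT : T →ₐ[𝒪] 𝒪
  /-- the module congruence ideal `η_L` (R2) -/
  etaL : Ideal 𝒪
  γ_surj : Function.Surjective γ
  γ_trace : ∀ σ : S59GQ, γ (LinearMap.trace D.R D.ρ.V (D.ρ.ρ σ)) =
    LinearMap.trace T H.ρ.V (H.ρ.ρ σ)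
  etaT_ne : s59p_eta 𝒪 πT ≠ ⊥
  gen : s59p_eta 𝒪 πT ≤ etaL
  etaL_ne : etaL ≠ ⊥

attribute [instance] S59Stage.instN S59Stage.instCommRing S59Stage.instIsLocalRing
  S59Stage.instIsNoetherianRing S59Stage.instIsAdicComplete S59Stage.instAlgebra
  S59Stage.instIsLocalHom S59Stage.instFinite S59Stage.instFree

variable {𝒪}

/-- `length Φ_R` at a stage (for the augmentation `πT ∘ γ` of `R`). -/
def S59Stage.lPhi {ρbar : ResidualGaloisRep (ResidueField 𝒪)}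
    {𝒟 : ∀ ⦃A : Type⦄ [CommRing A] [IsLocalRing A] [Algebra 𝒪 A], GaloisRepAdic A → Prop}
    (s : S59Stage 𝒪 ρbar 𝒟) : ℕ∞ :=
  s59p_phiLen 𝒪 (s.πT.comp s.γ)

/-- **Wiles' induction over `Σ_W`** with concrete stages. -/
theorem s59topw_induct {ρbar : ResidualGaloisRep (ResidueField 𝒪)}
    (𝒟 : Finset ℕ → ∀ ⦃A : Type⦄ [CommRing A] [IsLocalRing A] [Algebra 𝒪 A],
      GaloisRepAdic A → Prop)
    (inv : ∀ Sg : Finset ℕ, S59Stage 𝒪 ρbar (𝒟 Sg) → Prop) (SW : Finset ℕ)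
    (base : ∃ s₀ : S59Stage 𝒪 ρbar (𝒟 ∅), inv ∅ s₀ ∧
      s₀.lPhi ≤ Module.length 𝒪 (𝒪 ⧸ s₀.etaL))
    (step : ∀ (Sg : Finset ℕ) (q : ℕ), Sg ⊆ SW → q ∈ SW → q ∉ Sg →
      ∀ s : S59Stage 𝒪 ρbar (𝒟 Sg), inv Sg s →
      ∃ (s' : S59Stage 𝒪 ρbar (𝒟 (insert q Sg))) (c : 𝒪), inv (insert q Sg) s' ∧
        s'.lPhi ≤ s.lPhi + Module.length 𝒪 (𝒪 ⧸ Ideal.span {c}) ∧
        s'.etaL ≤ Ideal.span {c} * s.etaL) :
    ∃ s : S59Stage 𝒪 ρbar (𝒟 SW), inv SW s ∧ s.lPhi ≤ Module.length 𝒪 (𝒪 ⧸ s.etaL) := by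
  classical
  have key : ∀ Sg : Finset ℕ, Sg ⊆ SW →
      ∃ s : S59Stage 𝒪 ρbar (𝒟 Sg), inv Sg s ∧ s.lPhi ≤ Module.length 𝒪 (𝒪 ⧸ s.etaL) := by
    intro Sg
    induction Sg using Finset.induction_on with
    | empty => exact fun _ => base
    | insert q Sg hq ih =>
      intro hsub
      have hSg : Sg ⊆ SW := (Finset.subset_insert q Sg).trans hsub
      have hqW : q ∈ SW := hsub (Finset.mem_insert_self q Sg)
      obtain ⟨s, hs, hle⟩ := ih hSg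
      obtain ⟨s', c, hs', hsel, heta⟩ := step Sg q hSg hqW hq s hs
      refine ⟨s', hs', ?_⟩
      have hc : c ≠ 0 := by
        intro h0
        apply s'.etaL_ne
        rw [h0, Ideal.span_singleton_eq_bot.2 rfl, Ideal.bot_mul, le_bot_iff] at heta
        exact heta
      exact s59g_stmtNCStep 𝒪 s.lPhi s'.lPhi s.etaL s'.etaL c hc s.etaL_ne hle hsel heta
  exact key SW (Finset.Subset.refl _)

/-- At a stage with the numerical inequality, `γ : R → T` is BIJECTIVE (NC-Iso ✓). -/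
theorem s59topw_iso {ρbar : ResidualGaloisRep (ResidueField 𝒪)}
    {𝒟 : ∀ ⦃A : Type⦄ [CommRing A] [IsLocalRing A] [Algebra 𝒪 A], GaloisRepAdic A → Prop}
    (s : S59Stage 𝒪 ρbar 𝒟) (h : s.lPhi ≤ Module.length 𝒪 (𝒪 ⧸ s.etaL)) :
    Function.Bijective s.γ :=
  s59g_end 𝒪 (NC.s59nc_ncIso 𝒪) s.D.R s.T s.γ s.πT s.γ_surj s.etaT_ne s.etaL s.gen h

end Stage

/-- The conditions on the level at the END of the induction (= the hypotheses of `s59fin_lift`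
on `N`, `S`). -/
def s59topw_LevelOK (p : ℕ) (W : WeierstrassCurve ℤ) (N : ℕ) (S : Set ℕ) : Prop :=
  (∀ ℓ : ℕ, ℓ.Prime → ℓ ∣ N → ℓ ∈ S) ∧
  (∀ ℓ : ℕ, ℓ ∈ S → ℓ = p ∨ ℓ ∣ N) ∧ p ∈ S ∧
  (∀ ℓ : ℕ, ℓ.Prime → (ℓ : ℤ) ∣ W.Δ → ℓ ∣ N) ∧
  ¬ p ^ 2 ∣ N ∧ (∀ q : ℕ, q.Prime → ¬ q ^ 3 ∣ N)

/-- **(STAGES)**: for every `(p, W)` as in the frozen S59 there are `𝒪`, `φ`, conditions `𝒟 Σ`, an
invariant `inv`, and the set `Σ_W`, with BASE, STEP and END. -/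
def s59topw_StmtStages : Prop :=
  ∀ (p : ℕ) [Fact p.Prime], (p = 3 ∨ p = 5) → ∀ (W : WeierstrassCurve ℤ) (hΔ : W.Δ ≠ 0),
    W.IsSemistableModel → W.ModRepIsIrreducible p →
    ∀ (M₀ : ℕ) [NeZero M₀], W.IsResiduallyModularOfLevel p M₀ → ¬ p ^ 2 ∣ M₀ →
    (∀ q : ℕ, q.Prime → q ≠ p → ¬ q ^ 3 ∣ M₀) →
    ∃ (𝒪 : Type) (_ : CommRing 𝒪) (_ : IsDomain 𝒪) (_ : IsDiscreteValuationRing 𝒪)
      (_ : IsAdicComplete (maximalIdeal 𝒪) 𝒪) (_ : CharZero 𝒪)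
      (φ : ℤ_[p] →+* 𝒪) (hφ : IsLocalHom φ)
      (𝒟 : Finset ℕ → ∀ ⦃A : Type⦄ [CommRing A] [IsLocalRing A] [Algebra 𝒪 A],
        GaloisRepAdic A → Prop)
      (inv : ∀ Sg : Finset ℕ, S59Stage 𝒪 (s59feBar W hΔ p φ hφ) (𝒟 Sg) → Prop)
      (SW : Finset ℕ),
      -- BASE (R1 = MIN′, on top of MINLEV = M1–M4)
      (∃ s₀ : S59Stage 𝒪 (s59feBar W hΔ p φ hφ) (𝒟 ∅), inv ∅ s₀ ∧
        s₀.lPhi ≤ Module.length 𝒪 (𝒪 ⧸ s₀.etaL)) ∧
      -- STEP (SEL ✓ + R2 = ETA′ + HGD ✓ + S54 ✓ + DEF-COND)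
      (∀ (Sg : Finset ℕ) (q : ℕ), Sg ⊆ SW → q ∈ SW → q ∉ Sg →
        ∀ s : S59Stage 𝒪 (s59feBar W hΔ p φ hφ) (𝒟 Sg), inv Sg s →
        ∃ (s' : S59Stage 𝒪 (s59feBar W hΔ p φ hφ) (𝒟 (insert q Sg))) (c : 𝒪),
          inv (insert q Sg) s' ∧
          s'.lPhi ≤ s.lPhi + Module.length 𝒪 (𝒪 ⧸ Ideal.span {c}) ∧
          s'.etaL ≤ Ideal.span {c} * s.etaL) ∧
      -- END (FinE ✓)
      (∀ s : S59Stage 𝒪 (s59feBar W hΔ p φ hφ) (𝒟 SW), inv SW s →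
        𝒟 SW (s59feRep W hΔ p φ hφ) ∧ s59topw_LevelOK p W s.N s.S)

/-- **(STAGES) ⇒ (RT)**. -/
theorem s59topw_rt (h : s59topw_StmtStages) : s59top_StmtRT := by
  intro p _ hp W hΔ hW hirr M₀ _ hres hM₀ hM₀3
  obtain ⟨𝒪, i1, i2, i3, i4, i5, φ, hφ, 𝒟, inv, SW, hbase, hstep, hend⟩ :=
    h p hp W hΔ hW hirr M₀ hres hM₀ hM₀3
  obtain ⟨s, hs, hle⟩ := s59topw_induct 𝒟 inv SW hbase hstep
  obtain ⟨h𝒟, hNS, hS, hpS, hbad, hp2N, hN3⟩ := hend s hs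
  exact ⟨𝒪, i1, i2, i3, i4, i5, φ, hφ, s.N, s.instN, s.S, s.θ, s.T, s.instCommRing,
    s.instIsLocalRing, s.instIsNoetherianRing, s.instIsAdicComplete, s.instAlgebra,
    s.instIsLocalHom, s.instFinite, s.instFree, 𝒟 SW, s.D, s.H, s.γ, h𝒟, hNS, hS, hpS, hbad,
    hp2N, hN3, s59topw_iso s hle, s.γ_trace⟩

/-- **S59 ⇐ S58 + (STAGES)**: the frozen statement. -/
theorem s59topw_result (h58 : s59p_StmtS58) (h : s59topw_StmtStages)
    (p : ℕ) (hp : p = 3 ∨ p = 5)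
    (W : WeierstrassCurve ℤ) (hΔ : W.Δ ≠ 0) (hW : W.IsSemistableModel)
    (hirr : W.ModRepIsIrreducible p)
    (M₀ : ℕ) [NeZero M₀] (hres₀ : W.IsResiduallyModularOfLevel p M₀)
    (hM₀ : ¬ p ^ 2 ∣ M₀)
    (hM₀3 : ∀ q : ℕ, q.Prime → q ≠ p → ¬ q ^ 3 ∣ M₀) :
    Mlc1IsModularModelOfExactConductorLevel W :=
  s59top_result h58 (s59topw_rt h) p hp W hΔ hW hirr M₀ hres₀ hM₀ hM₀3

end Fermat.Agent.S59

end
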