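/-
S59, piece R3 = TOP (helper69, captain), part 5: CASE (a) = `W` GOOD at `p`, assembled.

* `s59topw_StmtStagesAt c` : (STAGES) of `S59/TopWire.lean` restricted to the pairs `(W, p)` with
  `c W p`;  `s59topw_stages_of_two` : (STAGES) from the two cases `c` and `¬ c`.
* `s59topg_hdet` : `det ρ̄ = χ_p mod p` from `TWHyp` (HGD-RES, first half).
* `s59topg_levelOK` : END, the level conditions of `s59fin_lift` at `N = N₀ ∏_{q ∈ Σ_W} q²`.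
* `s59topg_StmtOwedGood` : EVERYTHING that is still owed in case (a), as ONE Prop:
  `𝒪` (with `𝔽_{p²} ⊆ k`), the base level `N₀`, the eigensystem `ψ` of the base form, the R2 data,
  the base lift `ρ₀`, DEF-COND, `hψ`, CAR, and the BASE stage (R1 = MIN′ on top of MINLEV).
* **`s59topg_stages_good : s59topg_StmtOwedGood → s59topw_StmtStagesAt good`**  (PROVED:
  FinE ✓ + `s59tops_step_flat` + END).
-/
import Fermat.Agent.S59.TopStep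
import Fermat.Agent.S59.FinEHyp

set_option autoImplicit false
set_option linter.style.haveILetI false
set_option linter.unusedSectionVars false
set_option linter.unusedVariables false
set_option linter.style.longLine false

noncomputable section

namespace Fermat.Agent.S59

open IsLocalRing Polynomial Fermat.Agent.TW Fermat.Agent.S53

/-- **(STAGES)** restricted to the pairs `(W, p)` with `c W p`. -/
def s59topw_StmtStagesAt (c : WeierstrassCurve ℤ → ℕ → Prop) : Prop :=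
  ∀ (p : ℕ) [Fact p.Prime], (p = 3 ∨ p = 5) → ∀ (W : WeierstrassCurve ℤ) (hΔ : W.Δ ≠ 0),
    W.IsSemistableModel → W.ModRepIsIrreducible p → c W p →
    ∀ (M₀ : ℕ) [NeZero M₀], W.IsResiduallyModularOfLevel p M₀ → ¬ p ^ 2 ∣ M₀ →
    (∀ q : ℕ, q.Prime → q ≠ p → ¬ q ^ 3 ∣ M₀) →
    ∃ (𝒪 : Type) (_ : CommRing 𝒪) (_ : IsDomain 𝒪) (_ : IsDiscreteValuationRing 𝒪)
      (_ : IsAdicComplete (maximalIdeal 𝒪) 𝒪) (_ : CharZero 𝒪)
      (φ : ℤ_[p] →+* 𝒪) (hφ : IsLocalHom φ)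
      (𝒟 : Finset ℕ → ∀ ⦃A : Type⦄ [CommRing A] [IsLocalRing A] [Algebra 𝒪 A],
        GaloisRepAdic A → Prop)
      (inv : ∀ Sg : Finset ℕ, S59Stage 𝒪 (s59feBar W hΔ p φ hφ) (𝒟 Sg) → Prop)
      (SW : Finset ℕ),
      (∃ s₀ : S59Stage 𝒪 (s59feBar W hΔ p φ hφ) (𝒟 ∅), inv ∅ s₀ ∧
        s₀.lPhi ≤ Module.length 𝒪 (𝒪 ⧸ s₀.etaL)) ∧
      (∀ (Sg : Finset ℕ) (q : ℕ), Sg ⊆ SW → q ∈ SW → q ∉ Sg →
        ∀ s : S59Stage 𝒪 (s59feBar W hΔ p φ hφ) (𝒟 Sg), inv Sg s →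
        ∃ (s' : S59Stage 𝒪 (s59feBar W hΔ p φ hφ) (𝒟 (insert q Sg))) (c : 𝒪),
          inv (insert q Sg) s' ∧
          s'.lPhi ≤ s.lPhi + Module.length 𝒪 (𝒪 ⧸ Ideal.span {c}) ∧
          s'.etaL ≤ Ideal.span {c} * s.etaL) ∧
      (∀ s : S59Stage 𝒪 (s59feBar W hΔ p φ hφ) (𝒟 SW), inv SW s →
        𝒟 SW (s59feRep W hΔ p φ hφ) ∧ s59topw_LevelOK p W s.N s.S)

/-- (STAGES) from the two cases `c` and `¬ c`. -/
theorem s59topw_stages_of_two (c : WeierstrassCurve ℤ → ℕ → Prop)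
    (h₁ : s59topw_StmtStagesAt c) (h₂ : s59topw_StmtStagesAt fun W p => ¬ c W p) :
    s59topw_StmtStages := by
  classical
  intro p _ hp W hΔ hW hirr M₀ _ hres hM₀ hM₀3
  by_cases hc : c W p
  · exact h₁ p hp W hΔ hW hirr hc M₀ hres hM₀ hM₀3
  · exact h₂ p hp W hΔ hW hirr hc M₀ hres hM₀ hM₀3

/-- **HGD-RES, first half**: `det ρ̄ = χ_p mod p`, from `TWHyp`. -/
theorem s59topg_hdet {𝒪 : Type} [CommRing 𝒪] [IsDomain 𝒪] [IsDiscreteValuationRing 𝒪]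
    [IsAdicComplete (maximalIdeal 𝒪) 𝒪] [Finite (ResidueField 𝒪)]
    {p : ℕ} {ρbar : ResidualGaloisRep (ResidueField 𝒪)} {S Smin : Finset ℕ}
    (h : TWHyp 𝒪 p ρbar S Smin)
    (σ : AlgebraicClosure ℚ ≃ₐ[ℚ] AlgebraicClosure ℚ) (a : ℕ)
    (ha : ∀ μ : AlgebraicClosure ℚ, μ ^ p = 1 → σ μ = μ ^ a) :
    LinearMap.det (ρbar.ρ σ) = (a : ResidueField 𝒪) := by
  obtain ⟨hp0, hd⟩ := h.hdet
  have hp0' : (p : ResidueField 𝒪) = 0 := by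
    have : maximalIdeal (ResidueField 𝒪) = ⊥ := IsLocalRing.maximalIdeal_eq_bot
    rw [this] at hp0
    exact hp0
  have h1 := hd 1 σ a (fun μ hμ => ha μ (by rwa [pow_one] at hμ))
  rw [pow_one, hp0', Ideal.span_singleton_eq_bot.2 rfl, Ideal.mem_bot, sub_eq_zero] at h1
  exact h1

section End

variable (W : WeierstrassCurve ℤ) (hΔ : W.Δ ≠ 0) (p : ℕ) [hp : Fact p.Prime]

/-- **END, the level** (case (a)): the conditions of `s59fin_lift` at `N₀ ∏_{q ∈ Σ_W} q²`. -/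
theorem s59topg_levelOK (hgood : W.IsGoodPrimeFor p) (N0 : ℕ)
    (hN0 : ∀ ℓ : ℕ, ℓ.Prime → (ℓ ∣ N0 ↔ ℓ ∈ s59feSmin W hΔ p ∧ ℓ ≠ p)) (hN0sq : Squarefree N0)
    (N : ℕ) (S : Set ℕ) (hN : N = s59tops_level N0 (s59feSigma W hΔ p))
    (hS : S = (↑(s59feSmin W hΔ p ∪ s59feSigma W hΔ p) : Set ℕ)) :
    s59topw_LevelOK p W N S := by
  classical
  have hpp : p.Prime := hp.out
  have hSgp : ∀ q ∈ s59feSigma W hΔ p, q.Prime := fun q h => s59fe_prime_of_mem_Sigma W hΔ p h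
  have hdisj := Finset.disjoint_left.1 (s59fe_disjoint W hΔ p)
  have hpSg : p ∉ s59feSigma W hΔ p := fun h => hdisj (s59fe_p_mem_Smin W hΔ p) h
  have hmemN : ∀ ℓ : ℕ, ℓ ∈ s59feSigma W hΔ p → ℓ ∣ N := by
    intro ℓ hℓ
    rw [hN]
    have h1 : ℓ ∣ ℓ * ℓ := Dvd.intro ℓ rfl
    have h2 : ℓ * ℓ ∣ ∏ q ∈ s59feSigma W hΔ p, (q * q) :=
      Finset.dvd_prod_of_mem (fun q => q * q) hℓ
    exact Dvd.dvd.mul_left (h1.trans h2) N0
  have hminN : ∀ ℓ : ℕ, ℓ ∈ s59feSmin W hΔ p → ℓ ≠ p → ℓ ∣ N := by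
    intro ℓ hℓ hne
    rw [hN]
    exact Dvd.dvd.mul_right ((hN0 ℓ (s59fe_prime_of_mem_Smin W hΔ p hℓ)).2 ⟨hℓ, hne⟩) _
  have hpN : ¬ p ∣ N := by
    rw [hN]
    intro hd
    rcases s59tops_prime_dvd_level hSgp hpp hd with h1 | h1
    · exact ((hN0 p hpp).1 h1).2 rfl
    · exact hpSg h1
  refine ⟨?_, ?_, ?_, ?_, ?_, ?_⟩
  · intro ℓ hℓ hd
    rw [hS, Finset.mem_coe]
    rw [hN] at hd
    rcases s59tops_prime_dvd_level hSgp hℓ hd with h1 | h1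
    · exact Finset.mem_union_left _ ((hN0 ℓ hℓ).1 h1).1
    · exact Finset.mem_union_right _ h1
  · intro ℓ hℓ
    rw [hS, Finset.mem_coe] at hℓ
    rcases Finset.mem_union.1 hℓ with h1 | h1
    · by_cases hne : ℓ = p
      · exact Or.inl hne
      · exact Or.inr (hminN ℓ h1 hne)
    · exact Or.inr (hmemN ℓ h1)
  · rw [hS, Finset.mem_coe]
    exact Finset.mem_union_left _ (s59fe_p_mem_Smin W hΔ p)
  · intro ℓ hℓ hbad
    have hne : ℓ ≠ p := by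
      rintro rfl
      exact hgood hbad
    rcases Finset.mem_union.1 (s59fe_bad_mem W hΔ p hℓ hbad) with h1 | h1
    · exact hminN ℓ h1 hne
    · exact hmemN ℓ h1
  · exact fun h => hpN (Dvd.dvd.trans (Dvd.intro_left (p ^ 1) (by ring)) h)
  · intro q hq h3
    rw [hN] at h3
    by_cases hqSg : q ∈ s59feSigma W hΔ p
    · -- `q ∈ Σ` : `q ∤ N₀`, so `q³ ∣ q² ∏'`, `q ∣ ∏'`
      have hqN0 : ¬ q ∣ N0 := fun hd => hdisj ((hN0 q hq).1 hd).1 hqSg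
      have hcop : Nat.Coprime (q ^ 3) N0 :=
        Nat.Coprime.pow_left _ ((Nat.Prime.coprime_iff_not_dvd hq).2 hqN0)
      have h4 : q ^ 3 ∣ ∏ q' ∈ s59feSigma W hΔ p, (q' * q') := by
        unfold s59tops_level at h3
        exact hcop.dvd_of_dvd_mul_left h3
      rw [← Finset.mul_prod_erase _ _ hqSg] at h4
      have h5 : q ∣ ∏ q' ∈ (s59feSigma W hΔ p).erase q, (q' * q') := by
        have h6 : q * q * q ∣ q * q * ∏ q' ∈ (s59feSigma W hΔ p).erase q, (q' * q') := by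
          have : q ^ 3 = q * q * q := by ring
          rwa [this] at h4
        exact (Nat.mul_dvd_mul_iff_left (Nat.mul_pos hq.pos hq.pos)).1 h6
      have h7 := s59tops_prime_dvd_prod (fun q' h => hSgp q' (Finset.mem_of_mem_erase h)) hq h5
      exact (Finset.notMem_erase q _) h7
    · have h4 : q ^ 3 ∣ N0 := by
        unfold s59tops_level at h3
        exact (s59tops_coprime_prod hSgp hq hqSg 3).dvd_of_dvd_mul_right h3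
      have h5 : q * q ∣ N0 := Dvd.dvd.trans (Dvd.intro q (by ring)) h4
      exact hq.one_lt.ne' (Nat.isUnit_iff.1 (hN0sq q h5))

end End

/-- **EVERYTHING that is still owed in case (a)** (`W` good at `p`), as one Prop. -/
def s59topg_StmtOwedGood : Prop :=
  ∀ (p : ℕ) [Fact p.Prime], (p = 3 ∨ p = 5) → ∀ (W : WeierstrassCurve ℤ) (hΔ : W.Δ ≠ 0),
    W.IsSemistableModel → W.ModRepIsIrreducible p → W.IsGoodPrimeFor p →
    ∀ (M₀ : ℕ) [NeZero M₀], W.IsResiduallyModularOfLevel p M₀ → ¬ p ^ 2 ∣ M₀ →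
    (∀ q : ℕ, q.Prime → q ≠ p → ¬ q ^ 3 ∣ M₀) →
    ∃ (𝒪 : Type) (_ : CommRing 𝒪) (_ : IsDomain 𝒪) (_ : IsDiscreteValuationRing 𝒪)
      (_ : IsAdicComplete (maximalIdeal 𝒪) 𝒪) (_ : CharZero 𝒪) (_ : Finite (ResidueField 𝒪))
      (φ : ℤ_[p] →+* 𝒪) (hφ : IsLocalHom φ) (N0 : ℕ) (ψ : ℕ → 𝒪) (R2 : S59R2Data 𝒪 p ψ)
      (ρ₀ : GaloisRepAdic 𝒪),
      -- `𝔽_{p²} ⊆ k`
      (∀ (ι : ZMod p →+* ResidueField 𝒪) (f : (ZMod p)[X]), f.Monic → f.natDegree = 2 →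
        ∃ α β : ResidueField 𝒪, f.map ι = (X - C α) * (X - C β)) ∧
      -- the base level (MINLEV)
      (∀ ℓ : ℕ, ℓ.Prime → (ℓ ∣ N0 ↔ ℓ ∈ s59feSmin W hΔ p ∧ ℓ ≠ p)) ∧ Squarefree N0 ∧
      -- DEF-COND
      (∀ Q : Finset ℕ, Q ⊆ s59feSigma W hΔ p →
        Nonempty (GaloisRep.DeformationRingData 𝒪 (s59feBar W hΔ p φ hφ)
          (twFlat 𝒪 p (s59feSmin W hΔ p) Q))) ∧
      -- `ψ ℓ ≡ tr ρ̄(Frob_ℓ)`
      (∀ ℓ : ℕ, ℓ.Prime → ℓ ∉ s59feSmin W hΔ p → ¬ ℓ ∣ N0 →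
        ∀ P : ValuationSubring (AlgebraicClosure ℚ), P.LiesOverPrime ℓ →
        ∀ τ : AlgebraicClosure ℚ ≃ₐ[ℚ] AlgebraicClosure ℚ, P.IsFrobeniusAt τ ℓ →
          residue 𝒪 (ψ ℓ) = LinearMap.trace (ResidueField 𝒪) (s59feBar W hΔ p φ hφ).V
            ((s59feBar W hΔ p φ hφ).ρ τ)) ∧
      -- CAR
      (∀ (S' : Finset ℕ) (ρ₁ : GaloisRepAdic 𝒪), ρ₁.DetIsCyclotomic p →
        (∀ ℓ : ℕ, ℓ.Prime → ℓ ∉ S' →
          ∀ P : ValuationSubring (AlgebraicClosure ℚ), P.LiesOverPrime ℓ →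
          ∀ φ' : AlgebraicClosure ℚ ≃ₐ[ℚ] AlgebraicClosure ℚ, P.IsFrobeniusAt φ' ℓ →
            LinearMap.trace 𝒪 ρ₁.V (ρ₁.ρ φ') = ψ ℓ) → ρ₁.IsEquiv ρ₀) ∧
      -- E-BIG
      (∀ Q : Finset ℕ, Q ⊆ s59feSigma W hΔ p → ∀ (N : ℕ) [NeZero N], N = s59tops_level N0 Q →
        ∀ θ : CuspForm.heckeAlgebra N 2 (↑(s59feSmin W hΔ p ∪ Q) : Set ℕ) →+* ResidueField 𝒪,
          s59p_IsBig 𝒪 N (↑(s59feSmin W hΔ p ∪ Q) : Set ℕ) θ) ∧
      -- BASE (R1 = MIN′)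
      ∃ s₀ : S59Stage 𝒪 (s59feBar W hΔ p φ hφ) (twFlat 𝒪 p (s59feSmin W hΔ p) ∅),
        s59tops_inv R2 ρ₀ (s59feSmin W hΔ p) N0 ∅ s₀ ∧
        s₀.lPhi ≤ Module.length 𝒪 (𝒪 ⧸ s₀.etaL)

/-- **CASE (a) ASSEMBLED**: (STAGES) for `W` good at `p` from what is owed. -/
theorem s59topg_stages_good (h : s59topg_StmtOwedGood) :
    s59topw_StmtStagesAt fun W p => W.IsGoodPrimeFor p := by
  intro p _ hp W hΔ hW hirr hgood M₀ _ hres hM₀ hM₀3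
  obtain ⟨𝒪, i1, i2, i3, i4, i5, i6, φ, hφ, N0, ψ, R2, ρ₀, hK, hN0, hN0sq, hD, hψ, hcar, hBig,
    s₀, hs₀, hle₀⟩ := h p hp W hΔ hW hirr hgood M₀ hres hM₀ hM₀3
  have hp2 : p ≠ 2 := by rcases hp with rfl | rfl <;> decide
  have hTW : TWHyp 𝒪 p (s59feBar W hΔ p φ hφ) (s59feSmin W hΔ p ∪ s59feSigma W hΔ p)
      (s59feSmin W hΔ p) := s59fe_twHyp_union W hΔ p φ hφ hp hK hW hirr
  have hSW : ∀ q ∈ s59feSigma W hΔ p, q.Prime ∧ q ∉ s59feSmin W hΔ p := fun q hq =>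
    ⟨s59fe_prime_of_mem_Sigma W hΔ p hq,
      fun h' => Finset.disjoint_left.1 (s59fe_disjoint W hΔ p) h' hq⟩
  refine ⟨𝒪, i1, i2, i3, i4, i5, φ, hφ, fun Sg => twFlat 𝒪 p (s59feSmin W hΔ p) Sg,
    fun Sg s => s59tops_inv R2 ρ₀ (s59feSmin W hΔ p) N0 Sg s, s59feSigma W hΔ p,
    ⟨s₀, hs₀, hle₀⟩, ?_, ?_⟩
  · intro Sg q hSg hqW hqSg s hs
    exact s59tops_step_flat p (s59feBar W hΔ p φ hφ) _ (s59feSmin W hΔ p) (s59feSigma W hΔ p)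
      hTW hSW N0 hN0 hN0sq ψ R2 ρ₀ hD (s59topg_hdet hTW) hψ hcar hBig Sg q hSg hqW hqSg s hs
  · intro s hs
    exact ⟨s59fe_twFlat W hΔ p φ hφ hW hp2 hgood,
      s59topg_levelOK W hΔ p hgood N0 hN0 hN0sq s.N s.S hs.1 hs.2.1⟩

end Fermat.Agent.S59

end
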