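/-
S59, piece R3 = TOP (helper69, captain), part 6: THE BASE STAGE, wired (flat case).

* `s59topb_stage_of_state` : from a GOOD state `x` of R2 of level `N₀ ∏_{q ∈ Σ} q²` a stage
  `s : S59Stage 𝒪 ρ̄ (twFlat 𝒪 p Smin Σ)` with the invariant `s59tops_inv` (`etaL = J x`)
  — HGD ✓ + S32 ✓ + S34 ✓ + S54 ✓ + DEF-COND + CAR + `hψ`, `hdet` (the construction of
  `s59tops_step_flat`, without SEL and without the step of R2).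
* `s59topb_base` : BASE of (STAGES) from
  (E-BASE) a good state `x₀` of level `N₀`, and
  (R1 = MIN′) the numerical inequality for EVERY stage at `Σ = ∅` with the invariant.
* `s59topb_StmtOwedGood'` / `s59topb_owed_good` : the list of what is owed in case (a), with BASE
  replaced by (E-BASE) + (R1).
-/
import Fermat.Agent.S59.TopGood

set_option autoImplicit false
set_option linter.style.haveILetI false
set_option linter.unusedSectionVars false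
set_option linter.unusedVariables false
set_option linter.style.longLine false

noncomputable section

namespace Fermat.Agent.S59

open IsLocalRing Polynomial Fermat.Agent.TW Fermat.Agent.S53

section Stage

variable {𝒪 : Type} [CommRing 𝒪] [IsDomain 𝒪] [IsDiscreteValuationRing 𝒪]
  [IsAdicComplete (maximalIdeal 𝒪) 𝒪] [Finite (ResidueField 𝒪)] [CharZero 𝒪]

/-- **A stage from a good state of R2** (flat case). -/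
theorem s59topb_stage_of_state (p : ℕ) [Fact p.Prime]
    (ρbar : ResidualGaloisRep (ResidueField 𝒪))
    (S Smin SW : Finset ℕ) (hTW : TWHyp 𝒪 p ρbar S Smin)
    (hSW : ∀ q ∈ SW, q.Prime ∧ q ∉ Smin)
    (N0 : ℕ) (hN0 : ∀ ℓ : ℕ, ℓ.Prime → (ℓ ∣ N0 ↔ ℓ ∈ Smin ∧ ℓ ≠ p)) (hN0sq : Squarefree N0)
    (ψ : ℕ → 𝒪) (R2 : S59R2Data 𝒪 p ψ) (ρ₀ : GaloisRepAdic 𝒪)
    (hD : ∀ Q : Finset ℕ, Q ⊆ SW →
      Nonempty (GaloisRep.DeformationRingData 𝒪 ρbar (twFlat 𝒪 p Smin Q)))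
    (hdet : ∀ (σ : AlgebraicClosure ℚ ≃ₐ[ℚ] AlgebraicClosure ℚ) (a : ℕ),
      (∀ μ : AlgebraicClosure ℚ, μ ^ p = 1 → σ μ = μ ^ a) →
        LinearMap.det (ρbar.ρ σ) = (a : ResidueField 𝒪))
    (hψ : ∀ ℓ : ℕ, ℓ.Prime → ℓ ∉ Smin → ¬ ℓ ∣ N0 →
      ∀ P : ValuationSubring (AlgebraicClosure ℚ), P.LiesOverPrime ℓ →
      ∀ τ : AlgebraicClosure ℚ ≃ₐ[ℚ] AlgebraicClosure ℚ, P.IsFrobeniusAt τ ℓ →
        residue 𝒪 (ψ ℓ) = LinearMap.trace (ResidueField 𝒪) ρbar.V (ρbar.ρ τ))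
    (hcar : ∀ (S' : Finset ℕ) (ρ₁ : GaloisRepAdic 𝒪), ρ₁.DetIsCyclotomic p →
      (∀ ℓ : ℕ, ℓ.Prime → ℓ ∉ S' →
        ∀ P : ValuationSubring (AlgebraicClosure ℚ), P.LiesOverPrime ℓ →
        ∀ φ : AlgebraicClosure ℚ ≃ₐ[ℚ] AlgebraicClosure ℚ, P.IsFrobeniusAt φ ℓ →
          LinearMap.trace 𝒪 ρ₁.V (ρ₁.ρ φ) = ψ ℓ) → ρ₁.IsEquiv ρ₀)
    (hBig : ∀ Q : Finset ℕ, Q ⊆ SW → ∀ (N : ℕ) [NeZero N], N = s59tops_level N0 Q →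
      ∀ θ : CuspForm.heckeAlgebra N 2 (↑(Smin ∪ Q) : Set ℕ) →+* ResidueField 𝒪,
        s59p_IsBig 𝒪 N (↑(Smin ∪ Q) : Set ℕ) θ)
    (Sg : Finset ℕ) (hSg : Sg ⊆ SW) (x : R2.X) (hx : R2.lev x = s59tops_level N0 Sg)
    (hgood : R2.Good x) :
    ∃ s : S59Stage 𝒪 ρbar (twFlat 𝒪 p Smin Sg), s59tops_inv R2 ρ₀ Smin N0 Sg s := by
  classical
  have hpp : p.Prime := Fact.out
  have hSgp : ∀ q' ∈ Sg, q'.Prime := fun q' h => (hSW q' (hSg h)).1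
  have hpSW : ∀ Q : Finset ℕ, Q ⊆ SW → p ∉ Q := fun Q hQ h => (hSW p (hQ h)).2 hTW.hpSmin
  haveI : NeZero (R2.lev x) := ⟨R2.lev_ne _⟩
  have hpS' : p ∈ Smin ∪ Sg := Finset.mem_union_left _ hTW.hpSmin
  have hNS' : ∀ ℓ : ℕ, ℓ.Prime → ℓ ∣ R2.lev x → ℓ ∈ Smin ∪ Sg := by
    intro ℓ hℓ hd
    rw [hx] at hd
    rcases s59tops_prime_dvd_level hSgp hℓ hd with h1 | h1
    · exact Finset.mem_union_left _ ((hN0 ℓ hℓ).1 h1).1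
    · exact Finset.mem_union_right _ h1
  have hpN' : ¬ p ∣ R2.lev x := by
    rw [hx]
    intro hd
    rcases s59tops_prime_dvd_level hSgp hpp hd with h1 | h1
    · exact ((hN0 p hpp).1 h1).2 rfl
    · exact hpSW _ hSg h1
  obtain ⟨χ, hχ⟩ := R2.char x hgood (Smin ∪ Sg) hpS' hNS'
  have hres : S59HgdRes p (R2.lev x) (Smin ∪ Sg) 𝒪 ((residue 𝒪).comp χ) ρbar :=
    { absIrr := hTW.habs
      det := hdet
      frob := fun ℓ hℓ hℓN hℓS P hP τ hτ => by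
        rw [RingHom.comp_apply, hχ ℓ hℓ hℓN hℓS]
        refine hψ ℓ hℓ (fun h => hℓS (Finset.mem_coe.2 (Finset.mem_union_left _ h))) ?_ P hP τ hτ
        intro hd
        exact hℓS (Finset.mem_coe.2 (Finset.mem_union_left _ ((hN0 ℓ hℓ).1 hd).1)) }
  obtain ⟨T, i1, i2, i3, i4, i5, i6, i7, i8, H, hsep, hdetH, hresH, hunr⟩ :=
    s59hgd_main p hTW.hp2 (R2.lev x) (Smin ∪ Sg) hpS' hNS' 𝒪 hTW.hp𝒪
      ((residue 𝒪).comp χ) ⟨χ, fun t => rfl⟩ ρbar hres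
  have htype : twFlat 𝒪 p Smin Sg H.ρ := by
    refine ⟨⟨hdetH, s59leaf_s32 hpp hTW.hp2 hTW.hp𝒪 hpN' hpS' hNS' H, ?_⟩, ?_⟩
    · intro ℓ hℓ hℓS
      refine hunr ℓ hℓ (fun hd => ?_)
      rcases (Nat.Prime.dvd_mul hℓ).1 hd with h1 | h1
      · exact hℓS (hNS' ℓ hℓ h1)
      · rw [(Nat.prime_dvd_prime_iff_eq hℓ hpp).1 h1] at hℓS
        exact hℓS hpS'
    · intro q₀ hq₀ hq₀p hne
      have hq₀Sg : q₀ ∉ Sg := fun h => (hSW q₀ (hSg h)).2 hq₀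
      refine s59leaf_s34 hpp hTW.hp𝒪 hpS' hNS' H q₀ hq₀p hne ?_ ?_
      · rw [hx]
        exact Dvd.dvd.mul_right ((hN0 q₀ hq₀p).2 ⟨hq₀, hne⟩) _
      · rw [hx]
        exact s59tops_sq_not_dvd_level hN0sq hSgp hq₀p hq₀Sg
  obtain ⟨D'⟩ := hD Sg hSg
  obtain ⟨γ', hγ's, hγ'l, hγ'e⟩ := Fermat.Agent.S54.result D' H
    (fun ℓ hℓ hd => Finset.mem_coe.2 (hNS' ℓ hℓ hd)) htype hresH
  have hγ't : ∀ σ : S59GQ, γ' (LinearMap.trace D'.R D'.ρ.V (D'.ρ.ρ σ)) =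
      LinearMap.trace T H.ρ.V (H.ρ.ρ σ) := s59fin_trace_compat D' H.ρ γ' hγ'l hγ'e
  obtain ⟨πT', hπT'⟩ := H.exists_point χ (fun t => rfl)
  have heig' : ∀ (ℓ : ℕ) (hℓ : ℓ.Prime) (hℓN : ¬ ℓ ∣ R2.lev x)
      (hℓS : ℓ ∉ (↑(Smin ∪ Sg) : Set ℕ)),
      πT' (H.π (CuspForm.heckeAlgebra.T hℓ hℓN hℓS)) = ψ ℓ := fun ℓ hℓ hℓN hℓS => by
    rw [hπT', hχ ℓ hℓ hℓN hℓS]
  have hSsub' : ∀ ℓ : ℕ, ℓ.Prime → ℓ ∈ Smin ∪ Sg → ℓ = p ∨ ℓ ∣ R2.lev x := by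
    intro ℓ hℓ hmem
    rw [hx]
    exact s59tops_mem_dvd_level hN0 hℓ hmem
  obtain ⟨hne', hgen'⟩ := R2.gen x hgood (Smin ∪ Sg) hpS' hNS' hSsub'
    ((residue 𝒪).comp χ) (hBig Sg hSg _ hx _) T H πT' hsep heig'
  have hloc' : IsLocalHom ((πT'.comp γ' : D'.R →ₐ[𝒪] 𝒪) : D'.R →+* 𝒪) :=
    s59selsame_aug_isLocalHom 𝒪 _
  have hρ₀' : (D'.ρ.baseChangeAlong ((πT'.comp γ' : D'.R →ₐ[𝒪] 𝒪) : D'.R →+* 𝒪) hloc').IsEquiv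
      ρ₀ := by
    refine hcar (Smin ∪ Sg) _
      (twbc_detIsCyclotomic _ hloc' D'.ρ p D'.isOfType.1.1) (fun ℓ hℓ hℓS P hP φ hφ => ?_)
    have hℓN : ¬ ℓ ∣ R2.lev x := fun hd => hℓS (hNS' ℓ hℓ hd)
    have hℓS' : ℓ ∉ (↑(Smin ∪ Sg) : Set ℕ) := fun h => hℓS (Finset.mem_coe.1 h)
    rw [s59fe_trace_baseChangeAlong]
    show πT' (γ' _) = ψ ℓ
    rw [hγ't φ, s59fin_trace_of_charpoly H.ρ.finrank_eq (H.ρ.ρ φ) _ _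
      (H.charpoly_frob ℓ hℓ hℓN hℓS' P hP φ hφ), heig' ℓ hℓ hℓN hℓS']
  exact ⟨{ N := R2.lev x, S := (↑(Smin ∪ Sg) : Set ℕ)
           θ := (residue 𝒪).comp χ, T := T, H := H, D := D', γ := γ', πT := πT'
           etaL := R2.J x, γ_surj := hγ's, γ_trace := hγ't, etaT_ne := hne'
           gen := hgen', etaL_ne := R2.J_ne _ hgood },
    hx, rfl, heig', ⟨hloc', hρ₀'⟩, x, rfl, hgood, rfl⟩

end Stage

/-- **What is owed in case (a)**, with BASE split into (E-BASE) a good state of level `N₀` and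
(R1 = MIN′) the numerical inequality at EVERY stage for `Σ = ∅`. -/
def s59topb_StmtOwedGood' : Prop :=
  ∀ (p : ℕ) [Fact p.Prime], (p = 3 ∨ p = 5) → ∀ (W : WeierstrassCurve ℤ) (hΔ : W.Δ ≠ 0),
    W.IsSemistableModel → W.ModRepIsIrreducible p → W.IsGoodPrimeFor p →
    ∀ (M₀ : ℕ) [NeZero M₀], W.IsResiduallyModularOfLevel p M₀ → ¬ p ^ 2 ∣ M₀ →
    (∀ q : ℕ, q.Prime → q ≠ p → ¬ q ^ 3 ∣ M₀) →
    ∃ (𝒪 : Type) (_ : CommRing 𝒪) (_ : IsDomain 𝒪) (_ : IsDiscreteValuationRing 𝒪)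
      (_ : IsAdicComplete (maximalIdeal 𝒪) 𝒪) (_ : CharZero 𝒪) (_ : Finite (ResidueField 𝒪))
      (φ : ℤ_[p] →+* 𝒪) (hφ : IsLocalHom φ) (N0 : ℕ) (ψ : ℕ → 𝒪) (R2 : S59R2Data 𝒪 p ψ)
      (ρ₀ : GaloisRepAdic 𝒪),
      (∀ (ι : ZMod p →+* ResidueField 𝒪) (f : (ZMod p)[X]), f.Monic → f.natDegree = 2 →
        ∃ α β : ResidueField 𝒪, f.map ι = (X - C α) * (X - C β)) ∧
      (∀ ℓ : ℕ, ℓ.Prime → (ℓ ∣ N0 ↔ ℓ ∈ s59feSmin W hΔ p ∧ ℓ ≠ p)) ∧ Squarefree N0 ∧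
      (∀ Q : Finset ℕ, Q ⊆ s59feSigma W hΔ p →
        Nonempty (GaloisRep.DeformationRingData 𝒪 (s59feBar W hΔ p φ hφ)
          (twFlat 𝒪 p (s59feSmin W hΔ p) Q))) ∧
      (∀ ℓ : ℕ, ℓ.Prime → ℓ ∉ s59feSmin W hΔ p → ¬ ℓ ∣ N0 →
        ∀ P : ValuationSubring (AlgebraicClosure ℚ), P.LiesOverPrime ℓ →
        ∀ τ : AlgebraicClosure ℚ ≃ₐ[ℚ] AlgebraicClosure ℚ, P.IsFrobeniusAt τ ℓ →
          residue 𝒪 (ψ ℓ) = LinearMap.trace (ResidueField 𝒪) (s59feBar W hΔ p φ hφ).V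
            ((s59feBar W hΔ p φ hφ).ρ τ)) ∧
      (∀ (S' : Finset ℕ) (ρ₁ : GaloisRepAdic 𝒪), ρ₁.DetIsCyclotomic p →
        (∀ ℓ : ℕ, ℓ.Prime → ℓ ∉ S' →
          ∀ P : ValuationSubring (AlgebraicClosure ℚ), P.LiesOverPrime ℓ →
          ∀ φ' : AlgebraicClosure ℚ ≃ₐ[ℚ] AlgebraicClosure ℚ, P.IsFrobeniusAt φ' ℓ →
            LinearMap.trace 𝒪 ρ₁.V (ρ₁.ρ φ') = ψ ℓ) → ρ₁.IsEquiv ρ₀) ∧
      -- (E-BIG)
      (∀ Q : Finset ℕ, Q ⊆ s59feSigma W hΔ p → ∀ (N : ℕ) [NeZero N], N = s59tops_level N0 Q →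
        ∀ θ : CuspForm.heckeAlgebra N 2 (↑(s59feSmin W hΔ p ∪ Q) : Set ℕ) →+* ResidueField 𝒪,
          s59p_IsBig 𝒪 N (↑(s59feSmin W hΔ p ∪ Q) : Set ℕ) θ) ∧
      -- (E-BASE)
      (∃ x₀ : R2.X, R2.lev x₀ = N0 ∧ R2.Good x₀) ∧
      -- (R1 = MIN′)
      ∀ s₀ : S59Stage 𝒪 (s59feBar W hΔ p φ hφ) (twFlat 𝒪 p (s59feSmin W hΔ p) ∅),
        s59tops_inv R2 ρ₀ (s59feSmin W hΔ p) N0 ∅ s₀ →
        s₀.lPhi ≤ Module.length 𝒪 (𝒪 ⧸ s₀.etaL)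

/-- (E-BASE) + (R1) ⇒ BASE : `s59topb_StmtOwedGood' → s59topg_StmtOwedGood`. -/
theorem s59topb_owed_good (h : s59topb_StmtOwedGood') : s59topg_StmtOwedGood := by
  intro p _ hp W hΔ hW hirr hgood M₀ _ hres hM₀ hM₀3
  obtain ⟨𝒪, i1, i2, i3, i4, i5, i6, φ, hφ, N0, ψ, R2, ρ₀, hK, hN0, hN0sq, hD, hψ, hcar, hBig,
    ⟨x₀, hx₀, hg₀⟩, hR1⟩ := h p hp W hΔ hW hirr hgood M₀ hres hM₀ hM₀3
  have hTW : TWHyp 𝒪 p (s59feBar W hΔ p φ hφ) (s59feSmin W hΔ p ∪ s59feSigma W hΔ p)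
      (s59feSmin W hΔ p) := s59fe_twHyp_union W hΔ p φ hφ hp hK hW hirr
  have hSW : ∀ q ∈ s59feSigma W hΔ p, q.Prime ∧ q ∉ s59feSmin W hΔ p := fun q hq =>
    ⟨s59fe_prime_of_mem_Sigma W hΔ p hq,
      fun h' => Finset.disjoint_left.1 (s59fe_disjoint W hΔ p) h' hq⟩
  have hlev0 : R2.lev x₀ = s59tops_level N0 ∅ := by
    rw [hx₀]
    unfold s59tops_level
    rw [Finset.prod_empty, mul_one]
  obtain ⟨s₀, hs₀⟩ := s59topb_stage_of_state p (s59feBar W hΔ p φ hφ) _ (s59feSmin W hΔ p)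
    (s59feSigma W hΔ p) hTW hSW N0 hN0 hN0sq ψ R2 ρ₀ hD (s59topg_hdet hTW) hψ hcar hBig ∅
    (Finset.empty_subset _) x₀ hlev0 hg₀
  exact ⟨𝒪, i1, i2, i3, i4, i5, i6, φ, hφ, N0, ψ, R2, ρ₀, hK, hN0, hN0sq, hD, hψ, hcar, hBig,
    s₀, hs₀, hR1 s₀ hs₀⟩

/-- **S59 in case (a) and the rest**: frozen S59 from S58 ✓, what is owed in case (a), and
(STAGES) for `W` bad at `p`. -/
theorem s59topb_result (h58 : s59p_StmtS58) (ha : s59topb_StmtOwedGood')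
    (hb : s59topw_StmtStagesAt fun W p => ¬ W.IsGoodPrimeFor p)
    (p : ℕ) (hp : p = 3 ∨ p = 5)
    (W : WeierstrassCurve ℤ) (hΔ : W.Δ ≠ 0) (hW : W.IsSemistableModel)
    (hirr : W.ModRepIsIrreducible p)
    (M₀ : ℕ) [NeZero M₀] (hres₀ : W.IsResiduallyModularOfLevel p M₀)
    (hM₀ : ¬ p ^ 2 ∣ M₀)
    (hM₀3 : ∀ q : ℕ, q.Prime → q ≠ p → ¬ q ^ 3 ∣ M₀) :
    Mlc1IsModularModelOfExactConductorLevel W :=
  s59topw_result h58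
    (s59topw_stages_of_two (fun W p => W.IsGoodPrimeFor p)
      (s59topg_stages_good (s59topb_owed_good ha)) hb)
    p hp W hΔ hW hirr M₀ hres₀ hM₀ hM₀3

end Fermat.Agent.S59

end
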