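/-
S59, the TOP chain, item **a1 = E-BIG wiring**, STRONG form (helper56; asked by helper67 for a3).

`s59tbig_exists_strong` : as `s59tbig_exists` (`S59/TopBig.lean`), with in addition the STRONG
bigness (every ring homomorphism from the Hecke algebra to ANY domain `B` over `𝒪` has its values
in `𝒪`) at every level `N₀ · ∏_{q ∈ Q} q²`, `Q ⊆ SW`, away from `Smin ∪ Q`, AND at the base level
`(N₀, ↑Smin)` (literal `↑Smin`, not `↑(Smin ∪ ∅)`).
-/
import Fermat.Agent.S59.TopBig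

set_option autoImplicit false
set_option linter.unusedVariables false
set_option linter.unusedSectionVars false
set_option linter.style.haveILetI false

noncomputable section

namespace Fermat.Agent.S59

open IsLocalRing Polynomial

/-- the levels of the top chain, indexed by `Option (powerset SW)` (`none` = the base level) -/
def s59tbigN (N0 : ℕ) (SW : Finset ℕ) : Option ↥(SW.powerset) → ℕ
  | none => N0
  | some i => N0 * ∏ q ∈ i.1, (q * q)

/-- the sets of primes of the top chain -/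
def s59tbigS (Smin SW : Finset ℕ) : Option ↥(SW.powerset) → Set ℕ
  | none => (↑Smin : Set ℕ)
  | some i => (↑(Smin ∪ i.1) : Set ℕ)

/-- **a1 (E-BIG wiring), strong form** -/
theorem s59tbig_exists_strong (p : ℕ) [Fact p.Prime]
    (hfin : ∀ (N : ℕ) [NeZero N] (S : Set ℕ), Module.Finite ℤ (CuspForm.heckeAlgebra N 2 S))
    (N0 : ℕ) [NeZero N0] (Smin SW : Finset ℕ) (hSW : ∀ q ∈ SW, q ≠ 0) :
    ∃ (𝒪 : Type) (_ : CommRing 𝒪) (_ : IsDomain 𝒪) (_ : IsDiscreteValuationRing 𝒪)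
      (_ : IsAdicComplete (maximalIdeal 𝒪) 𝒪) (_ : CharZero 𝒪) (_ : Finite (ResidueField 𝒪))
      (φ : ℤ_[p] →+* 𝒪) (_ : IsLocalHom φ),
      Function.Injective φ ∧ (p : 𝒪) ∈ maximalIdeal 𝒪 ∧
      (∀ (ι : ZMod p →+* ResidueField 𝒪) (f : (ZMod p)[X]), f.Monic → f.natDegree = 2 →
        ∃ α β : ResidueField 𝒪, f.map ι = (X - C α) * (X - C β)) ∧
      (∀ Q : Finset ℕ, Q ⊆ SW → ∀ (N : ℕ) [NeZero N], N = N0 * ∏ q ∈ Q, (q * q) →
        ∀ θ : CuspForm.heckeAlgebra N 2 (↑(Smin ∪ Q) : Set ℕ) →+* ResidueField 𝒪,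
          s59p_IsBig 𝒪 N (↑(Smin ∪ Q) : Set ℕ) θ) ∧
      (∀ Q : Finset ℕ, Q ⊆ SW → ∀ (N : ℕ) [NeZero N], N = N0 * ∏ q ∈ Q, (q * q) →
        ∀ (B : Type) [CommRing B] [IsDomain B] [Algebra 𝒪 B]
          (χ : CuspForm.heckeAlgebra N 2 (↑(Smin ∪ Q) : Set ℕ) →+* B)
          (t : CuspForm.heckeAlgebra N 2 (↑(Smin ∪ Q) : Set ℕ)),
          χ t ∈ Set.range (algebraMap 𝒪 B)) ∧
      (∀ θ : CuspForm.heckeAlgebra N0 2 (↑Smin : Set ℕ) →+* ResidueField 𝒪,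
        s59p_IsBig 𝒪 N0 (↑Smin : Set ℕ) θ) ∧
      ∀ (B : Type) [CommRing B] [IsDomain B] [Algebra 𝒪 B]
        (χ : CuspForm.heckeAlgebra N0 2 (↑Smin : Set ℕ) →+* B)
        (t : CuspForm.heckeAlgebra N0 2 (↑Smin : Set ℕ)),
        χ t ∈ Set.range (algebraMap 𝒪 B) := by
  classical
  have hN0 : N0 ≠ 0 := NeZero.ne N0
  have hne : ∀ i : Option ↥(SW.powerset), s59tbigN N0 SW i ≠ 0 := by
    rintro (_ | i)
    · exact hN0
    · refine mul_ne_zero hN0 (Finset.prod_ne_zero_iff.mpr fun q hq => ?_)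
      have hq' : q ∈ SW := (Finset.mem_powerset.mp i.2) hq
      exact mul_ne_zero (hSW q hq') (hSW q hq')
  haveI : ∀ i : Option ↥(SW.powerset), NeZero (s59tbigN N0 SW i) := fun i => ⟨hne i⟩
  haveI : ∀ i : Option ↥(SW.powerset),
      Module.Finite ℤ (CuspForm.heckeAlgebra (s59tbigN N0 SW i) 2 (s59tbigS Smin SW i)) :=
    fun i => hfin _ _
  obtain ⟨𝒪, i1, i2, i3, i4, i5, i6, φ, i8, hinj, hp, hsp, hbig⟩ :=
    s59big_exists_fam_padic p
      (fun i : Option ↥(SW.powerset) =>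
        CuspForm.heckeAlgebra (s59tbigN N0 SW i) 2 (s59tbigS Smin SW i))
      (s59tbigP p) (s59tbigP_monic p)
  have hstrong : ∀ Q : Finset ℕ, Q ⊆ SW → ∀ (N : ℕ) [NeZero N], N = N0 * ∏ q ∈ Q, (q * q) →
      ∀ (B : Type) [CommRing B] [IsDomain B] [Algebra 𝒪 B]
        (χ : CuspForm.heckeAlgebra N 2 (↑(Smin ∪ Q) : Set ℕ) →+* B)
        (t : CuspForm.heckeAlgebra N 2 (↑(Smin ∪ Q) : Set ℕ)),
        χ t ∈ Set.range (algebraMap 𝒪 B) := by
    intro Q hQ N _ hN B _ _ _ χ t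
    subst hN
    exact hbig (some ⟨Q, Finset.mem_powerset.mpr hQ⟩) B χ t
  have hstrong0 : ∀ (B : Type) [CommRing B] [IsDomain B] [Algebra 𝒪 B]
      (χ : CuspForm.heckeAlgebra N0 2 (↑Smin : Set ℕ) →+* B)
      (t : CuspForm.heckeAlgebra N0 2 (↑Smin : Set ℕ)),
      χ t ∈ Set.range (algebraMap 𝒪 B) := fun B _ _ _ χ t => hbig none B χ t
  refine ⟨𝒪, i1, i2, i3, i4, i6, i5, φ, i8, hinj, hp, ?_, ?_, hstrong, ?_, hstrong0⟩
  · intro ι f hf hd
    exact s59tbig_hK p 𝒪 hsp ι f hf hd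
  · intro Q hQ N _ hN θ
    exact s59big_isBig_of_range 𝒪 N _ (hstrong Q hQ N hN) θ
  · intro θ
    exact s59big_isBig_of_range 𝒪 N0 _ hstrong0 θ

end Fermat.Agent.S59
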