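/-
S59 / SEL, piece SEL-SAME (helper32): the hypothesis `s59selSame` of `StmtSelCoreLen` /
`StmtSelFlat` / `StmtSelOrd` holds for `x' := x ∘ g`, `g : R' → R` the canonical map.

`𝒟₀ ⊆ 𝒟₁`, `D` universal of type `𝒟₀`, `D'` universal of type `𝒟₁`.
* `s59selsame_aug_isLocalHom` : an augmentation `x : A →ₐ[𝒪] 𝒪` of a local ring is a local hom;
* `s59selsame_of_map` : if `g : D'.R →ₐ[𝒪] D.R` is local with `D'.ρ ⊗_g D.R ≅ D.ρ`, then
  `s59selSame 𝒪 D D' x (x.comp g)` for EVERY augmentation `x` of `D.R`;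
* `s59selsame_exists_map` : the canonical `g` (universal property of `D'` applied to `D.ρ`);
* `s59selsame_exists` : `∃ g, ∀ x, s59selSame 𝒪 D D' x (x.comp g)`;
* `s59selsame_trace` : `s59selTrace` transfers from `x` to `x.comp g` (the traces of the two
  specialisations agree);
* `s59selsame_coreLen` : `StmtSelCoreLen` in the form used by the glue (`x' := x ∘ g`).
So Carayol's lemma (piece CAR) is not needed: the glue takes `x' := x ∘ g`.
-/
import Fermat.Agent.S59.SelCore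
import Fermat.Agent.S59.FinERes

set_option autoImplicit false
set_option linter.unusedSectionVars false
set_option linter.unusedVariables false

noncomputable section

namespace Fermat.Agent.S59

open IsLocalRing Fermat.Agent.TW Fermat.Agent.S53

section Same

variable (𝒪 : Type) [CommRing 𝒪] [IsDomain 𝒪] [IsDiscreteValuationRing 𝒪]
  [IsAdicComplete (maximalIdeal 𝒪) 𝒪] [Finite (ResidueField 𝒪)]

/-- an augmentation of a local `𝒪`-algebra is a local homomorphism -/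
theorem s59selsame_aug_isLocalHom {A : Type} [CommRing A] [IsLocalRing A] [Algebra 𝒪 A]
    (x : A →ₐ[𝒪] 𝒪) : IsLocalHom (x : A →+* 𝒪) :=
  IsLocalHom.of_surjective (x : A →+* 𝒪) (s59selc_aug_surjective 𝒪 x)

variable {ρbar : ResidualGaloisRep (ResidueField 𝒪)}
  {𝒟₀ 𝒟₁ : ∀ ⦃A : Type⦄ [CommRing A] [IsLocalRing A] [Algebra 𝒪 A], GaloisRepAdic A → Prop}

/-- **SEL-SAME.**  If `g : R' → R` carries the universal representation of `R'` to that of `R`,
then `x` and `x ∘ g` give the same lift of `ρ̄` to `𝒪`. -/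
theorem s59selsame_of_map (D : GaloisRep.DeformationRingData 𝒪 ρbar 𝒟₀)
    (D' : GaloisRep.DeformationRingData 𝒪 ρbar 𝒟₁)
    (g : D'.R →ₐ[𝒪] D.R) (hg : IsLocalHom (g : D'.R →+* D.R))
    (hge : (D'.ρ.baseChangeAlong (g : D'.R →+* D.R) hg).IsEquiv D.ρ)
    (x : D.R →ₐ[𝒪] 𝒪) : s59selSame 𝒪 D D' x (x.comp g) := by
  have hx : IsLocalHom (x : D.R →+* 𝒪) := s59selsame_aug_isLocalHom 𝒪 x
  have hxg : IsLocalHom ((x : D.R →+* 𝒪).comp (g : D'.R →+* D.R)) :=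
    ⟨fun a ha => hg.map_nonunit a (hx.map_nonunit _ ha)⟩
  have hxg' : IsLocalHom ((x.comp g : D'.R →ₐ[𝒪] 𝒪) : D'.R →+* 𝒪) := hxg
  refine ⟨hx, hxg', ?_⟩
  have e0 := s59selc_bc_congr D'.ρ hxg' hxg rfl
  have e1 := s59selc_bc_comp D'.ρ (g : D'.R →+* D.R) hg (x : D.R →+* 𝒪) hx hxg
  have e2 := s59selc_isEquiv_bc hge (x : D.R →+* 𝒪) hx
  exact GaloisRepAdic_isEquiv_trans e0
    (GaloisRepAdic_isEquiv_trans (GaloisRepAdic_isEquiv_symm e1) e2)

/-- the canonical map `g : R' → R` (universal property of `R'` applied to the universal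
representation of `R`, which is of type `𝒟₁` because `𝒟₀ ⊆ 𝒟₁`). -/
theorem s59selsame_exists_map
    (h01 : ∀ (A : Type) [CommRing A] [IsLocalRing A] [Algebra 𝒪 A] (ρ : GaloisRepAdic A),
      𝒟₀ ρ → 𝒟₁ ρ)
    (D : GaloisRep.DeformationRingData 𝒪 ρbar 𝒟₀)
    (D' : GaloisRep.DeformationRingData 𝒪 ρbar 𝒟₁) :
    ∃ (g : D'.R →ₐ[𝒪] D.R) (hg : IsLocalHom (g : D'.R →+* D.R)),
      (D'.ρ.baseChangeAlong (g : D'.R →+* D.R) hg).IsEquiv D.ρ := by
  obtain ⟨g, ⟨hg, hge⟩, -⟩ := D'.universal D.R D.residue_surjective D.ρ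
    (h01 _ D.ρ D.isOfType) D.residual_isEquiv
  exact ⟨g, hg, hge⟩

/-- **SEL-SAME, existence form**: there is `g : R' → R` such that `x` and `x ∘ g` give the same
lift, for every augmentation `x` of `R`. -/
theorem s59selsame_exists
    (h01 : ∀ (A : Type) [CommRing A] [IsLocalRing A] [Algebra 𝒪 A] (ρ : GaloisRepAdic A),
      𝒟₀ ρ → 𝒟₁ ρ)
    (D : GaloisRep.DeformationRingData 𝒪 ρbar 𝒟₀)
    (D' : GaloisRep.DeformationRingData 𝒪 ρbar 𝒟₁) :
    ∃ g : D'.R →ₐ[𝒪] D.R, ∀ x : D.R →ₐ[𝒪] 𝒪, s59selSame 𝒪 D D' x (x.comp g) := by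
  obtain ⟨g, hg, hge⟩ := s59selsame_exists_map 𝒪 h01 D D'
  exact ⟨g, fun x => s59selsame_of_map 𝒪 D D' g hg hge x⟩

/-- the traces of the universal representations correspond under `g` -/
theorem s59selsame_trace_map (D : GaloisRep.DeformationRingData 𝒪 ρbar 𝒟₀)
    (D' : GaloisRep.DeformationRingData 𝒪 ρbar 𝒟₁)
    (g : D'.R →ₐ[𝒪] D.R) (hg : IsLocalHom (g : D'.R →+* D.R))
    (hge : (D'.ρ.baseChangeAlong (g : D'.R →+* D.R) hg).IsEquiv D.ρ)
    (σ : AlgebraicClosure ℚ ≃ₐ[ℚ] AlgebraicClosure ℚ) :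
    g (LinearMap.trace D'.R D'.ρ.V (D'.ρ.ρ σ)) = LinearMap.trace D.R D.ρ.V (D.ρ.ρ σ) := by
  rw [← s59fe_isEquiv_trace hge σ]
  exact (s59fe_trace_baseChangeAlong (g : D'.R →+* D.R) hg D'.ρ σ).symm

/-- `s59selTrace` transfers from `x` to `x ∘ g` -/
theorem s59selsame_trace (D : GaloisRep.DeformationRingData 𝒪 ρbar 𝒟₀)
    (D' : GaloisRep.DeformationRingData 𝒪 ρbar 𝒟₁)
    (g : D'.R →ₐ[𝒪] D.R) (hg : IsLocalHom (g : D'.R →+* D.R))
    (hge : (D'.ρ.baseChangeAlong (g : D'.R →+* D.R) hg).IsEquiv D.ρ)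
    (x : D.R →ₐ[𝒪] 𝒪) (q : ℕ) (t : 𝒪) (ht : s59selTrace 𝒪 D x q t) :
    s59selTrace 𝒪 D' (x.comp g) q t := by
  intro P hP φ hφ
  rw [AlgHom.comp_apply, s59selsame_trace_map 𝒪 D D' g hg hge φ]
  exact ht P hP φ hφ

end Same

end Fermat.Agent.S59

end
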