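/-
S59, case (a), leaf **a8-wiring** (helper67; ledger NOTES/S59-TOP.md row a8).

The base lift `ρ₀` and the conjunct `hcar` of `s59topb_StmtOwedGood'`:
`ρ₀ := H.ρ ⊗_{πT} 𝒪` for the Hecke–Galois datum `H` of level `N0` away from `Smin` (HGD ✓
`s59hgd_main`) and the point `πT` of the eigensystem `χ₀` (a3 ✓ `s59teig_exists_psi`).  Then `ρ₀` is
residually absolutely irreducible, has cyclotomic determinant and the Frobenius traces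
`ψ ℓ = χ₀ T_ℓ` outside `Smin`, so CAR ✓ (`s59car_hcar`, helper63) gives `hcar`.

* `s59tcar_of_datum` : the three properties of `ρ₀` for a given datum `H` and point `πT`.
* `s59tcar_hcar_of_datum` : `hcar` for a given datum `H` and point `πT`.
* `s59tcar_exists` : from `χ₀` (and `ρ̄`, `hdet`, `hψ`): `∃ ρ₀`, the three properties and `hcar`.
-/
import Fermat.Agent.S59.HGD.Main
import Fermat.Agent.S59.Car.Rep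
import Fermat.Agent.S59.Fin
import Fermat.Agent.S59.SelSame

set_option autoImplicit false
set_option linter.style.haveILetI false
set_option linter.unusedSectionVars false
set_option linter.unusedVariables false
set_option linter.style.longLine false

noncomputable section

namespace Fermat.Agent.S59

open IsLocalRing Polynomial Fermat.Agent.TW

section

variable {𝒪 : Type} [CommRing 𝒪] [IsDomain 𝒪] [IsDiscreteValuationRing 𝒪]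
  [IsAdicComplete (maximalIdeal 𝒪) 𝒪] [Finite (ResidueField 𝒪)]

/-- **The lift attached to a point of a Hecke–Galois datum**: `ρ₀ = H.ρ ⊗_{πT} 𝒪` is residually
absolutely irreducible, has cyclotomic determinant, and `tr ρ₀(Frob_ℓ) = ψ ℓ` for `ℓ ∉ S`. -/
theorem s59tcar_of_datum (p : ℕ) {N : ℕ} [NeZero N] {S : Finset ℕ}
    (hNS : ∀ ℓ : ℕ, ℓ.Prime → ℓ ∣ N → ℓ ∈ S)
    {θ : CuspForm.heckeAlgebra N 2 (↑S : Set ℕ) →+* ResidueField 𝒪}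
    {T : Type} [CommRing T] [IsLocalRing T] [IsNoetherianRing T]
    [IsAdicComplete (maximalIdeal T) T] [Algebra 𝒪 T] [IsLocalHom (algebraMap 𝒪 T)]
    [Module.Finite 𝒪 T] [Module.Free 𝒪 T]
    (H : CuspForm.HeckeGaloisRepDatum N (↑S : Set ℕ) 𝒪 θ T) (hdetH : H.ρ.DetIsCyclotomic p)
    (πT : T →ₐ[𝒪] 𝒪) (ψ : ℕ → 𝒪)
    (hπT : ∀ (ℓ : ℕ) (hℓ : ℓ.Prime) (hℓN : ¬ ℓ ∣ N) (hℓS : ℓ ∉ (↑S : Set ℕ)),
      πT (H.π (CuspForm.heckeAlgebra.T hℓ hℓN hℓS)) = ψ ℓ) :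
    (H.ρ.baseChangeAlong (πT : T →+* 𝒪)
        (s59selsame_aug_isLocalHom 𝒪 πT)).residual.IsAbsolutelyIrreducible ∧
      (H.ρ.baseChangeAlong (πT : T →+* 𝒪) (s59selsame_aug_isLocalHom 𝒪 πT)).DetIsCyclotomic p ∧
      ∀ ℓ : ℕ, ℓ.Prime → ℓ ∉ S →
        ∀ P : ValuationSubring (AlgebraicClosure ℚ), P.LiesOverPrime ℓ →
        ∀ φ : AlgebraicClosure ℚ ≃ₐ[ℚ] AlgebraicClosure ℚ, P.IsFrobeniusAt φ ℓ →
          LinearMap.trace 𝒪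
            (H.ρ.baseChangeAlong (πT : T →+* 𝒪) (s59selsame_aug_isLocalHom 𝒪 πT)).V
            ((H.ρ.baseChangeAlong (πT : T →+* 𝒪) (s59selsame_aug_isLocalHom 𝒪 πT)).ρ φ) =
            ψ ℓ := by
  have hloc : IsLocalHom (πT : T →+* 𝒪) := s59selsame_aug_isLocalHom 𝒪 πT
  refine ⟨?_, twbc_detIsCyclotomic _ hloc H.ρ p hdetH, fun ℓ hℓ hℓS P hP φ hφ => ?_⟩
  · refine s59hgd_absIrr_of_isEquiv (s59fe_residual_baseChange (πT : T →+* 𝒪) hloc H.ρ) ?_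
    exact s59hgd_absIrr_baseChangeAlong _ H.residual_absIrr _
  · have hℓN : ¬ ℓ ∣ N := fun hd => hℓS (hNS ℓ hℓ hd)
    have hℓS' : ℓ ∉ (↑S : Set ℕ) := fun h => hℓS (Finset.mem_coe.1 h)
    rw [s59fe_trace_baseChangeAlong]
    show πT _ = ψ ℓ
    rw [s59fin_trace_of_charpoly H.ρ.finrank_eq (H.ρ.ρ φ) _ _
      (H.charpoly_frob ℓ hℓ hℓN hℓS' P hP φ hφ), hπT ℓ hℓ hℓN hℓS']

/-- **`hcar` for the lift attached to a point of a Hecke–Galois datum.** -/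
theorem s59tcar_hcar_of_datum [CharZero 𝒪] {p : ℕ} (hp : p.Prime) {N : ℕ} [NeZero N]
    {S : Finset ℕ} (hNS : ∀ ℓ : ℕ, ℓ.Prime → ℓ ∣ N → ℓ ∈ S)
    {θ : CuspForm.heckeAlgebra N 2 (↑S : Set ℕ) →+* ResidueField 𝒪}
    {T : Type} [CommRing T] [IsLocalRing T] [IsNoetherianRing T]
    [IsAdicComplete (maximalIdeal T) T] [Algebra 𝒪 T] [IsLocalHom (algebraMap 𝒪 T)]
    [Module.Finite 𝒪 T] [Module.Free 𝒪 T]
    (H : CuspForm.HeckeGaloisRepDatum N (↑S : Set ℕ) 𝒪 θ T) (hdetH : H.ρ.DetIsCyclotomic p)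
    (πT : T →ₐ[𝒪] 𝒪) (ψ : ℕ → 𝒪)
    (hπT : ∀ (ℓ : ℕ) (hℓ : ℓ.Prime) (hℓN : ¬ ℓ ∣ N) (hℓS : ℓ ∉ (↑S : Set ℕ)),
      πT (H.π (CuspForm.heckeAlgebra.T hℓ hℓN hℓS)) = ψ ℓ) :
    ∀ (S' : Finset ℕ) (ρ₁ : GaloisRepAdic 𝒪), ρ₁.DetIsCyclotomic p →
      (∀ ℓ : ℕ, ℓ.Prime → ℓ ∉ S' →
        ∀ P : ValuationSubring (AlgebraicClosure ℚ), P.LiesOverPrime ℓ →
        ∀ φ : AlgebraicClosure ℚ ≃ₐ[ℚ] AlgebraicClosure ℚ, P.IsFrobeniusAt φ ℓ →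
          LinearMap.trace 𝒪 ρ₁.V (ρ₁.ρ φ) = ψ ℓ) →
      ρ₁.IsEquiv (H.ρ.baseChangeAlong (πT : T →+* 𝒪) (s59selsame_aug_isLocalHom 𝒪 πT)) := by
  obtain ⟨habs, hdet₀, htr₀⟩ := s59tcar_of_datum p hNS H hdetH πT ψ hπT
  exact s59car_hcar hp ψ _ habs hdet₀ S htr₀

/-- **a8-wiring**: the base lift `ρ₀` of the eigensystem `χ₀` of level `N0` away from `Smin`, and
`hcar` (the conjunct of `s59topb_StmtOwedGood'`), from HGD ✓ and CAR ✓.  `hψ` is a7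
(`s59tres_hψ_of_eig_Smin`), `hdet` is `s59topg_hdet hTW`, `habs` is `hTW.habs`. -/
theorem s59tcar_exists [CharZero 𝒪] (p : ℕ) [Fact p.Prime] (hp2 : p ≠ 2)
    (hp𝒪 : (p : 𝒪) ∈ maximalIdeal 𝒪)
    (ρbar : ResidualGaloisRep (ResidueField 𝒪)) (habs : ρbar.IsAbsolutelyIrreducible)
    (Smin : Finset ℕ) (hpSmin : p ∈ Smin)
    (N0 : ℕ) [NeZero N0] (hNS : ∀ ℓ : ℕ, ℓ.Prime → ℓ ∣ N0 → ℓ ∈ Smin)
    (ψ : ℕ → 𝒪) (χ₀ : CuspForm.heckeAlgebra N0 2 (↑Smin : Set ℕ) →+* 𝒪)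
    (hχ₀ : ∀ (ℓ : ℕ) (hℓ : ℓ.Prime) (hℓN : ¬ ℓ ∣ N0) (hℓS : ℓ ∉ (↑Smin : Set ℕ)),
      χ₀ (CuspForm.heckeAlgebra.T hℓ hℓN hℓS) = ψ ℓ)
    (hdet : ∀ (σ : AlgebraicClosure ℚ ≃ₐ[ℚ] AlgebraicClosure ℚ) (a : ℕ),
      (∀ μ : AlgebraicClosure ℚ, μ ^ p = 1 → σ μ = μ ^ a) →
        LinearMap.det (ρbar.ρ σ) = (a : ResidueField 𝒪))
    (hψ : ∀ ℓ : ℕ, ℓ.Prime → ℓ ∉ Smin → ¬ ℓ ∣ N0 →
      ∀ P : ValuationSubring (AlgebraicClosure ℚ), P.LiesOverPrime ℓ →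
      ∀ τ : AlgebraicClosure ℚ ≃ₐ[ℚ] AlgebraicClosure ℚ, P.IsFrobeniusAt τ ℓ →
        residue 𝒪 (ψ ℓ) = LinearMap.trace (ResidueField 𝒪) ρbar.V (ρbar.ρ τ)) :
    ∃ ρ₀ : GaloisRepAdic 𝒪,
      ρ₀.residual.IsAbsolutelyIrreducible ∧ ρ₀.DetIsCyclotomic p ∧
      (∀ ℓ : ℕ, ℓ.Prime → ℓ ∉ Smin →
        ∀ P : ValuationSubring (AlgebraicClosure ℚ), P.LiesOverPrime ℓ →
        ∀ φ : AlgebraicClosure ℚ ≃ₐ[ℚ] AlgebraicClosure ℚ, P.IsFrobeniusAt φ ℓ →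
          LinearMap.trace 𝒪 ρ₀.V (ρ₀.ρ φ) = ψ ℓ) ∧
      (∀ q : ℕ, q.Prime → ¬ q ∣ N0 * p → ρ₀.IsUnramifiedAt q) ∧
      ∀ (S' : Finset ℕ) (ρ₁ : GaloisRepAdic 𝒪), ρ₁.DetIsCyclotomic p →
        (∀ ℓ : ℕ, ℓ.Prime → ℓ ∉ S' →
          ∀ P : ValuationSubring (AlgebraicClosure ℚ), P.LiesOverPrime ℓ →
          ∀ φ : AlgebraicClosure ℚ ≃ₐ[ℚ] AlgebraicClosure ℚ, P.IsFrobeniusAt φ ℓ →
            LinearMap.trace 𝒪 ρ₁.V (ρ₁.ρ φ) = ψ ℓ) → ρ₁.IsEquiv ρ₀ := by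
  classical
  have hpp : p.Prime := Fact.out
  have hres : S59HgdRes p N0 Smin 𝒪 ((residue 𝒪).comp χ₀) ρbar :=
    { absIrr := habs
      det := hdet
      frob := fun ℓ hℓ hℓN hℓS P hP τ hτ => by
        rw [RingHom.comp_apply, hχ₀ ℓ hℓ hℓN hℓS]
        exact hψ ℓ hℓ (fun h => hℓS (Finset.mem_coe.2 h)) hℓN P hP τ hτ }
  obtain ⟨T, i1, i2, i3, i4, i5, i6, i7, i8, H, hsep, hdetH, hresH, hunr⟩ :=
    s59hgd_main p hp2 N0 Smin hpSmin hNS 𝒪 hp𝒪 ((residue 𝒪).comp χ₀) ⟨χ₀, fun t => rfl⟩ ρbar hres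
  obtain ⟨πT, hπT⟩ := H.exists_point χ₀ (fun t => rfl)
  have heig : ∀ (ℓ : ℕ) (hℓ : ℓ.Prime) (hℓN : ¬ ℓ ∣ N0) (hℓS : ℓ ∉ (↑Smin : Set ℕ)),
      πT (H.π (CuspForm.heckeAlgebra.T hℓ hℓN hℓS)) = ψ ℓ := fun ℓ hℓ hℓN hℓS => by
    rw [hπT, hχ₀ ℓ hℓ hℓN hℓS]
  obtain ⟨h1, h2, h3⟩ := s59tcar_of_datum p hNS H hdetH πT ψ heig
  refine ⟨H.ρ.baseChangeAlong (πT : T →+* 𝒪) (s59selsame_aug_isLocalHom 𝒪 πT), h1, h2, h3,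
    fun q hq hqN => ?_, s59tcar_hcar_of_datum hpp hNS H hdetH πT ψ heig⟩
  exact twbc_isUnramifiedAt _ (s59selsame_aug_isLocalHom 𝒪 πT) H.ρ q (hunr q hq hqN)

end

end Fermat.Agent.S59

end
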