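/-
S59, case (a), leaf **a3 = BASE-EIG** (helper67; ledger NOTES/S59-TOP.md row a3).

For a normalized eigenform `f` of level `N0` and a maximal ideal `𝔪 ⊂ ℤ̄` over `p`, and a local
domain `𝒪` with `p ∈ 𝔪_𝒪` which is BIG for the anemic Hecke algebra `𝕋 = heckeAlgebra N0 2 S`
(`S ⊇ {primes dividing N0}`), there is a point `χ₀ : 𝕋 →+* 𝒪` with
`residue (χ₀ T_ℓ) = n` whenever `a_ℓ(f) ≡ n mod 𝔪`, `n : ℤ`.

* `s59teig_exists_lift`    : the abstract lifting (going down for the flat `𝒪`-algebra `𝒪 ⊗ 𝕋`).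
* `s59teig_exists_residue` : the residual form of it.
* `s59teig_eigen`, `s59teig_exists_eigenChar`, `s59teig_exists_intChar` : the eigencharacter
  `𝕋 → ℤ̄` of `f`.
* `s59teig_exists`         : BASE-EIG for a given big `𝒪`.
* `s59teig_exists_big`     : E-BIG (`s59big_exists_fam_padic`) + BASE-EIG in one statement.
* `s59teig_psi`, `s59teig_exists_psi`, `s59teig_exists_big_psi` : the same with `ψ : ℕ → 𝒪`,
  `ψ ℓ = χ₀ T_ℓ` (the shape of `S59R2Data.char` and of helper80's `s59tres_hψ_of_eig_Smin`).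
-/
import Fermat.Agent.S42.Int
import Fermat.Agent.S59.Eta.BigFam

set_option autoImplicit false
set_option linter.unusedVariables false
set_option linter.unusedSectionVars false
set_option linter.style.haveILetI false
set_option linter.style.longLine false

noncomputable section

namespace Fermat.Agent.S59

open IsLocalRing TensorProduct


/-- a ring homomorphism with values in the range of an injective one factors through it -/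
theorem s59teig_factor {A B T : Type*} [CommRing A] [CommRing B] [CommRing T] (i : A →+* B)
    (hi : Function.Injective i) (χ : T →+* B) (h : ∀ t, χ t ∈ Set.range i) :
    ∃ χ₀ : T →+* A, ∀ t, i (χ₀ t) = χ t := by
  classical
  choose g hg using h
  exact ⟨{ toFun := g
           map_one' := hi (by rw [hg, map_one, map_one])
           map_mul' := fun x y => hi (by rw [hg, map_mul, map_mul, hg, hg])
           map_zero' := hi (by rw [hg, map_zero, map_zero])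
           map_add' := fun x y => hi (by rw [hg, map_add, map_add, hg, hg]) }, fun t => hg t⟩

/-- **Lifting a point** (going down for the flat `𝒪`-algebra `𝒪 ⊗ 𝕋`): if `𝒪` is a domain which is
BIG for `𝕋` (every point of `𝕋` in a domain over `𝒪` has its values in `𝒪`), `𝕋` is flat over `ℤ`,
then every pair `r : 𝒪 → Ω`, `m : 𝕋 → Ω` of maps to a field is induced by a point
`χ₀ : 𝕋 → 𝒪` : `r ∘ χ₀ = m`. -/
theorem s59teig_exists_lift {𝒪 𝕋 : Type} [CommRing 𝒪] [IsDomain 𝒪] [CommRing 𝕋]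
    [Module.Flat ℤ 𝕋]
    (hbig : ∀ (B : Type) [CommRing B] [IsDomain B] [Algebra 𝒪 B] (χ : 𝕋 →+* B) (t : 𝕋),
      χ t ∈ Set.range (algebraMap 𝒪 B))
    {Ω : Type*} [Field Ω] (r : 𝒪 →+* Ω) (m : 𝕋 →+* Ω) :
    ∃ χ₀ : 𝕋 →+* 𝒪, ∀ t, r (χ₀ t) = m t := by
  classical
  let π : 𝒪 ⊗[ℤ] 𝕋 →ₐ[ℤ] Ω := Algebra.TensorProduct.productMap r.toIntAlgHom m.toIntAlgHom
  have hπl : ∀ a : 𝒪, π (a ⊗ₜ[ℤ] (1 : 𝕋)) = r a := by
    intro a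
    simp [π]
  have hπr : ∀ t : 𝕋, π ((1 : 𝒪) ⊗ₜ[ℤ] t) = m t := by
    intro t
    simp [π]
  let 𝔔 : Ideal (𝒪 ⊗[ℤ] 𝕋) := RingHom.ker (π : 𝒪 ⊗[ℤ] 𝕋 →+* Ω)
  haveI h𝔔 : 𝔔.IsPrime := RingHom.ker_isPrime _
  let 𝔫 : Ideal 𝒪 := RingHom.ker r
  haveI h𝔫 : 𝔫.IsPrime := RingHom.ker_isPrime _
  haveI hlo : 𝔔.LiesOver 𝔫 := ⟨by
    ext a
    rw [Ideal.under, Ideal.mem_comap, RingHom.mem_ker, RingHom.mem_ker,
      Algebra.TensorProduct.algebraMap_apply, Algebra.algebraMap_self, RingHom.id_apply]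
    exact (congrArg (· = 0) (hπl a)).to_iff.symm⟩
  haveI hbot : (⊥ : Ideal 𝒪).IsPrime := Ideal.isPrime_bot
  obtain ⟨𝔮, h𝔮𝔔, h𝔮p, h𝔮o⟩ :=
    Ideal.exists_ideal_le_liesOver_of_le (p := (⊥ : Ideal 𝒪)) (q := 𝔫) 𝔔 bot_le
  haveI := h𝔮p
  -- the domain `B = (𝒪 ⊗ 𝕋) ⧸ 𝔮`
  have hinj : Function.Injective (algebraMap 𝒪 ((𝒪 ⊗[ℤ] 𝕋) ⧸ 𝔮)) := by
    rw [injective_iff_map_eq_zero]
    intro a ha
    rw [IsScalarTower.algebraMap_apply 𝒪 (𝒪 ⊗[ℤ] 𝕋) ((𝒪 ⊗[ℤ] 𝕋) ⧸ 𝔮),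
      Ideal.Quotient.algebraMap_eq, Ideal.Quotient.eq_zero_iff_mem] at ha
    have h1 : a ∈ Ideal.under 𝒪 𝔮 := ha
    rw [← h𝔮o.over] at h1
    exact (Ideal.mem_bot).1 h1
  let χB : 𝕋 →+* (𝒪 ⊗[ℤ] 𝕋) ⧸ 𝔮 :=
    (Ideal.Quotient.mk 𝔮).comp
      ((Algebra.TensorProduct.includeRight : 𝕋 →ₐ[ℤ] 𝒪 ⊗[ℤ] 𝕋) : 𝕋 →+* 𝒪 ⊗[ℤ] 𝕋)
  obtain ⟨χ₀, hχ₀⟩ := s59teig_factor (algebraMap 𝒪 ((𝒪 ⊗[ℤ] 𝕋) ⧸ 𝔮)) hinj χB
    (fun t => hbig ((𝒪 ⊗[ℤ] 𝕋) ⧸ 𝔮) χB t)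
  let πB : (𝒪 ⊗[ℤ] 𝕋) ⧸ 𝔮 →+* Ω :=
    Ideal.Quotient.lift 𝔮 (π : 𝒪 ⊗[ℤ] 𝕋 →+* Ω) (fun x hx => h𝔮𝔔 hx)
  have hπB : ∀ x : 𝒪 ⊗[ℤ] 𝕋, πB (Ideal.Quotient.mk 𝔮 x) = π x := fun x =>
    Ideal.Quotient.lift_mk _ _ _
  refine ⟨χ₀, fun t => ?_⟩
  have h1 : πB (algebraMap 𝒪 ((𝒪 ⊗[ℤ] 𝕋) ⧸ 𝔮) (χ₀ t)) = r (χ₀ t) := by
    rw [IsScalarTower.algebraMap_apply 𝒪 (𝒪 ⊗[ℤ] 𝕋) ((𝒪 ⊗[ℤ] 𝕋) ⧸ 𝔮),
      Ideal.Quotient.algebraMap_eq, hπB, Algebra.TensorProduct.algebraMap_apply,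
      Algebra.algebraMap_self, RingHom.id_apply]
    exact hπl _
  have h2 : πB (χB t) = m t := by
    show πB (Ideal.Quotient.mk 𝔮 _) = _
    rw [hπB]
    exact hπr t
  rw [← h1, hχ₀ t, h2]

/-- **Lifting a residual point**: `𝒪` a local domain with `p ∈ 𝔪_𝒪`, BIG for the `ℤ`-flat ring
`𝕋`; `μ : 𝕋 → κ` a map to a field of characteristic `p`.  Then there is a point
`χ₀ : 𝕋 → 𝒪` which reduces to `μ` on all the elements where `μ` takes values in `𝔽_p`. -/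
theorem s59teig_exists_residue (p : ℕ) [hp : Fact p.Prime] {𝒪 𝕋 : Type} [CommRing 𝒪]
    [IsDomain 𝒪] [IsLocalRing 𝒪] [CommRing 𝕋] [Module.Flat ℤ 𝕋]
    (hp𝒪 : (p : 𝒪) ∈ maximalIdeal 𝒪)
    (hbig : ∀ (B : Type) [CommRing B] [IsDomain B] [Algebra 𝒪 B] (χ : 𝕋 →+* B) (t : 𝕋),
      χ t ∈ Set.range (algebraMap 𝒪 B))
    {κ : Type} [Field κ] [CharP κ p] (μ : 𝕋 →+* κ) :
    ∃ χ₀ : 𝕋 →+* 𝒪, ∀ (t : 𝕋) (n : ℤ), μ t = (n : κ) →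
      residue 𝒪 (χ₀ t) = (n : ResidueField 𝒪) := by
  classical
  haveI : CharP (ResidueField 𝒪) p := by
    rw [CharP.charP_iff_prime_eq_zero hp.out]
    have h1 : residue 𝒪 (p : 𝒪) = 0 := (residue_eq_zero_iff _).2 hp𝒪
    rwa [map_natCast] at h1
  letI : Algebra (ZMod p) (ResidueField 𝒪) := ZMod.algebra _ p
  letI : Algebra (ZMod p) κ := ZMod.algebra _ p
  obtain ⟨M, hM⟩ := Ideal.exists_maximal (ResidueField 𝒪 ⊗[ZMod p] κ)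
  letI : Field ((ResidueField 𝒪 ⊗[ZMod p] κ) ⧸ M) := Ideal.Quotient.field M
  let ιl : ResidueField 𝒪 →+* (ResidueField 𝒪 ⊗[ZMod p] κ) ⧸ M :=
    (Ideal.Quotient.mk M).comp Algebra.TensorProduct.includeLeftRingHom
  let ιr : κ →+* (ResidueField 𝒪 ⊗[ZMod p] κ) ⧸ M :=
    (Ideal.Quotient.mk M).comp
      ((Algebra.TensorProduct.includeRight : κ →ₐ[ZMod p] ResidueField 𝒪 ⊗[ZMod p] κ) :
        κ →+* ResidueField 𝒪 ⊗[ZMod p] κ)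
  obtain ⟨χ₀, hχ₀⟩ := s59teig_exists_lift hbig (ιl.comp (residue 𝒪)) (ιr.comp μ)
  refine ⟨χ₀, fun t n hn => ?_⟩
  have h1 : ιl (residue 𝒪 (χ₀ t)) = ιr (μ t) := hχ₀ t
  rw [hn, map_intCast, ← map_intCast ιl] at h1
  exact ιl.injective h1


/-! ### The eigencharacter of a normalized eigenform -/

open CongruenceSubgroup ModularFormClass Polynomial

/-- a normalized eigenform is a common eigenvector of the anemic Hecke algebra -/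
theorem s59teig_eigen {N0 : ℕ} [NeZero N0] {S : Set ℕ}
    (hNS : ∀ q : ℕ, q.Prime → q ∣ N0 → q ∈ S)
    (f : CuspForm (Gamma0 N0) 2) (hf : f.IsNormalizedEigenform) :
    ∀ s ∈ CuspForm.heckeAlgebra N0 2 S, ∃ c : ℂ, s f = c • f := by
  intro s hs
  induction hs using Algebra.adjoin_induction with
  | mem x hx =>
    rcases hx with ⟨ℓ, hℓ, hℓN, -, rfl⟩ | ⟨q, hqN, hq, hqS, rfl⟩
    · exact ⟨_, Fermat.Agent.S42.heckeTLin_apply_eq_smul f hf hℓ hℓN⟩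
    · exact absurd (hNS q hq hqN) hqS
  | algebraMap r =>
    refine ⟨(r : ℂ), ?_⟩
    rw [Algebra.algebraMap_eq_smul_one, LinearMap.smul_apply, Module.End.one_apply,
      Int.cast_smul_eq_zsmul]
  | add x y _ _ hx hy =>
    obtain ⟨a, ha⟩ := hx
    obtain ⟨b, hb⟩ := hy
    exact ⟨a + b, by rw [LinearMap.add_apply, ha, hb, add_smul]⟩
  | mul x y _ _ hx hy =>
    obtain ⟨a, ha⟩ := hx
    obtain ⟨b, hb⟩ := hy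
    exact ⟨b * a, by rw [Module.End.mul_apply, hb, map_smul, ha, smul_smul]⟩

/-- the eigencharacter of a common eigenvector of a subalgebra of `End V` -/
theorem s59teig_exists_eigenChar {V : Type*} [AddCommGroup V] [Module ℂ V]
    (A : Subalgebra ℤ (Module.End ℂ V)) (f : V) (hf : f ≠ 0)
    (h : ∀ s ∈ A, ∃ c : ℂ, s f = c • f) :
    ∃ χ : A →+* ℂ, ∀ s : A, (s : Module.End ℂ V) f = χ s • f := by
  classical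
  choose! g hg using h
  have key : ∀ c d : ℂ, c • f = d • f → c = d := fun c d hcd => smul_left_injective ℂ hf hcd
  refine ⟨{ toFun := fun s => g s.1
            map_one' := ?_
            map_mul' := ?_
            map_zero' := ?_
            map_add' := ?_ }, fun s => hg s.1 s.2⟩
  · apply key
    rw [← hg _ (1 : A).2]
    simp
  · intro s t
    apply key
    rw [← hg _ (s * t).2, Subalgebra.coe_mul, Module.End.mul_apply, hg _ t.2, map_smul,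
      hg _ s.2, smul_smul, mul_comm]
  · apply key
    rw [← hg _ (0 : A).2]
    simp
  · intro s t
    apply key
    rw [← hg _ (s + t).2, Subalgebra.coe_add, LinearMap.add_apply, hg _ s.2, hg _ t.2, add_smul]

/-- the eigencharacter of a normalized eigenform, with values in `ℤ̄` -/
theorem s59teig_exists_intChar {N0 : ℕ} [NeZero N0] {S : Set ℕ}
    (hNS : ∀ q : ℕ, q.Prime → q ∣ N0 → q ∈ S)
    (f : CuspForm (Gamma0 N0) 2) (hf : f.IsNormalizedEigenform) :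
    ∃ χ : CuspForm.heckeAlgebra N0 2 S →+* integralClosure ℤ ℂ,
      ∀ (ℓ : ℕ) (hℓ : ℓ.Prime) (hℓN : ¬ ℓ ∣ N0) (hℓS : ℓ ∉ S),
        ((χ (CuspForm.heckeAlgebra.T hℓ hℓN hℓS) : integralClosure ℤ ℂ) : ℂ) = qCoeff f ℓ := by
  classical
  have hf0 : f ≠ 0 := Fermat.Agent.S42.normalizedEigenform_ne_zero f hf
  obtain ⟨χ, hχ⟩ := s59teig_exists_eigenChar (CuspForm.heckeAlgebra N0 2 S) f hf0
    (s59teig_eigen hNS f hf)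
  haveI : Module.Finite ℤ (CuspForm.heckeAlgebra N0 2 S) :=
    Fermat.Agent.S22.moduleFinite_heckeAlgebra N0 2 S
  have hint : ∀ t : CuspForm.heckeAlgebra N0 2 S, χ t ∈ integralClosure ℤ ℂ := by
    intro t
    have h1 : IsIntegral ℤ t := Algebra.IsIntegral.isIntegral t
    exact h1.map χ.toIntAlgHom
  refine ⟨χ.codRestrict (integralClosure ℤ ℂ) hint, fun ℓ hℓ hℓN hℓS => ?_⟩
  show χ (CuspForm.heckeAlgebra.T hℓ hℓN hℓS) = qCoeff f ℓ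
  have h1 := hχ (CuspForm.heckeAlgebra.T hℓ hℓN hℓS)
  rw [CuspForm.heckeAlgebra.coe_T, Fermat.Agent.S42.heckeTLin_apply_eq_smul f hf hℓ hℓN] at h1
  exact (smul_left_injective ℂ hf0 h1).symm

/-! ### BASE-EIG -/

/-- **BASE-EIG** (for a given big `𝒪`): the eigensystem of `(f, 𝔪)` lifts to a point
`χ₀ : heckeAlgebra N0 2 S → 𝒪`, `residue (χ₀ T_ℓ) = n` whenever `a_ℓ(f) ≡ n mod 𝔪`. -/
theorem s59teig_exists (p : ℕ) [hp : Fact p.Prime] {𝒪 : Type} [CommRing 𝒪] [IsDomain 𝒪]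
    [IsLocalRing 𝒪] (hp𝒪 : (p : 𝒪) ∈ maximalIdeal 𝒪)
    (N0 : ℕ) [NeZero N0] (S : Set ℕ) (hNS : ∀ q : ℕ, q.Prime → q ∣ N0 → q ∈ S)
    (hbig : ∀ (B : Type) [CommRing B] [IsDomain B] [Algebra 𝒪 B]
      (χ : CuspForm.heckeAlgebra N0 2 S →+* B) (t : CuspForm.heckeAlgebra N0 2 S),
      χ t ∈ Set.range (algebraMap 𝒪 B))
    (f : CuspForm (Gamma0 N0) 2) (hf : f.IsNormalizedEigenform)
    (𝔪 : Ideal (integralClosure ℤ ℂ)) (h𝔪 : 𝔪.IsMaximal)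
    (hp𝔪 : (p : integralClosure ℤ ℂ) ∈ 𝔪) :
    ∃ χ₀ : CuspForm.heckeAlgebra N0 2 S →+* 𝒪,
      ∀ (ℓ : ℕ) (hℓ : ℓ.Prime) (hℓN : ¬ ℓ ∣ N0) (hℓS : ℓ ∉ S)
        (a : integralClosure ℤ ℂ) (n : ℤ), (a : ℂ) = qCoeff f ℓ →
        a - (n : integralClosure ℤ ℂ) ∈ 𝔪 →
        residue 𝒪 (χ₀ (CuspForm.heckeAlgebra.T hℓ hℓN hℓS)) = (n : ResidueField 𝒪) := by
  classical
  obtain ⟨χ, hχ⟩ := s59teig_exists_intChar (S := S) hNS f hf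
  letI : Field (integralClosure ℤ ℂ ⧸ 𝔪) := Ideal.Quotient.field 𝔪
  haveI : CharP (integralClosure ℤ ℂ ⧸ 𝔪) p := by
    rw [CharP.charP_iff_prime_eq_zero hp.out]
    have h1 : Ideal.Quotient.mk 𝔪 (p : integralClosure ℤ ℂ) = 0 :=
      Ideal.Quotient.eq_zero_iff_mem.2 hp𝔪
    rwa [map_natCast] at h1
  obtain ⟨χ₀, hχ₀⟩ := s59teig_exists_residue p hp𝒪 hbig ((Ideal.Quotient.mk 𝔪).comp χ)
  refine ⟨χ₀, fun ℓ hℓ hℓN hℓS a n ha hn => hχ₀ _ n ?_⟩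
  have h1 : χ (CuspForm.heckeAlgebra.T hℓ hℓN hℓS) = a :=
    Subtype.ext ((hχ ℓ hℓ hℓN hℓS).trans ha.symm)
  rw [RingHom.comp_apply, h1, ← map_intCast (Ideal.Quotient.mk 𝔪)]
  exact Ideal.Quotient.eq.2 hn

/-- **E-BIG + BASE-EIG**: for finitely many levels `(N i, S i)`, a monic `P₀ ∈ ℤ[X]`, and
`(f, 𝔪)` of level `N i₀` there are ONE complete discrete valuation ring `𝒪` over `ℤ_p`, big for
all the levels, in which `P₀` splits, and a point `χ₀` of `heckeAlgebra (N i₀) 2 (S i₀)` in `𝒪`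
with `residue (χ₀ T_ℓ) = n` whenever `a_ℓ(f) ≡ n mod 𝔪`. -/
theorem s59teig_exists_big (p : ℕ) [Fact p.Prime] {ι : Type} [Finite ι] (N : ι → ℕ)
    [∀ i, NeZero (N i)] (S : ι → Set ℕ) (P₀ : ℤ[X]) (hP₀ : P₀.Monic)
    (i₀ : ι) (hNS : ∀ q : ℕ, q.Prime → q ∣ N i₀ → q ∈ S i₀)
    (f : CuspForm (Gamma0 (N i₀)) 2) (hf : f.IsNormalizedEigenform)
    (𝔪 : Ideal (integralClosure ℤ ℂ)) (h𝔪 : 𝔪.IsMaximal)
    (hp𝔪 : (p : integralClosure ℤ ℂ) ∈ 𝔪) :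
    ∃ (𝒪 : Type) (_ : CommRing 𝒪) (_ : IsDomain 𝒪) (_ : IsDiscreteValuationRing 𝒪)
      (_ : IsAdicComplete (maximalIdeal 𝒪) 𝒪) (_ : Finite (ResidueField 𝒪)) (_ : CharZero 𝒪)
      (φ : ℤ_[p] →+* 𝒪) (_ : IsLocalHom φ),
      Function.Injective φ ∧ (p : 𝒪) ∈ maximalIdeal 𝒪 ∧
      (P₀.map (Int.castRingHom 𝒪)).Splits ∧
      (∀ (i : ι) (B : Type) [CommRing B] [IsDomain B] [Algebra 𝒪 B]
        (χ : CuspForm.heckeAlgebra (N i) 2 (S i) →+* B)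
        (t : CuspForm.heckeAlgebra (N i) 2 (S i)), χ t ∈ Set.range (algebraMap 𝒪 B)) ∧
      ∃ χ₀ : CuspForm.heckeAlgebra (N i₀) 2 (S i₀) →+* 𝒪,
        ∀ (ℓ : ℕ) (hℓ : ℓ.Prime) (hℓN : ¬ ℓ ∣ N i₀) (hℓS : ℓ ∉ S i₀)
          (a : integralClosure ℤ ℂ) (n : ℤ), (a : ℂ) = qCoeff f ℓ →
          a - (n : integralClosure ℤ ℂ) ∈ 𝔪 →
          residue 𝒪 (χ₀ (CuspForm.heckeAlgebra.T hℓ hℓN hℓS)) = (n : ResidueField 𝒪) := by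
  haveI : ∀ i, Module.Finite ℤ (CuspForm.heckeAlgebra (N i) 2 (S i)) := fun i =>
    Fermat.Agent.S22.moduleFinite_heckeAlgebra (N i) 2 (S i)
  obtain ⟨𝒪, i1, i2, i3, i4, i5, i6, φ, i8, hinj, hp, hsp, hbig⟩ :=
    s59big_exists_fam_padic p (fun i => CuspForm.heckeAlgebra (N i) 2 (S i)) P₀ hP₀
  exact ⟨𝒪, i1, i2, i3, i4, i5, i6, φ, i8, hinj, hp, hsp, hbig,
    s59teig_exists p hp (N i₀) (S i₀) hNS (fun B _ _ _ χ t => hbig i₀ B χ t) f hf 𝔪 h𝔪 hp𝔪⟩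

/-! ### The `ψ`-form (the shape consumed by `S59R2Data`, `s59tres_hψ_of_eig_Smin`) -/

/-- the eigensystem `ψ : ℕ → 𝒪` of a point `χ₀` (`ψ ℓ = χ₀ T_ℓ` at the primes `ℓ ∤ N0`, `ℓ ∉ S`;
`0` elsewhere) -/
def s59teig_psi {N0 : ℕ} [NeZero N0] {S : Set ℕ} {𝒪 : Type} [CommRing 𝒪]
    (χ₀ : CuspForm.heckeAlgebra N0 2 S →+* 𝒪) (ℓ : ℕ) : 𝒪 :=
  open Classical in
  if h : ℓ.Prime ∧ ¬ ℓ ∣ N0 ∧ ℓ ∉ S then χ₀ (CuspForm.heckeAlgebra.T h.1 h.2.1 h.2.2) else 0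

theorem s59teig_psi_eq {N0 : ℕ} [NeZero N0] {S : Set ℕ} {𝒪 : Type} [CommRing 𝒪]
    (χ₀ : CuspForm.heckeAlgebra N0 2 S →+* 𝒪) {ℓ : ℕ} (hℓ : ℓ.Prime) (hℓN : ¬ ℓ ∣ N0)
    (hℓS : ℓ ∉ S) : s59teig_psi χ₀ ℓ = χ₀ (CuspForm.heckeAlgebra.T hℓ hℓN hℓS) := by
  unfold s59teig_psi
  rw [dif_pos ⟨hℓ, hℓN, hℓS⟩]

/-- **BASE-EIG, `ψ`-form** (for a given big `𝒪`). -/
theorem s59teig_exists_psi (p : ℕ) [hp : Fact p.Prime] {𝒪 : Type} [CommRing 𝒪] [IsDomain 𝒪]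
    [IsLocalRing 𝒪] (hp𝒪 : (p : 𝒪) ∈ maximalIdeal 𝒪)
    (N0 : ℕ) [NeZero N0] (S : Set ℕ) (hNS : ∀ q : ℕ, q.Prime → q ∣ N0 → q ∈ S)
    (hbig : ∀ (B : Type) [CommRing B] [IsDomain B] [Algebra 𝒪 B]
      (χ : CuspForm.heckeAlgebra N0 2 S →+* B) (t : CuspForm.heckeAlgebra N0 2 S),
      χ t ∈ Set.range (algebraMap 𝒪 B))
    (f : CuspForm (Gamma0 N0) 2) (hf : f.IsNormalizedEigenform)
    (𝔪 : Ideal (integralClosure ℤ ℂ)) (h𝔪 : 𝔪.IsMaximal)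
    (hp𝔪 : (p : integralClosure ℤ ℂ) ∈ 𝔪) :
    ∃ (χ₀ : CuspForm.heckeAlgebra N0 2 S →+* 𝒪) (ψ : ℕ → 𝒪),
      (∀ (ℓ : ℕ) (hℓ : ℓ.Prime) (hℓN : ¬ ℓ ∣ N0) (hℓS : ℓ ∉ S),
        χ₀ (CuspForm.heckeAlgebra.T hℓ hℓN hℓS) = ψ ℓ) ∧
      ∀ ℓ : ℕ, ℓ.Prime → ¬ ℓ ∣ N0 → ℓ ∉ S → ∀ (a : integralClosure ℤ ℂ) (n : ℤ),
        (a : ℂ) = qCoeff f ℓ → a - (n : integralClosure ℤ ℂ) ∈ 𝔪 →
        residue 𝒪 (ψ ℓ) = (n : ResidueField 𝒪) := by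
  obtain ⟨χ₀, hχ₀⟩ := s59teig_exists p hp𝒪 N0 S hNS hbig f hf 𝔪 h𝔪 hp𝔪
  refine ⟨χ₀, s59teig_psi χ₀, fun ℓ hℓ hℓN hℓS => (s59teig_psi_eq χ₀ hℓ hℓN hℓS).symm,
    fun ℓ hℓ hℓN hℓS a n ha hn => ?_⟩
  rw [s59teig_psi_eq χ₀ hℓ hℓN hℓS]
  exact hχ₀ ℓ hℓ hℓN hℓS a n ha hn

/-- **E-BIG + BASE-EIG, `ψ`-form**. -/
theorem s59teig_exists_big_psi (p : ℕ) [Fact p.Prime] {ι : Type} [Finite ι] (N : ι → ℕ)
    [∀ i, NeZero (N i)] (S : ι → Set ℕ) (P₀ : ℤ[X]) (hP₀ : P₀.Monic)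
    (i₀ : ι) (hNS : ∀ q : ℕ, q.Prime → q ∣ N i₀ → q ∈ S i₀)
    (f : CuspForm (Gamma0 (N i₀)) 2) (hf : f.IsNormalizedEigenform)
    (𝔪 : Ideal (integralClosure ℤ ℂ)) (h𝔪 : 𝔪.IsMaximal)
    (hp𝔪 : (p : integralClosure ℤ ℂ) ∈ 𝔪) :
    ∃ (𝒪 : Type) (_ : CommRing 𝒪) (_ : IsDomain 𝒪) (_ : IsDiscreteValuationRing 𝒪)
      (_ : IsAdicComplete (maximalIdeal 𝒪) 𝒪) (_ : Finite (ResidueField 𝒪)) (_ : CharZero 𝒪)
      (φ : ℤ_[p] →+* 𝒪) (_ : IsLocalHom φ),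
      Function.Injective φ ∧ (p : 𝒪) ∈ maximalIdeal 𝒪 ∧
      (P₀.map (Int.castRingHom 𝒪)).Splits ∧
      (∀ (i : ι) (B : Type) [CommRing B] [IsDomain B] [Algebra 𝒪 B]
        (χ : CuspForm.heckeAlgebra (N i) 2 (S i) →+* B)
        (t : CuspForm.heckeAlgebra (N i) 2 (S i)), χ t ∈ Set.range (algebraMap 𝒪 B)) ∧
      ∃ (χ₀ : CuspForm.heckeAlgebra (N i₀) 2 (S i₀) →+* 𝒪) (ψ : ℕ → 𝒪),
        (∀ (ℓ : ℕ) (hℓ : ℓ.Prime) (hℓN : ¬ ℓ ∣ N i₀) (hℓS : ℓ ∉ S i₀),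
          χ₀ (CuspForm.heckeAlgebra.T hℓ hℓN hℓS) = ψ ℓ) ∧
        ∀ ℓ : ℕ, ℓ.Prime → ¬ ℓ ∣ N i₀ → ℓ ∉ S i₀ → ∀ (a : integralClosure ℤ ℂ) (n : ℤ),
          (a : ℂ) = qCoeff f ℓ → a - (n : integralClosure ℤ ℂ) ∈ 𝔪 →
          residue 𝒪 (ψ ℓ) = (n : ResidueField 𝒪) := by
  haveI : ∀ i, Module.Finite ℤ (CuspForm.heckeAlgebra (N i) 2 (S i)) := fun i =>
    Fermat.Agent.S22.moduleFinite_heckeAlgebra (N i) 2 (S i)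
  obtain ⟨𝒪, i1, i2, i3, i4, i5, i6, φ, i8, hinj, hp, hsp, hbig⟩ :=
    s59big_exists_fam_padic p (fun i => CuspForm.heckeAlgebra (N i) 2 (S i)) P₀ hP₀
  exact ⟨𝒪, i1, i2, i3, i4, i5, i6, φ, i8, hinj, hp, hsp, hbig,
    s59teig_exists_psi p hp (N i₀) (S i₀) hNS (fun B _ _ _ χ t => hbig i₀ B χ t) f hf 𝔪 h𝔪 hp𝔪⟩

end Fermat.Agent.S59

end
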