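/-
S59 / SEL-CORE (helper74), part 2: the ALGEBRA of the length inequality.

`x : R → 𝒪`, `x' : R' → 𝒪`, `x″ : B → 𝒪` augmentations, `ψ : R ↠ B`, `κ : R' ↠ B` compatible with
them, `𝔞 ⊆ ker κ ⊆ (ker x')² + 𝔞`.  Then `Φ' ⧸ Φ_N ↪ Φ″ ↞ Φ`, so
`length (Φ' ⧸ Φ_N) ≤ length Φ`.
-/
import Fermat.Agent.S59.SelPlan2

set_option autoImplicit false

namespace Fermat.Agent.S59

section Alg

variable (𝒪 : Type) [CommRing 𝒪]
variable {R R' B : Type} [CommRing R] [CommRing R'] [CommRing B] [Algebra 𝒪 R] [Algebra 𝒪 R']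
  [Algebra 𝒪 B]

/-- the map on cotangent spaces induced by a surjection compatible with the augmentations is
surjective -/
theorem s59selc_mapCotangent_surjective (x'' : B →ₐ[𝒪] 𝒪) (ψ : R →ₐ[𝒪] B)
    (hψ : Function.Surjective ψ)
    (h : RingHom.ker ((x''.comp ψ : R →ₐ[𝒪] 𝒪) : R →+* 𝒪) ≤
      (RingHom.ker (x'' : B →+* 𝒪)).comap ψ) :
    Function.Surjective (Ideal.mapCotangent (RingHom.ker ((x''.comp ψ : R →ₐ[𝒪] 𝒪) : R →+* 𝒪))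
      (RingHom.ker (x'' : B →+* 𝒪)) ψ h) := by
  intro y
  obtain ⟨⟨b, hb⟩, rfl⟩ := Ideal.toCotangent_surjective _ y
  obtain ⟨r, rfl⟩ := hψ b
  have hr : r ∈ RingHom.ker ((x''.comp ψ : R →ₐ[𝒪] 𝒪) : R →+* 𝒪) := by
    rw [RingHom.mem_ker]
    exact (RingHom.mem_ker).1 hb
  exact ⟨Ideal.toCotangent _ ⟨r, hr⟩, rfl⟩

/-- **SEL-CORE, algebra.** -/
theorem s59selc_alg (x : R →ₐ[𝒪] 𝒪) (x' : R' →ₐ[𝒪] 𝒪) (x'' : B →ₐ[𝒪] 𝒪)
    (ψ : R →ₐ[𝒪] B) (κ : R' →ₐ[𝒪] B) (hψ : Function.Surjective ψ) (hκ : Function.Surjective κ)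
    (hxψ : x''.comp ψ = x) (hxκ : x''.comp κ = x') (𝔞 : Ideal R')
    (h𝔞 : 𝔞 ≤ RingHom.ker (κ : R' →+* B))
    (hker : RingHom.ker (κ : R' →+* B) ≤ (RingHom.ker (x' : R' →+* 𝒪)) ^ 2 ⊔ 𝔞) :
    Module.length 𝒪 ((RingHom.ker (x' : R' →+* 𝒪)).Cotangent ⧸ s59selPhiN 𝒪 x' 𝔞) ≤
      s59p_phiLen 𝒪 x := by
  subst hxψ hxκ
  have h1 : RingHom.ker ((x''.comp ψ : R →ₐ[𝒪] 𝒪) : R →+* 𝒪) ≤
      (RingHom.ker (x'' : B →+* 𝒪)).comap ψ := by
    intro r hr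
    rw [Ideal.mem_comap, RingHom.mem_ker]
    exact (RingHom.mem_ker).1 hr
  have h2 : RingHom.ker ((x''.comp κ : R' →ₐ[𝒪] 𝒪) : R' →+* 𝒪) ≤
      (RingHom.ker (x'' : B →+* 𝒪)).comap κ := by
    intro r hr
    rw [Ideal.mem_comap, RingHom.mem_ker]
    exact (RingHom.mem_ker).1 hr
  have hα := s59selc_mapCotangent_surjective 𝒪 x'' ψ hψ h1
  -- the map `β : Φ' → Φ″`
  have hβN : s59selPhiN 𝒪 (x''.comp κ) 𝔞 ≤
      LinearMap.ker (Ideal.mapCotangent (RingHom.ker ((x''.comp κ : R' →ₐ[𝒪] 𝒪) : R' →+* 𝒪))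
        (RingHom.ker (x'' : B →+* 𝒪)) κ h2) := by
    unfold s59selPhiN
    rw [Submodule.span_le]
    rintro y ⟨r, hr, hra, rfl⟩
    show _ ∈ LinearMap.ker _
    rw [LinearMap.mem_ker, Ideal.mapCotangent_toCotangent, Ideal.toCotangent_eq_zero]
    have h0 : κ r = 0 := (RingHom.mem_ker).1 (h𝔞 hra)
    show κ r ∈ _
    rw [h0]
    exact Ideal.zero_mem _
  have hmap : Ideal.map (κ : R' →+* B) (RingHom.ker ((x''.comp κ : R' →ₐ[𝒪] 𝒪) : R' →+* 𝒪)) =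
      RingHom.ker (x'' : B →+* 𝒪) := by
    apply le_antisymm
    · rw [Ideal.map_le_iff_le_comap]
      exact h2
    · intro b hb
      obtain ⟨r, rfl⟩ := hκ b
      exact Ideal.mem_map_of_mem _ ((RingHom.mem_ker).2 ((RingHom.mem_ker).1 hb))
  have hβ' : LinearMap.ker (Ideal.mapCotangent
      (RingHom.ker ((x''.comp κ : R' →ₐ[𝒪] 𝒪) : R' →+* 𝒪))
      (RingHom.ker (x'' : B →+* 𝒪)) κ h2) ≤ s59selPhiN 𝒪 (x''.comp κ) 𝔞 := by
    intro y hy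
    obtain ⟨⟨r, hr⟩, rfl⟩ := Ideal.toCotangent_surjective _ y
    rw [LinearMap.mem_ker, Ideal.mapCotangent_toCotangent, Ideal.toCotangent_eq_zero] at hy
    have hy' : (κ : R' →+* B) r ∈ Ideal.map (κ : R' →+* B)
        ((RingHom.ker ((x''.comp κ : R' →ₐ[𝒪] 𝒪) : R' →+* 𝒪)) ^ 2) := by
      rw [Ideal.map_pow, hmap]
      exact hy
    obtain ⟨s, hs, hsr⟩ := (Ideal.mem_map_iff_of_surjective (κ : R' →+* B) hκ).1 hy'
    have hrs : r - s ∈ RingHom.ker (κ : R' →+* B) := by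
      rw [RingHom.mem_ker, map_sub, hsr, sub_self]
    obtain ⟨s', hs', a, ha, hsa⟩ := Submodule.mem_sup.1 (hker hrs)
    have hak : a ∈ RingHom.ker ((x''.comp κ : R' →ₐ[𝒪] 𝒪) : R' →+* 𝒪) := by
      have h3 : a = r - (s + s') := by linear_combination hsa
      rw [h3]
      exact Ideal.sub_mem _ hr (Ideal.add_mem _ (Ideal.pow_le_self two_ne_zero hs)
        (Ideal.pow_le_self two_ne_zero hs'))
    have heq : (RingHom.ker ((x''.comp κ : R' →ₐ[𝒪] 𝒪) : R' →+* 𝒪)).toCotangent ⟨r, hr⟩ =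
        (RingHom.ker ((x''.comp κ : R' →ₐ[𝒪] 𝒪) : R' →+* 𝒪)).toCotangent ⟨a, hak⟩ := by
      rw [Ideal.toCotangent_eq]
      show r - a ∈ _
      have h3 : r - a = s + s' := by linear_combination -hsa
      rw [h3]
      exact Ideal.add_mem _ hs hs'
    rw [heq]
    exact Submodule.subset_span ⟨a, hak, ha, rfl⟩
  have hγ : Function.Injective ((s59selPhiN 𝒪 (x''.comp κ) 𝔞).liftQ _ hβN) := by
    rw [← LinearMap.ker_eq_bot]
    exact Submodule.ker_liftQ_eq_bot _ _ hβN hβ'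
  exact (Module.length_le_of_injective _ hγ).trans (Module.length_le_of_surjective _ hα)

end Alg

end Fermat.Agent.S59
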