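/-
S59 / SEL-CORE, deformation half (helper74), part 1: base change of `GaloisRepAdic` — composition,
identity, and the RAMIFICATION IDEAL at `q`.

* `s59selc_ofMatrix_congr` : `ofMatrix r ≅ ofMatrix r'` if `r = r'`.
* `s59selc_bc_matrix`      : `ρ ⊗_φ B ≅ ofMatrix (φ ∘ M)`, `M = matOfBasis ρ b`.
* `s59selc_bc_comp`        : `(ρ ⊗_φ B) ⊗_ψ C ≅ ρ ⊗_{ψ ∘ φ} C`.
* `s59selc_bc_id`          : `ρ ⊗_{id} A ≅ ρ`.
* `s59selc_bc_congr`       : `ρ ⊗_φ B ≅ ρ ⊗_{φ'} B` if `φ = φ'`.
* `s59selcRam ρ b q`       : the ideal generated by the entries of `M(σ) − 1`, `σ` in an inertia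
                             group at `q`.
* `s59selc_unram_iff`      : `ρ ⊗_φ B` is unramified at `q` iff `φ` kills `s59selcRam ρ b q`.
-/
import Fermat.Agent.S59.SelPlan2
import Fermat.Agent.TW.Res
import Fermat.Agent.S53.Matrix

set_option autoImplicit false
set_option linter.unusedSectionVars false
set_option linter.unusedVariables false

noncomputable section

namespace Fermat.Agent.S59

open IsLocalRing Fermat.Agent.TW Fermat.Agent.S53

section BC

variable {A B C : Type} [CommRing A] [IsLocalRing A] [CommRing B] [IsLocalRing B]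
  [CommRing C] [IsLocalRing C]

/-- equal matrix representations give equivalent `GaloisRepAdic`s -/
theorem s59selc_ofMatrix_congr {r r' : Gal →* M2 A} (hr : MatCont A r) (hr' : MatCont A r')
    (h : r = r') : (ofMatrix r hr).IsEquiv (ofMatrix r' hr') := by
  subst h
  exact ⟨GaloisRepAdic.Equiv.refl _⟩

/-- the base change in matrix form -/
theorem s59selc_bc_matrix (ρ : GaloisRepAdic A) (b : Module.Basis (Fin 2) A ρ.V) (φ : A →+* B)
    (hφ : IsLocalHom φ) :
    (ρ.baseChangeAlong φ hφ).IsEquiv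
      (ofMatrix (mapRep φ (matOfBasis ρ b)) ((matOfBasis_cont ρ b).map φ hφ)) :=
  ⟨((equivOfBasis ρ b).baseChangeAlong φ hφ).trans
    (ofMatrixBaseChangeEquiv φ hφ (matOfBasis ρ b) (matOfBasis_cont ρ b))⟩

/-- `IsEquiv` is compatible with base change -/
theorem s59selc_isEquiv_bc {ρ₁ ρ₂ : GaloisRepAdic A} (h : ρ₁.IsEquiv ρ₂) (φ : A →+* B)
    (hφ : IsLocalHom φ) : (ρ₁.baseChangeAlong φ hφ).IsEquiv (ρ₂.baseChangeAlong φ hφ) := by
  obtain ⟨e⟩ := h
  exact ⟨e.baseChangeAlong φ hφ⟩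

/-- **composition of base changes** -/
theorem s59selc_bc_comp (ρ : GaloisRepAdic A) (φ : A →+* B) (hφ : IsLocalHom φ) (ψ : B →+* C)
    (hψ : IsLocalHom ψ) (hψφ : IsLocalHom (ψ.comp φ)) :
    ((ρ.baseChangeAlong φ hφ).baseChangeAlong ψ hψ).IsEquiv (ρ.baseChangeAlong (ψ.comp φ) hψφ) := by
  have b := someBasis ρ
  have e1 := s59selc_isEquiv_bc (s59selc_bc_matrix ρ b φ hφ) ψ hψ
  have e2 : ((ofMatrix (mapRep φ (matOfBasis ρ b)) ((matOfBasis_cont ρ b).map φ hφ)).baseChangeAlong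
      ψ hψ).IsEquiv (ofMatrix (mapRep ψ (mapRep φ (matOfBasis ρ b)))
        (((matOfBasis_cont ρ b).map φ hφ).map ψ hψ)) :=
    ⟨ofMatrixBaseChangeEquiv ψ hψ _ _⟩
  have e3 := s59selc_bc_matrix ρ b (ψ.comp φ) hψφ
  have e4 : (ofMatrix (mapRep (ψ.comp φ) (matOfBasis ρ b))
      ((matOfBasis_cont ρ b).map (ψ.comp φ) hψφ)).IsEquiv
      (ofMatrix (mapRep ψ (mapRep φ (matOfBasis ρ b)))
        (((matOfBasis_cont ρ b).map φ hφ).map ψ hψ)) :=
    s59selc_ofMatrix_congr _ _ (mapRep_comp φ ψ _)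
  exact GaloisRepAdic_isEquiv_trans (GaloisRepAdic_isEquiv_trans e1 e2)
    (GaloisRepAdic_isEquiv_symm (GaloisRepAdic_isEquiv_trans e3 e4))

/-- base change along the identity -/
theorem s59selc_bc_id (ρ : GaloisRepAdic A) (φ : A →+* A) (hφ : IsLocalHom φ)
    (h : φ = RingHom.id A) : (ρ.baseChangeAlong φ hφ).IsEquiv ρ := by
  subst h
  have b := someBasis ρ
  have e1 := s59selc_bc_matrix ρ b (RingHom.id A) hφ
  have e2 : (ofMatrix (mapRep (RingHom.id A) (matOfBasis ρ b))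
      ((matOfBasis_cont ρ b).map (RingHom.id A) hφ)).IsEquiv
      (ofMatrix (matOfBasis ρ b) (matOfBasis_cont ρ b)) :=
    s59selc_ofMatrix_congr _ _ (mapRep_id _)
  exact GaloisRepAdic_isEquiv_trans (GaloisRepAdic_isEquiv_trans e1 e2)
    (GaloisRepAdic_isEquiv_symm ⟨equivOfBasis ρ b⟩)

/-- base change along equal maps -/
theorem s59selc_bc_congr (ρ : GaloisRepAdic A) {φ φ' : A →+* B} (hφ : IsLocalHom φ)
    (hφ' : IsLocalHom φ') (h : φ = φ') :
    (ρ.baseChangeAlong φ hφ).IsEquiv (ρ.baseChangeAlong φ' hφ') := by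
  subst h
  exact ⟨GaloisRepAdic.Equiv.refl _⟩

end BC

section Ram

variable {A B : Type} [CommRing A] [IsLocalRing A] [CommRing B] [IsLocalRing B]

/-- **The ramification ideal at `q`** of `ρ` (in the basis `b`): generated by the entries of
`M(σ) − 1`, `σ` in the inertia group of a place over `q`. -/
def s59selcRam (ρ : GaloisRepAdic A) (b : Module.Basis (Fin 2) A ρ.V) (q : ℕ) : Ideal A :=
  Ideal.span {a | ∃ P : ValuationSubring (AlgebraicClosure ℚ), P.LiesOverPrime q ∧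
    ∃ σ ∈ P.inertiaSubgroupIn ℚ, ∃ i j : Fin 2, a = (matOfBasis ρ b σ - 1) i j}

theorem s59selc_mem_ram (ρ : GaloisRepAdic A) (b : Module.Basis (Fin 2) A ρ.V) {q : ℕ}
    {P : ValuationSubring (AlgebraicClosure ℚ)} (hP : P.LiesOverPrime q) {σ : Gal}
    (hσ : σ ∈ P.inertiaSubgroupIn ℚ) (i j : Fin 2) :
    (matOfBasis ρ b σ - 1) i j ∈ s59selcRam ρ b q :=
  Ideal.subset_span ⟨P, hP, σ, hσ, i, j, rfl⟩

/-- a matrix representation is unramified iff the matrices of inertia are `1` -/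
theorem s59selc_ofMatrix_unram_iff (r : Gal →* M2 A) (hr : MatCont A r) (q : ℕ) :
    (ofMatrix r hr).IsUnramifiedAt q ↔
      ∀ P : ValuationSubring (AlgebraicClosure ℚ), P.LiesOverPrime q →
        ∀ σ ∈ P.inertiaSubgroupIn ℚ, r σ = 1 := by
  constructor
  · intro h P hP σ hσ
    have h1 := h P hP σ hσ
    have h2 : (Matrix.toLinAlgEquiv' (R := A) (n := Fin 2)) (r σ) =
        (Matrix.toLinAlgEquiv' (R := A) (n := Fin 2)) 1 := by
      rw [map_one]
      exact h1
    exact (Matrix.toLinAlgEquiv' (R := A) (n := Fin 2)).injective h2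
  · intro h P hP σ hσ
    show (Matrix.toLinAlgEquiv' (R := A) (n := Fin 2)) (r σ) = 1
    rw [h P hP σ hσ, map_one]

/-- **(D1)** the base change along `φ` is unramified at `q` iff `φ` kills the ramification
ideal -/
theorem s59selc_unram_iff (ρ : GaloisRepAdic A) (b : Module.Basis (Fin 2) A ρ.V) (q : ℕ)
    (φ : A →+* B) (hφ : IsLocalHom φ) :
    (ρ.baseChangeAlong φ hφ).IsUnramifiedAt q ↔ s59selcRam ρ b q ≤ RingHom.ker φ := by
  have he := s59selc_bc_matrix ρ b φ hφ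
  have hiff : (ρ.baseChangeAlong φ hφ).IsUnramifiedAt q ↔
      (ofMatrix (mapRep φ (matOfBasis ρ b)) ((matOfBasis_cont ρ b).map φ hφ)).IsUnramifiedAt q :=
    ⟨fun h => tweq_isUnramifiedAt he q h,
      fun h => tweq_isUnramifiedAt (GaloisRepAdic_isEquiv_symm he) q h⟩
  rw [hiff, s59selc_ofMatrix_unram_iff]
  constructor
  · intro h
    unfold s59selcRam
    rw [Ideal.span_le]
    rintro a ⟨P, hP, σ, hσ, i, j, rfl⟩
    show (matOfBasis ρ b σ - 1) i j ∈ RingHom.ker φ
    rw [RingHom.mem_ker]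
    have h1 := congrFun (congrFun (h P hP σ hσ) i) j
    rw [mapRep_apply] at h1
    rw [Matrix.sub_apply, map_sub, h1, Matrix.one_apply, Matrix.one_apply]
    split_ifs <;> simp
  · intro h P hP σ hσ
    ext i j
    have h1 : φ ((matOfBasis ρ b σ - 1) i j) = 0 :=
      (RingHom.mem_ker).1 (h (s59selc_mem_ram ρ b hP hσ i j))
    rw [Matrix.sub_apply, map_sub, sub_eq_zero] at h1
    rw [mapRep_apply, h1, Matrix.one_apply, Matrix.one_apply]
    split_ifs <;> simp

/-- the entries of `M(σ) − 1` as coordinates -/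
theorem s59selc_entry_eq (ρ : GaloisRepAdic A) (b : Module.Basis (Fin 2) A ρ.V) (σ : Gal)
    (i j : Fin 2) : (matOfBasis ρ b σ - 1) i j = b.repr (ρ.ρ σ (b j) - b j) i := by
  simp only [Matrix.sub_apply, matOfBasis_apply, LinearMap.toMatrix_apply, map_sub,
    Finsupp.sub_apply, Matrix.one_apply, Module.Basis.repr_self, Finsupp.single_apply]
  congr 1
  by_cases hij : i = j
  · simp [hij]
  · simp [hij, Ne.symm hij]

/-- the coordinates of `ρ σ v − v` -/
theorem s59selc_repr_sub (ρ : GaloisRepAdic A) (b : Module.Basis (Fin 2) A ρ.V) (σ : Gal)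
    (v : ρ.V) (i : Fin 2) :
    b.repr (ρ.ρ σ v - v) i = ∑ j, (matOfBasis ρ b σ - 1) i j * b.repr v j := by
  have h1 := congrFun (LinearMap.toMatrix_mulVec_repr b b (ρ.ρ σ) v) i
  rw [map_sub, Finsupp.sub_apply, ← h1]
  simp only [Matrix.mulVec, dotProduct, Fin.sum_univ_two, Matrix.sub_apply, Matrix.one_apply,
    matOfBasis_apply]
  fin_cases i <;> simp <;> ring

/-- **bridge**: the basis form of the ramification ideal is the basis-free one
(`s59selRam`, `S59/SelPlan2.lean`) -/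
theorem s59selc_ram_eq (ρ : GaloisRepAdic A) (b : Module.Basis (Fin 2) A ρ.V) (q : ℕ) :
    s59selcRam ρ b q = s59selRam ρ q := by
  apply le_antisymm
  · unfold s59selcRam
    rw [Ideal.span_le]
    rintro a ⟨P, hP, σ, hσ, i, j, rfl⟩
    refine Ideal.subset_span ⟨P, hP, σ, hσ, b.coord i, b j, ?_⟩
    rw [s59selc_entry_eq, Module.Basis.coord_apply]
  · unfold s59selRam
    rw [Ideal.span_le]
    rintro a ⟨P, hP, σ, hσ, ℓ, v, rfl⟩
    show ℓ (ρ.ρ σ v - v) ∈ s59selcRam ρ b q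
    have h1 : ρ.ρ σ v - v = ∑ i, b.repr (ρ.ρ σ v - v) i • b i := (b.sum_repr _).symm
    rw [h1, map_sum]
    refine Ideal.sum_mem _ fun i _ => ?_
    rw [map_smul, smul_eq_mul]
    refine Ideal.mul_mem_right _ _ ?_
    rw [s59selc_repr_sub]
    refine Ideal.sum_mem _ fun j _ => Ideal.mul_mem_right _ _ ?_
    exact s59selc_mem_ram ρ b hP hσ i j

/-- **(D1), basis-free**: the base change along `φ` is unramified at `q` iff `φ` kills
`s59selRam ρ q` -/
theorem s59selc_unram_iff' (ρ : GaloisRepAdic A) (q : ℕ) (φ : A →+* B) (hφ : IsLocalHom φ) :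
    (ρ.baseChangeAlong φ hφ).IsUnramifiedAt q ↔ s59selRam ρ q ≤ RingHom.ker φ := by
  rw [← s59selc_ram_eq ρ (someBasis ρ) q]
  exact s59selc_unram_iff ρ (someBasis ρ) q φ hφ

end Ram

end Fermat.Agent.S59

end
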