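/-
S59 / SEL-CORE (helper74), part 3: the DEFORMATION THEORY, and the statement
`StmtSelCoreLen 𝒪` (`S59/SelPlan2.lean`).

`𝔞 = s59selRam D'.ρ q`, `J = (ker x')² + 𝔞`, `B = R' ⧸ J`, `κ : R' ↠ B`.  The push-forward of
`D'.ρ` to `B` is of type `𝒟₁` (base change along a surjection) and unramified at `q`
(`s59selc_unram_iff'`), hence of type `𝒟₀`; so there is `ψ : R → B`, and `κ = ψ ∘ π`
(`π : R' → R` the canonical map) by the uniqueness part of the universal property of `R'`; hence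
`ψ` is onto.  `x″ ∘ ψ = x` by the uniqueness part of the universal property of `R`.  Then
`s59selc_alg` (`S59/SelCoreAlg.lean`).
-/
import Fermat.Agent.S59.SelCoreBC
import Fermat.Agent.S59.SelCoreAlg
import Fermat.Agent.RT.K2c.Local

set_option autoImplicit false
set_option linter.unusedSectionVars false
set_option linter.unusedVariables false

noncomputable section

namespace Fermat.Agent.S59

open IsLocalRing Fermat.Agent.TW Fermat.Agent.S53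

section Core

variable (𝒪 : Type) [CommRing 𝒪] [IsDomain 𝒪] [IsDiscreteValuationRing 𝒪]
  [IsAdicComplete (maximalIdeal 𝒪) 𝒪] [Finite (ResidueField 𝒪)]

/-- an `𝒪`-algebra map to `𝒪` is surjective -/
theorem s59selc_aug_surjective {A : Type} [CommRing A] [Algebra 𝒪 A] (x : A →ₐ[𝒪] 𝒪) :
    Function.Surjective x := fun a => ⟨algebraMap 𝒪 A a, by rw [AlgHom.commutes]; rfl⟩

/-- **SEL-CORE, deformation theory**: the map `ψ : R → B`. -/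
theorem s59selc_exists_psi
    {ρbar : ResidualGaloisRep (ResidueField 𝒪)}
    {𝒟₀ 𝒟₁ : ∀ ⦃A : Type⦄ [CommRing A] [IsLocalRing A] [Algebra 𝒪 A], GaloisRepAdic A → Prop}
    (q : ℕ)
    (h01 : ∀ (A : Type) [CommRing A] [IsLocalRing A] [Algebra 𝒪 A] (ρ : GaloisRepAdic A),
      𝒟₀ ρ → 𝒟₁ ρ)
    (h10 : ∀ (A : Type) [CommRing A] [IsLocalRing A] [Algebra 𝒪 A] (ρ : GaloisRepAdic A),
      𝒟₁ ρ → ρ.IsUnramifiedAt q → 𝒟₀ ρ)
    (h0u : ∀ (A : Type) [CommRing A] [IsLocalRing A] [Algebra 𝒪 A] (ρ : GaloisRepAdic A),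
      𝒟₀ ρ → ρ.IsUnramifiedAt q)
    (hbc : ∀ (A B : Type) [CommRing A] [IsLocalRing A] [Algebra 𝒪 A] [CommRing B] [IsLocalRing B]
      [Algebra 𝒪 B] (φ : A →ₐ[𝒪] B) (hφ : IsLocalHom (φ : A →+* B)), Function.Surjective φ →
      ∀ ρ : GaloisRepAdic A, 𝒟₁ ρ → 𝒟₁ (ρ.baseChangeAlong (φ : A →+* B) hφ))
    (D : GaloisRep.DeformationRingData 𝒪 ρbar 𝒟₀)
    (D' : GaloisRep.DeformationRingData 𝒪 ρbar 𝒟₁)
    (x : D.R →ₐ[𝒪] 𝒪) (x' : D'.R →ₐ[𝒪] 𝒪)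
    (hsame : s59selSame 𝒪 D D' x x')
    (B : Type) [CommRing B] [IsLocalRing B] [IsNoetherianRing B]
    [IsAdicComplete (maximalIdeal B) B] [Algebra 𝒪 B] [IsLocalHom (algebraMap 𝒪 B)]
    (hB : Function.Surjective (residue B ∘ algebraMap 𝒪 B))
    (κ : D'.R →ₐ[𝒪] B) (hκ : Function.Surjective κ)
    (hκ𝔞 : s59selRam D'.ρ q ≤ RingHom.ker (κ : D'.R →+* B))
    (x'' : B →ₐ[𝒪] 𝒪) (hx'' : x''.comp κ = x') :
    ∃ ψ : D.R →ₐ[𝒪] B, Function.Surjective ψ ∧ x''.comp ψ = x := by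
  obtain ⟨hx, hx', hsame⟩ := hsame
  obtain ⟨Dat⟩ := nonempty_rigidDatum (𝒪 := 𝒪) ρbar D'.absIrr
  have hκloc : IsLocalHom (κ : D'.R →+* B) :=
    IsLocalHom.of_surjective (κ : D'.R →+* B) hκ
  -- the push-forward `ρ″` of `D'.ρ`
  have h1'' : 𝒟₁ (D'.ρ.baseChangeAlong (κ : D'.R →+* B) hκloc) :=
    hbc D'.R B κ hκloc hκ D'.ρ D'.isOfType
  have hur'' : (D'.ρ.baseChangeAlong (κ : D'.R →+* B) hκloc).IsUnramifiedAt q :=
    (s59selc_unram_iff' D'.ρ q (κ : D'.R →+* B) hκloc).2 hκ𝔞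
  have h0'' : 𝒟₀ (D'.ρ.baseChangeAlong (κ : D'.R →+* B) hκloc) := h10 B _ h1'' hur''
  have hres'' : (D'.ρ.baseChangeAlong (κ : D'.R →+* B) hκloc).residual.IsEquiv
      (ρbar.baseChangeAlong (ResidueField.map (algebraMap 𝒪 B))) :=
    twtan_residual_baseChange (A := D'.R) (B := B) Dat
      (ResidueField.map (algebraMap 𝒪 D'.R)) (fun _ => rfl)
      (ResidueField.map (algebraMap 𝒪 B)) (fun _ => rfl) κ hκloc D'.ρ D'.residual_isEquiv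
  obtain ⟨ψ, ⟨hψloc, hψe⟩, -⟩ := D.universal B hB _ h0'' hres''
  obtain ⟨π, ⟨hπloc, hπe⟩, -⟩ := D'.universal D.R D.residue_surjective D.ρ
    (h01 _ D.ρ D.isOfType) D.residual_isEquiv
  -- `κ = ψ ∘ π`
  obtain ⟨φ₀, -, huniq⟩ := D'.universal B hB _ h1'' hres''
  have hκφ : κ = φ₀ := huniq κ ⟨hκloc, ⟨GaloisRepAdic.Equiv.refl _⟩⟩
  have hψπloc : IsLocalHom ((ψ : D.R →+* B).comp (π : D'.R →+* D.R)) :=
    ⟨fun a ha => hπloc.map_nonunit a (hψloc.map_nonunit _ ha)⟩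
  have hψπloc' : IsLocalHom ((ψ.comp π : D'.R →ₐ[𝒪] B) : D'.R →+* B) := hψπloc
  have hψπ : ψ.comp π = φ₀ := by
    refine huniq (ψ.comp π) ⟨hψπloc', ?_⟩
    have e0 := s59selc_bc_congr D'.ρ hψπloc' hψπloc rfl
    have e1 := s59selc_bc_comp D'.ρ (π : D'.R →+* D.R) hπloc (ψ : D.R →+* B) hψloc hψπloc
    have e2 := s59selc_isEquiv_bc hπe (ψ : D.R →+* B) hψloc
    exact GaloisRepAdic_isEquiv_trans e0 (GaloisRepAdic_isEquiv_trans
      (GaloisRepAdic_isEquiv_symm e1) (GaloisRepAdic_isEquiv_trans e2 hψe))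
  have hψsurj : Function.Surjective ψ := by
    have h : Function.Surjective (ψ.comp π) := by
      rw [hψπ, ← hκφ]
      exact hκ
    exact Function.Surjective.of_comp (g := π) h
  refine ⟨ψ, hψsurj, ?_⟩
  -- `x″ ∘ ψ = x`
  have : IsLocalHom (algebraMap 𝒪 𝒪) := ⟨fun a ha => ha⟩
  have h𝒪 : Function.Surjective (residue 𝒪 ∘ algebraMap 𝒪 𝒪) := fun y => by
    obtain ⟨a, rfl⟩ := residue_surjective y
    exact ⟨a, rfl⟩
  have h1x : 𝒟₁ (D.ρ.baseChangeAlong (x : D.R →+* 𝒪) hx) :=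
    hbc D.R 𝒪 x hx (s59selc_aug_surjective 𝒪 x) D.ρ (h01 _ D.ρ D.isOfType)
  have hurx : (D.ρ.baseChangeAlong (x : D.R →+* 𝒪) hx).IsUnramifiedAt q :=
    twbc_isUnramifiedAt (x : D.R →+* 𝒪) hx D.ρ q (h0u _ D.ρ D.isOfType)
  have h0x : 𝒟₀ (D.ρ.baseChangeAlong (x : D.R →+* 𝒪) hx) := h10 𝒪 _ h1x hurx
  have hresx : (D.ρ.baseChangeAlong (x : D.R →+* 𝒪) hx).residual.IsEquiv
      (ρbar.baseChangeAlong (ResidueField.map (algebraMap 𝒪 𝒪))) :=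
    twtan_residual_baseChange (A := D.R) (B := 𝒪) Dat
      (ResidueField.map (algebraMap 𝒪 D.R)) (fun _ => rfl)
      (ResidueField.map (algebraMap 𝒪 𝒪)) (fun _ => rfl) x hx D.ρ D.residual_isEquiv
  obtain ⟨φ₁, -, huniq₁⟩ := D.universal 𝒪 h𝒪 _ h0x hresx
  have hxφ : x = φ₁ := huniq₁ x ⟨hx, ⟨GaloisRepAdic.Equiv.refl _⟩⟩
  have hx''loc : IsLocalHom (x'' : B →+* 𝒪) :=
    IsLocalHom.of_surjective (x'' : B →+* 𝒪) (s59selc_aug_surjective 𝒪 x'')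
  have hx''ψloc : IsLocalHom ((x'' : B →+* 𝒪).comp (ψ : D.R →+* B)) :=
    ⟨fun a ha => hψloc.map_nonunit a (hx''loc.map_nonunit _ ha)⟩
  have hx''ψloc' : IsLocalHom ((x''.comp ψ : D.R →ₐ[𝒪] 𝒪) : D.R →+* 𝒪) := hx''ψloc
  have hx''κloc : IsLocalHom ((x'' : B →+* 𝒪).comp (κ : D'.R →+* B)) :=
    ⟨fun a ha => hκloc.map_nonunit a (hx''loc.map_nonunit _ ha)⟩
  have hx''ψ : x''.comp ψ = φ₁ := by
    refine huniq₁ _ ⟨hx''ψloc', ?_⟩
    have e0 := s59selc_bc_congr D.ρ hx''ψloc' hx''ψloc rfl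
    have e1 := s59selc_bc_comp D.ρ (ψ : D.R →+* B) hψloc (x'' : B →+* 𝒪) hx''loc hx''ψloc
    have e2 := s59selc_isEquiv_bc hψe (x'' : B →+* 𝒪) hx''loc
    have e3 := s59selc_bc_comp D'.ρ (κ : D'.R →+* B) hκloc (x'' : B →+* 𝒪) hx''loc hx''κloc
    have e4 := s59selc_bc_congr D'.ρ hx''κloc hx' (by rw [← hx'']; rfl)
    exact GaloisRepAdic_isEquiv_trans e0 (GaloisRepAdic_isEquiv_trans
      (GaloisRepAdic_isEquiv_symm e1) (GaloisRepAdic_isEquiv_trans e2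
        (GaloisRepAdic_isEquiv_trans e3 (GaloisRepAdic_isEquiv_trans e4 hsame))))
  exact hx''ψ.trans hxφ.symm

/-- **SEL-CORE, length form** (`StmtSelCoreLen`, `S59/SelPlan2.lean`). -/
theorem s59selc_coreLen : StmtSelCoreLen 𝒪 := by
  intro ρbar 𝒟₀ 𝒟₁ q hq h01 h10 h0u hbc D D' x x' hsame
  have hsame' := hsame
  obtain ⟨hx, hx', he⟩ := hsame'
  -- Step 0: the ramification ideal is in `ker x'`
  have h𝔞 : s59selRam D'.ρ q ≤ RingHom.ker (x' : D'.R →+* 𝒪) := by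
    have h1 := twbc_isUnramifiedAt (x : D.R →+* 𝒪) hx D.ρ q (h0u _ D.ρ D.isOfType)
    have h2 := tweq_isUnramifiedAt (GaloisRepAdic_isEquiv_symm he) q h1
    exact (s59selc_unram_iff' D'.ρ q (x' : D'.R →+* 𝒪) hx').1 h2
  obtain ⟨J, hJ⟩ : ∃ J : Ideal D'.R, J = (RingHom.ker (x' : D'.R →+* 𝒪)) ^ 2 ⊔ s59selRam D'.ρ q :=
    ⟨_, rfl⟩
  have hJle : J ≤ RingHom.ker (x' : D'.R →+* 𝒪) := by
    rw [hJ]
    exact sup_le (Ideal.pow_le_self two_ne_zero) h𝔞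
  have hJtop : J ≠ ⊤ := by
    intro h
    have h1 : (1 : D'.R) ∈ RingHom.ker (x' : D'.R →+* 𝒪) := hJle (h ▸ Submodule.mem_top)
    rw [RingHom.mem_ker, map_one] at h1
    exact one_ne_zero h1
  have : Nontrivial (D'.R ⧸ J) := Ideal.Quotient.nontrivial_iff.2 hJtop
  have : IsLocalRing (D'.R ⧸ J) :=
    IsLocalRing.of_surjective' (Ideal.Quotient.mk J) Ideal.Quotient.mk_surjective
  have : IsAdicComplete (maximalIdeal (D'.R ⧸ J)) (D'.R ⧸ J) :=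
    Fermat.Agent.RT.K2c.rtk2c_isAdicComplete_of_surjective (Ideal.Quotient.mk J)
      Ideal.Quotient.mk_surjective
  have hmkloc : IsLocalHom (Ideal.Quotient.mk J) :=
    IsLocalHom.of_surjective (Ideal.Quotient.mk J) Ideal.Quotient.mk_surjective
  have : IsLocalHom (algebraMap 𝒪 (D'.R ⧸ J)) :=
    ⟨fun a ha => IsLocalHom.map_nonunit (f := algebraMap 𝒪 D'.R) a
      (hmkloc.map_nonunit (algebraMap 𝒪 D'.R a) ha)⟩
  have hB : Function.Surjective (residue (D'.R ⧸ J) ∘ algebraMap 𝒪 (D'.R ⧸ J)) := by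
    intro y
    obtain ⟨b, rfl⟩ := residue_surjective y
    obtain ⟨r, rfl⟩ := Ideal.Quotient.mk_surjective b
    obtain ⟨a, ha⟩ := D'.residue_surjective (residue D'.R r)
    refine ⟨a, ?_⟩
    have h1 : ResidueField.map (Ideal.Quotient.mk J) (residue D'.R (algebraMap 𝒪 D'.R a)) =
        ResidueField.map (Ideal.Quotient.mk J) (residue D'.R r) := congrArg _ ha
    rw [ResidueField.map_residue, ResidueField.map_residue] at h1
    exact h1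
  have hκker : RingHom.ker ((Ideal.Quotient.mkₐ 𝒪 J : D'.R →ₐ[𝒪] D'.R ⧸ J) : D'.R →+* D'.R ⧸ J) = J :=
    Ideal.Quotient.mkₐ_ker 𝒪 J
  have hlift : ∀ a : D'.R, a ∈ J → x' a = 0 := fun a ha => (RingHom.mem_ker).1 (hJle ha)
  obtain ⟨ψ, hψ, hxψ⟩ := s59selc_exists_psi 𝒪 q h01 h10 h0u hbc D D' x x' hsame (D'.R ⧸ J) hB
    (Ideal.Quotient.mkₐ 𝒪 J) (Ideal.Quotient.mkₐ_surjective 𝒪 J)
    (by rw [hκker, hJ]; exact le_sup_right)
    (Ideal.Quotient.liftₐ J x' hlift) (Ideal.Quotient.liftₐ_comp J x' hlift)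
  exact s59selc_alg 𝒪 x x' (Ideal.Quotient.liftₐ J x' hlift) ψ (Ideal.Quotient.mkₐ 𝒪 J) hψ
    (Ideal.Quotient.mkₐ_surjective 𝒪 J) hxψ (Ideal.Quotient.liftₐ_comp J x' hlift)
    (s59selRam D'.ρ q) (by rw [hκker, hJ]; exact le_sup_right) (by rw [hκker, hJ])

end Core

end Fermat.Agent.S59

end
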