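/-
S59, piece SEL-LIMIT (helper64): `stmtSelLimit : StmtSelLimit 𝒪`.

`Φ` a finitely generated module over the DVR `𝒪`, `N ⊆ Φ` a submodule all of whose images in
`Φ ⧸ 𝔪ⁿ Φ` have length `≤ B`.  Then `length N ≤ B`.

Proof.  If `length N > b = B`, take a chain `p₀ < … < p_{b+1} = N` of submodules.  By Krull's
intersection theorem for `Φ ⧸ pᵢ`, there is `n` such that `p_{i+1} ⊄ pᵢ + 𝔪ⁿ Φ` for all `i`
(`s59selm_krull`); the images of the `pᵢ` in `Φ ⧸ 𝔪ⁿ Φ` then form a chain of length `b + 1` below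
the image of `N`, which has length `≤ b`: contradiction.
-/
import Fermat.Agent.S59.SelPlan2

set_option autoImplicit false

namespace Fermat.Agent.S59

open IsLocalRing

section SelLimit

variable {𝒪 : Type} [CommRing 𝒪] [IsDomain 𝒪] [IsDiscreteValuationRing 𝒪]

/-- **Krull's intersection theorem, relative form.**  For a submodule `M` of a finitely generated
module `Φ` over the DVR `𝒪` and `x ∉ M`, there is `n` with `x ∉ M + 𝔪ᵐ Φ` for all `m ≥ n`. -/
theorem s59selm_krull {Φ : Type} [AddCommGroup Φ] [Module 𝒪 Φ] [Module.Finite 𝒪 Φ]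
    (M : Submodule 𝒪 Φ) (x : Φ) (hx : x ∉ M) :
    ∃ n : ℕ, ∀ m : ℕ, n ≤ m → x ∉ M ⊔ (maximalIdeal 𝒪 ^ m) • (⊤ : Submodule 𝒪 Φ) := by
  have hK := Ideal.iInf_pow_smul_eq_bot_of_isLocalRing (maximalIdeal 𝒪) (M := Φ ⧸ M)
    (Ideal.IsPrime.ne_top inferInstance)
  have hx0 : M.mkQ x ∉ (⨅ i : ℕ, (maximalIdeal 𝒪 ^ i) • (⊤ : Submodule 𝒪 (Φ ⧸ M))) := by
    rw [hK, Submodule.mem_bot, Submodule.mkQ_apply, Submodule.Quotient.mk_eq_zero]
    exact hx
  rw [Submodule.mem_iInf, not_forall] at hx0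
  obtain ⟨n, hn⟩ := hx0
  refine ⟨n, fun m hm hmem => hn ?_⟩
  obtain ⟨y, hy, z, hz, rfl⟩ := Submodule.mem_sup.mp hmem
  have hz' : z ∈ (maximalIdeal 𝒪 ^ n) • (⊤ : Submodule 𝒪 Φ) :=
    Submodule.smul_mono_left (Ideal.pow_le_pow_right hm) hz
  have h1 : M.mkQ (y + z) = M.mkQ z := by
    rw [map_add, Submodule.mkQ_apply, (Submodule.Quotient.mk_eq_zero M).mpr hy, zero_add]
  rw [h1]
  have h2 : M.mkQ z ∈ ((maximalIdeal 𝒪 ^ n) • (⊤ : Submodule 𝒪 Φ)).map M.mkQ :=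
    Submodule.mem_map_of_mem hz'
  rw [Submodule.map_smul''] at h2
  exact Submodule.smul_mono le_rfl le_top h2

/-- **SEL-LIMIT.**  A submodule `N` of a finitely generated `𝒪`-module `Φ` all of whose images in
`Φ ⧸ 𝔪ⁿ Φ` have length `≤ B` has length `≤ B`. -/
theorem s59selm_main (Φ : Type) [AddCommGroup Φ] [Module 𝒪 Φ] [Module.Finite 𝒪 Φ]
    (N : Submodule 𝒪 Φ) (B : ℕ∞)
    (h : ∀ n : ℕ, Module.length 𝒪
      (N.map ((maximalIdeal 𝒪 ^ n) • (⊤ : Submodule 𝒪 Φ)).mkQ) ≤ B) :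
    Module.length 𝒪 N ≤ B := by
  by_contra hlt
  rw [not_le] at hlt
  obtain ⟨b, rfl⟩ := ENat.ne_top_iff_exists.mp (ne_top_of_lt hlt)
  have hb1 : ((b + 1 : ℕ) : ℕ∞) ≤ Order.height N := by
    rw [← Module.length_submodule]
    exact Order.add_one_le_of_lt hlt
  obtain ⟨p, hplast, hplen⟩ := Order.exists_series_of_le_height N hb1
  -- witnesses of strictness
  have hstep : ∀ i : Fin p.length, ∃ n : ℕ, ∀ m : ℕ, n ≤ m →
      (p i.castSucc).map ((maximalIdeal 𝒪 ^ m) • (⊤ : Submodule 𝒪 Φ)).mkQ <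
        (p i.succ).map ((maximalIdeal 𝒪 ^ m) • (⊤ : Submodule 𝒪 Φ)).mkQ := by
    intro i
    have hlt' : p i.castSucc < p i.succ := p.step i
    obtain ⟨x, hx1, hx2⟩ := SetLike.exists_of_lt hlt'
    obtain ⟨n, hn⟩ := s59selm_krull (p i.castSucc) x hx2
    refine ⟨n, fun m hm => lt_of_le_of_ne (Submodule.map_mono hlt'.le) fun heq => hn m hm ?_⟩
    have hxm : ((maximalIdeal 𝒪 ^ m) • (⊤ : Submodule 𝒪 Φ)).mkQ x ∈
        (p i.castSucc).map ((maximalIdeal 𝒪 ^ m) • (⊤ : Submodule 𝒪 Φ)).mkQ := by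
      rw [heq]
      exact Submodule.mem_map_of_mem hx1
    obtain ⟨y, hy, hyx⟩ := hxm
    have hxy : x - y ∈ (maximalIdeal 𝒪 ^ m) • (⊤ : Submodule 𝒪 Φ) := by
      rw [← Submodule.Quotient.mk_eq_zero, Submodule.Quotient.mk_sub, sub_eq_zero]
      exact hyx.symm
    have : x = y + (x - y) := by abel
    rw [this]
    exact Submodule.add_mem_sup hy hxy
  choose ν hν using hstep
  let n := Finset.univ.sup ν
  let q : LTSeries (Submodule 𝒪 (Φ ⧸ (maximalIdeal 𝒪 ^ n) • (⊤ : Submodule 𝒪 Φ))) :=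
    { length := p.length
      toFun := fun i => (p i).map ((maximalIdeal 𝒪 ^ n) • (⊤ : Submodule 𝒪 Φ)).mkQ
      step := fun i => hν i n (Finset.le_sup (f := ν) (Finset.mem_univ i)) }
  have hqlast : q.last = N.map ((maximalIdeal 𝒪 ^ n) • (⊤ : Submodule 𝒪 Φ)).mkQ := by
    change (p (Fin.last p.length)).map _ = _
    have : p (Fin.last p.length) = N := hplast
    rw [this]
  have hq : (q.length : ℕ∞) ≤ Order.height q.last := Order.length_le_height_last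
  rw [hqlast, ← Module.length_submodule] at hq
  have hfin := le_trans hq (h n)
  have hql : q.length = b + 1 := hplen
  rw [hql] at hfin
  have : ((b + 1 : ℕ) : ℕ∞) ≤ (b : ℕ∞) := hfin
  exact absurd (Nat.cast_le.mp this) (by omega)

/-- **SEL-LIMIT** in the form of the interface `StmtSelLimit`. -/
theorem stmtSelLimit (𝒪 : Type) [CommRing 𝒪] [IsDomain 𝒪] [IsDiscreteValuationRing 𝒪] :
    StmtSelLimit 𝒪 :=
  fun Φ _ _ _ N B h => s59selm_main Φ N B h

end SelLimit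

end Fermat.Agent.S59
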