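import Fermat.Agent.S59.SelPlan2
import Fermat.Agent.S59.SelDet

/-!
# S59 / SEL, piece LIN-len (helper67): `stmtSelLinLen : StmtSelLinLen 𝒪`

`Fr ∈ M₂(𝒪)`, `det Fr = q` a unit, `c = (q − 1)(tr(Fr)² − (q + 1)²) ≠ 0`, `C ∈ M₂(X)` of trace `0`
with `Fr C = q C Fr`: the span of the entries of `C` has length `≤ length (𝒪 ⧸ c)`.
Assembly of `s59seld_length_le` (`S59/SelDet.lean`: DET + LEN).  The hypothesis `c ≠ 0` is not
needed over a discrete valuation ring (`stmtSelLinLen'`).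
-/

set_option autoImplicit false

namespace Fermat.Agent.S59

open IsLocalRing

section

variable {𝒪 : Type*} [CommRing 𝒪]
variable {X : Type*} [AddCommGroup X] [Module 𝒪 X]

/-- the span of the four entries of a trace-zero matrix is the span of `C₀₀, C₀₁, C₁₀` -/
theorem s59seld_span_entries (C : Matrix (Fin 2) (Fin 2) X) (htr : C 0 0 + C 1 1 = 0) :
    Submodule.span 𝒪 (Set.range fun ij : Fin 2 × Fin 2 => C ij.1 ij.2) =
      Submodule.span 𝒪 (Set.range (![C 0 0, C 0 1, C 1 0] : Fin 3 → X)) := by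
  have h11 : C 1 1 = -C 0 0 := by
    rw [eq_neg_iff_add_eq_zero, add_comm]; exact htr
  apply le_antisymm
  · rw [Submodule.span_le]
    rintro _ ⟨⟨i, j⟩, rfl⟩
    have m0 : C 0 0 ∈ Submodule.span 𝒪 (Set.range (![C 0 0, C 0 1, C 1 0] : Fin 3 → X)) :=
      Submodule.subset_span ⟨0, rfl⟩
    have m1 : C 0 1 ∈ Submodule.span 𝒪 (Set.range (![C 0 0, C 0 1, C 1 0] : Fin 3 → X)) :=
      Submodule.subset_span ⟨1, rfl⟩
    have m2 : C 1 0 ∈ Submodule.span 𝒪 (Set.range (![C 0 0, C 0 1, C 1 0] : Fin 3 → X)) :=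
      Submodule.subset_span ⟨2, rfl⟩
    fin_cases i <;> fin_cases j
    · exact m0
    · exact m1
    · exact m2
    · show C 1 1 ∈ _
      rw [h11]
      exact Submodule.neg_mem _ m0
  · rw [Submodule.span_le]
    rintro _ ⟨k, rfl⟩
    fin_cases k
    · exact Submodule.subset_span ⟨(0, 0), rfl⟩
    · exact Submodule.subset_span ⟨(0, 1), rfl⟩
    · exact Submodule.subset_span ⟨(1, 0), rfl⟩

/-- the four relations `Fr C = q C Fr` in the coordinates `a = C₀₀`, `b = C₀₁`, `c = C₁₀` -/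
theorem s59seld_rel_of_comm (Fr : Matrix (Fin 2) (Fin 2) 𝒪) (q : 𝒪)
    (C : Matrix (Fin 2) (Fin 2) X) (htr : C 0 0 + C 1 1 = 0)
    (h : ∀ i j, ∑ k, Fr i k • C k j = q • ∑ k, Fr k j • C i k) :
    (((1 - q) * Fr 0 0) • C 0 0 + (-q * Fr 1 0) • C 0 1 + Fr 0 1 • C 1 0 = 0) ∧
    ((-(1 + q) * Fr 0 1) • C 0 0 + (Fr 0 0 - q * Fr 1 1) • C 0 1 = 0) ∧
    (((1 + q) * Fr 1 0) • C 0 0 + (Fr 1 1 - q * Fr 0 0) • C 1 0 = 0) ∧
    (((q - 1) * Fr 1 1) • C 0 0 + Fr 1 0 • C 0 1 + (-q * Fr 0 1) • C 1 0 = 0) := by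
  have h11 : C 1 1 = -C 0 0 := by
    rw [eq_neg_iff_add_eq_zero, add_comm]; exact htr
  have e00 := h 0 0
  have e01 := h 0 1
  have e10 := h 1 0
  have e11 := h 1 1
  simp only [Fin.sum_univ_two, h11] at e00 e01 e10 e11
  refine ⟨?_, ?_, ?_, ?_⟩
  · linear_combination (norm := module) e00
  · linear_combination (norm := module) e01
  · linear_combination (norm := module) e10
  · linear_combination (norm := module) e11

end

section

variable (𝒪 : Type) [CommRing 𝒪] [IsDomain 𝒪] [IsDiscreteValuationRing 𝒪]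

/-- **SEL-LIN, length form**, without the hypothesis `c ≠ 0`. -/
theorem stmtSelLinLen' (Fr : Matrix (Fin 2) (Fin 2) 𝒪) (q : 𝒪) (hq : IsUnit q)
    (hdet : Fr.det = q) (X : Type*) [AddCommGroup X] [Module 𝒪 X]
    (C : Matrix (Fin 2) (Fin 2) X) (htr : C 0 0 + C 1 1 = 0)
    (h : ∀ i j, ∑ k, Fr i k • C k j = q • ∑ k, Fr k j • C i k) :
    Module.length 𝒪 (Submodule.span 𝒪 (Set.range fun ij : Fin 2 × Fin 2 => C ij.1 ij.2)) ≤
      Module.length 𝒪 (𝒪 ⧸ Ideal.span {(q - 1) * (Fr.trace ^ 2 - (q + 1) ^ 2)}) := by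
  obtain ⟨r11, r12, r21, r22⟩ := s59seld_rel_of_comm Fr q C htr h
  have hd : Fr 0 0 * Fr 1 1 - Fr 0 1 * Fr 1 0 = q := by
    rw [← hdet, Matrix.det_fin_two]
  have key := s59seld_length_le' (IsDiscreteValuationRing.not_isField 𝒪)
    (Fr 0 0) (Fr 0 1) (Fr 1 0) (Fr 1 1) q hq hd (C 0 0) (C 0 1) (C 1 0) r11 r12 r21 r22
  rw [s59seld_span_entries C htr, Matrix.trace_fin_two]
  exact key

/-- **SEL-LIN, length form**: `StmtSelLinLen 𝒪` of `S59/SelPlan2.lean`. -/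
theorem stmtSelLinLen : StmtSelLinLen 𝒪 := by
  intro Fr q hq hdet _ X _ _ C htr h
  exact stmtSelLinLen' 𝒪 Fr q hq hdet X C htr h

end

end Fermat.Agent.S59
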