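/-
S59, piece SEL-LOCAL, algebra (helper48): the `2 × 2` matrix calculus of an `x`-derivation
`D : A → X` (`x : A → 𝒪` a ring homomorphism, `X` an `𝒪`-module,
`D (a b) = x a • D b + x b • D a`).  Mathlib only.
-/
import Mathlib

set_option autoImplicit false
set_option linter.style.haveILetI false

namespace Fermat.Agent.S59

open IsLocalRing

section Calc

variable {𝒪 A X : Type} [CommRing 𝒪] [CommRing A] [AddCommGroup X] [Module 𝒪 X]
  (x : A →+* 𝒪) (D : A → X)

/-- `D` is an `x`-derivation. -/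
structure S59sellocIsDer : Prop where
  add : ∀ a b, D (a + b) = D a + D b
  mul : ∀ a b, D (a * b) = x a • D b + x b • D a

variable {x D}

lemma S59sellocIsDer.one (h : S59sellocIsDer x D) : D 1 = 0 := by
  have h1 := h.mul 1 1
  rw [mul_one, map_one, one_smul] at h1
  have h2 : D 1 + 0 = D 1 + D 1 := by rw [add_zero]; exact h1
  exact (add_left_cancel h2).symm

lemma S59sellocIsDer.zero (h : S59sellocIsDer x D) : D 0 = 0 := by
  have h1 := h.add 0 0
  rw [add_zero] at h1
  have h2 : D 0 + 0 = D 0 + D 0 := by rw [add_zero]; exact h1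
  exact (add_left_cancel h2).symm

lemma S59sellocIsDer.neg (h : S59sellocIsDer x D) (a : A) : D (-a) = -D a := by
  have h1 := h.add a (-a)
  rw [add_neg_cancel, h.zero] at h1
  exact eq_neg_of_add_eq_zero_right h1.symm

lemma S59sellocIsDer.sub (h : S59sellocIsDer x D) (a b : A) : D (a - b) = D a - D b := by
  rw [sub_eq_add_neg, h.add, h.neg, ← sub_eq_add_neg]

lemma S59sellocIsDer.sum (h : S59sellocIsDer x D) {ι : Type} (s : Finset ι) (g : ι → A) :
    D (∑ i ∈ s, g i) = ∑ i ∈ s, D (g i) := by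
  classical
  induction s using Finset.induction_on with
  | empty => simpa using h.zero
  | insert a s ha ih => rw [Finset.sum_insert ha, Finset.sum_insert ha, h.add, ih]

/-- the `x`-derivation `D` on a product of matrices -/
lemma S59sellocIsDer.matMul (h : S59sellocIsDer x D) (M N : Matrix (Fin 2) (Fin 2) A)
    (i j : Fin 2) :
    D ((M * N) i j) = ∑ k, (x (M i k) • D (N k j) + x (N k j) • D (M i k)) := by
  rw [Matrix.mul_apply, h.sum]
  exact Finset.sum_congr rfl fun k _ => h.mul _ _

lemma s59selloc_map_one_apply {M : Matrix (Fin 2) (Fin 2) A} (hM : M.map x = 1) (i j : Fin 2) :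
    x (M i j) = if i = j then 1 else 0 := by
  have := congrFun (congrFun hM i) j
  simpa [Matrix.one_apply] using this

/-- additivity on the matrices which are `1` modulo `ker x` -/
lemma S59sellocIsDer.matMul_of_one (h : S59sellocIsDer x D) {M N : Matrix (Fin 2) (Fin 2) A}
    (hM : M.map x = 1) (hN : N.map x = 1) (i j : Fin 2) :
    D ((M * N) i j) = D (M i j) + D (N i j) := by
  rw [h.matMul]
  simp only [s59selloc_map_one_apply hM, s59selloc_map_one_apply hN, Fin.sum_univ_two]
  fin_cases i <;> fin_cases j <;> simp <;> abel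

/-- trace zero from determinant one -/
lemma S59sellocIsDer.trace_of_det (h : S59sellocIsDer x D) {M : Matrix (Fin 2) (Fin 2) A}
    (hM : M.map x = 1) (hdet : M.det = 1) : D (M 0 0) + D (M 1 1) = 0 := by
  have h1 : D (M 0 0 * M 1 1 - M 0 1 * M 1 0) = 0 := by
    rw [← Matrix.det_fin_two, hdet, h.one]
  rw [h.sub, h.mul, h.mul] at h1
  simp only [s59selloc_map_one_apply hM] at h1
  simpa [add_comm] using h1

/-- the conjugation relation -/
lemma S59sellocIsDer.conj (h : S59sellocIsDer x D) {S F R : Matrix (Fin 2) (Fin 2) A}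
    (hS : S.map x = 1) (hR : R.map x = 1) (hSF : S * F = F * R) (i j : Fin 2) :
    ∑ k, x (F i k) • D (R k j) = ∑ k, x (F k j) • D (S i k) := by
  have h1 : D ((S * F) i j) = D ((F * R) i j) := by rw [hSF]
  rw [h.matMul, h.matMul] at h1
  simp only [s59selloc_map_one_apply hS, s59selloc_map_one_apply hR, Fin.sum_univ_two] at h1 ⊢
  fin_cases i <;> fin_cases j <;> simp at h1 ⊢
  all_goals
    rw [← sub_eq_zero] at h1 ⊢
    rw [← neg_eq_zero, ← h1]
    abel

/-- The ideal of the `a` with `x a = 0` and `D a ∈ Y`. -/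
def s59sellocJ (h : S59sellocIsDer x D) (Y : Submodule 𝒪 X) : Ideal A where
  carrier := {a | x a = 0 ∧ D a ∈ Y}
  zero_mem' := ⟨map_zero x, by rw [h.zero]; exact Y.zero_mem⟩
  add_mem' := by
    rintro a b ⟨ha1, ha2⟩ ⟨hb1, hb2⟩
    exact ⟨by rw [map_add, ha1, hb1, add_zero], by rw [h.add]; exact Y.add_mem ha2 hb2⟩
  smul_mem' := by
    rintro c a ⟨ha1, ha2⟩
    refine ⟨by rw [smul_eq_mul, map_mul, ha1, mul_zero], ?_⟩
    rw [smul_eq_mul, h.mul, ha1, zero_smul, add_zero]
    exact Y.smul_mem _ ha2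

lemma s59sellocJ_mem (h : S59sellocIsDer x D) (Y : Submodule 𝒪 X) (a : A) :
    a ∈ s59sellocJ h Y ↔ x a = 0 ∧ D a ∈ Y := Iff.rfl

end Calc

end Fermat.Agent.S59
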