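/-
S59, piece SEL-LOCAL (helper48): `stmtSelLocal : StmtSelLocal 𝒪`.

`Φ_N` = image of the ramification ideal at `q` in the cotangent space `Φ` at `x`.  For every `n`
the image of `Φ_N` in `Φ ⧸ 𝔪ⁿ Φ` is spanned by the entries of ONE matrix `C = N(t_n)` (tame
inertia, `s59selt_add`) with `tr C = 0` and `Fr C = q C Fr`; LIN-len bounds its length by
`length (𝒪 ⧸ c_q)`, LIMIT passes to `Φ_N`.
-/
import Fermat.Agent.S59.SelPlan2
import Fermat.Agent.S59.SelAug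
import Fermat.Agent.S59.SelLocalAlg
import Fermat.Agent.S59.SelTame
import Fermat.Agent.S59.SelLinLen
import Fermat.Agent.S59.SelLimit
import Fermat.Agent.S59.SelLocalTools
import Fermat.Agent.Common.FrobExists
import Fermat.Agent.S53.Matrix
import Fermat.Agent.S31.Cyclo
import Fermat.Agent.TW.S.ConjPlaces
import Fermat.Agent.PT.B.NormalClosure

set_option autoImplicit false
set_option linter.style.haveILetI false

namespace Fermat.Agent.S59

open IsLocalRing Fermat.Agent.S53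

/-- `ℚ̄` -/
local notation "Qbar" => AlgebraicClosure ℚ

section Main

variable {𝒪 : Type} [CommRing 𝒪] [IsDomain 𝒪] [IsDiscreteValuationRing 𝒪]

/-- `q` is a unit of `𝒪` (`q ≠ p` primes, `p ∈ 𝔪`). -/
theorem s59selloc_isUnit_q {p q : ℕ} (hp : p.Prime) (hq : q.Prime) (hqp : q ≠ p)
    (hp𝒪 : (p : 𝒪) ∈ maximalIdeal 𝒪) : IsUnit (q : 𝒪) := by
  by_contra hu
  have hq𝒪 : (q : 𝒪) ∈ maximalIdeal 𝒪 := (mem_maximalIdeal _).2 hu
  have hcop : Nat.Coprime p q := (Nat.coprime_primes hp hq).mpr (Ne.symm hqp)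
  obtain ⟨u, v, huv⟩ := Nat.Coprime.isCoprime hcop
  have h1 : ((u : 𝒪) * (p : 𝒪) + (v : 𝒪) * (q : 𝒪)) = 1 := by
    have := congrArg (fun z : ℤ => (z : 𝒪)) huv
    simpa using this
  have h2 : (1 : 𝒪) ∈ maximalIdeal 𝒪 := by
    rw [← h1]
    exact Ideal.add_mem _ (Ideal.mul_mem_left _ _ hp𝒪) (Ideal.mul_mem_left _ _ hq𝒪)
  exact (Ideal.ne_top_iff_one _).1 (Ideal.IsMaximal.ne_top inferInstance) h2

/-- The level-`n` bound. -/
theorem s59selloc_level (hLin : StmtSelLinLen 𝒪) (p : ℕ) [Fact p.Prime] (q : ℕ) (hq : q.Prime)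
    (hqp : q ≠ p) (hp𝒪 : (p : 𝒪) ∈ maximalIdeal 𝒪)
    (A : Type) [CommRing A] [IsLocalRing A] [IsNoetherianRing A] [Algebra 𝒪 A]
    (ρ : GaloisRepAdic A) (hdet : ρ.DetIsCyclotomic p) (x : A →ₐ[𝒪] 𝒪)
    (hx : IsLocalHom (x : A →+* 𝒪)) (t : 𝒪)
    (hunr : (ρ.baseChangeAlong (x : A →+* 𝒪) hx).IsUnramifiedAt q)
    (htr : ∀ P : ValuationSubring Qbar, P.LiesOverPrime q → ∀ φ : S59G, P.IsFrobeniusAt φ q →
      x (LinearMap.trace A ρ.V (ρ.ρ φ)) = t)
    (hc : s59p_cq 𝒪 q t ≠ 0) (n : ℕ) :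
    Module.length 𝒪 ((s59selPhiN 𝒪 x (s59selRam ρ q)).map
      ((maximalIdeal 𝒪 ^ n) • (⊤ : Submodule 𝒪 (RingHom.ker (x : A →+* 𝒪)).Cotangent)).mkQ) ≤
      Module.length 𝒪 (𝒪 ⧸ Ideal.span {s59p_cq 𝒪 q t}) := by
  classical
  haveI := hx
  have hpp : p.Prime := Fact.out
  obtain ⟨P, hP⟩ := Fermat.Agent.Common.exists_liesOverPrime q hq
  obtain ⟨φ, hφ⟩ := Fermat.Agent.Common.exists_isFrobeniusAt_of_liesOverPrime q hq P hP
  set b := someBasis ρ with hb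
  set M := matOfBasis ρ b with hM
  set Z : Submodule 𝒪 (RingHom.ker (x : A →+* 𝒪)).Cotangent :=
    (maximalIdeal 𝒪 ^ n) • (⊤ : Submodule 𝒪 (RingHom.ker (x : A →+* 𝒪)).Cotangent) with hZ
  let D : A → (RingHom.ker (x : A →+* 𝒪)).Cotangent ⧸ Z := fun a => Z.mkQ (s59selaugD x a)
  have hD : S59sellocIsDer (x : A →+* 𝒪) D :=
    ⟨fun a b => by simp only [D, map_add],
     fun a b => by
      simp only [D, s59selaugD_mul, map_add, map_smul]
      rfl⟩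
  have hone : ∀ σ ∈ P.inertiaSubgroupIn ℚ, (M σ).map (x : A →+* 𝒪) = 1 := fun σ hσ =>
    s59sellt_map_eq_one ρ (x : A →+* 𝒪) hx q hunr b P hP σ hσ
  have hdet1 : ∀ σ ∈ P.inertiaSubgroupIn ℚ, (M σ).det = 1 := fun σ hσ => by
    rw [hM, s59sellt_det, s59sellt_det_inertia p q hpp hq hqp ρ hdet P hP σ hσ]
  obtain ⟨L, hL, hLM⟩ := matOfBasis_cont ρ b (n + 1)
  haveI := hL
  obtain ⟨t0, ht0⟩ := s59selt_add hq P hP L (J := ↥(P.inertiaSubgroupIn ℚ))
    (P.inertiaSubgroupIn ℚ).subtype (fun y => y.2)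
  let Nm : ↥(P.inertiaSubgroupIn ℚ) →
      Matrix (Fin 2) (Fin 2) ((RingHom.ker (x : A →+* 𝒪)).Cotangent ⧸ Z) :=
    fun σ => (M (σ : S59G)).map D
  have hadd : ∀ a b, Nm (a * b) = Nm a + Nm b := by
    intro a b
    ext i j
    simp only [Nm, Matrix.map_apply, Matrix.add_apply, Subgroup.coe_mul, map_mul]
    exact hD.matMul_of_one (hone _ a.2) (hone _ b.2) i j
  have hkillX : ∀ y : (RingHom.ker (x : A →+* 𝒪)).Cotangent ⧸ Z, (p ^ n) • y = 0 := by
    intro y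
    obtain ⟨z, rfl⟩ := Z.mkQ_surjective y
    rw [← map_nsmul, Submodule.mkQ_apply, Submodule.Quotient.mk_eq_zero]
    have h1 : ((p ^ n : ℕ) : 𝒪) ∈ maximalIdeal 𝒪 ^ n := by
      rw [Nat.cast_pow]
      exact Ideal.pow_mem_pow hp𝒪 n
    have h2 : (p ^ n) • z = ((p ^ n : ℕ) : 𝒪) • z := (Nat.cast_smul_eq_nsmul 𝒪 _ z).symm
    rw [h2]
    exact Submodule.smul_mem_smul h1 Submodule.mem_top
  have hkill : ∃ e : ℕ, ∀ m : Matrix (Fin 2) (Fin 2)
      ((RingHom.ker (x : A →+* 𝒪)).Cotangent ⧸ Z), (p ^ e) • m = 0 :=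
    ⟨n, fun m => by
      ext i j
      simp only [Matrix.smul_apply, Matrix.zero_apply]
      exact hkillX _⟩
  have hDsub : ∀ (σ : S59G) (i j : Fin 2), D ((M σ - 1) i j) = D (M σ i j) := by
    intro σ i j
    rw [Matrix.sub_apply, hD.sub, Matrix.one_apply]
    split_ifs
    · rw [hD.one, sub_zero]
    · rw [hD.zero, sub_zero]
  have hxsub : ∀ σ ∈ P.inertiaSubgroupIn ℚ, ∀ i j : Fin 2, x ((M σ - 1) i j) = 0 := by
    intro σ hσ i j
    have h1 := s59selloc_map_one_apply (hone σ hσ) i j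
    rw [Matrix.sub_apply, map_sub, Matrix.one_apply]
    have h2 : (x : A →+* 𝒪) (M σ i j) = x (M σ i j) := rfl
    rw [← h2, h1]
    split_ifs <;> simp
  have htriv : ∀ y : ↥(P.inertiaSubgroupIn ℚ),
      (P.inertiaSubgroupIn ℚ).subtype y ∈ L.fixingSubgroup → Nm y = 0 := by
    intro y hy
    have hy' : ∀ z ∈ L, (y : S59G) z = z := fun z hz =>
      (IntermediateField.mem_fixingSubgroup_iff L _).1 hy z hz
    ext i j
    simp only [Nm, Matrix.map_apply, Matrix.zero_apply]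
    rw [← hDsub]
    show Z.mkQ (s59selaugD x ((M (y : S59G) - 1) i j)) = 0
    rw [Submodule.mkQ_apply, Submodule.Quotient.mk_eq_zero]
    exact s59selaugD_mem x n (hLM _ hy' i j)
  obtain ⟨h1, h2⟩ := ht0 p hpp hqp _ Nm hadd hkill htriv
  set C := Nm t0 with hC
  set Fr := (M φ).map (x : A →+* 𝒪) with hFr
  have hconj_mem : φ * (t0 : S59G) * φ⁻¹ ∈ P.inertiaSubgroupIn ℚ :=
    s59sellt_conj_frob q P φ hφ _ t0.2
  have h3 := h2 ⟨φ * (t0 : S59G) * φ⁻¹, hconj_mem⟩ φ hφ rfl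
  have hrel : ∀ i j, ∑ k, Fr i k • C k j = (q : 𝒪) • ∑ k, Fr k j • C i k := by
    intro i j
    have h4 := hD.conj (S := M (φ * (t0 : S59G) * φ⁻¹)) (F := M φ) (R := M (t0 : S59G))
      (hone _ hconj_mem) (hone _ t0.2)
      (by rw [← map_mul, ← map_mul]; congr 1; group) i j
    have h5 : ∀ k, D (M (φ * (t0 : S59G) * φ⁻¹) i k) = (q : 𝒪) • C i k := by
      intro k
      have := congrFun (congrFun h3 i) k
      simp only [Nm, Matrix.map_apply, Matrix.smul_apply] at this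
      rw [this, Nat.cast_smul_eq_nsmul]
    simp only [h5] at h4
    rw [Finset.smul_sum]
    rw [show (∑ k, Fr i k • C k j) = ∑ k, (x : A →+* 𝒪) (M φ i k) • D (M (t0 : S59G) k j) from rfl,
      h4]
    refine Finset.sum_congr rfl fun k _ => ?_
    rw [smul_smul, smul_smul, mul_comm]
    rfl
  have htrC : C 0 0 + C 1 1 = 0 := hD.trace_of_det (hone _ t0.2) (hdet1 _ t0.2)
  have hFrdet : Fr.det = (q : 𝒪) := by
    rw [hFr, ← RingHom.mapMatrix_apply, ← RingHom.map_det, hM, s59sellt_det,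
      s59sellt_det_frob p q hpp hq hqp ρ hdet P hP φ hφ]
    simp
  have hFrtr : Fr.trace = t := by
    have h6 : Fr.trace = (x : A →+* 𝒪) ((M φ).trace) := by
      rw [hFr, Matrix.trace, Matrix.trace, map_sum]
      rfl
    rw [h6, hM, s59sellt_trace]
    exact htr P hP φ hφ
  have hc' : ((q : 𝒪) - 1) * (Fr.trace ^ 2 - ((q : 𝒪) + 1) ^ 2) ≠ 0 := by
    rw [hFrtr]
    exact hc
  have hlen := hLin Fr (q : 𝒪) (s59selloc_isUnit_q hpp hq hqp hp𝒪) hFrdet hc' _ C htrC hrel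
  rw [hFrtr] at hlen
  refine le_trans ?_ hlen
  set Y := Submodule.span 𝒪 (Set.range fun ij : Fin 2 × Fin 2 => C ij.1 ij.2) with hY
  have hCY : ∀ i j, C i j ∈ Y := fun i j => Submodule.subset_span ⟨(i, j), rfl⟩
  have hJ : s59selRam ρ q ≤ s59sellocJ hD Y := by
    refine s59sellt_ram_le ρ b _ q hq P hP fun σ hσ i j => ?_
    rw [s59sellocJ_mem]
    refine ⟨hxsub σ hσ i j, ?_⟩
    rw [hDsub]
    obtain ⟨m, hm⟩ := h1 ⟨σ, hσ⟩
    have := congrFun (congrFun hm i) j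
    simp only [Nm, Matrix.map_apply, Matrix.smul_apply] at this
    rw [this]
    exact Y.smul_of_tower_mem m (hCY i j)
  have hle : (s59selPhiN 𝒪 x (s59selRam ρ q)).map Z.mkQ ≤ Y := by
    rw [Submodule.map_le_iff_le_comap]
    refine Submodule.span_le.2 ?_
    rintro _ ⟨r, hr, hra, rfl⟩
    rw [SetLike.mem_coe, Submodule.mem_comap, ← s59selaugD_of_mem x hr]
    exact ((s59sellocJ_mem hD Y r).1 (hJ hra)).2
  exact Module.length_le_of_injective (Submodule.inclusion hle) (Submodule.inclusion_injective hle)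

/-- **SEL-LOCAL** from LIN-len and LIMIT. -/
theorem stmtSelLocal_of [IsAdicComplete (maximalIdeal 𝒪) 𝒪] [Finite (ResidueField 𝒪)]
    (hLin : StmtSelLinLen 𝒪) (hLim : StmtSelLimit 𝒪) : StmtSelLocal 𝒪 := by
  intro p _ q hq hqp hp𝒪 A _ _ _ _ _ ρ hdet x hx t hunr htr hc
  haveI := hx
  haveI : Module.Finite 𝒪 (RingHom.ker (x : A →+* 𝒪)).Cotangent := s59selaug_finite x
  exact hLim _ _ _ fun n => s59selloc_level hLin p q hq hqp hp𝒪 A ρ hdet x hx t hunr htr hc n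

/-- **SEL-LOCAL.** -/
theorem stmtSelLocal [IsAdicComplete (maximalIdeal 𝒪) 𝒪] [Finite (ResidueField 𝒪)] :
    StmtSelLocal 𝒪 :=
  stmtSelLocal_of (stmtSelLinLen 𝒪) (stmtSelLimit 𝒪)

end Main

end Fermat.Agent.S59
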