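/-
S59, piece SEL — FINAL (helper48, sub-captain): `stmtSelFlat`, `stmtSelOrd`, unconditional.

`length Φ_{R',x'} ≤ length Φ_{R,x} + length (𝒪 ⧸ c_q)`, `c_q = (q − 1)(t² − (q + 1)²)`:
CORE (`s59selc_coreLen`, helper74) + LOCAL (`stmtSelLocal`, helper48; tools helper64, helper32,
LIN-len helper67, LIMIT helper64, TAME helper67) + FIN (`s59self_main`, helper67).
-/
import Fermat.Agent.S59.SelLocal
import Fermat.Agent.S59.SelCore
import Fermat.Agent.S59.SelFin

set_option autoImplicit false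

namespace Fermat.Agent.S59

open IsLocalRing

variable (𝒪 : Type) [CommRing 𝒪] [IsDomain 𝒪] [IsDiscreteValuationRing 𝒪]
  [IsAdicComplete (maximalIdeal 𝒪) 𝒪] [Finite (ResidueField 𝒪)]

/-- **SEL, flat case.** -/
theorem stmtSelFlat : StmtSelFlat 𝒪 :=
  (s59self_main 𝒪 (s59selc_coreLen 𝒪) stmtSelLocal).1

/-- **SEL, ordinary case.** -/
theorem stmtSelOrd : StmtSelOrd 𝒪 :=
  (s59self_main 𝒪 (s59selc_coreLen 𝒪) stmtSelLocal).2

end Fermat.Agent.S59
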