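/-
S59, piece R3 = TOP (helper69, captain), part 4: THE STEP of Wiles' induction, FLAT case, wired.

`s59tops_step_flat` : the STEP clause of (STAGES) (`S59/TopWire.lean`) for `𝒟 Σ = twFlat 𝒪 p Smin Σ`
from
* SEL ✓ (`stmtSelFlat`), HGD ✓ (`s59hgd_main`), S54 ✓, S32 ✓ (flat at `p ∤ N`), S34 ✓ (unipotent at
  `q₀ ∥ N`), `H.exists_point`,
* DEF-COND (`hD` : the universal rings `D_Σ` exist; `S59/DefCond/Plan.lean`),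
* the interface `S59R2Data` of R2 = ETA′ (`step`, `char`, `gen`, `J_ne`),
* CAR (`hcar`) : a lift of `ρ̄` to `𝒪` with the Frobenius traces `ψ ℓ` outside a finite set is
  equivalent to the base lift `ρ₀ = ρ_f` (Chebotarev + Carayol; `ρ₁` with cyclotomic determinant: helper94),
* `hψ`, `hdet` : `ψ ℓ ≡ tr ρ̄(Frob_ℓ)`, `det ρ̄ = χ_p mod p` (= `S59HgdRes`).

The invariant `s59tops_inv` of a stage `s` for `Σ` : `N = N₀ ∏_{q ∈ Σ} q²`, `S = Smin ∪ Σ`,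
`πT(T_ℓ) = ψ ℓ`, `D.ρ ⊗_{πT ∘ γ} 𝒪 ≅ ρ₀`, and `etaL = J x` for a good state `x` of R2 of level `N`.
-/
import Fermat.Agent.S59.TopWire
import Fermat.Agent.S59.SelSame
import Fermat.Agent.S59.SelFinal
import Fermat.Agent.S59.HGD.Main
import Fermat.Agent.S54
import Fermat.Agent.S59.Leaf.S32R
import Fermat.Agent.S59.Leaf.S34R

set_option autoImplicit false
set_option linter.style.haveILetI false
set_option linter.unusedSectionVars false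
set_option linter.unusedVariables false
set_option linter.style.longLine false

noncomputable section

namespace Fermat.Agent.S59

open IsLocalRing Fermat.Agent.TW Fermat.Agent.S53

/-! ### The levels -/

/-- the level at `Σ` : `N₀ · ∏_{q ∈ Σ} q²` -/
def s59tops_level (N0 : ℕ) (Sg : Finset ℕ) : ℕ := N0 * ∏ q ∈ Sg, (q * q)

theorem s59tops_level_insert (N0 : ℕ) {Sg : Finset ℕ} {q : ℕ} (hq : q ∉ Sg) :
    s59tops_level N0 (insert q Sg) = s59tops_level N0 Sg * q * q := by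
  unfold s59tops_level
  rw [Finset.prod_insert hq]
  ring

theorem s59tops_prime_dvd_prod {Sg : Finset ℕ} (hSg : ∀ q ∈ Sg, q.Prime) {ℓ : ℕ} (hℓ : ℓ.Prime)
    (h : ℓ ∣ ∏ q ∈ Sg, (q * q)) : ℓ ∈ Sg := by
  obtain ⟨a, ha, hd⟩ := (Prime.dvd_finsetProd_iff hℓ.prime _).1 h
  have : ℓ ∣ a := by
    rcases (Nat.Prime.dvd_mul hℓ).1 hd with h | h <;> exact h
  rw [(Nat.prime_dvd_prime_iff_eq hℓ (hSg a ha)).1 this]
  exact ha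

theorem s59tops_prime_dvd_level {N0 : ℕ} {Sg : Finset ℕ} (hSg : ∀ q ∈ Sg, q.Prime) {ℓ : ℕ}
    (hℓ : ℓ.Prime) (h : ℓ ∣ s59tops_level N0 Sg) : ℓ ∣ N0 ∨ ℓ ∈ Sg := by
  rcases (Nat.Prime.dvd_mul hℓ).1 h with h | h
  · exact Or.inl h
  · exact Or.inr (s59tops_prime_dvd_prod hSg hℓ h)

theorem s59tops_mem_dvd_level {p N0 : ℕ} {Smin Sg : Finset ℕ}
    (hN0 : ∀ ℓ : ℕ, ℓ.Prime → (ℓ ∣ N0 ↔ ℓ ∈ Smin ∧ ℓ ≠ p)) {ℓ : ℕ} (hℓ : ℓ.Prime)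
    (h : ℓ ∈ Smin ∪ Sg) : ℓ = p ∨ ℓ ∣ s59tops_level N0 Sg := by
  by_cases hp : ℓ = p
  · exact Or.inl hp
  · right
    rcases Finset.mem_union.1 h with h1 | h1
    · exact Dvd.dvd.mul_right ((hN0 ℓ hℓ).2 ⟨h1, hp⟩) _
    · have h2 : ℓ * ℓ ∣ ∏ q ∈ Sg, (q * q) := Finset.dvd_prod_of_mem (fun q => q * q) h1
      exact Dvd.dvd.mul_left ((Dvd.intro ℓ rfl).trans h2) N0

theorem s59tops_coprime_prod {Sg : Finset ℕ} (hSg : ∀ q ∈ Sg, q.Prime) {ℓ : ℕ} (hℓ : ℓ.Prime)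
    (hℓSg : ℓ ∉ Sg) (n : ℕ) : Nat.Coprime (ℓ ^ n) (∏ q ∈ Sg, (q * q)) := by
  apply Nat.Coprime.pow_left
  rw [Nat.Prime.coprime_iff_not_dvd hℓ]
  exact fun h => hℓSg (s59tops_prime_dvd_prod hSg hℓ h)

theorem s59tops_sq_not_dvd_level {N0 : ℕ} (hN0 : Squarefree N0) {Sg : Finset ℕ}
    (hSg : ∀ q ∈ Sg, q.Prime) {ℓ : ℕ} (hℓ : ℓ.Prime) (hℓSg : ℓ ∉ Sg) :
    ¬ ℓ ^ 2 ∣ s59tops_level N0 Sg := by
  intro h
  have h1 : ℓ ^ 2 ∣ N0 := (s59tops_coprime_prod hSg hℓ hℓSg 2).dvd_of_dvd_mul_right h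
  have h2 : ℓ * ℓ ∣ N0 := by rwa [pow_two] at h1
  exact hℓ.one_lt.ne' (Nat.isUnit_iff.1 (hN0 ℓ h2))

/-! ### The interface of R2 -/

section

variable (𝒪 : Type) [CommRing 𝒪] [IsDomain 𝒪] [IsDiscreteValuationRing 𝒪]
  [IsAdicComplete (maximalIdeal 𝒪) 𝒪]

/-- **The interface of R2 = ETA′** (for a fixed eigensystem `ψ : ℕ → 𝒪`, `ψ ℓ = a_ℓ(f)`): states
`x` (a level `lev x` and a primitive `ψ`-eigenvector of `𝒪 ⊗ Hom_par(Γ₀(lev x), ℤ)`), their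
module congruence ideals `J x`, and the depletion `next q x` at a prime `q ∤ lev x`. -/
structure S59R2Data (p : ℕ) (ψ : ℕ → 𝒪) : Type 1 where
  /-- the states -/
  X : Type
  /-- the level of a state -/
  lev : X → ℕ
  /-- the good states -/
  Good : X → Prop
  /-- the module congruence ideal of a state -/
  J : X → Ideal 𝒪
  /-- the depletion at `q` -/
  next : ℕ → X → X
  lev_ne : ∀ x, lev x ≠ 0
  lev_next : ∀ (q : ℕ) (x : X), q.Prime → lev (next q x) = lev x * q * q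
  J_ne : ∀ x, Good x → J x ≠ ⊥
  /-- ETA′ : `J_{N q²}(x') ≤ c_q · J_N(x)` -/
  step : ∀ (x : X) (q : ℕ), q.Prime → ¬ q ∣ lev x → q ≠ p → Good x →
    Good (next q x) ∧ J (next q x) ≤ Ideal.span {s59p_cq 𝒪 q (ψ q)} * J x
  /-- E-CHAR : the eigensystem of a good state -/
  char : ∀ (x : X) [NeZero (lev x)], Good x → ∀ S : Finset ℕ, p ∈ S →
    (∀ ℓ : ℕ, ℓ.Prime → ℓ ∣ lev x → ℓ ∈ S) →
    ∃ χ : CuspForm.heckeAlgebra (lev x) 2 (↑S : Set ℕ) →+* 𝒪,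
      ∀ (ℓ : ℕ) (hℓ : ℓ.Prime) (hℓN : ¬ ℓ ∣ lev x) (hℓS : ℓ ∉ (↑S : Set ℕ)),
        χ (CuspForm.heckeAlgebra.T hℓ hℓN hℓS) = ψ ℓ
  /-- GEN (+ E-NZ) : `0 ≠ η_T ≤ J x` for every datum of level `lev x` and every augmentation with
  the eigenvalues `ψ`, when every prime of `S` is `p` or divides the level (no strong
  multiplicity one is needed then) and `𝒪` is big for `(lev x, S)` -/
  gen : ∀ (x : X) [NeZero (lev x)], Good x → ∀ S : Finset ℕ, p ∈ S →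
    (∀ ℓ : ℕ, ℓ.Prime → ℓ ∣ lev x → ℓ ∈ S) →
    (∀ ℓ : ℕ, ℓ.Prime → ℓ ∈ S → ℓ = p ∨ ℓ ∣ lev x) →
    ∀ (θ : CuspForm.heckeAlgebra (lev x) 2 (↑S : Set ℕ) →+* ResidueField 𝒪),
      s59p_IsBig 𝒪 (lev x) (↑S : Set ℕ) θ →
    ∀ (T : Type) [CommRing T] [IsLocalRing T] [IsNoetherianRing T]
      [IsAdicComplete (maximalIdeal T) T] [Algebra 𝒪 T] [IsLocalHom (algebraMap 𝒪 T)]
      [Module.Finite 𝒪 T] [Module.Free 𝒪 T]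
      (H : CuspForm.HeckeGaloisRepDatum (lev x) (↑S : Set ℕ) 𝒪 θ T) (πT : T →ₐ[𝒪] 𝒪),
      (∀ y : T, (∀ ψ' : T →ₐ[𝒪] 𝒪, ψ' y = 0) → y = 0) →
      (∀ (ℓ : ℕ) (hℓ : ℓ.Prime) (hℓN : ¬ ℓ ∣ lev x) (hℓS : ℓ ∉ (↑S : Set ℕ)),
        πT (H.π (CuspForm.heckeAlgebra.T hℓ hℓN hℓS)) = ψ ℓ) →
      s59p_eta 𝒪 πT ≠ ⊥ ∧ s59p_eta 𝒪 πT ≤ J x

variable {𝒪}

/-- **The invariant** of a stage `s` for the set `Σ` (see the header). -/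
def s59tops_inv {p : ℕ} {ψ : ℕ → 𝒪} (R2 : S59R2Data 𝒪 p ψ) (ρ₀ : GaloisRepAdic 𝒪)
    (Smin : Finset ℕ) (N0 : ℕ) {ρbar : ResidualGaloisRep (ResidueField 𝒪)}
    {𝒟 : ∀ ⦃A : Type⦄ [CommRing A] [IsLocalRing A] [Algebra 𝒪 A], GaloisRepAdic A → Prop}
    (Sg : Finset ℕ) (s : S59Stage 𝒪 ρbar 𝒟) : Prop :=
  s.N = s59tops_level N0 Sg ∧ s.S = (↑(Smin ∪ Sg) : Set ℕ) ∧
  (∀ (ℓ : ℕ) (hℓ : ℓ.Prime) (hℓN : ¬ ℓ ∣ s.N) (hℓS : ℓ ∉ s.S),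
    s.πT (s.H.π (CuspForm.heckeAlgebra.T hℓ hℓN hℓS)) = ψ ℓ) ∧
  (∃ h : IsLocalHom ((s.πT.comp s.γ : s.D.R →ₐ[𝒪] 𝒪) : s.D.R →+* 𝒪),
    (s.D.ρ.baseChangeAlong ((s.πT.comp s.γ : s.D.R →ₐ[𝒪] 𝒪) : s.D.R →+* 𝒪) h).IsEquiv ρ₀) ∧
  ∃ x : R2.X, R2.lev x = s.N ∧ R2.Good x ∧ s.etaL = R2.J x

end

/-! ### The step -/

section Step

variable {𝒪 : Type} [CommRing 𝒪] [IsDomain 𝒪] [IsDiscreteValuationRing 𝒪]
  [IsAdicComplete (maximalIdeal 𝒪) 𝒪] [Finite (ResidueField 𝒪)] [CharZero 𝒪]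

/-- `twFlat` grows with the set of extra primes. -/
theorem s59tops_twFlat_mono (p : ℕ) (Smin : Finset ℕ) {Q Q' : Finset ℕ} (hQ : Q ⊆ Q')
    {A : Type} [CommRing A] [IsLocalRing A] [Algebra 𝒪 A] {ρ : GaloisRepAdic A}
    (h : twFlat 𝒪 p Smin Q ρ) : twFlat 𝒪 p Smin Q' ρ :=
  ⟨⟨h.1.1, h.1.2.1, fun q hq hqS => h.1.2.2 q hq (fun hmem => hqS (by
    rcases Finset.mem_union.1 hmem with h1 | h1
    · exact Finset.mem_union_left _ h1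
    · exact Finset.mem_union_right _ (hQ h1)))⟩, h.2⟩

/-- **THE STEP of Wiles' induction, flat case** (see the header). -/
theorem s59tops_step_flat (p : ℕ) [Fact p.Prime] (ρbar : ResidualGaloisRep (ResidueField 𝒪))
    (S Smin SW : Finset ℕ) (hTW : TWHyp 𝒪 p ρbar S Smin)
    (hSW : ∀ q ∈ SW, q.Prime ∧ q ∉ Smin)
    (N0 : ℕ) (hN0 : ∀ ℓ : ℕ, ℓ.Prime → (ℓ ∣ N0 ↔ ℓ ∈ Smin ∧ ℓ ≠ p)) (hN0sq : Squarefree N0)
    (ψ : ℕ → 𝒪) (R2 : S59R2Data 𝒪 p ψ) (ρ₀ : GaloisRepAdic 𝒪)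
    -- DEF-COND
    (hD : ∀ Q : Finset ℕ, Q ⊆ SW →
      Nonempty (GaloisRep.DeformationRingData 𝒪 ρbar (twFlat 𝒪 p Smin Q)))
    -- `det ρ̄ = χ_p mod p`
    (hdet : ∀ (σ : AlgebraicClosure ℚ ≃ₐ[ℚ] AlgebraicClosure ℚ) (a : ℕ),
      (∀ μ : AlgebraicClosure ℚ, μ ^ p = 1 → σ μ = μ ^ a) →
        LinearMap.det (ρbar.ρ σ) = (a : ResidueField 𝒪))
    -- `ψ ℓ ≡ tr ρ̄(Frob_ℓ)`
    (hψ : ∀ ℓ : ℕ, ℓ.Prime → ℓ ∉ Smin → ¬ ℓ ∣ N0 →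
      ∀ P : ValuationSubring (AlgebraicClosure ℚ), P.LiesOverPrime ℓ →
      ∀ τ : AlgebraicClosure ℚ ≃ₐ[ℚ] AlgebraicClosure ℚ, P.IsFrobeniusAt τ ℓ →
        residue 𝒪 (ψ ℓ) = LinearMap.trace (ResidueField 𝒪) ρbar.V (ρbar.ρ τ))
    -- CAR
    (hcar : ∀ (S' : Finset ℕ) (ρ₁ : GaloisRepAdic 𝒪), ρ₁.DetIsCyclotomic p →
      (∀ ℓ : ℕ, ℓ.Prime → ℓ ∉ S' →
        ∀ P : ValuationSubring (AlgebraicClosure ℚ), P.LiesOverPrime ℓ →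
        ∀ φ : AlgebraicClosure ℚ ≃ₐ[ℚ] AlgebraicClosure ℚ, P.IsFrobeniusAt φ ℓ →
          LinearMap.trace 𝒪 ρ₁.V (ρ₁.ρ φ) = ψ ℓ) → ρ₁.IsEquiv ρ₀)
    -- E-BIG
    (hBig : ∀ Q : Finset ℕ, Q ⊆ SW → ∀ (N : ℕ) [NeZero N], N = s59tops_level N0 Q →
      ∀ θ : CuspForm.heckeAlgebra N 2 (↑(Smin ∪ Q) : Set ℕ) →+* ResidueField 𝒪,
        s59p_IsBig 𝒪 N (↑(Smin ∪ Q) : Set ℕ) θ)
    (Sg : Finset ℕ) (q : ℕ) (hSg : Sg ⊆ SW) (hqW : q ∈ SW) (hqSg : q ∉ Sg)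
    (s : S59Stage 𝒪 ρbar (twFlat 𝒪 p Smin Sg)) (hs : s59tops_inv R2 ρ₀ Smin N0 Sg s) :
    ∃ (s' : S59Stage 𝒪 ρbar (twFlat 𝒪 p Smin (insert q Sg))) (c : 𝒪),
      s59tops_inv R2 ρ₀ Smin N0 (insert q Sg) s' ∧
      s'.lPhi ≤ s.lPhi + Module.length 𝒪 (𝒪 ⧸ Ideal.span {c}) ∧
      s'.etaL ≤ Ideal.span {c} * s.etaL := by
  classical
  obtain ⟨hN, hS, heig, ⟨hloc, hρ₀⟩, x, hx, hgood, hJ⟩ := hs
  have hpp : p.Prime := Fact.out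
  have hqp : q.Prime := (hSW q hqW).1
  have hqSmin : q ∉ Smin := (hSW q hqW).2
  have hqnep : q ≠ p := fun h => hqSmin (h ▸ hTW.hpSmin)
  have hSgp : ∀ q' ∈ Sg, q'.Prime := fun q' h => (hSW q' (hSg h)).1
  have hSg' : insert q Sg ⊆ SW := Finset.insert_subset hqW hSg
  have hSgp' : ∀ q' ∈ insert q Sg, q'.Prime := fun q' h => (hSW q' (hSg' h)).1
  have hpSW : ∀ Q : Finset ℕ, Q ⊆ SW → p ∉ Q := fun Q hQ h => (hSW p (hQ h)).2 hTW.hpSmin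
  -- `q ∤ N`
  have hqN : ¬ q ∣ s.N := by
    rw [hN]
    intro h
    rcases s59tops_prime_dvd_level hSgp hqp h with h1 | h1
    · exact hqSmin ((hN0 q hqp).1 h1).1
    · exact hqSg h1
  have hqS : q ∉ s.S := by
    rw [hS]
    intro h
    rcases Finset.mem_union.1 (Finset.mem_coe.1 h) with h1 | h1
    · exact hqSmin h1
    · exact hqSg h1
  -- R2 : the step
  obtain ⟨hgood', hJle⟩ := R2.step x q hqp (hx ▸ hqN) hqnep hgood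
  have hlev' : R2.lev (R2.next q x) = s59tops_level N0 (insert q Sg) := by
    rw [R2.lev_next q x hqp, hx, hN, s59tops_level_insert N0 hqSg]
  haveI : NeZero (R2.lev (R2.next q x)) := ⟨R2.lev_ne _⟩
  -- the new set of primes
  have hpS' : p ∈ Smin ∪ insert q Sg := Finset.mem_union_left _ hTW.hpSmin
  have hNS' : ∀ ℓ : ℕ, ℓ.Prime → ℓ ∣ R2.lev (R2.next q x) → ℓ ∈ Smin ∪ insert q Sg := by
    intro ℓ hℓ hd
    rw [hlev'] at hd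
    rcases s59tops_prime_dvd_level hSgp' hℓ hd with h1 | h1
    · exact Finset.mem_union_left _ ((hN0 ℓ hℓ).1 h1).1
    · exact Finset.mem_union_right _ h1
  have hpN' : ¬ p ∣ R2.lev (R2.next q x) := by
    rw [hlev']
    intro hd
    rcases s59tops_prime_dvd_level hSgp' hpp hd with h1 | h1
    · exact ((hN0 p hpp).1 h1).2 rfl
    · exact hpSW _ hSg' h1
  -- the eigensystem and the residual data
  obtain ⟨χ, hχ⟩ := R2.char (R2.next q x) hgood' (Smin ∪ insert q Sg) hpS' hNS'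
  have hres : S59HgdRes p (R2.lev (R2.next q x)) (Smin ∪ insert q Sg) 𝒪
      ((residue 𝒪).comp χ) ρbar :=
    { absIrr := hTW.habs
      det := hdet
      frob := fun ℓ hℓ hℓN hℓS P hP τ hτ => by
        rw [RingHom.comp_apply, hχ ℓ hℓ hℓN hℓS]
        refine hψ ℓ hℓ (fun h => hℓS (Finset.mem_coe.2 (Finset.mem_union_left _ h))) ?_ P hP τ hτ
        intro hd
        exact hℓS (Finset.mem_coe.2 (Finset.mem_union_left _ ((hN0 ℓ hℓ).1 hd).1)) }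
  -- HGD
  obtain ⟨T, i1, i2, i3, i4, i5, i6, i7, i8, H, hsep, hdetH, hresH, hunr⟩ :=
    s59hgd_main p hTW.hp2 (R2.lev (R2.next q x)) (Smin ∪ insert q Sg) hpS' hNS' 𝒪 hTW.hp𝒪
      ((residue 𝒪).comp χ) ⟨χ, fun t => rfl⟩ ρbar hres
  -- the type of `H.ρ`
  have htype : twFlat 𝒪 p Smin (insert q Sg) H.ρ := by
    refine ⟨⟨hdetH, s59leaf_s32 hpp hTW.hp2 hTW.hp𝒪 hpN' hpS' hNS' H, ?_⟩, ?_⟩
    · intro ℓ hℓ hℓS
      refine hunr ℓ hℓ (fun hd => ?_)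
      rcases (Nat.Prime.dvd_mul hℓ).1 hd with h1 | h1
      · exact hℓS (hNS' ℓ hℓ h1)
      · rw [(Nat.prime_dvd_prime_iff_eq hℓ hpp).1 h1] at hℓS
        exact hℓS hpS'
    · intro q₀ hq₀ hq₀p hne
      have hq₀Sg : q₀ ∉ insert q Sg := fun h => (hSW q₀ (hSg' h)).2 hq₀
      refine s59leaf_s34 hpp hTW.hp𝒪 hpS' hNS' H q₀ hq₀p hne ?_ ?_
      · rw [hlev']
        exact Dvd.dvd.mul_right ((hN0 q₀ hq₀p).2 ⟨hq₀, hne⟩) _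
      · rw [hlev']
        exact s59tops_sq_not_dvd_level hN0sq hSgp' hq₀p hq₀Sg
  -- DEF-COND and S54
  obtain ⟨D'⟩ := hD (insert q Sg) hSg'
  obtain ⟨γ', hγ's, hγ'l, hγ'e⟩ := Fermat.Agent.S54.result D' H
    (fun ℓ hℓ hd => Finset.mem_coe.2 (hNS' ℓ hℓ hd)) htype hresH
  have hγ't : ∀ σ : S59GQ, γ' (LinearMap.trace D'.R D'.ρ.V (D'.ρ.ρ σ)) =
      LinearMap.trace T H.ρ.V (H.ρ.ρ σ) := s59fin_trace_compat D' H.ρ γ' hγ'l hγ'e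
  -- the augmentation
  obtain ⟨πT', hπT'⟩ := H.exists_point χ (fun t => rfl)
  have heig' : ∀ (ℓ : ℕ) (hℓ : ℓ.Prime) (hℓN : ¬ ℓ ∣ R2.lev (R2.next q x))
      (hℓS : ℓ ∉ (↑(Smin ∪ insert q Sg) : Set ℕ)),
      πT' (H.π (CuspForm.heckeAlgebra.T hℓ hℓN hℓS)) = ψ ℓ := fun ℓ hℓ hℓN hℓS => by
    rw [hπT', hχ ℓ hℓ hℓN hℓS]
  have hSsub' : ∀ ℓ : ℕ, ℓ.Prime → ℓ ∈ Smin ∪ insert q Sg →
      ℓ = p ∨ ℓ ∣ R2.lev (R2.next q x) := by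
    intro ℓ hℓ hmem
    rw [hlev']
    exact s59tops_mem_dvd_level hN0 hℓ hmem
  obtain ⟨hne', hgen'⟩ := R2.gen (R2.next q x) hgood' (Smin ∪ insert q Sg) hpS' hNS' hSsub'
    ((residue 𝒪).comp χ) (hBig (insert q Sg) hSg' _ hlev' _) T H πT' hsep heig'
  -- the lift `ρ₀`
  have hloc' : IsLocalHom ((πT'.comp γ' : D'.R →ₐ[𝒪] 𝒪) : D'.R →+* 𝒪) :=
    s59selsame_aug_isLocalHom 𝒪 _
  have hρ₀' : (D'.ρ.baseChangeAlong ((πT'.comp γ' : D'.R →ₐ[𝒪] 𝒪) : D'.R →+* 𝒪) hloc').IsEquiv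
      ρ₀ := by
    refine hcar (Smin ∪ insert q Sg) _
      (twbc_detIsCyclotomic _ hloc' D'.ρ p D'.isOfType.1.1) (fun ℓ hℓ hℓS P hP φ hφ => ?_)
    have hℓN : ¬ ℓ ∣ R2.lev (R2.next q x) := fun hd => hℓS (hNS' ℓ hℓ hd)
    have hℓS' : ℓ ∉ (↑(Smin ∪ insert q Sg) : Set ℕ) := fun h => hℓS (Finset.mem_coe.1 h)
    rw [s59fe_trace_baseChangeAlong]
    show πT' (γ' _) = ψ ℓ
    rw [hγ't φ, s59fin_trace_of_charpoly H.ρ.finrank_eq (H.ρ.ρ φ) _ _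
      (H.charpoly_frob ℓ hℓ hℓN hℓS' P hP φ hφ), heig' ℓ hℓ hℓN hℓS']
  -- SEL
  have hsame : s59selSame 𝒪 s.D D' (s.πT.comp s.γ) (πT'.comp γ') :=
    ⟨hloc, hloc', GaloisRepAdic_isEquiv_trans hρ₀' (GaloisRepAdic_isEquiv_symm hρ₀)⟩
  have htr : s59selTrace 𝒪 s.D (s.πT.comp s.γ) q (ψ q) := by
    intro P hP φ hφ
    rw [AlgHom.comp_apply, s.γ_trace φ, s59fin_trace_of_charpoly s.H.ρ.finrank_eq (s.H.ρ.ρ φ) _ _
      (s.H.charpoly_frob q hqp hqN hqS P hP φ hφ), heig q hqp hqN hqS]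
  have hsel := stmtSelFlat 𝒪 p ρbar S Smin hTW Sg q hqp hqSmin hqSg s.D D'
    (s.πT.comp s.γ) (πT'.comp γ') (ψ q) hsame htr
  -- the new stage
  refine ⟨{ N := R2.lev (R2.next q x), S := (↑(Smin ∪ insert q Sg) : Set ℕ)
            θ := (residue 𝒪).comp χ, T := T, H := H, D := D', γ := γ', πT := πT'
            etaL := R2.J (R2.next q x), γ_surj := hγ's, γ_trace := hγ't, etaT_ne := hne'
            gen := hgen', etaL_ne := R2.J_ne _ hgood' }, s59p_cq 𝒪 q (ψ q), ?_, hsel, ?_⟩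
  · exact ⟨hlev', rfl, heig', ⟨hloc', hρ₀'⟩, R2.next q x, rfl, hgood', rfl⟩
  · rw [hJ]
    exact hJle

end Step

end Fermat.Agent.S59

end
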