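/-
S59, piece R2 = ETA′ (helper72, deputy): **THE TERM `R2 : S59R2Data 𝒪 p ψ`** (= a4 of
NOTES/S59-TOP.md) and E-BASE (= a5).

* `s59asmR2 p hp2 hp𝒪 ψ ϖ hϖ W hΔ hirr S₀ hψW : S59R2Data 𝒪 p ψ` : states `S59asmSt 𝒪`
  (a level `M ≠ 0` and a vector of `𝒪 ⊗ Hom_par(Γ₀(M), ℤ)`), `Good` = primitive `ψ`-eigenvector,
  `J` = the module congruence ideal, `next q` = the depletion at `q`.
  Hypotheses: `p ≠ 2`, `p ∈ 𝔪`, `ϖ` a uniformizer, `W[p]` irreducible, and `ψ ℓ ≡ a_ℓ(W)` mod `𝔪`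
  for the good primes `ℓ ≠ p` outside a finite set `S₀` (`s59asmr_CongW`).
* `s59asmR2_base` : E-BASE, from a character `χ₀` of the Hecke algebra of level `N₀`;
* `s59asmR2_congW` : the hypothesis `s59asmr_CongW p ψ W (Smin ∪ N₀.primeFactors)` from the base
  eigenform `(f, 𝔪)` (`hcong`, `hψ0` in the shapes of helper80's `s59tres_hψ_of_eig_Smin`).
-/
import Fermat.Agent.S59.TopStep
import Fermat.Agent.S59.Eta.AsmFinal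

set_option autoImplicit false
set_option linter.unusedSectionVars false
set_option linter.unusedVariables false
set_option linter.style.haveILetI false
set_option linter.style.longLine false

noncomputable section

namespace Fermat.Agent.S59

open TensorProduct CongruenceSubgroup Fermat.Agent.S41 Fermat.Agent.S41.PD IsLocalRing

section Inst

variable {𝒪 : Type} [CommRing 𝒪] [IsDomain 𝒪] [IsDiscreteValuationRing 𝒪]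
  [IsAdicComplete (maximalIdeal 𝒪) 𝒪] [CharZero 𝒪] (p : ℕ) [Fact p.Prime]

/-- **the term of R2** -/
def s59asmR2 (hp2 : p ≠ 2) (hp𝒪 : (p : 𝒪) ∈ maximalIdeal 𝒪) (ψ : ℕ → 𝒪) (ϖ : 𝒪)
    (hϖ : Irreducible ϖ)
    (W : WeierstrassCurve ℤ) (hΔ : W.Δ ≠ 0) (hirr : W.ModRepIsIrreducible p) (S₀ : Finset ℕ)
    (hψW : s59asmr_CongW p ψ W S₀) : S59R2Data 𝒪 p ψ where
  X := S59asmSt 𝒪
  lev := fun s => s.M
  Good := s59asmGood p ψ ϖ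
  J := s59asmEta p ψ
  next := s59asmNext ψ
  lev_ne := fun s => s.hM
  lev_next := fun q s hq => s59asmr_lev_next ψ q s hq
  J_ne := fun s hs => s59asmr_J_ne p ψ ϖ s hs
  step := fun s q hq hqM hqp hs =>
    s59asmr_step_final p hp2 hp𝒪 ψ hϖ W hΔ hirr S₀ hψW s q hq hqM hqp hs
  char := fun s _ hs S hpS hNS => s59asmr_char p ψ ϖ s hs S hpS hNS
  gen := fun s _ hs S hpS hNS hSsub θ hbig T _ _ _ _ _ _ _ _ H πT hsep heig =>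
    s59asmr_gen p ψ hϖ s hs S hpS hNS hSsub θ hbig T H πT hsep heig

/-- **E-BASE** in the shape of `s59topb_StmtOwedGood'` -/
theorem s59asmR2_base (hp2 : p ≠ 2) (hp𝒪 : (p : 𝒪) ∈ maximalIdeal 𝒪) (ψ : ℕ → 𝒪) (ϖ : 𝒪)
    (hϖ : Irreducible ϖ)
    (W : WeierstrassCurve ℤ) (hΔ : W.Δ ≠ 0) (hirr : W.ModRepIsIrreducible p) (S₀ : Finset ℕ)
    (hψW : s59asmr_CongW p ψ W S₀)
    (N0 : ℕ) [NeZero N0] (S : Set ℕ) (hS : ∀ q : ℕ, q.Prime → q ∣ N0 → q ∈ S)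
    (hSsub : ∀ ℓ : ℕ, ℓ.Prime → ℓ ∈ S → ℓ = p ∨ ℓ ∣ N0)
    (χ₀ : CuspForm.heckeAlgebra N0 2 S →+* 𝒪)
    (hχ : ∀ (ℓ : ℕ) (hℓ : ℓ.Prime) (hℓN : ¬ ℓ ∣ N0) (hℓS : ℓ ∉ S),
      χ₀ (CuspForm.heckeAlgebra.T hℓ hℓN hℓS) = ψ ℓ) :
    ∃ x₀ : (s59asmR2 p hp2 hp𝒪 ψ ϖ hϖ W hΔ hirr S₀ hψW).X,
      (s59asmR2 p hp2 hp𝒪 ψ ϖ hϖ W hΔ hirr S₀ hψW).lev x₀ = N0 ∧
        (s59asmR2 p hp2 hp𝒪 ψ ϖ hϖ W hΔ hirr S₀ hψW).Good x₀ :=
  s59asmr_base p ψ hϖ N0 S hS hSsub χ₀ hχ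

omit [IsDomain 𝒪] [IsDiscreteValuationRing 𝒪] [IsAdicComplete (maximalIdeal 𝒪) 𝒪]
  [CharZero 𝒪] [Fact p.Prime] in
/-- **`ψ ≡ a(W)` mod `𝔪`** from the base eigenform `(f, 𝔪)`: `hcong` is
`W.IsResiduallyModularOfLevel p N₀` unfolded, `hψ0` is the a3 = BASE-EIG property of `ψ`. -/
theorem s59asmR2_congW [IsLocalRing 𝒪] (W : WeierstrassCurve ℤ) (Smin : Finset ℕ) (N0 : ℕ)
    (hN0 : N0 ≠ 0) (f : CuspForm (CongruenceSubgroup.Gamma0 N0) 2)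
    (𝔪 : Ideal (integralClosure ℤ ℂ))
    (hcong : ∀ ℓ : ℕ, ℓ.Prime → W.IsGoodPrimeFor ℓ → ¬ ℓ ∣ N0 → ℓ ≠ p →
      ∃ a : integralClosure ℤ ℂ, (a : ℂ) = ModularFormClass.qCoeff f ℓ ∧
        a - ((W.apOfModel ℓ : ℤ) : integralClosure ℤ ℂ) ∈ 𝔪)
    (ψ : ℕ → 𝒪)
    (hψ0 : ∀ ℓ : ℕ, ℓ.Prime → ¬ ℓ ∣ N0 → ℓ ∉ Smin → ∀ (a : integralClosure ℤ ℂ) (n : ℤ),
      (a : ℂ) = ModularFormClass.qCoeff f ℓ → a - (n : integralClosure ℤ ℂ) ∈ 𝔪 →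
        residue 𝒪 (ψ ℓ) = (n : ResidueField 𝒪)) :
    s59asmr_CongW p ψ W (Smin ∪ N0.primeFactors) := by
  intro r hr hrS hrp hrΔ
  have hrSmin : r ∉ Smin := fun h => hrS (Finset.mem_union_left _ h)
  have hrN0 : ¬ r ∣ N0 := fun h =>
    hrS (Finset.mem_union_right _ (Nat.mem_primeFactors.2 ⟨hr, h, hN0⟩))
  obtain ⟨a, ha, ham⟩ := hcong r hr hrΔ hrN0 hrp
  have h1 := hψ0 r hr hrN0 hrSmin a (W.apOfModel r) ha ham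
  rw [← residue_eq_zero_iff, map_sub, h1, map_intCast, sub_self]

end Inst

end Fermat.Agent.S59

end
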