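/-
S59, piece R3 = TOP, leaf **HGD-RES = a7** (helper80): the hypothesis `hψ` of
`s59topb_StmtOwedGood'` / `s59tops_step_flat`, from the BASE EIGENFORM (no stage needed).

Inputs:
* `(f, 𝔪)` : a normalised eigenform of level `N0` and a maximal ideal `𝔪 ∋ p` of `ℤ̄` with
  `a_ℓ(f) ≡ a_ℓ(W) mod 𝔪` for the good primes `ℓ ∤ N0`, `ℓ ≠ p` of `W`
  (= `W.IsResiduallyModularOfLevel p N0`, unfolded);
* `ψ : ℕ → 𝒪` with the a3 = BASE-EIG property: `a ∈ ℤ̄`, `(a : ℂ) = a_ℓ(f)`, `n : ℤ`, `a − n ∈ 𝔪`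
  ⇒ `residue (ψ ℓ) = n`  (`ℓ ∤ N0`, `ℓ ≠ p`);
* S29 (as a hypothesis `s59tres_StmtS29`; plug in `Fermat.Agent.S29.result`).

Output: `residue (ψ ℓ) = tr ρ̄(Frob_ℓ)` for ALL primes `ℓ ∤ N0`, `ℓ ≠ p` — also at the BAD primes of
`W` at which `ρ̄` is unramified (`Σ_W`), where the congruence says nothing: the residual
representation of `f` over `ℤ̄ ⧸ 𝔪` (S29) and `ρ̄_W` have the same Frobenius characteristic
polynomials at the good primes, hence the same characteristic polynomials on all of `G_ℚ`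
(weak Chebotarev, `EC.charpoly_eq_of_frobenius_of_noetherian`).
-/
import Mathlib
import Fermat.Agent.S59.FinE
import Fermat.Agent.EC.Cmp
import Fermat.Agent.EC.Bn2
import Fermat.Agent.S59.Fin

set_option autoImplicit false
set_option linter.style.haveILetI false
set_option linter.unusedSectionVars false
set_option linter.unusedVariables false
set_option linter.style.longLine false

noncomputable section

namespace Fermat.Agent.S59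

open IsLocalRing Polynomial Fermat.Agent.TW Fermat.Agent.EC

/-- the statement of S29 (`Fermat.Agent.S29.result` proves it) -/
def s59tres_StmtS29 : Prop :=
  ∀ {N : ℕ} {g : CuspForm (CongruenceSubgroup.Gamma0 N) 2} (_ : g.IsNormalizedEigenform)
    {p : ℕ} (_ : p.Prime) {k : Type} [Field k] [CharP k p]
    (φ : integralClosure ℤ ℂ →+* k),
    ∃ ρ : ResidualGaloisRep k, ρ.IsAttachedTo g φ ∧
      ∀ ℓ : ℕ, ℓ.Prime → ¬ ℓ ∣ N * p → ρ.IsUnramifiedAt ℓ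

section General

variable {k : Type} [Field k]

/-- the characteristic polynomial of a base change of a residual representation -/
theorem s59tres_charpoly_baseChangeAlong {k' : Type} [Field k'] (φ : k →+* k')
    (ρ : ResidualGaloisRep k) (σ : AlgebraicClosure ℚ ≃ₐ[ℚ] AlgebraicClosure ℚ) :
    LinearMap.charpoly ((ρ.baseChangeAlong φ).ρ σ) = (LinearMap.charpoly (ρ.ρ σ)).map φ := by
  letI : Algebra k k' := φ.toAlgebra
  haveI : Module.Free k ρ.V := Module.Free.of_divisionRing k ρ.V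
  haveI : Module.Finite k ρ.V := Module.finite_of_finrank_pos (by rw [ρ.finrank_eq]; norm_num)
  exact LinearMap.charpoly_baseChange (A := k') (ρ.ρ σ)

/-- the trace of a base change of a residual representation -/
theorem s59tres_trace_baseChangeAlong' {k' : Type} [Field k'] (φ : k →+* k')
    (ρ : ResidualGaloisRep k) (σ : AlgebraicClosure ℚ ≃ₐ[ℚ] AlgebraicClosure ℚ) :
    LinearMap.trace k' (ρ.baseChangeAlong φ).V ((ρ.baseChangeAlong φ).ρ σ) =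
      φ (LinearMap.trace k ρ.V (ρ.ρ σ)) := by
  letI : Algebra k k' := φ.toAlgebra
  exact LinearMap.trace_baseChange (ρ.ρ σ) k'

/-- the trace from the characteristic polynomial (dimension 2) -/
theorem s59tres_trace_eq_neg_coeff (ρ : ResidualGaloisRep k)
    (σ : AlgebraicClosure ℚ ≃ₐ[ℚ] AlgebraicClosure ℚ) :
    LinearMap.trace k ρ.V (ρ.ρ σ) = -(LinearMap.charpoly (ρ.ρ σ)).coeff 1 := by
  classical
  let bas := Module.Free.chooseBasis k ρ.V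
  have hcard : Fintype.card (Module.Free.ChooseBasisIndex k ρ.V) = 2 := by
    rw [← Module.finrank_eq_card_chooseBasisIndex, ρ.finrank_eq]
  have : Nonempty (Module.Free.ChooseBasisIndex k ρ.V) := by
    rw [← Fintype.card_pos_iff, hcard]; norm_num
  rw [LinearMap.trace_eq_matrix_trace k bas (ρ.ρ σ), Matrix.trace_eq_neg_charpoly_coeff, hcard,
    LinearMap.charpoly_toMatrix]

/-- equal characteristic polynomials ⇒ equal traces -/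
theorem s59tres_trace_of_charpoly_eq (ρ₁ ρ₂ : ResidualGaloisRep k)
    (σ : AlgebraicClosure ℚ ≃ₐ[ℚ] AlgebraicClosure ℚ)
    (h : LinearMap.charpoly (ρ₁.ρ σ) = LinearMap.charpoly (ρ₂.ρ σ)) :
    LinearMap.trace k ρ₁.V (ρ₁.ρ σ) = LinearMap.trace k ρ₂.V (ρ₂.ρ σ) := by
  rw [s59tres_trace_eq_neg_coeff, s59tres_trace_eq_neg_coeff, h]

end General

section Main

variable (W : WeierstrassCurve ℤ) (hΔ : W.Δ ≠ 0) (p : ℕ) [hp : Fact p.Prime]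
variable {𝒪 : Type} [CommRing 𝒪] [IsLocalRing 𝒪] (φ : ℤ_[p] →+* 𝒪) (hφ : IsLocalHom φ)

/-- every element of the residue field of `ℤ_[p]` is the image of a natural number -/
theorem s59tres_exists_nat (t : ResidueField ℤ_[p]) : ∃ n : ℕ, (n : ResidueField ℤ_[p]) = t := by
  refine ⟨(PadicInt.residueField t).val, ?_⟩
  apply (PadicInt.residueField (p := p)).injective
  rw [map_natCast, ZMod.natCast_zmod_val]

/-- the Frobenius characteristic polynomial of `E[p]` over `𝔽_p` at a good prime `ℓ ≠ p` -/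
theorem s59tres_res_charpoly_frob {ℓ : ℕ} (hℓ : ℓ.Prime) (hgood : W.IsGoodPrimeFor ℓ)
    (hne : ℓ ≠ p) (A : ValuationSubring (AlgebraicClosure ℚ)) (hA : A.LiesOverPrime ℓ)
    (τ : S59GQ) (hτ : A.IsFrobeniusAt τ ℓ) :
    LinearMap.charpoly ((tateRepInt W hΔ p).residual.ρ τ) =
      X ^ 2 - C (((W.apOfModel ℓ : ℤ) : ResidueField ℤ_[p])) * X
        + C ((ℓ : ResidueField ℤ_[p])) := by
  rw [bn2_residual_charpoly, tateRepInt_charpoly_frob_all W hΔ p hℓ hgood hne A hA τ hτ,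
    Polynomial.map_add, Polynomial.map_sub, Polynomial.map_mul, Polynomial.map_pow,
    Polynomial.map_X, Polynomial.map_C, Polynomial.map_C, map_intCast, map_natCast]

/-- **(HGD-RES, core)** for EVERY prime `ℓ ∤ N0`, `ℓ ≠ p` and every Frobenius `τ` at `ℓ`:
`a_ℓ(f) ≡ n mod 𝔪` and `tr ρ̄_W(τ) = n` for some `n : ℕ`. -/
theorem s59tres_frob_of_eig (hS29 : s59tres_StmtS29)
    (N0 : ℕ) (hN0 : N0 ≠ 0) (f : CuspForm (CongruenceSubgroup.Gamma0 N0) 2)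
    (hf : f.IsNormalizedEigenform)
    (𝔪 : Ideal (integralClosure ℤ ℂ)) (h𝔪 : 𝔪.IsMaximal) (hp𝔪 : (p : integralClosure ℤ ℂ) ∈ 𝔪)
    (hcong : ∀ ℓ : ℕ, ℓ.Prime → W.IsGoodPrimeFor ℓ → ¬ ℓ ∣ N0 → ℓ ≠ p →
      ∃ a : integralClosure ℤ ℂ, (a : ℂ) = ModularFormClass.qCoeff f ℓ ∧
        a - ((W.apOfModel ℓ : ℤ) : integralClosure ℤ ℂ) ∈ 𝔪)
    (ℓ : ℕ) (hℓ : ℓ.Prime) (hℓp : ℓ ≠ p) (hℓN0 : ¬ ℓ ∣ N0)
    (P : ValuationSubring (AlgebraicClosure ℚ)) (hP : P.LiesOverPrime ℓ)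
    (τ : AlgebraicClosure ℚ ≃ₐ[ℚ] AlgebraicClosure ℚ) (hτ : P.IsFrobeniusAt τ ℓ) :
    ∃ (a : integralClosure ℤ ℂ) (n : ℕ), (a : ℂ) = ModularFormClass.qCoeff f ℓ ∧
      a - ((n : ℤ) : integralClosure ℤ ℂ) ∈ 𝔪 ∧
      LinearMap.trace (ResidueField 𝒪) (s59feBar W hΔ p φ hφ).V
        ((s59feBar W hΔ p φ hφ).ρ τ) = (n : ResidueField 𝒪) := by
  classical
  have hpp : p.Prime := hp.out
  -- the field `k' = ℤ̄ ⧸ 𝔪`
  letI : Field (integralClosure ℤ ℂ ⧸ 𝔪) := Ideal.Quotient.field 𝔪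
  let k' : Type := integralClosure ℤ ℂ ⧸ 𝔪
  let φ' : integralClosure ℤ ℂ →+* k' := Ideal.Quotient.mk 𝔪
  have hp0 : ((p : ℕ) : k') = 0 := by
    have : φ' (p : integralClosure ℤ ℂ) = 0 := Ideal.Quotient.eq_zero_iff_mem.2 hp𝔪
    rwa [map_natCast] at this
  haveI : CharP k' p := (CharP.charP_iff_prime_eq_zero hpp).2 hp0
  -- the representations
  obtain ⟨ρf, hρf, -⟩ := hS29 hf hpp φ'
  let j : ResidueField ℤ_[p] →+* k' :=
    (ZMod.castHom (dvd_refl p) k').comp (PadicInt.residueField (p := p)).toRingHom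
  let ρW : ResidualGaloisRep k' := (tateRepInt W hΔ p).residual.baseChangeAlong j
  have hℓk : ∀ ℓ : ℕ, ℓ.Prime → ℓ ≠ p → ((ℓ : ℕ) : k') ≠ 0 := by
    intro ℓ hℓ hne h0
    have := (CharP.cast_eq_zero_iff k' p ℓ).1 h0
    exact hne ((Nat.prime_dvd_prime_iff_eq hpp hℓ).1 this).symm
  -- equal Frobenius characteristic polynomials at the good primes
  have hfrob : ∀ ℓ : ℕ, ℓ.Prime → ℓ ∉ (N0 * p * W.Δ.natAbs).primeFactors →
      ∀ A : ValuationSubring (AlgebraicClosure ℚ), A.LiesOverPrime ℓ →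
        ∀ τ : AlgebraicClosure ℚ ≃ₐ[ℚ] AlgebraicClosure ℚ, A.IsFrobeniusAt τ ℓ →
          LinearMap.charpoly ((GaloisRepAdic.ofResidualGaloisRep ρf).ρ τ) =
            LinearMap.charpoly ((GaloisRepAdic.ofResidualGaloisRep ρW).ρ τ) := by
    intro ℓ hℓ hℓS A hA τ hτ
    have hprod : N0 * p * W.Δ.natAbs ≠ 0 :=
      Nat.mul_ne_zero (Nat.mul_ne_zero hN0 hpp.ne_zero) (Int.natAbs_ne_zero.2 hΔ)
    have hnd : ¬ ℓ ∣ N0 * p * W.Δ.natAbs := fun hd =>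
      hℓS (Nat.mem_primeFactors.2 ⟨hℓ, hd, hprod⟩)
    have hℓN0 : ¬ ℓ ∣ N0 := fun hd => hnd (Dvd.dvd.mul_right (Dvd.dvd.mul_right hd _) _)
    have hℓp : ℓ ≠ p := fun hd => hnd (Dvd.dvd.mul_right (hd ▸ Dvd.dvd.mul_left (dvd_refl ℓ) _) _)
    have hgood : W.IsGoodPrimeFor ℓ := fun hd =>
      hnd (Dvd.dvd.mul_left (Int.natCast_dvd.1 hd) _)
    obtain ⟨a, ha, hcp⟩ := hρf ℓ hℓ hℓN0 (hℓk ℓ hℓ hℓp) A hA τ hτ
    obtain ⟨a', ha', hmem⟩ := hcong ℓ hℓ hgood hℓN0 hℓp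
    have haa : a = a' := Subtype.ext (ha.trans ha'.symm)
    have hφa : φ' a = ((W.apOfModel ℓ : ℤ) : k') := by
      have := Ideal.Quotient.eq.2 (haa ▸ hmem)
      rw [map_intCast] at this
      exact this
    show LinearMap.charpoly (ρf.ρ τ) = LinearMap.charpoly (ρW.ρ τ)
    rw [hcp, s59tres_charpoly_baseChangeAlong,
      s59tres_res_charpoly_frob W hΔ p hℓ hgood hℓp A hA τ hτ, hφa,
      Polynomial.map_add, Polynomial.map_sub, Polynomial.map_mul, Polynomial.map_pow,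
      Polynomial.map_X, Polynomial.map_C, Polynomial.map_C, map_intCast j, map_natCast j]
  -- Chebotarev
  have hall : ∀ σ : AlgebraicClosure ℚ ≃ₐ[ℚ] AlgebraicClosure ℚ,
      LinearMap.charpoly (ρf.ρ σ) = LinearMap.charpoly (ρW.ρ σ) := fun σ =>
    charpoly_eq_of_frobenius_of_noetherian (GaloisRepAdic.ofResidualGaloisRep ρf)
      (GaloisRepAdic.ofResidualGaloisRep ρW) _ hfrob σ
  -- the conclusion
  obtain ⟨a, ha, hcp⟩ := hρf ℓ hℓ hℓN0 (hℓk ℓ hℓ hℓp) P hP τ hτ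
  obtain ⟨n, hn⟩ := s59tres_exists_nat p
    (LinearMap.trace (ResidueField ℤ_[p]) (tateRepInt W hΔ p).residual.V
      ((tateRepInt W hΔ p).residual.ρ τ))
  -- `φ' a = n` in `k'`
  have h1 : φ' a = ((n : ℕ) : k') := by
    have ht : LinearMap.trace k' ρf.V (ρf.ρ τ) = φ' a :=
      s59fin_trace_of_charpoly ρf.finrank_eq (ρf.ρ τ) _ _ hcp
    rw [← ht, s59tres_trace_of_charpoly_eq ρf ρW τ (hall τ)]
    show LinearMap.trace k' ((tateRepInt W hΔ p).residual.baseChangeAlong j).V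
      (((tateRepInt W hΔ p).residual.baseChangeAlong j).ρ τ) = _
    rw [s59tres_trace_baseChangeAlong', ← hn, map_natCast]
  have h2 : a - ((n : ℤ) : integralClosure ℤ ℂ) ∈ 𝔪 := by
    rw [← Ideal.Quotient.eq, map_intCast, Int.cast_natCast]
    exact h1
  refine ⟨a, n, ha, h2, ?_⟩
  show LinearMap.trace (ResidueField 𝒪)
    ((tateRepInt W hΔ p).residual.baseChangeAlong (haveI := hφ; ResidueField.map φ)).V
    (((tateRepInt W hΔ p).residual.baseChangeAlong (haveI := hφ; ResidueField.map φ)).ρ τ) = _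
  rw [s59tres_trace_baseChangeAlong', ← hn, map_natCast]

/-- **(HGD-RES = a7)** `hψ` from the base eigenform (`ℓ ≠ p` form): see the header. -/
theorem s59tres_hψ_of_eig (hS29 : s59tres_StmtS29)
    (N0 : ℕ) (hN0 : N0 ≠ 0) (f : CuspForm (CongruenceSubgroup.Gamma0 N0) 2)
    (hf : f.IsNormalizedEigenform)
    (𝔪 : Ideal (integralClosure ℤ ℂ)) (h𝔪 : 𝔪.IsMaximal) (hp𝔪 : (p : integralClosure ℤ ℂ) ∈ 𝔪)
    (hcong : ∀ ℓ : ℕ, ℓ.Prime → W.IsGoodPrimeFor ℓ → ¬ ℓ ∣ N0 → ℓ ≠ p →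
      ∃ a : integralClosure ℤ ℂ, (a : ℂ) = ModularFormClass.qCoeff f ℓ ∧
        a - ((W.apOfModel ℓ : ℤ) : integralClosure ℤ ℂ) ∈ 𝔪)
    (ψ : ℕ → 𝒪)
    (hψ0 : ∀ ℓ : ℕ, ℓ.Prime → ¬ ℓ ∣ N0 → ℓ ≠ p → ∀ (a : integralClosure ℤ ℂ) (n : ℤ),
      (a : ℂ) = ModularFormClass.qCoeff f ℓ → a - (n : integralClosure ℤ ℂ) ∈ 𝔪 →
        residue 𝒪 (ψ ℓ) = (n : ResidueField 𝒪)) :
    ∀ ℓ : ℕ, ℓ.Prime → ℓ ≠ p → ¬ ℓ ∣ N0 →
      ∀ P : ValuationSubring (AlgebraicClosure ℚ), P.LiesOverPrime ℓ →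
      ∀ τ : AlgebraicClosure ℚ ≃ₐ[ℚ] AlgebraicClosure ℚ, P.IsFrobeniusAt τ ℓ →
        residue 𝒪 (ψ ℓ) = LinearMap.trace (ResidueField 𝒪) (s59feBar W hΔ p φ hφ).V
          ((s59feBar W hΔ p φ hφ).ρ τ) := by
  intro ℓ hℓ hℓp hℓN0 P hP τ hτ
  obtain ⟨a, n, ha, h2, h3⟩ := s59tres_frob_of_eig W hΔ p φ hφ hS29 N0 hN0 f hf 𝔪 h𝔪 hp𝔪 hcong
    ℓ hℓ hℓp hℓN0 P hP τ hτ
  rw [h3, hψ0 ℓ hℓ hℓN0 hℓp a (n : ℤ) ha h2, Int.cast_natCast]

/-- **(HGD-RES = a7)** the literal conjunct `hψ` of `s59topb_StmtOwedGood'` (for any `Smin ∋ p`,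
e.g. `Smin = s59feSmin W hΔ p`). -/
theorem s59tres_hψ_of_eig_Smin (hS29 : s59tres_StmtS29) (Smin : Finset ℕ) (hpSmin : p ∈ Smin)
    (N0 : ℕ) (hN0 : N0 ≠ 0) (f : CuspForm (CongruenceSubgroup.Gamma0 N0) 2)
    (hf : f.IsNormalizedEigenform)
    (𝔪 : Ideal (integralClosure ℤ ℂ)) (h𝔪 : 𝔪.IsMaximal) (hp𝔪 : (p : integralClosure ℤ ℂ) ∈ 𝔪)
    (hcong : ∀ ℓ : ℕ, ℓ.Prime → W.IsGoodPrimeFor ℓ → ¬ ℓ ∣ N0 → ℓ ≠ p →
      ∃ a : integralClosure ℤ ℂ, (a : ℂ) = ModularFormClass.qCoeff f ℓ ∧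
        a - ((W.apOfModel ℓ : ℤ) : integralClosure ℤ ℂ) ∈ 𝔪)
    (ψ : ℕ → 𝒪)
    (hψ0 : ∀ ℓ : ℕ, ℓ.Prime → ¬ ℓ ∣ N0 → ℓ ∉ Smin → ∀ (a : integralClosure ℤ ℂ) (n : ℤ),
      (a : ℂ) = ModularFormClass.qCoeff f ℓ → a - (n : integralClosure ℤ ℂ) ∈ 𝔪 →
        residue 𝒪 (ψ ℓ) = (n : ResidueField 𝒪)) :
    ∀ ℓ : ℕ, ℓ.Prime → ℓ ∉ Smin → ¬ ℓ ∣ N0 →
      ∀ P : ValuationSubring (AlgebraicClosure ℚ), P.LiesOverPrime ℓ →
      ∀ τ : AlgebraicClosure ℚ ≃ₐ[ℚ] AlgebraicClosure ℚ, P.IsFrobeniusAt τ ℓ →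
        residue 𝒪 (ψ ℓ) = LinearMap.trace (ResidueField 𝒪) (s59feBar W hΔ p φ hφ).V
          ((s59feBar W hΔ p φ hφ).ρ τ) := by
  intro ℓ hℓ hℓS hℓN0 P hP τ hτ
  have hℓp : ℓ ≠ p := fun h => hℓS (h ▸ hpSmin)
  obtain ⟨a, n, ha, h2, h3⟩ := s59tres_frob_of_eig W hΔ p φ hφ hS29 N0 hN0 f hf 𝔪 h𝔪 hp𝔪 hcong
    ℓ hℓ hℓp hℓN0 P hP τ hτ
  rw [h3, hψ0 ℓ hℓ hℓN0 hℓS a (n : ℤ) ha h2, Int.cast_natCast]

/-- the same from `W.IsResiduallyModularOfLevel p N0`: there is a pair `(f, 𝔪)` such that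
`hψ` holds for every `ψ` with the a3 = BASE-EIG property for `(f, 𝔪)`. -/
theorem s59tres_hψ_of_resMod (hS29 : s59tres_StmtS29) (Smin : Finset ℕ) (hpSmin : p ∈ Smin)
    (N0 : ℕ) (hN0 : N0 ≠ 0) (hres : W.IsResiduallyModularOfLevel p N0) :
    ∃ (f : CuspForm (CongruenceSubgroup.Gamma0 N0) 2) (𝔪 : Ideal (integralClosure ℤ ℂ)),
      f.IsNormalizedEigenform ∧ 𝔪.IsMaximal ∧ (p : integralClosure ℤ ℂ) ∈ 𝔪 ∧
      (∀ ℓ : ℕ, ℓ.Prime → W.IsGoodPrimeFor ℓ → ¬ ℓ ∣ N0 → ℓ ≠ p →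
        ∃ a : integralClosure ℤ ℂ, (a : ℂ) = ModularFormClass.qCoeff f ℓ ∧
          a - ((W.apOfModel ℓ : ℤ) : integralClosure ℤ ℂ) ∈ 𝔪) ∧
      ∀ ψ : ℕ → 𝒪,
        (∀ ℓ : ℕ, ℓ.Prime → ¬ ℓ ∣ N0 → ℓ ∉ Smin → ∀ (a : integralClosure ℤ ℂ) (n : ℤ),
          (a : ℂ) = ModularFormClass.qCoeff f ℓ → a - (n : integralClosure ℤ ℂ) ∈ 𝔪 →
            residue 𝒪 (ψ ℓ) = (n : ResidueField 𝒪)) →
        ∀ ℓ : ℕ, ℓ.Prime → ℓ ∉ Smin → ¬ ℓ ∣ N0 →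
          ∀ P : ValuationSubring (AlgebraicClosure ℚ), P.LiesOverPrime ℓ →
          ∀ τ : AlgebraicClosure ℚ ≃ₐ[ℚ] AlgebraicClosure ℚ, P.IsFrobeniusAt τ ℓ →
            residue 𝒪 (ψ ℓ) = LinearMap.trace (ResidueField 𝒪) (s59feBar W hΔ p φ hφ).V
              ((s59feBar W hΔ p φ hφ).ρ τ) := by
  obtain ⟨f, 𝔪, hf, h𝔪, hp𝔪, hcong⟩ := hres
  exact ⟨f, 𝔪, hf, h𝔪, hp𝔪, hcong, fun ψ hψ0 =>
    s59tres_hψ_of_eig_Smin W hΔ p φ hφ hS29 Smin hpSmin N0 hN0 f hf 𝔪 h𝔪 hp𝔪 hcong ψ hψ0⟩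

end Main

end Fermat.Agent.S59
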