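/-
S59, piece R3 = TOP (helper69, captain), part 9: CASE (a) ASSEMBLED FROM THE LANDED PIECES.

`s59towd_owed_good` : `s59topb_StmtOwedGood'` (everything that is owed in case (a), `W` good at
`p`) from

* the walls of MINLEV : M1 `s59lsq_StmtWall`, M2 + M3 `s59topm_StmtLowQ`, M4 `s59topm_StmtLowPGood`
  (+ RAISE ✓),
* the contract of the minimal case (R1) `s59towd_StmtR1`, for the R2 instance `s59asmR2`,
* S22 ✓ and S29 ✓ (as hypotheses: no root is imported here).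

Everything else is plugged in: a1 E-BIG (helper56 `s59tbig_exists_strong`), a3 BASE-EIG
(helper67 `s59teig_exists_psi`), a4 R2-INST (helper72 `s59asmR2`, with helper71's E-MULT1a), a5 E-BASE
(helper72 `s59asmR2_base`, helper19), a6 DEF-COND (helper63 `s59dcfin_hD_flat`), a7 HGD-RES (helper80
`s59tres_hψ_of_eig_Smin`), a8 CAR (helper63 `s59car_hcar`, wired by helper67 `s59tcar_exists`).

`s59towd_result` : frozen S59 from S58 ✓, the hypotheses above and (STAGES) for `W` bad at `p`.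
-/
import Fermat.Agent.S59.TopBase
import Fermat.Agent.S59.TopMinLevW
import Fermat.Agent.S59.TopR2
import Fermat.Agent.S59.TopBig2
import Fermat.Agent.S59.TopEig
import Fermat.Agent.S59.TopResEig
import Fermat.Agent.S59.DefCond.Final
import Fermat.Agent.S59.TopCar

set_option autoImplicit false
set_option linter.style.haveILetI false
set_option linter.unusedSectionVars false
set_option linter.unusedVariables false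
set_option linter.style.longLine false

noncomputable section

namespace Fermat.Agent.S59

open IsLocalRing Polynomial Fermat.Agent.TW Fermat.Agent.S53



/-- **(R1) THE CONTRACT OF THE MINIMAL CASE**, for the R2 instance `s59asmR2`: the numerical
inequality `length Φ ≤ length (𝒪 ⧸ J)` at EVERY stage for `Σ = ∅` with the invariant, at the
base level `N₀` (`ℓ ∣ N₀ ↔ ℓ ∈ Smin ∧ ℓ ≠ p`, squarefree), for a big `𝒪` and the eigensystem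
`ψ` of a form `f` of level `N₀` congruent to `W`. -/
def s59towd_StmtR1 : Prop :=
  ∀ (p : ℕ) [Fact p.Prime] (_ : p = 3 ∨ p = 5) (hp2 : p ≠ 2)
    (W : WeierstrassCurve ℤ) (hΔ : W.Δ ≠ 0) (_ : W.IsSemistableModel)
    (hirr : W.ModRepIsIrreducible p) (_ : W.IsGoodPrimeFor p)
    (N0 : ℕ) [NeZero N0] (_ : ∀ ℓ : ℕ, ℓ.Prime → (ℓ ∣ N0 ↔ ℓ ∈ s59feSmin W hΔ p ∧ ℓ ≠ p))
    (_ : Squarefree N0)
    (f : CuspForm (CongruenceSubgroup.Gamma0 N0) 2) (𝔪 : Ideal (integralClosure ℤ ℂ))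
    (_ : f.IsNormalizedEigenform) (_ : 𝔪.IsMaximal) (_ : (p : integralClosure ℤ ℂ) ∈ 𝔪)
    (_ : ∀ ℓ : ℕ, ℓ.Prime → W.IsGoodPrimeFor ℓ → ¬ ℓ ∣ N0 → ℓ ≠ p →
      ∃ a : integralClosure ℤ ℂ, (a : ℂ) = ModularFormClass.qCoeff f ℓ ∧
        a - ((W.apOfModel ℓ : ℤ) : integralClosure ℤ ℂ) ∈ 𝔪)
    (𝒪 : Type) [CommRing 𝒪] [IsDomain 𝒪] [IsDiscreteValuationRing 𝒪]
    [IsAdicComplete (maximalIdeal 𝒪) 𝒪] [CharZero 𝒪] [Finite (ResidueField 𝒪)]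
    (φ : ℤ_[p] →+* 𝒪) (hφ : IsLocalHom φ) (_ : Function.Injective φ)
    (hp𝒪 : (p : 𝒪) ∈ maximalIdeal 𝒪)
    (_ : ∀ (ι : ZMod p →+* ResidueField 𝒪) (g : (ZMod p)[X]), g.Monic → g.natDegree = 2 →
      ∃ α β : ResidueField 𝒪, g.map ι = (X - C α) * (X - C β))
    (_ : ∀ (B : Type) [CommRing B] [IsDomain B] [Algebra 𝒪 B]
      (χ : CuspForm.heckeAlgebra N0 2 (↑(s59feSmin W hΔ p) : Set ℕ) →+* B)
      (t : CuspForm.heckeAlgebra N0 2 (↑(s59feSmin W hΔ p) : Set ℕ)),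
      χ t ∈ Set.range (algebraMap 𝒪 B))
    (ψ : ℕ → 𝒪) (χ₀ : CuspForm.heckeAlgebra N0 2 (↑(s59feSmin W hΔ p) : Set ℕ) →+* 𝒪)
    (_ : ∀ (ℓ : ℕ) (hℓ : ℓ.Prime) (hℓN : ¬ ℓ ∣ N0)
      (hℓS : ℓ ∉ (↑(s59feSmin W hΔ p) : Set ℕ)),
      χ₀ (CuspForm.heckeAlgebra.T hℓ hℓN hℓS) = ψ ℓ)
    (_ : ∀ ℓ : ℕ, ℓ.Prime → ¬ ℓ ∣ N0 → ℓ ∉ (↑(s59feSmin W hΔ p) : Set ℕ) →
      ∀ (a : integralClosure ℤ ℂ) (n : ℤ), (a : ℂ) = ModularFormClass.qCoeff f ℓ →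
        a - (n : integralClosure ℤ ℂ) ∈ 𝔪 → residue 𝒪 (ψ ℓ) = (n : ResidueField 𝒪))
    (_ : ∀ ℓ : ℕ, ℓ.Prime → ℓ ∉ s59feSmin W hΔ p → ¬ ℓ ∣ N0 →
      ∀ P : ValuationSubring (AlgebraicClosure ℚ), P.LiesOverPrime ℓ →
      ∀ τ : AlgebraicClosure ℚ ≃ₐ[ℚ] AlgebraicClosure ℚ, P.IsFrobeniusAt τ ℓ →
        residue 𝒪 (ψ ℓ) = LinearMap.trace (ResidueField 𝒪) (s59feBar W hΔ p φ hφ).V
          ((s59feBar W hΔ p φ hφ).ρ τ))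
    (ϖ : 𝒪) (hϖ : Irreducible ϖ)
    (hψW : s59asmr_CongW p ψ W (s59feSmin W hΔ p ∪ N0.primeFactors))
    (ρ₀ : GaloisRepAdic 𝒪) (_ : ρ₀.DetIsCyclotomic p)
    (_ : ρ₀.residual.IsAbsolutelyIrreducible)
    (_ : ∀ ℓ : ℕ, ℓ.Prime → ℓ ∉ s59feSmin W hΔ p →
      ∀ P : ValuationSubring (AlgebraicClosure ℚ), P.LiesOverPrime ℓ →
      ∀ φ' : AlgebraicClosure ℚ ≃ₐ[ℚ] AlgebraicClosure ℚ, P.IsFrobeniusAt φ' ℓ →
        LinearMap.trace 𝒪 ρ₀.V (ρ₀.ρ φ') = ψ ℓ)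
    (s₀ : S59Stage 𝒪 (s59feBar W hΔ p φ hφ) (twFlat 𝒪 p (s59feSmin W hΔ p) ∅)),
    s59tops_inv (s59asmR2 p hp2 hp𝒪 ψ ϖ hϖ W hΔ hirr (s59feSmin W hΔ p ∪ N0.primeFactors) hψW)
      ρ₀ (s59feSmin W hΔ p) N0 ∅ s₀ →
    s₀.lPhi ≤ Module.length 𝒪 (𝒪 ⧸ s₀.etaL)

/-- **CASE (a): WHAT IS OWED, from the walls of MINLEV and the contract (R1)**. -/
theorem s59towd_owed_good
    (hfin : ∀ (N : ℕ) [NeZero N] (S : Set ℕ), Module.Finite ℤ (CuspForm.heckeAlgebra N 2 S))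
    (hS29 : s59tres_StmtS29) (hM1 : s59lsq_StmtWall) (hQ : s59topm_StmtLowQ)
    (hP : s59topm_StmtLowPGood) (hraise : LowQ.s59lq_StmtRaise) (hR1 : s59towd_StmtR1) :
    s59topb_StmtOwedGood' := by
  intro p _ hp W hΔ hW hirr hgood M₀ _ hres hM₀ hM₀3
  classical
  have hpp : p.Prime := Fact.out
  have hp2 : p ≠ 2 := by rcases hp with rfl | rfl <;> decide
  -- MINLEV
  have hresN0 : W.IsResiduallyModularOfLevel p (s59topmN0 W hΔ p) :=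
    s59topm_minlev_good hM1 hQ hP hraise p hp W hΔ hW hirr hgood M₀
      (Nat.pos_of_ne_zero (NeZero.ne M₀)) hres hM₀ hM₀3
  haveI : NeZero (s59topmN0 W hΔ p) := ⟨s59topm_N0_ne_zero W hΔ p⟩
  have hN0 := s59topm_N0_dvd_iff W hΔ p
  have hN0sq := s59topm_N0_squarefree W hΔ p
  obtain ⟨f, 𝔪, hf, h𝔪, hp𝔪, hcong⟩ := hresN0
  -- E-BIG
  obtain ⟨𝒪, i1, i2, i3, i4, i5, i6, φ, hφ, hinj, hp𝒪, hK, hBig, hBigS, hBig0, hBigS0⟩ :=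
    s59tbig_exists_strong p hfin (s59topmN0 W hΔ p) (s59feSmin W hΔ p) (s59feSigma W hΔ p)
      (fun q hq => (s59fe_prime_of_mem_Sigma W hΔ p hq).ne_zero)
  -- BASE-EIG
  have hNS : ∀ q : ℕ, q.Prime → q ∣ s59topmN0 W hΔ p →
      q ∈ (↑(s59feSmin W hΔ p) : Set ℕ) :=
    fun q hq hd => Finset.mem_coe.2 ((hN0 q hq).1 hd).1
  obtain ⟨χ₀, ψ, hχ₀, hψ0⟩ := s59teig_exists_psi p hp𝒪 (s59topmN0 W hΔ p)
    (↑(s59feSmin W hΔ p) : Set ℕ) hNS hBigS0 f hf 𝔪 h𝔪 hp𝔪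
  -- TWHyp
  have hTW : TWHyp 𝒪 p (s59feBar W hΔ p φ hφ) (s59feSmin W hΔ p ∪ s59feSigma W hΔ p)
      (s59feSmin W hΔ p) := s59fe_twHyp_union W hΔ p φ hφ hp hK hW hirr
  -- HGD-RES
  have hψ := s59tres_hψ_of_eig_Smin W hΔ p φ hφ hS29 (s59feSmin W hΔ p) hTW.hpSmin
    (s59topmN0 W hΔ p) (NeZero.ne _) f hf 𝔪 h𝔪 hp𝔪 hcong ψ
    (fun ℓ hℓ hℓN hℓS a n ha hn =>
      hψ0 ℓ hℓ hℓN (fun h => hℓS (Finset.mem_coe.1 h)) a n ha hn)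
  -- CAR
  obtain ⟨ρ₀, habs₀, hdet₀, htr₀, -, hcar⟩ := s59tcar_exists p hp2 hp𝒪
    (s59feBar W hΔ p φ hφ) hTW.habs (s59feSmin W hΔ p) hTW.hpSmin (s59topmN0 W hΔ p)
    (fun ℓ hℓ hd => ((hN0 ℓ hℓ).1 hd).1) ψ χ₀ hχ₀ (s59topg_hdet hTW) hψ
  -- R2
  obtain ⟨ϖ, hϖ⟩ := IsDiscreteValuationRing.exists_irreducible 𝒪
  have hψW : s59asmr_CongW p ψ W (s59feSmin W hΔ p ∪ (s59topmN0 W hΔ p).primeFactors) :=
    s59asmR2_congW p W (s59feSmin W hΔ p) (s59topmN0 W hΔ p) (NeZero.ne _) f 𝔪 hcong ψ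
      (fun ℓ hℓ hℓN hℓS a n ha hn =>
        hψ0 ℓ hℓ hℓN (fun h => hℓS (Finset.mem_coe.1 h)) a n ha hn)
  refine ⟨𝒪, i1, i2, i3, i4, i5, i6, φ, hφ, s59topmN0 W hΔ p, ψ,
    s59asmR2 p hp2 hp𝒪 ψ ϖ hϖ W hΔ hirr _ hψW, ρ₀, hK, hN0, hN0sq,
    s59dcfin_hD_flat W hΔ p φ hφ hp hK hW hirr hgood, hψ, hcar, ?_, ?_, ?_⟩
  · intro Q hQ N _ hN θ
    exact hBig Q hQ N hN θ
  · refine s59asmR2_base p hp2 hp𝒪 ψ ϖ hϖ W hΔ hirr _ hψW (s59topmN0 W hΔ p) _ hNS ?_ χ₀ hχ₀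
    intro ℓ hℓ hmem
    by_cases hℓp : ℓ = p
    · exact Or.inl hℓp
    · exact Or.inr ((hN0 ℓ hℓ).2 ⟨Finset.mem_coe.1 hmem, hℓp⟩)
  · intro s₀ hs₀
    exact hR1 p hp hp2 W hΔ hW hirr hgood (s59topmN0 W hΔ p) hN0 hN0sq f 𝔪 hf h𝔪 hp𝔪 hcong
      𝒪 φ hφ hinj hp𝒪 hK hBigS0 ψ χ₀ hχ₀ hψ0 hψ ϖ hϖ hψW ρ₀ hdet₀ habs₀ htr₀ s₀ hs₀

/-- **S59 from the walls**: frozen S59 from S58 ✓, S22 ✓, S29 ✓, the walls M1, M2 + M3, M4 of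
MINLEV, the contract (R1) of the minimal case, and (STAGES) for `W` bad at `p`. -/
theorem s59towd_result (h58 : s59p_StmtS58)
    (hfin : ∀ (N : ℕ) [NeZero N] (S : Set ℕ), Module.Finite ℤ (CuspForm.heckeAlgebra N 2 S))
    (hS29 : s59tres_StmtS29) (hM1 : s59lsq_StmtWall) (hQ : s59topm_StmtLowQ)
    (hP : s59topm_StmtLowPGood) (hraise : LowQ.s59lq_StmtRaise) (hR1 : s59towd_StmtR1)
    (hb : s59topw_StmtStagesAt fun W p => ¬ W.IsGoodPrimeFor p)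
    (p : ℕ) (hp : p = 3 ∨ p = 5)
    (W : WeierstrassCurve ℤ) (hΔ : W.Δ ≠ 0) (hW : W.IsSemistableModel)
    (hirr : W.ModRepIsIrreducible p)
    (M₀ : ℕ) [NeZero M₀] (hres₀ : W.IsResiduallyModularOfLevel p M₀)
    (hM₀ : ¬ p ^ 2 ∣ M₀)
    (hM₀3 : ∀ q : ℕ, q.Prime → q ≠ p → ¬ q ^ 3 ∣ M₀) :
    Mlc1IsModularModelOfExactConductorLevel W :=
  s59topb_result h58 (s59towd_owed_good hfin hS29 hM1 hQ hP hraise hR1) hb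
    p hp W hΔ hW hirr M₀ hres₀ hM₀ hM₀3

end Fermat.Agent.S59

end
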