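/-
S59, THE TOP, case (a) (captain helper69): **the R1 contract WITH the splitting hypothesis `hsp`**.

GAP found by helper67 (07:13Z): the cone's setup `s59lk_setupBigW` needs a ring `𝒪` in which
`s59lkP0 p = Φ_p · ∏ (X² + a X + b)` splits (a primitive `p`-th root of unity), but the contract
`s59towd_StmtR1` (S59/TopOwed.lean) quantifies over ALL big `𝒪`.  FIX: E-BIG is run with the
polynomial `s59tbigP p * P₀` (`s59towp_big`), and the contract gets the extra binder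
`hsp : (P₀.map (Int.castRingHom 𝒪)).Splits`, `P₀` ANY monic polynomial (so this file does not import
the cone; the cone takes `P₀ := s59lkP0 p`).

* `s59towp_StmtR1At P₀ p` : the contract at the prime `p` (= `s59towd_StmtR1At p` + `hsp`);
* `s59towp_big`           : E-BIG, strong form, + `P₀` splits in `𝒪`;
* `s59towp_owed_good`     : the owed statement `s59topb_StmtOwedGood'` of case (a) from the walls
                            and the new contract at `p = 3` and `p = 5`;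
* `s59towp_result`        : frozen S59 from the walls, the new contract and (STAGES) at the bad `p`;
* `s59towp_of_old`        : the old contract gives the new one.
-/
import Fermat.Agent.S59.TopOwed

set_option autoImplicit false
set_option linter.style.longLine false
set_option linter.unusedVariables false
set_option linter.unusedSectionVars false
set_option linter.style.haveILetI false

noncomputable section

namespace Fermat.Agent.S59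

open IsLocalRing Polynomial Fermat.Agent.TW Fermat.Agent.S53

/-- **The R1 contract at the prime `p`, with `hsp`** (case (a): `W` good at `p`): the contract
`s59towd_StmtR1` at `p`, for the rings `𝒪` in which the monic polynomial `P₀` splits. -/
def s59towp_StmtR1At (P₀ : ℤ[X]) (p : ℕ) : Prop :=
  ∀ [Fact p.Prime] (hp2 : p ≠ 2)
    (W : WeierstrassCurve ℤ) (hΔ : W.Δ ≠ 0) (_ : W.IsSemistableModel)
    (hirr : W.ModRepIsIrreducible p) (_ : W.IsGoodPrimeFor p)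
    (N0 : ℕ) [NeZero N0] (_ : ∀ ℓ : ℕ, ℓ.Prime → (ℓ ∣ N0 ↔ ℓ ∈ s59feSmin W hΔ p ∧ ℓ ≠ p))
    (_ : Squarefree N0)
    (f : CuspForm (CongruenceSubgroup.Gamma0 N0) 2) (𝔪 : Ideal (integralClosure ℤ ℂ))
    (_ : f.IsNormalizedEigenform) (_ : 𝔪.IsMaximal) (_ : (p : integralClosure ℤ ℂ) ∈ 𝔪)
    (_ : ∀ ℓ : ℕ, ℓ.Prime → W.IsGoodPrimeFor ℓ → ¬ ℓ ∣ N0 → ℓ ≠ p →
      ∃ a : integralClosure ℤ ℂ, (a : ℂ) = ModularFormClass.qCoeff f ℓ ∧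
        a - ((W.apOfModel ℓ : ℤ) : integralClosure ℤ ℂ) ∈ 𝔪)
    (𝒪 : Type) [CommRing 𝒪] [IsDomain 𝒪] [IsDiscreteValuationRing 𝒪]
    [IsAdicComplete (maximalIdeal 𝒪) 𝒪] [CharZero 𝒪] [Finite (ResidueField 𝒪)]
    (φ : ℤ_[p] →+* 𝒪) (hφ : IsLocalHom φ) (_ : Function.Injective φ)
    (hp𝒪 : (p : 𝒪) ∈ maximalIdeal 𝒪)
    (_ : ∀ (ι : ZMod p →+* ResidueField 𝒪) (g : (ZMod p)[X]), g.Monic → g.natDegree = 2 →
      ∃ α β : ResidueField 𝒪, g.map ι = (X - C α) * (X - C β))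
    (_ : (P₀.map (Int.castRingHom 𝒪)).Splits)
    (_ : ∀ (B : Type) [CommRing B] [IsDomain B] [Algebra 𝒪 B]
      (χ : CuspForm.heckeAlgebra N0 2 (↑(s59feSmin W hΔ p) : Set ℕ) →+* B)
      (t : CuspForm.heckeAlgebra N0 2 (↑(s59feSmin W hΔ p) : Set ℕ)),
      χ t ∈ Set.range (algebraMap 𝒪 B))
    (ψ : ℕ → 𝒪) (χ₀ : CuspForm.heckeAlgebra N0 2 (↑(s59feSmin W hΔ p) : Set ℕ) →+* 𝒪)
    (_ : ∀ (ℓ : ℕ) (hℓ : ℓ.Prime) (hℓN : ¬ ℓ ∣ N0)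
      (hℓS : ℓ ∉ (↑(s59feSmin W hΔ p) : Set ℕ)),
      χ₀ (CuspForm.heckeAlgebra.T hℓ hℓN hℓS) = ψ ℓ)
    (_ : ∀ ℓ : ℕ, ℓ.Prime → ¬ ℓ ∣ N0 → ℓ ∉ (↑(s59feSmin W hΔ p) : Set ℕ) →
      ∀ (a : integralClosure ℤ ℂ) (n : ℤ), (a : ℂ) = ModularFormClass.qCoeff f ℓ →
        a - (n : integralClosure ℤ ℂ) ∈ 𝔪 → residue 𝒪 (ψ ℓ) = (n : ResidueField 𝒪))
    (_ : ∀ ℓ : ℕ, ℓ.Prime → ℓ ∉ s59feSmin W hΔ p → ¬ ℓ ∣ N0 →
      ∀ P : ValuationSubring (AlgebraicClosure ℚ), P.LiesOverPrime ℓ →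
      ∀ τ : AlgebraicClosure ℚ ≃ₐ[ℚ] AlgebraicClosure ℚ, P.IsFrobeniusAt τ ℓ →
        residue 𝒪 (ψ ℓ) = LinearMap.trace (ResidueField 𝒪) (s59feBar W hΔ p φ hφ).V
          ((s59feBar W hΔ p φ hφ).ρ τ))
    (ϖ : 𝒪) (hϖ : Irreducible ϖ)
    (hψW : s59asmr_CongW p ψ W (s59feSmin W hΔ p ∪ N0.primeFactors))
    (ρ₀ : GaloisRepAdic 𝒪) (_ : ρ₀.DetIsCyclotomic p)
    (_ : ρ₀.residual.IsAbsolutelyIrreducible)
    (_ : ∀ ℓ : ℕ, ℓ.Prime → ℓ ∉ s59feSmin W hΔ p →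
      ∀ P : ValuationSubring (AlgebraicClosure ℚ), P.LiesOverPrime ℓ →
      ∀ φ' : AlgebraicClosure ℚ ≃ₐ[ℚ] AlgebraicClosure ℚ, P.IsFrobeniusAt φ' ℓ →
        LinearMap.trace 𝒪 ρ₀.V (ρ₀.ρ φ') = ψ ℓ)
    (s₀ : S59Stage 𝒪 (s59feBar W hΔ p φ hφ) (twFlat 𝒪 p (s59feSmin W hΔ p) ∅)),
    s59tops_inv (s59asmR2 p hp2 hp𝒪 ψ ϖ hϖ W hΔ hirr (s59feSmin W hΔ p ∪ N0.primeFactors) hψW)
      ρ₀ (s59feSmin W hΔ p) N0 ∅ s₀ →
    s₀.lPhi ≤ Module.length 𝒪 (𝒪 ⧸ s₀.etaL)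

/-- the old contract gives the new one -/
theorem s59towp_of_old (h : s59towd_StmtR1) (P₀ : ℤ[X]) (p : ℕ) (hp : p = 3 ∨ p = 5) :
    s59towp_StmtR1At P₀ p := by
  intro inst hp2 W hΔ hW hirr hgood N0 _ hN0 hN0sq f 𝔪 hf h𝔪 hp𝔪 hcong 𝒪 _ _ _ _ _ _ φ hφ hinj
    hp𝒪 hK _
  exact @h p inst hp hp2 W hΔ hW hirr hgood N0 _ hN0 hN0sq f 𝔪 hf h𝔪 hp𝔪 hcong 𝒪 _ _ _ _ _ _
    φ hφ hinj hp𝒪 hK

/-- **E-BIG, strong form, with the splitting of `P₀`** (twin of `s59tbig_exists_strong`). -/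
theorem s59towp_big (p : ℕ) [Fact p.Prime]
    (hfin : ∀ (N : ℕ) [NeZero N] (S : Set ℕ), Module.Finite ℤ (CuspForm.heckeAlgebra N 2 S))
    (N0 : ℕ) [NeZero N0] (Smin SW : Finset ℕ) (hSW : ∀ q ∈ SW, q ≠ 0)
    (P₀ : ℤ[X]) (hP₀ : P₀.Monic) :
    ∃ (𝒪 : Type) (_ : CommRing 𝒪) (_ : IsDomain 𝒪) (_ : IsDiscreteValuationRing 𝒪)
      (_ : IsAdicComplete (maximalIdeal 𝒪) 𝒪) (_ : CharZero 𝒪) (_ : Finite (ResidueField 𝒪))
      (φ : ℤ_[p] →+* 𝒪) (_ : IsLocalHom φ),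
      Function.Injective φ ∧ (p : 𝒪) ∈ maximalIdeal 𝒪 ∧
      (P₀.map (Int.castRingHom 𝒪)).Splits ∧
      (∀ (ι : ZMod p →+* ResidueField 𝒪) (f : (ZMod p)[X]), f.Monic → f.natDegree = 2 →
        ∃ α β : ResidueField 𝒪, f.map ι = (X - C α) * (X - C β)) ∧
      (∀ Q : Finset ℕ, Q ⊆ SW → ∀ (N : ℕ) [NeZero N], N = N0 * ∏ q ∈ Q, (q * q) →
        ∀ θ : CuspForm.heckeAlgebra N 2 (↑(Smin ∪ Q) : Set ℕ) →+* ResidueField 𝒪,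
          s59p_IsBig 𝒪 N (↑(Smin ∪ Q) : Set ℕ) θ) ∧
      (∀ Q : Finset ℕ, Q ⊆ SW → ∀ (N : ℕ) [NeZero N], N = N0 * ∏ q ∈ Q, (q * q) →
        ∀ (B : Type) [CommRing B] [IsDomain B] [Algebra 𝒪 B]
          (χ : CuspForm.heckeAlgebra N 2 (↑(Smin ∪ Q) : Set ℕ) →+* B)
          (t : CuspForm.heckeAlgebra N 2 (↑(Smin ∪ Q) : Set ℕ)),
          χ t ∈ Set.range (algebraMap 𝒪 B)) ∧
      (∀ θ : CuspForm.heckeAlgebra N0 2 (↑Smin : Set ℕ) →+* ResidueField 𝒪,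
        s59p_IsBig 𝒪 N0 (↑Smin : Set ℕ) θ) ∧
      ∀ (B : Type) [CommRing B] [IsDomain B] [Algebra 𝒪 B]
        (χ : CuspForm.heckeAlgebra N0 2 (↑Smin : Set ℕ) →+* B)
        (t : CuspForm.heckeAlgebra N0 2 (↑Smin : Set ℕ)),
        χ t ∈ Set.range (algebraMap 𝒪 B) := by
  classical
  have hN0 : N0 ≠ 0 := NeZero.ne N0
  have hne : ∀ i : Option ↥(SW.powerset), s59tbigN N0 SW i ≠ 0 := by
    rintro (_ | i)
    · exact hN0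
    · refine mul_ne_zero hN0 (Finset.prod_ne_zero_iff.mpr fun q hq => ?_)
      have hq' : q ∈ SW := (Finset.mem_powerset.mp i.2) hq
      exact mul_ne_zero (hSW q hq') (hSW q hq')
  haveI : ∀ i : Option ↥(SW.powerset), NeZero (s59tbigN N0 SW i) := fun i => ⟨hne i⟩
  haveI : ∀ i : Option ↥(SW.powerset),
      Module.Finite ℤ (CuspForm.heckeAlgebra (s59tbigN N0 SW i) 2 (s59tbigS Smin SW i)) :=
    fun i => hfin _ _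
  obtain ⟨𝒪, i1, i2, i3, i4, i5, i6, φ, i8, hinj, hp, hsp, hbig⟩ :=
    s59big_exists_fam_padic p
      (fun i : Option ↥(SW.powerset) =>
        CuspForm.heckeAlgebra (s59tbigN N0 SW i) 2 (s59tbigS Smin SW i))
      (s59tbigP p * P₀) ((s59tbigP_monic p).mul hP₀)
  have hne0 : (s59tbigP p * P₀).map (Int.castRingHom 𝒪) ≠ 0 :=
    (((s59tbigP_monic p).mul hP₀).map _).ne_zero
  have hsp1 : ((s59tbigP p).map (Int.castRingHom 𝒪)).Splits :=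
    hsp.of_dvd hne0 (Polynomial.map_dvd _ (dvd_mul_right _ _))
  have hsp2 : (P₀.map (Int.castRingHom 𝒪)).Splits :=
    hsp.of_dvd hne0 (Polynomial.map_dvd _ (dvd_mul_left _ _))
  have hstrong : ∀ Q : Finset ℕ, Q ⊆ SW → ∀ (N : ℕ) [NeZero N], N = N0 * ∏ q ∈ Q, (q * q) →
      ∀ (B : Type) [CommRing B] [IsDomain B] [Algebra 𝒪 B]
        (χ : CuspForm.heckeAlgebra N 2 (↑(Smin ∪ Q) : Set ℕ) →+* B)
        (t : CuspForm.heckeAlgebra N 2 (↑(Smin ∪ Q) : Set ℕ)),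
        χ t ∈ Set.range (algebraMap 𝒪 B) := by
    intro Q hQ N _ hN B _ _ _ χ t
    subst hN
    exact hbig (some ⟨Q, Finset.mem_powerset.mpr hQ⟩) B χ t
  have hstrong0 : ∀ (B : Type) [CommRing B] [IsDomain B] [Algebra 𝒪 B]
      (χ : CuspForm.heckeAlgebra N0 2 (↑Smin : Set ℕ) →+* B)
      (t : CuspForm.heckeAlgebra N0 2 (↑Smin : Set ℕ)),
      χ t ∈ Set.range (algebraMap 𝒪 B) := fun B _ _ _ χ t => hbig none B χ t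
  refine ⟨𝒪, i1, i2, i3, i4, i6, i5, φ, i8, hinj, hp, hsp2, ?_, ?_, hstrong, ?_, hstrong0⟩
  · intro ι f hf hd
    exact s59tbig_hK p 𝒪 hsp1 ι f hf hd
  · intro Q hQ N _ hN θ
    exact s59big_isBig_of_range 𝒪 N _ (hstrong Q hQ N hN) θ
  · intro θ
    exact s59big_isBig_of_range 𝒪 N0 _ hstrong0 θ

/-- **Case (a), what is owed, from the walls and the contract with `hsp`.** -/
theorem s59towp_owed_good (P₀ : ℕ → ℤ[X]) (hP₀ : ∀ p, (P₀ p).Monic)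
    (hfin : ∀ (N : ℕ) [NeZero N] (S : Set ℕ), Module.Finite ℤ (CuspForm.heckeAlgebra N 2 S))
    (hS29 : s59tres_StmtS29) (hM1 : s59lsq_StmtWall) (hQ : s59topm_StmtLowQ)
    (hP : s59topm_StmtLowPGood) (hraise : LowQ.s59lq_StmtRaise)
    (hR1 : ∀ p : ℕ, (p = 3 ∨ p = 5) → s59towp_StmtR1At (P₀ p) p) :
    s59topb_StmtOwedGood' := by
  intro p _ hp W hΔ hW hirr hgood M₀ _ hres hM₀ hM₀3
  classical
  have hpp : p.Prime := Fact.out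
  have hp2 : p ≠ 2 := by rcases hp with rfl | rfl <;> decide
  -- MINLEV
  have hresN0 : W.IsResiduallyModularOfLevel p (s59topmN0 W hΔ p) :=
    s59topm_minlev_good hM1 hQ hP hraise p hp W hΔ hW hirr hgood M₀
      (Nat.pos_of_ne_zero (NeZero.ne M₀)) hres hM₀ hM₀3
  haveI : NeZero (s59topmN0 W hΔ p) := ⟨s59topm_N0_ne_zero W hΔ p⟩
  have hN0 := s59topm_N0_dvd_iff W hΔ p
  have hN0sq := s59topm_N0_squarefree W hΔ p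
  obtain ⟨f, 𝔪, hf, h𝔪, hp𝔪, hcong⟩ := hresN0
  -- E-BIG
  obtain ⟨𝒪, i1, i2, i3, i4, i5, i6, φ, hφ, hinj, hp𝒪, hsp, hK, hBig, hBigS, hBig0, hBigS0⟩ :=
    s59towp_big p hfin (s59topmN0 W hΔ p) (s59feSmin W hΔ p) (s59feSigma W hΔ p)
      (fun q hq => (s59fe_prime_of_mem_Sigma W hΔ p hq).ne_zero) (P₀ p) (hP₀ p)
  -- BASE-EIG
  have hNS : ∀ q : ℕ, q.Prime → q ∣ s59topmN0 W hΔ p →
      q ∈ (↑(s59feSmin W hΔ p) : Set ℕ) :=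
    fun q hq hd => Finset.mem_coe.2 ((hN0 q hq).1 hd).1
  obtain ⟨χ₀, ψ, hχ₀, hψ0⟩ := s59teig_exists_psi p hp𝒪 (s59topmN0 W hΔ p)
    (↑(s59feSmin W hΔ p) : Set ℕ) hNS hBigS0 f hf 𝔪 h𝔪 hp𝔪
  -- TWHyp
  have hTW : TWHyp 𝒪 p (s59feBar W hΔ p φ hφ) (s59feSmin W hΔ p ∪ s59feSigma W hΔ p)
      (s59feSmin W hΔ p) := s59fe_twHyp_union W hΔ p φ hφ hp hK hW hirr
  -- HGD-RES
  have hψ := s59tres_hψ_of_eig_Smin W hΔ p φ hφ hS29 (s59feSmin W hΔ p) hTW.hpSmin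
    (s59topmN0 W hΔ p) (NeZero.ne _) f hf 𝔪 h𝔪 hp𝔪 hcong ψ
    (fun ℓ hℓ hℓN hℓS a n ha hn =>
      hψ0 ℓ hℓ hℓN (fun h => hℓS (Finset.mem_coe.1 h)) a n ha hn)
  -- CAR
  obtain ⟨ρ₀, habs₀, hdet₀, htr₀, -, hcar⟩ := s59tcar_exists p hp2 hp𝒪
    (s59feBar W hΔ p φ hφ) hTW.habs (s59feSmin W hΔ p) hTW.hpSmin (s59topmN0 W hΔ p)
    (fun ℓ hℓ hd => ((hN0 ℓ hℓ).1 hd).1) ψ χ₀ hχ₀ (s59topg_hdet hTW) hψ
  -- R2
  obtain ⟨ϖ, hϖ⟩ := IsDiscreteValuationRing.exists_irreducible 𝒪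
  have hψW : s59asmr_CongW p ψ W (s59feSmin W hΔ p ∪ (s59topmN0 W hΔ p).primeFactors) :=
    s59asmR2_congW p W (s59feSmin W hΔ p) (s59topmN0 W hΔ p) (NeZero.ne _) f 𝔪 hcong ψ
      (fun ℓ hℓ hℓN hℓS a n ha hn =>
        hψ0 ℓ hℓ hℓN (fun h => hℓS (Finset.mem_coe.1 h)) a n ha hn)
  refine ⟨𝒪, i1, i2, i3, i4, i5, i6, φ, hφ, s59topmN0 W hΔ p, ψ,
    s59asmR2 p hp2 hp𝒪 ψ ϖ hϖ W hΔ hirr _ hψW, ρ₀, hK, hN0, hN0sq,
    s59dcfin_hD_flat W hΔ p φ hφ hp hK hW hirr hgood, hψ, hcar, ?_, ?_, ?_⟩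
  · intro Q hQ N _ hN θ
    exact hBig Q hQ N hN θ
  · refine s59asmR2_base p hp2 hp𝒪 ψ ϖ hϖ W hΔ hirr _ hψW (s59topmN0 W hΔ p) _ hNS ?_ χ₀ hχ₀
    intro ℓ hℓ hmem
    by_cases hℓp : ℓ = p
    · exact Or.inl hℓp
    · exact Or.inr ((hN0 ℓ hℓ).2 ⟨Finset.mem_coe.1 hmem, hℓp⟩)
  · intro s₀ hs₀
    exact hR1 p hp hp2 W hΔ hW hirr hgood (s59topmN0 W hΔ p) hN0 hN0sq f 𝔪 hf h𝔪 hp𝔪 hcong
      𝒪 φ hφ hinj hp𝒪 hK hsp hBigS0 ψ χ₀ hχ₀ hψ0 hψ ϖ hϖ hψW ρ₀ hdet₀ habs₀ htr₀ s₀ hs₀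

/-- **S59 from the walls** and the contract with `hsp`. -/
theorem s59towp_result (P₀ : ℕ → ℤ[X]) (hP₀ : ∀ p, (P₀ p).Monic) (h58 : s59p_StmtS58)
    (hfin : ∀ (N : ℕ) [NeZero N] (S : Set ℕ), Module.Finite ℤ (CuspForm.heckeAlgebra N 2 S))
    (hS29 : s59tres_StmtS29) (hM1 : s59lsq_StmtWall) (hQ : s59topm_StmtLowQ)
    (hP : s59topm_StmtLowPGood) (hraise : LowQ.s59lq_StmtRaise)
    (hR1 : ∀ p : ℕ, (p = 3 ∨ p = 5) → s59towp_StmtR1At (P₀ p) p)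
    (hb : s59topw_StmtStagesAt fun W p => ¬ W.IsGoodPrimeFor p)
    (p : ℕ) (hp : p = 3 ∨ p = 5)
    (W : WeierstrassCurve ℤ) (hΔ : W.Δ ≠ 0) (hW : W.IsSemistableModel)
    (hirr : W.ModRepIsIrreducible p)
    (M₀ : ℕ) [NeZero M₀] (hres₀ : W.IsResiduallyModularOfLevel p M₀)
    (hM₀ : ¬ p ^ 2 ∣ M₀)
    (hM₀3 : ∀ q : ℕ, q.Prime → q ≠ p → ¬ q ^ 3 ∣ M₀) :
    Mlc1IsModularModelOfExactConductorLevel W :=
  s59topb_result h58 (s59towp_owed_good P₀ hP₀ hfin hS29 hM1 hQ hP hraise hR1) hb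
    p hp W hΔ hW hirr M₀ hres₀ hM₀ hM₀3

end Fermat.Agent.S59

end
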