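/-
S59, piece R3 = TOP, **CASE (b) ASSEMBLED** — the ORDINARY TWIN of `TopStep` / `TopGood` / `TopBase`
(helper80; mechanical twin of helper69's flat files, conditions `twOrd` instead of `twFlat`).

Case (b): `W` multiplicative at `p`, `ρ̄` not flat at `p`; `𝒟 Σ = twOrd 𝒪 p Smin Σ`, `p ∥ N₀`,
`hN0 : ∀ ℓ prime, ℓ ∣ N0 ↔ ℓ ∈ Smin`, `N0` squarefree.

* `s59topo_StmtStrict 𝒪 p ρ̄` : **S33-STRICT** (interface, owner helper43): a Hecke–Galois datum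
  of level `N`, `p ∥ N`, with cyclotomic determinant and residual representation `ρ̄`, is
  STRICTLY ordinary at `p`.
* `s59topo_stage_of_state` : a stage from a good state of R2 (with `etaL = J x`).
* `s59tops_step_ord`       : THE STEP (SEL ✓ `stmtSelOrd`, HGD ✓, S54 ✓, S34 ✓ + S33-STRICT).
* `s59topo_levelOK`        : END, the level conditions of `s59fin_lift`.
* `s59topo_StmtOwedOrd c`  : EVERYTHING owed in case (b) for the pairs `(W, p)` with `c W p`,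
  as ONE Prop (BASE split into (E-BASE) + (R1 = MIN′)); the twin of `s59topb_StmtOwedGood'`.
* **`s59topo_stages_ord : (∀ W p, c W p → (p : ℤ) ∣ W.Δ) → s59topo_StmtOwedOrd c →
  s59topw_StmtStagesAt c`**.
-/
import Fermat.Agent.S59.TopBase
import Fermat.Agent.S59.Leaf.S34R

set_option autoImplicit false
set_option linter.style.haveILetI false
set_option linter.unusedSectionVars false
set_option linter.unusedVariables false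
set_option linter.style.longLine false

noncomputable section

namespace Fermat.Agent.S59

open IsLocalRing Polynomial Fermat.Agent.TW Fermat.Agent.S53

theorem s59topo_mem_dvd_level {p N0 : ℕ} {Smin Sg : Finset ℕ}
    (hN0 : ∀ ℓ : ℕ, ℓ.Prime → (ℓ ∣ N0 ↔ ℓ ∈ Smin)) {ℓ : ℕ} (hℓ : ℓ.Prime)
    (h : ℓ ∈ Smin ∪ Sg) : ℓ = p ∨ ℓ ∣ s59tops_level N0 Sg := by
  right
  rcases Finset.mem_union.1 h with h1 | h1
  · exact Dvd.dvd.mul_right ((hN0 ℓ hℓ).2 h1) _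
  · have h2 : ℓ * ℓ ∣ ∏ q ∈ Sg, (q * q) := Finset.dvd_prod_of_mem (fun q => q * q) h1
    exact Dvd.dvd.mul_left ((Dvd.intro ℓ rfl).trans h2) N0

section StepOrd

variable {𝒪 : Type} [CommRing 𝒪] [IsDomain 𝒪] [IsDiscreteValuationRing 𝒪]
  [IsAdicComplete (maximalIdeal 𝒪) 𝒪] [Finite (ResidueField 𝒪)] [CharZero 𝒪]

/-- **S33-STRICT** (interface): a Hecke–Galois datum of level `N`, `p ∥ N`, with cyclotomic
determinant and residual representation `ρ̄`, is STRICTLY ordinary at `p`. -/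
def s59topo_StmtStrict (𝒪 : Type) [CommRing 𝒪] [IsDomain 𝒪] [IsDiscreteValuationRing 𝒪]
    [IsAdicComplete (maximalIdeal 𝒪) 𝒪] (p : ℕ)
    (ρbar : ResidualGaloisRep (ResidueField 𝒪)) : Prop :=
  ∀ (N : ℕ) [NeZero N] (S : Finset ℕ)
    (θ : CuspForm.heckeAlgebra N 2 (↑S : Set ℕ) →+* ResidueField 𝒪)
    (T : Type) [CommRing T] [IsLocalRing T] [IsNoetherianRing T]
    [IsAdicComplete (maximalIdeal T) T] [Algebra 𝒪 T] [IsLocalHom (algebraMap 𝒪 T)]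
    [Module.Finite 𝒪 T] [Module.Free 𝒪 T]
    (H : CuspForm.HeckeGaloisRepDatum N (↑S : Set ℕ) 𝒪 θ T),
    p ∈ S → (∀ ℓ : ℕ, ℓ.Prime → ℓ ∣ N → ℓ ∈ S) → p ∣ N → ¬ p ^ 2 ∣ N →
    H.ρ.DetIsCyclotomic p →
    H.ρ.residual.IsEquiv (ρbar.baseChangeAlong (ResidueField.map (algebraMap 𝒪 T))) →
    H.ρ.IsStrictOrdinaryAt p

/-- **A stage from a good state of R2** (ordinary case), with `etaL = J x`. -/
theorem s59topo_stage_of_state (p : ℕ) [Fact p.Prime]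
    (ρbar : ResidualGaloisRep (ResidueField 𝒪))
    (S Smin SW : Finset ℕ) (hTW : TWHyp 𝒪 p ρbar S Smin)
    (hSW : ∀ q ∈ SW, q.Prime ∧ q ∉ Smin)
    (N0 : ℕ) (hN0 : ∀ ℓ : ℕ, ℓ.Prime → (ℓ ∣ N0 ↔ ℓ ∈ Smin)) (hN0sq : Squarefree N0)
    (ψ : ℕ → 𝒪) (R2 : S59R2Data 𝒪 p ψ) (ρ₀ : GaloisRepAdic 𝒪)
    (hstrict : s59topo_StmtStrict 𝒪 p ρbar)
    (hD : ∀ Q : Finset ℕ, Q ⊆ SW →
      Nonempty (GaloisRep.DeformationRingData 𝒪 ρbar (twOrd 𝒪 p Smin Q)))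
    (hdet : ∀ (σ : AlgebraicClosure ℚ ≃ₐ[ℚ] AlgebraicClosure ℚ) (a : ℕ),
      (∀ μ : AlgebraicClosure ℚ, μ ^ p = 1 → σ μ = μ ^ a) →
        LinearMap.det (ρbar.ρ σ) = (a : ResidueField 𝒪))
    (hψ : ∀ ℓ : ℕ, ℓ.Prime → ℓ ∉ Smin → ¬ ℓ ∣ N0 →
      ∀ P : ValuationSubring (AlgebraicClosure ℚ), P.LiesOverPrime ℓ →
      ∀ τ : AlgebraicClosure ℚ ≃ₐ[ℚ] AlgebraicClosure ℚ, P.IsFrobeniusAt τ ℓ →
        residue 𝒪 (ψ ℓ) = LinearMap.trace (ResidueField 𝒪) ρbar.V (ρbar.ρ τ))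
    (hcar : ∀ (S' : Finset ℕ) (ρ₁ : GaloisRepAdic 𝒪), ρ₁.DetIsCyclotomic p →
      (∀ ℓ : ℕ, ℓ.Prime → ℓ ∉ S' →
        ∀ P : ValuationSubring (AlgebraicClosure ℚ), P.LiesOverPrime ℓ →
        ∀ φ : AlgebraicClosure ℚ ≃ₐ[ℚ] AlgebraicClosure ℚ, P.IsFrobeniusAt φ ℓ →
          LinearMap.trace 𝒪 ρ₁.V (ρ₁.ρ φ) = ψ ℓ) → ρ₁.IsEquiv ρ₀)
    (hBig : ∀ Q : Finset ℕ, Q ⊆ SW → ∀ (N : ℕ) [NeZero N], N = s59tops_level N0 Q →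
      ∀ θ : CuspForm.heckeAlgebra N 2 (↑(Smin ∪ Q) : Set ℕ) →+* ResidueField 𝒪,
        s59p_IsBig 𝒪 N (↑(Smin ∪ Q) : Set ℕ) θ)
    (Sg : Finset ℕ) (hSg : Sg ⊆ SW) (x : R2.X) (hx : R2.lev x = s59tops_level N0 Sg)
    (hgood : R2.Good x) :
    ∃ s : S59Stage 𝒪 ρbar (twOrd 𝒪 p Smin Sg),
      s59tops_inv R2 ρ₀ Smin N0 Sg s ∧ s.etaL = R2.J x := by
  classical
  have hpp : p.Prime := Fact.out
  have hSgp : ∀ q' ∈ Sg, q'.Prime := fun q' h => (hSW q' (hSg h)).1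
  have hpSW : ∀ Q : Finset ℕ, Q ⊆ SW → p ∉ Q := fun Q hQ h => (hSW p (hQ h)).2 hTW.hpSmin
  haveI : NeZero (R2.lev x) := ⟨R2.lev_ne _⟩
  have hpS' : p ∈ Smin ∪ Sg := Finset.mem_union_left _ hTW.hpSmin
  have hNS' : ∀ ℓ : ℕ, ℓ.Prime → ℓ ∣ R2.lev x → ℓ ∈ Smin ∪ Sg := by
    intro ℓ hℓ hd
    rw [hx] at hd
    rcases s59tops_prime_dvd_level hSgp hℓ hd with h1 | h1
    · exact Finset.mem_union_left _ ((hN0 ℓ hℓ).1 h1)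
    · exact Finset.mem_union_right _ h1
  have hpN' : p ∣ R2.lev x := by
    rw [hx]
    exact Dvd.dvd.mul_right ((hN0 p hpp).2 hTW.hpSmin) _
  have hp2N' : ¬ p ^ 2 ∣ R2.lev x := by
    rw [hx]
    exact s59tops_sq_not_dvd_level hN0sq hSgp hpp (hpSW _ hSg)
  obtain ⟨χ, hχ⟩ := R2.char x hgood (Smin ∪ Sg) hpS' hNS'
  have hres : S59HgdRes p (R2.lev x) (Smin ∪ Sg) 𝒪 ((residue 𝒪).comp χ) ρbar :=
    { absIrr := hTW.habs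
      det := hdet
      frob := fun ℓ hℓ hℓN hℓS P hP τ hτ => by
        rw [RingHom.comp_apply, hχ ℓ hℓ hℓN hℓS]
        refine hψ ℓ hℓ (fun h => hℓS (Finset.mem_coe.2 (Finset.mem_union_left _ h))) ?_ P hP τ hτ
        intro hd
        exact hℓS (Finset.mem_coe.2 (Finset.mem_union_left _ ((hN0 ℓ hℓ).1 hd))) }
  obtain ⟨T, i1, i2, i3, i4, i5, i6, i7, i8, H, hsep, hdetH, hresH, hunr⟩ :=
    s59hgd_main p hTW.hp2 (R2.lev x) (Smin ∪ Sg) hpS' hNS' 𝒪 hTW.hp𝒪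
      ((residue 𝒪).comp χ) ⟨χ, fun t => rfl⟩ ρbar hres
  have htype : twOrd 𝒪 p Smin Sg H.ρ := by
    refine ⟨⟨hdetH, hstrict _ (Smin ∪ Sg) _ T H hpS' hNS' hpN' hp2N' hdetH hresH, ?_⟩, ?_⟩
    · intro ℓ hℓ hℓS
      refine hunr ℓ hℓ (fun hd => ?_)
      rcases (Nat.Prime.dvd_mul hℓ).1 hd with h1 | h1
      · exact hℓS (hNS' ℓ hℓ h1)
      · rw [(Nat.prime_dvd_prime_iff_eq hℓ hpp).1 h1] at hℓS
        exact hℓS hpS'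
    · intro q₀ hq₀ hq₀p hne
      have hq₀Sg : q₀ ∉ Sg := fun h => (hSW q₀ (hSg h)).2 hq₀
      refine s59leaf_s34 hpp hTW.hp𝒪 hpS' hNS' H q₀ hq₀p hne ?_ ?_
      · rw [hx]
        exact Dvd.dvd.mul_right ((hN0 q₀ hq₀p).2 hq₀) _
      · rw [hx]
        exact s59tops_sq_not_dvd_level hN0sq hSgp hq₀p hq₀Sg
  obtain ⟨D'⟩ := hD Sg hSg
  obtain ⟨γ', hγ's, hγ'l, hγ'e⟩ := Fermat.Agent.S54.result D' H
    (fun ℓ hℓ hd => Finset.mem_coe.2 (hNS' ℓ hℓ hd)) htype hresH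
  have hγ't : ∀ σ : S59GQ, γ' (LinearMap.trace D'.R D'.ρ.V (D'.ρ.ρ σ)) =
      LinearMap.trace T H.ρ.V (H.ρ.ρ σ) := s59fin_trace_compat D' H.ρ γ' hγ'l hγ'e
  obtain ⟨πT', hπT'⟩ := H.exists_point χ (fun t => rfl)
  have heig' : ∀ (ℓ : ℕ) (hℓ : ℓ.Prime) (hℓN : ¬ ℓ ∣ R2.lev x)
      (hℓS : ℓ ∉ (↑(Smin ∪ Sg) : Set ℕ)),
      πT' (H.π (CuspForm.heckeAlgebra.T hℓ hℓN hℓS)) = ψ ℓ := fun ℓ hℓ hℓN hℓS => by
    rw [hπT', hχ ℓ hℓ hℓN hℓS]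
  have hSsub' : ∀ ℓ : ℕ, ℓ.Prime → ℓ ∈ Smin ∪ Sg → ℓ = p ∨ ℓ ∣ R2.lev x := by
    intro ℓ hℓ hmem
    rw [hx]
    exact s59topo_mem_dvd_level hN0 hℓ hmem
  obtain ⟨hne', hgen'⟩ := R2.gen x hgood (Smin ∪ Sg) hpS' hNS' hSsub'
    ((residue 𝒪).comp χ) (hBig Sg hSg _ hx _) T H πT' hsep heig'
  have hloc' : IsLocalHom ((πT'.comp γ' : D'.R →ₐ[𝒪] 𝒪) : D'.R →+* 𝒪) :=
    s59selsame_aug_isLocalHom 𝒪 _
  have hρ₀' : (D'.ρ.baseChangeAlong ((πT'.comp γ' : D'.R →ₐ[𝒪] 𝒪) : D'.R →+* 𝒪) hloc').IsEquiv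
      ρ₀ := by
    refine hcar (Smin ∪ Sg) _
      (twbc_detIsCyclotomic _ hloc' D'.ρ p D'.isOfType.1.1) (fun ℓ hℓ hℓS P hP φ hφ => ?_)
    have hℓN : ¬ ℓ ∣ R2.lev x := fun hd => hℓS (hNS' ℓ hℓ hd)
    have hℓS' : ℓ ∉ (↑(Smin ∪ Sg) : Set ℕ) := fun h => hℓS (Finset.mem_coe.1 h)
    rw [s59fe_trace_baseChangeAlong]
    show πT' (γ' _) = ψ ℓ
    rw [hγ't φ, s59fin_trace_of_charpoly H.ρ.finrank_eq (H.ρ.ρ φ) _ _
      (H.charpoly_frob ℓ hℓ hℓN hℓS' P hP φ hφ), heig' ℓ hℓ hℓN hℓS']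
  exact ⟨{ N := R2.lev x, S := (↑(Smin ∪ Sg) : Set ℕ)
           θ := (residue 𝒪).comp χ, T := T, H := H, D := D', γ := γ', πT := πT'
           etaL := R2.J x, γ_surj := hγ's, γ_trace := hγ't, etaT_ne := hne'
           gen := hgen', etaL_ne := R2.J_ne _ hgood },
    ⟨hx, rfl, heig', ⟨hloc', hρ₀'⟩, x, rfl, hgood, rfl⟩, rfl⟩


/-- **THE STEP of Wiles' induction, ordinary case** (see the header). -/
theorem s59tops_step_ord (p : ℕ) [Fact p.Prime] (ρbar : ResidualGaloisRep (ResidueField 𝒪))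
    (S Smin SW : Finset ℕ) (hTW : TWHyp 𝒪 p ρbar S Smin)
    (hSW : ∀ q ∈ SW, q.Prime ∧ q ∉ Smin)
    (N0 : ℕ) (hN0 : ∀ ℓ : ℕ, ℓ.Prime → (ℓ ∣ N0 ↔ ℓ ∈ Smin)) (hN0sq : Squarefree N0)
    (ψ : ℕ → 𝒪) (R2 : S59R2Data 𝒪 p ψ) (ρ₀ : GaloisRepAdic 𝒪)
    -- S33-STRICT
    (hstrict : s59topo_StmtStrict 𝒪 p ρbar)
    -- DEF-COND
    (hD : ∀ Q : Finset ℕ, Q ⊆ SW →
      Nonempty (GaloisRep.DeformationRingData 𝒪 ρbar (twOrd 𝒪 p Smin Q)))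
    -- `det ρ̄ = χ_p mod p`
    (hdet : ∀ (σ : AlgebraicClosure ℚ ≃ₐ[ℚ] AlgebraicClosure ℚ) (a : ℕ),
      (∀ μ : AlgebraicClosure ℚ, μ ^ p = 1 → σ μ = μ ^ a) →
        LinearMap.det (ρbar.ρ σ) = (a : ResidueField 𝒪))
    -- `ψ ℓ ≡ tr ρ̄(Frob_ℓ)`
    (hψ : ∀ ℓ : ℕ, ℓ.Prime → ℓ ∉ Smin → ¬ ℓ ∣ N0 →
      ∀ P : ValuationSubring (AlgebraicClosure ℚ), P.LiesOverPrime ℓ →
      ∀ τ : AlgebraicClosure ℚ ≃ₐ[ℚ] AlgebraicClosure ℚ, P.IsFrobeniusAt τ ℓ →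
        residue 𝒪 (ψ ℓ) = LinearMap.trace (ResidueField 𝒪) ρbar.V (ρbar.ρ τ))
    -- CAR
    (hcar : ∀ (S' : Finset ℕ) (ρ₁ : GaloisRepAdic 𝒪), ρ₁.DetIsCyclotomic p →
      (∀ ℓ : ℕ, ℓ.Prime → ℓ ∉ S' →
        ∀ P : ValuationSubring (AlgebraicClosure ℚ), P.LiesOverPrime ℓ →
        ∀ φ : AlgebraicClosure ℚ ≃ₐ[ℚ] AlgebraicClosure ℚ, P.IsFrobeniusAt φ ℓ →
          LinearMap.trace 𝒪 ρ₁.V (ρ₁.ρ φ) = ψ ℓ) → ρ₁.IsEquiv ρ₀)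
    -- E-BIG
    (hBig : ∀ Q : Finset ℕ, Q ⊆ SW → ∀ (N : ℕ) [NeZero N], N = s59tops_level N0 Q →
      ∀ θ : CuspForm.heckeAlgebra N 2 (↑(Smin ∪ Q) : Set ℕ) →+* ResidueField 𝒪,
        s59p_IsBig 𝒪 N (↑(Smin ∪ Q) : Set ℕ) θ)
    (Sg : Finset ℕ) (q : ℕ) (hSg : Sg ⊆ SW) (hqW : q ∈ SW) (hqSg : q ∉ Sg)
    (s : S59Stage 𝒪 ρbar (twOrd 𝒪 p Smin Sg)) (hs : s59tops_inv R2 ρ₀ Smin N0 Sg s) :
    ∃ (s' : S59Stage 𝒪 ρbar (twOrd 𝒪 p Smin (insert q Sg))) (c : 𝒪),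
      s59tops_inv R2 ρ₀ Smin N0 (insert q Sg) s' ∧
      s'.lPhi ≤ s.lPhi + Module.length 𝒪 (𝒪 ⧸ Ideal.span {c}) ∧
      s'.etaL ≤ Ideal.span {c} * s.etaL := by
  classical
  obtain ⟨hN, hS, heig, ⟨hloc, hρ₀⟩, x, hx, hgood, hJ⟩ := hs
  have hpp : p.Prime := Fact.out
  have hqp : q.Prime := (hSW q hqW).1
  have hqSmin : q ∉ Smin := (hSW q hqW).2
  have hqnep : q ≠ p := fun h => hqSmin (h ▸ hTW.hpSmin)
  have hSgp : ∀ q' ∈ Sg, q'.Prime := fun q' h => (hSW q' (hSg h)).1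
  have hSg' : insert q Sg ⊆ SW := Finset.insert_subset hqW hSg
  have hSgp' : ∀ q' ∈ insert q Sg, q'.Prime := fun q' h => (hSW q' (hSg' h)).1
  have hpSW : ∀ Q : Finset ℕ, Q ⊆ SW → p ∉ Q := fun Q hQ h => (hSW p (hQ h)).2 hTW.hpSmin
  -- `q ∤ N`
  have hqN : ¬ q ∣ s.N := by
    rw [hN]
    intro h
    rcases s59tops_prime_dvd_level hSgp hqp h with h1 | h1
    · exact hqSmin ((hN0 q hqp).1 h1)
    · exact hqSg h1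
  have hqS : q ∉ s.S := by
    rw [hS]
    intro h
    rcases Finset.mem_union.1 (Finset.mem_coe.1 h) with h1 | h1
    · exact hqSmin h1
    · exact hqSg h1
  -- R2 : the step
  obtain ⟨hgood', hJle⟩ := R2.step x q hqp (hx ▸ hqN) hqnep hgood
  have hlev' : R2.lev (R2.next q x) = s59tops_level N0 (insert q Sg) := by
    rw [R2.lev_next q x hqp, hx, hN, s59tops_level_insert N0 hqSg]
  haveI : NeZero (R2.lev (R2.next q x)) := ⟨R2.lev_ne _⟩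
  -- the new set of primes
  have hpS' : p ∈ Smin ∪ insert q Sg := Finset.mem_union_left _ hTW.hpSmin
  have hNS' : ∀ ℓ : ℕ, ℓ.Prime → ℓ ∣ R2.lev (R2.next q x) → ℓ ∈ Smin ∪ insert q Sg := by
    intro ℓ hℓ hd
    rw [hlev'] at hd
    rcases s59tops_prime_dvd_level hSgp' hℓ hd with h1 | h1
    · exact Finset.mem_union_left _ ((hN0 ℓ hℓ).1 h1)
    · exact Finset.mem_union_right _ h1
  have hpN' : p ∣ R2.lev (R2.next q x) := by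
    rw [hlev']
    exact Dvd.dvd.mul_right ((hN0 p hpp).2 hTW.hpSmin) _
  have hp2N' : ¬ p ^ 2 ∣ R2.lev (R2.next q x) := by
    rw [hlev']
    exact s59tops_sq_not_dvd_level hN0sq hSgp' hpp (hpSW _ hSg')
  -- the eigensystem and the residual data
  obtain ⟨χ, hχ⟩ := R2.char (R2.next q x) hgood' (Smin ∪ insert q Sg) hpS' hNS'
  have hres : S59HgdRes p (R2.lev (R2.next q x)) (Smin ∪ insert q Sg) 𝒪
      ((residue 𝒪).comp χ) ρbar :=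
    { absIrr := hTW.habs
      det := hdet
      frob := fun ℓ hℓ hℓN hℓS P hP τ hτ => by
        rw [RingHom.comp_apply, hχ ℓ hℓ hℓN hℓS]
        refine hψ ℓ hℓ (fun h => hℓS (Finset.mem_coe.2 (Finset.mem_union_left _ h))) ?_ P hP τ hτ
        intro hd
        exact hℓS (Finset.mem_coe.2 (Finset.mem_union_left _ ((hN0 ℓ hℓ).1 hd))) }
  -- HGD
  obtain ⟨T, i1, i2, i3, i4, i5, i6, i7, i8, H, hsep, hdetH, hresH, hunr⟩ :=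
    s59hgd_main p hTW.hp2 (R2.lev (R2.next q x)) (Smin ∪ insert q Sg) hpS' hNS' 𝒪 hTW.hp𝒪
      ((residue 𝒪).comp χ) ⟨χ, fun t => rfl⟩ ρbar hres
  -- the type of `H.ρ`
  have htype : twOrd 𝒪 p Smin (insert q Sg) H.ρ := by
    refine ⟨⟨hdetH, hstrict _ (Smin ∪ insert q Sg) _ T H hpS' hNS' hpN' hp2N' hdetH hresH, ?_⟩, ?_⟩
    · intro ℓ hℓ hℓS
      refine hunr ℓ hℓ (fun hd => ?_)
      rcases (Nat.Prime.dvd_mul hℓ).1 hd with h1 | h1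
      · exact hℓS (hNS' ℓ hℓ h1)
      · rw [(Nat.prime_dvd_prime_iff_eq hℓ hpp).1 h1] at hℓS
        exact hℓS hpS'
    · intro q₀ hq₀ hq₀p hne
      have hq₀Sg : q₀ ∉ insert q Sg := fun h => (hSW q₀ (hSg' h)).2 hq₀
      refine s59leaf_s34 hpp hTW.hp𝒪 hpS' hNS' H q₀ hq₀p hne ?_ ?_
      · rw [hlev']
        exact Dvd.dvd.mul_right ((hN0 q₀ hq₀p).2 hq₀) _
      · rw [hlev']
        exact s59tops_sq_not_dvd_level hN0sq hSgp' hq₀p hq₀Sg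
  -- DEF-COND and S54
  obtain ⟨D'⟩ := hD (insert q Sg) hSg'
  obtain ⟨γ', hγ's, hγ'l, hγ'e⟩ := Fermat.Agent.S54.result D' H
    (fun ℓ hℓ hd => Finset.mem_coe.2 (hNS' ℓ hℓ hd)) htype hresH
  have hγ't : ∀ σ : S59GQ, γ' (LinearMap.trace D'.R D'.ρ.V (D'.ρ.ρ σ)) =
      LinearMap.trace T H.ρ.V (H.ρ.ρ σ) := s59fin_trace_compat D' H.ρ γ' hγ'l hγ'e
  -- the augmentation
  obtain ⟨πT', hπT'⟩ := H.exists_point χ (fun t => rfl)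
  have heig' : ∀ (ℓ : ℕ) (hℓ : ℓ.Prime) (hℓN : ¬ ℓ ∣ R2.lev (R2.next q x))
      (hℓS : ℓ ∉ (↑(Smin ∪ insert q Sg) : Set ℕ)),
      πT' (H.π (CuspForm.heckeAlgebra.T hℓ hℓN hℓS)) = ψ ℓ := fun ℓ hℓ hℓN hℓS => by
    rw [hπT', hχ ℓ hℓ hℓN hℓS]
  have hSsub' : ∀ ℓ : ℕ, ℓ.Prime → ℓ ∈ Smin ∪ insert q Sg →
      ℓ = p ∨ ℓ ∣ R2.lev (R2.next q x) := by
    intro ℓ hℓ hmem
    rw [hlev']
    exact s59topo_mem_dvd_level hN0 hℓ hmem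
  obtain ⟨hne', hgen'⟩ := R2.gen (R2.next q x) hgood' (Smin ∪ insert q Sg) hpS' hNS' hSsub'
    ((residue 𝒪).comp χ) (hBig (insert q Sg) hSg' _ hlev' _) T H πT' hsep heig'
  -- the lift `ρ₀`
  have hloc' : IsLocalHom ((πT'.comp γ' : D'.R →ₐ[𝒪] 𝒪) : D'.R →+* 𝒪) :=
    s59selsame_aug_isLocalHom 𝒪 _
  have hρ₀' : (D'.ρ.baseChangeAlong ((πT'.comp γ' : D'.R →ₐ[𝒪] 𝒪) : D'.R →+* 𝒪) hloc').IsEquiv
      ρ₀ := by
    refine hcar (Smin ∪ insert q Sg) _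
      (twbc_detIsCyclotomic _ hloc' D'.ρ p D'.isOfType.1.1) (fun ℓ hℓ hℓS P hP φ hφ => ?_)
    have hℓN : ¬ ℓ ∣ R2.lev (R2.next q x) := fun hd => hℓS (hNS' ℓ hℓ hd)
    have hℓS' : ℓ ∉ (↑(Smin ∪ insert q Sg) : Set ℕ) := fun h => hℓS (Finset.mem_coe.1 h)
    rw [s59fe_trace_baseChangeAlong]
    show πT' (γ' _) = ψ ℓ
    rw [hγ't φ, s59fin_trace_of_charpoly H.ρ.finrank_eq (H.ρ.ρ φ) _ _
      (H.charpoly_frob ℓ hℓ hℓN hℓS' P hP φ hφ), heig' ℓ hℓ hℓN hℓS']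
  -- SEL
  have hsame : s59selSame 𝒪 s.D D' (s.πT.comp s.γ) (πT'.comp γ') :=
    ⟨hloc, hloc', GaloisRepAdic_isEquiv_trans hρ₀' (GaloisRepAdic_isEquiv_symm hρ₀)⟩
  have htr : s59selTrace 𝒪 s.D (s.πT.comp s.γ) q (ψ q) := by
    intro P hP φ hφ
    rw [AlgHom.comp_apply, s.γ_trace φ, s59fin_trace_of_charpoly s.H.ρ.finrank_eq (s.H.ρ.ρ φ) _ _
      (s.H.charpoly_frob q hqp hqN hqS P hP φ hφ), heig q hqp hqN hqS]
  have hsel := stmtSelOrd 𝒪 p ρbar S Smin hTW Sg q hqp hqSmin hqSg s.D D'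
    (s.πT.comp s.γ) (πT'.comp γ') (ψ q) hsame htr
  -- the new stage
  refine ⟨{ N := R2.lev (R2.next q x), S := (↑(Smin ∪ insert q Sg) : Set ℕ)
            θ := (residue 𝒪).comp χ, T := T, H := H, D := D', γ := γ', πT := πT'
            etaL := R2.J (R2.next q x), γ_surj := hγ's, γ_trace := hγ't, etaT_ne := hne'
            gen := hgen', etaL_ne := R2.J_ne _ hgood' }, s59p_cq 𝒪 q (ψ q), ?_, hsel, ?_⟩
  · exact ⟨hlev', rfl, heig', ⟨hloc', hρ₀'⟩, R2.next q x, rfl, hgood', rfl⟩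
  · rw [hJ]
    exact hJle

end StepOrd

section EndOrd

variable (W : WeierstrassCurve ℤ) (hΔ : W.Δ ≠ 0) (p : ℕ) [hp : Fact p.Prime]

/-- **END, the level** (case (b), `p ∥ N₀`): the conditions of `s59fin_lift` at
`N₀ ∏_{q ∈ Σ_W} q²`. -/
theorem s59topo_levelOK (N0 : ℕ)
    (hN0 : ∀ ℓ : ℕ, ℓ.Prime → (ℓ ∣ N0 ↔ ℓ ∈ s59feSmin W hΔ p)) (hN0sq : Squarefree N0)
    (N : ℕ) (S : Set ℕ) (hN : N = s59tops_level N0 (s59feSigma W hΔ p))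
    (hS : S = (↑(s59feSmin W hΔ p ∪ s59feSigma W hΔ p) : Set ℕ)) :
    s59topw_LevelOK p W N S := by
  classical
  have hpp : p.Prime := hp.out
  have hSgp : ∀ q ∈ s59feSigma W hΔ p, q.Prime := fun q h => s59fe_prime_of_mem_Sigma W hΔ p h
  have hdisj := Finset.disjoint_left.1 (s59fe_disjoint W hΔ p)
  have hpSg : p ∉ s59feSigma W hΔ p := fun h => hdisj (s59fe_p_mem_Smin W hΔ p) h
  have hmemN : ∀ ℓ : ℕ, ℓ ∈ s59feSigma W hΔ p → ℓ ∣ N := by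
    intro ℓ hℓ
    rw [hN]
    have h1 : ℓ ∣ ℓ * ℓ := Dvd.intro ℓ rfl
    have h2 : ℓ * ℓ ∣ ∏ q ∈ s59feSigma W hΔ p, (q * q) :=
      Finset.dvd_prod_of_mem (fun q => q * q) hℓ
    exact Dvd.dvd.mul_left (h1.trans h2) N0
  have hminN : ∀ ℓ : ℕ, ℓ ∈ s59feSmin W hΔ p → ℓ ∣ N := by
    intro ℓ hℓ
    rw [hN]
    exact Dvd.dvd.mul_right ((hN0 ℓ (s59fe_prime_of_mem_Smin W hΔ p hℓ)).2 hℓ) _
  have hp2N : ¬ p ^ 2 ∣ N := by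
    rw [hN]
    exact s59tops_sq_not_dvd_level hN0sq hSgp hpp hpSg
  refine ⟨?_, ?_, ?_, ?_, ?_, ?_⟩
  · intro ℓ hℓ hd
    rw [hS, Finset.mem_coe]
    rw [hN] at hd
    rcases s59tops_prime_dvd_level hSgp hℓ hd with h1 | h1
    · exact Finset.mem_union_left _ ((hN0 ℓ hℓ).1 h1)
    · exact Finset.mem_union_right _ h1
  · intro ℓ hℓ
    rw [hS, Finset.mem_coe] at hℓ
    rcases Finset.mem_union.1 hℓ with h1 | h1
    · exact Or.inr (hminN ℓ h1)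
    · exact Or.inr (hmemN ℓ h1)
  · rw [hS, Finset.mem_coe]
    exact Finset.mem_union_left _ (s59fe_p_mem_Smin W hΔ p)
  · intro ℓ hℓ hbad
    rcases Finset.mem_union.1 (s59fe_bad_mem W hΔ p hℓ hbad) with h1 | h1
    · exact hminN ℓ h1
    · exact hmemN ℓ h1
  · exact hp2N
  · intro q hq h3
    rw [hN] at h3
    by_cases hqSg : q ∈ s59feSigma W hΔ p
    · -- `q ∈ Σ` : `q ∤ N₀`, so `q³ ∣ q² ∏'`, `q ∣ ∏'`
      have hqN0 : ¬ q ∣ N0 := fun hd => hdisj ((hN0 q hq).1 hd) hqSg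
      have hcop : Nat.Coprime (q ^ 3) N0 :=
        Nat.Coprime.pow_left _ ((Nat.Prime.coprime_iff_not_dvd hq).2 hqN0)
      have h4 : q ^ 3 ∣ ∏ q' ∈ s59feSigma W hΔ p, (q' * q') := by
        unfold s59tops_level at h3
        exact hcop.dvd_of_dvd_mul_left h3
      rw [← Finset.mul_prod_erase _ _ hqSg] at h4
      have h5 : q ∣ ∏ q' ∈ (s59feSigma W hΔ p).erase q, (q' * q') := by
        have h6 : q * q * q ∣ q * q * ∏ q' ∈ (s59feSigma W hΔ p).erase q, (q' * q') := by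
          have : q ^ 3 = q * q * q := by ring
          rwa [this] at h4
        exact (Nat.mul_dvd_mul_iff_left (Nat.mul_pos hq.pos hq.pos)).1 h6
      have h7 := s59tops_prime_dvd_prod (fun q' h => hSgp q' (Finset.mem_of_mem_erase h)) hq h5
      exact (Finset.notMem_erase q _) h7
    · have h4 : q ^ 3 ∣ N0 := by
        unfold s59tops_level at h3
        exact (s59tops_coprime_prod hSgp hq hqSg 3).dvd_of_dvd_mul_right h3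
      have h5 : q * q ∣ N0 := Dvd.dvd.trans (Dvd.intro q (by ring)) h4
      exact hq.one_lt.ne' (Nat.isUnit_iff.1 (hN0sq q h5))

end EndOrd

/-- **EVERYTHING that is still owed in case (b)** (`W` multiplicative at `p`, `𝒟 = twOrd`), for
the pairs `(W, p)` with `c W p`, as one Prop; BASE is split into (E-BASE) and (R1 = MIN′). -/
def s59topo_StmtOwedOrd (c : WeierstrassCurve ℤ → ℕ → Prop) : Prop :=
  ∀ (p : ℕ) [Fact p.Prime], (p = 3 ∨ p = 5) → ∀ (W : WeierstrassCurve ℤ) (hΔ : W.Δ ≠ 0),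
    W.IsSemistableModel → W.ModRepIsIrreducible p → c W p →
    ∀ (M₀ : ℕ) [NeZero M₀], W.IsResiduallyModularOfLevel p M₀ → ¬ p ^ 2 ∣ M₀ →
    (∀ q : ℕ, q.Prime → q ≠ p → ¬ q ^ 3 ∣ M₀) →
    ∃ (𝒪 : Type) (_ : CommRing 𝒪) (_ : IsDomain 𝒪) (_ : IsDiscreteValuationRing 𝒪)
      (_ : IsAdicComplete (maximalIdeal 𝒪) 𝒪) (_ : CharZero 𝒪) (_ : Finite (ResidueField 𝒪))
      (φ : ℤ_[p] →+* 𝒪) (hφ : IsLocalHom φ) (N0 : ℕ) (ψ : ℕ → 𝒪) (R2 : S59R2Data 𝒪 p ψ)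
      (ρ₀ : GaloisRepAdic 𝒪),
      (∀ (ι : ZMod p →+* ResidueField 𝒪) (f : (ZMod p)[X]), f.Monic → f.natDegree = 2 →
        ∃ α β : ResidueField 𝒪, f.map ι = (X - C α) * (X - C β)) ∧
      (∀ ℓ : ℕ, ℓ.Prime → (ℓ ∣ N0 ↔ ℓ ∈ s59feSmin W hΔ p)) ∧ Squarefree N0 ∧
      -- (S33-STRICT)
      s59topo_StmtStrict 𝒪 p (s59feBar W hΔ p φ hφ) ∧
      (∀ Q : Finset ℕ, Q ⊆ s59feSigma W hΔ p →
        Nonempty (GaloisRep.DeformationRingData 𝒪 (s59feBar W hΔ p φ hφ)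
          (twOrd 𝒪 p (s59feSmin W hΔ p) Q))) ∧
      (∀ ℓ : ℕ, ℓ.Prime → ℓ ∉ s59feSmin W hΔ p → ¬ ℓ ∣ N0 →
        ∀ P : ValuationSubring (AlgebraicClosure ℚ), P.LiesOverPrime ℓ →
        ∀ τ : AlgebraicClosure ℚ ≃ₐ[ℚ] AlgebraicClosure ℚ, P.IsFrobeniusAt τ ℓ →
          residue 𝒪 (ψ ℓ) = LinearMap.trace (ResidueField 𝒪) (s59feBar W hΔ p φ hφ).V
            ((s59feBar W hΔ p φ hφ).ρ τ)) ∧
      (∀ (S' : Finset ℕ) (ρ₁ : GaloisRepAdic 𝒪), ρ₁.DetIsCyclotomic p →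
        (∀ ℓ : ℕ, ℓ.Prime → ℓ ∉ S' →
          ∀ P : ValuationSubring (AlgebraicClosure ℚ), P.LiesOverPrime ℓ →
          ∀ φ' : AlgebraicClosure ℚ ≃ₐ[ℚ] AlgebraicClosure ℚ, P.IsFrobeniusAt φ' ℓ →
            LinearMap.trace 𝒪 ρ₁.V (ρ₁.ρ φ') = ψ ℓ) → ρ₁.IsEquiv ρ₀) ∧
      -- (E-BIG)
      (∀ Q : Finset ℕ, Q ⊆ s59feSigma W hΔ p → ∀ (N : ℕ) [NeZero N], N = s59tops_level N0 Q →
        ∀ θ : CuspForm.heckeAlgebra N 2 (↑(s59feSmin W hΔ p ∪ Q) : Set ℕ) →+* ResidueField 𝒪,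
          s59p_IsBig 𝒪 N (↑(s59feSmin W hΔ p ∪ Q) : Set ℕ) θ) ∧
      -- (E-BASE)
      (∃ x₀ : R2.X, R2.lev x₀ = N0 ∧ R2.Good x₀) ∧
      -- (R1 = MIN′)
      ∀ s₀ : S59Stage 𝒪 (s59feBar W hΔ p φ hφ) (twOrd 𝒪 p (s59feSmin W hΔ p) ∅),
        s59tops_inv R2 ρ₀ (s59feSmin W hΔ p) N0 ∅ s₀ →
        s₀.lPhi ≤ Module.length 𝒪 (𝒪 ⧸ s₀.etaL)

/-- **CASE (b) ASSEMBLED**: (STAGES) for the pairs `(W, p)` with `c W p` (`W` bad at `p`) from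
what is owed. -/
theorem s59topo_stages_ord (c : WeierstrassCurve ℤ → ℕ → Prop)
    (hc : ∀ W p, c W p → (p : ℤ) ∣ W.Δ) (h : s59topo_StmtOwedOrd c) :
    s59topw_StmtStagesAt c := by
  intro p _ hp W hΔ hW hirr hcW M₀ _ hres hM₀ hM₀3
  obtain ⟨𝒪, i1, i2, i3, i4, i5, i6, φ, hφ, N0, ψ, R2, ρ₀, hK, hN0, hN0sq, hstrict, hD, hψ,
    hcar, hBig, ⟨x₀, hx₀, hg₀⟩, hR1⟩ := h p hp W hΔ hW hirr hcW M₀ hres hM₀ hM₀3
  have hbad : (p : ℤ) ∣ W.Δ := hc W p hcW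
  have hTW : TWHyp 𝒪 p (s59feBar W hΔ p φ hφ) (s59feSmin W hΔ p ∪ s59feSigma W hΔ p)
      (s59feSmin W hΔ p) := s59fe_twHyp_union W hΔ p φ hφ hp hK hW hirr
  have hSW : ∀ q ∈ s59feSigma W hΔ p, q.Prime ∧ q ∉ s59feSmin W hΔ p := fun q hq =>
    ⟨s59fe_prime_of_mem_Sigma W hΔ p hq,
      fun h' => Finset.disjoint_left.1 (s59fe_disjoint W hΔ p) h' hq⟩
  have hlev0 : R2.lev x₀ = s59tops_level N0 ∅ := by
    rw [hx₀]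
    unfold s59tops_level
    rw [Finset.prod_empty, mul_one]
  obtain ⟨s₀, hs₀, -⟩ := s59topo_stage_of_state p (s59feBar W hΔ p φ hφ) _ (s59feSmin W hΔ p)
    (s59feSigma W hΔ p) hTW hSW N0 hN0 hN0sq ψ R2 ρ₀ hstrict hD (s59topg_hdet hTW) hψ hcar hBig ∅
    (Finset.empty_subset _) x₀ hlev0 hg₀
  refine ⟨𝒪, i1, i2, i3, i4, i5, φ, hφ, fun Sg => twOrd 𝒪 p (s59feSmin W hΔ p) Sg,
    fun Sg s => s59tops_inv R2 ρ₀ (s59feSmin W hΔ p) N0 Sg s, s59feSigma W hΔ p,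
    ⟨s₀, hs₀, hR1 s₀ hs₀⟩, ?_, ?_⟩
  · intro Sg q hSg hqW hqSg s hs
    exact s59tops_step_ord p (s59feBar W hΔ p φ hφ) _ (s59feSmin W hΔ p) (s59feSigma W hΔ p)
      hTW hSW N0 hN0 hN0sq ψ R2 ρ₀ hstrict hD (s59topg_hdet hTW) hψ hcar hBig Sg q hSg hqW hqSg
      s hs
  · intro s hs
    exact ⟨s59fe_twOrd W hΔ p φ hφ hW hp hbad,
      s59topo_levelOK W hΔ p N0 hN0 hN0sq s.N s.S hs.1 hs.2.1⟩

end Fermat.Agent.S59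

end
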