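/-
S59, case (a) (W good at p): **ASSEMBLY of the landed top pieces** (helper67).

`s59tasm_owed_good'` : `s59topb_StmtOwedGood'` (S59/TopBase.lean) from

* a1 ✓ `s59tbig_exists_strong` (helper56), a3 ✓ `s59teig_exists_psi`, a7 ✓ `s59tres_hψ_of_resMod`
  (helper80), a8 ✓ `s59tcar_exists` — wired here on ONE coefficient ring `𝒪`,
* S29 ✓ and S22 ✓ as Props (`s59tres_StmtS29`, finiteness of the Hecke algebras),
* and the three OPEN inputs, as explicit Props in the shapes the wiring needs: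
    `s59tasm_StmtMinLevA` (a2 = MINLEV-A; `s59tasm_minLevA_of_walls` : from the four walls),
    `s59tasm_StmtDefCond` (a6 = DEF-COND),
    `s59tasm_StmtR2R1`    (a4 + a5 + a9 = R2-INST, E-BASE, R1 = MIN′), for the `ψ`, `χ₀`, `ρ₀`
                          produced by a3 / a8 (all their properties are given as hypotheses).

`s59tasm_result` : frozen S59 from S58 ✓, these Props, and (STAGES) for `W` bad at `p`.
-/
import Fermat.Agent.S59.TopBase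
import Fermat.Agent.S59.TopBig2
import Fermat.Agent.S59.TopEig
import Fermat.Agent.S59.TopResEig
import Fermat.Agent.S59.TopCar
import Fermat.Agent.S59.TopMinLevW

set_option autoImplicit false
set_option linter.style.haveILetI false
set_option linter.unusedSectionVars false
set_option linter.unusedVariables false
set_option linter.style.longLine false

noncomputable section

namespace Fermat.Agent.S59

open IsLocalRing Polynomial Fermat.Agent.TW Fermat.Agent.S53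

/-- **a2 = MINLEV-A**: `ρ̄_{W,p}` is modular of the base level `N₀ = ∏ (Smin ∖ p)`. -/
def s59tasm_StmtMinLevA : Prop :=
  ∀ (p : ℕ) [Fact p.Prime], (p = 3 ∨ p = 5) → ∀ (W : WeierstrassCurve ℤ) (hΔ : W.Δ ≠ 0),
    W.IsSemistableModel → W.ModRepIsIrreducible p → W.IsGoodPrimeFor p →
    ∀ (M₀ : ℕ) [NeZero M₀], W.IsResiduallyModularOfLevel p M₀ → ¬ p ^ 2 ∣ M₀ →
    (∀ q : ℕ, q.Prime → q ≠ p → ¬ q ^ 3 ∣ M₀) →
    W.IsResiduallyModularOfLevel p (s59topmN0 W hΔ p)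

/-- a2 from the four walls (`s59topm_minlev_good`). -/
theorem s59tasm_minLevA_of_walls (hM1 : s59lsq_StmtWall) (hQ : s59topm_StmtLowQ)
    (hP : s59topm_StmtLowPGood) (hraise : LowQ.s59lq_StmtRaise) : s59tasm_StmtMinLevA := by
  intro p _ hp W hΔ hW hirr hgood M₀ _ hres hM₀ hM₀3
  exact s59topm_minlev_good hM1 hQ hP hraise p hp W hΔ hW hirr hgood M₀
    (Nat.pos_of_ne_zero (NeZero.ne M₀)) hres hM₀ hM₀3

/-- **a6 = DEF-COND**: the universal rings of type `twFlat` exist. -/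
def s59tasm_StmtDefCond : Prop :=
  ∀ (p : ℕ) [Fact p.Prime], (p = 3 ∨ p = 5) → ∀ (W : WeierstrassCurve ℤ) (hΔ : W.Δ ≠ 0),
    W.IsSemistableModel → W.ModRepIsIrreducible p → W.IsGoodPrimeFor p →
    ∀ (𝒪 : Type) [CommRing 𝒪] [IsDomain 𝒪] [IsDiscreteValuationRing 𝒪]
      [IsAdicComplete (maximalIdeal 𝒪) 𝒪] [CharZero 𝒪] [Finite (ResidueField 𝒪)]
      (φ : ℤ_[p] →+* 𝒪) (hφ : IsLocalHom φ),
      TWHyp 𝒪 p (s59feBar W hΔ p φ hφ) (s59feSmin W hΔ p ∪ s59feSigma W hΔ p)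
        (s59feSmin W hΔ p) →
      ∀ Q : Finset ℕ, Q ⊆ s59feSigma W hΔ p →
        Nonempty (GaloisRep.DeformationRingData 𝒪 (s59feBar W hΔ p φ hφ)
          (twFlat 𝒪 p (s59feSmin W hΔ p) Q))

/-- **a4 + a5 + a9 = R2-INST, E-BASE, R1 = MIN′**, for the data produced by a1, a3, a7, a8:
a big `𝒪`, the eigensystem `χ₀`, `ψ ℓ = χ₀ T_ℓ` of a form `(f, 𝔪)` of the base level `N₀`
congruent to `W`, and the base lift `ρ₀`. -/
def s59tasm_StmtR2R1 : Prop :=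
  ∀ (p : ℕ) [Fact p.Prime], (p = 3 ∨ p = 5) → ∀ (W : WeierstrassCurve ℤ) (hΔ : W.Δ ≠ 0),
    W.IsSemistableModel → W.ModRepIsIrreducible p → W.IsGoodPrimeFor p →
    W.IsResiduallyModularOfLevel p (s59topmN0 W hΔ p) →
    ∀ (𝒪 : Type) [CommRing 𝒪] [IsDomain 𝒪] [IsDiscreteValuationRing 𝒪]
      [IsAdicComplete (maximalIdeal 𝒪) 𝒪] [CharZero 𝒪] [Finite (ResidueField 𝒪)]
      (φ : ℤ_[p] →+* 𝒪) (hφ : IsLocalHom φ) [NeZero (s59topmN0 W hΔ p)],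
      Function.Injective φ →
      TWHyp 𝒪 p (s59feBar W hΔ p φ hφ) (s59feSmin W hΔ p ∪ s59feSigma W hΔ p)
        (s59feSmin W hΔ p) →
      -- E-BIG, literal and strong, at all the levels and at the base level
      (∀ Q : Finset ℕ, Q ⊆ s59feSigma W hΔ p → ∀ (N : ℕ) [NeZero N],
        N = s59tops_level (s59topmN0 W hΔ p) Q →
        ∀ θ : CuspForm.heckeAlgebra N 2 (↑(s59feSmin W hΔ p ∪ Q) : Set ℕ) →+* ResidueField 𝒪,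
          s59p_IsBig 𝒪 N (↑(s59feSmin W hΔ p ∪ Q) : Set ℕ) θ) →
      (∀ Q : Finset ℕ, Q ⊆ s59feSigma W hΔ p → ∀ (N : ℕ) [NeZero N],
        N = s59tops_level (s59topmN0 W hΔ p) Q →
        ∀ (B : Type) [CommRing B] [IsDomain B] [Algebra 𝒪 B]
          (χ : CuspForm.heckeAlgebra N 2 (↑(s59feSmin W hΔ p ∪ Q) : Set ℕ) →+* B)
          (t : CuspForm.heckeAlgebra N 2 (↑(s59feSmin W hΔ p ∪ Q) : Set ℕ)),
          χ t ∈ Set.range (algebraMap 𝒪 B)) →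
      (∀ (B : Type) [CommRing B] [IsDomain B] [Algebra 𝒪 B]
        (χ : CuspForm.heckeAlgebra (s59topmN0 W hΔ p) 2 (↑(s59feSmin W hΔ p) : Set ℕ) →+* B)
        (t : CuspForm.heckeAlgebra (s59topmN0 W hΔ p) 2 (↑(s59feSmin W hΔ p) : Set ℕ)),
        χ t ∈ Set.range (algebraMap 𝒪 B)) →
      -- the base form and its eigensystem
      ∀ (f : CuspForm (CongruenceSubgroup.Gamma0 (s59topmN0 W hΔ p)) 2)
        (𝔪 : Ideal (integralClosure ℤ ℂ)), f.IsNormalizedEigenform → 𝔪.IsMaximal →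
        (p : integralClosure ℤ ℂ) ∈ 𝔪 →
        (∀ ℓ : ℕ, ℓ.Prime → W.IsGoodPrimeFor ℓ → ¬ ℓ ∣ s59topmN0 W hΔ p → ℓ ≠ p →
          ∃ a : integralClosure ℤ ℂ, (a : ℂ) = ModularFormClass.qCoeff f ℓ ∧
            a - ((W.apOfModel ℓ : ℤ) : integralClosure ℤ ℂ) ∈ 𝔪) →
      ∀ (ψ : ℕ → 𝒪)
        (χ₀ : CuspForm.heckeAlgebra (s59topmN0 W hΔ p) 2 (↑(s59feSmin W hΔ p) : Set ℕ) →+* 𝒪),
        (∀ (ℓ : ℕ) (hℓ : ℓ.Prime) (hℓN : ¬ ℓ ∣ s59topmN0 W hΔ p)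
          (hℓS : ℓ ∉ (↑(s59feSmin W hΔ p) : Set ℕ)),
          χ₀ (CuspForm.heckeAlgebra.T hℓ hℓN hℓS) = ψ ℓ) →
        (∀ ℓ : ℕ, ℓ.Prime → ¬ ℓ ∣ s59topmN0 W hΔ p → ℓ ∉ (↑(s59feSmin W hΔ p) : Set ℕ) →
          ∀ (a : integralClosure ℤ ℂ) (n : ℤ), (a : ℂ) = ModularFormClass.qCoeff f ℓ →
          a - (n : integralClosure ℤ ℂ) ∈ 𝔪 → residue 𝒪 (ψ ℓ) = (n : ResidueField 𝒪)) →
        (∀ ℓ : ℕ, ℓ.Prime → ℓ ∉ s59feSmin W hΔ p → ¬ ℓ ∣ s59topmN0 W hΔ p →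
          ∀ P : ValuationSubring (AlgebraicClosure ℚ), P.LiesOverPrime ℓ →
          ∀ τ : AlgebraicClosure ℚ ≃ₐ[ℚ] AlgebraicClosure ℚ, P.IsFrobeniusAt τ ℓ →
            residue 𝒪 (ψ ℓ) = LinearMap.trace (ResidueField 𝒪) (s59feBar W hΔ p φ hφ).V
              ((s59feBar W hΔ p φ hφ).ρ τ)) →
      -- the base lift
      ∀ ρ₀ : GaloisRepAdic 𝒪, ρ₀.residual.IsAbsolutelyIrreducible → ρ₀.DetIsCyclotomic p →
        (∀ ℓ : ℕ, ℓ.Prime → ℓ ∉ s59feSmin W hΔ p →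
          ∀ P : ValuationSubring (AlgebraicClosure ℚ), P.LiesOverPrime ℓ →
          ∀ φ' : AlgebraicClosure ℚ ≃ₐ[ℚ] AlgebraicClosure ℚ, P.IsFrobeniusAt φ' ℓ →
            LinearMap.trace 𝒪 ρ₀.V (ρ₀.ρ φ') = ψ ℓ) →
        (∀ q : ℕ, q.Prime → ¬ q ∣ s59topmN0 W hΔ p * p → ρ₀.IsUnramifiedAt q) →
        (∀ (S' : Finset ℕ) (ρ₁ : GaloisRepAdic 𝒪), ρ₁.DetIsCyclotomic p →
          (∀ ℓ : ℕ, ℓ.Prime → ℓ ∉ S' →
            ∀ P : ValuationSubring (AlgebraicClosure ℚ), P.LiesOverPrime ℓ →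
            ∀ φ' : AlgebraicClosure ℚ ≃ₐ[ℚ] AlgebraicClosure ℚ, P.IsFrobeniusAt φ' ℓ →
              LinearMap.trace 𝒪 ρ₁.V (ρ₁.ρ φ') = ψ ℓ) → ρ₁.IsEquiv ρ₀) →
      ∃ R2 : S59R2Data 𝒪 p ψ,
        (∃ x₀ : R2.X, R2.lev x₀ = s59topmN0 W hΔ p ∧ R2.Good x₀) ∧
        ∀ s₀ : S59Stage 𝒪 (s59feBar W hΔ p φ hφ) (twFlat 𝒪 p (s59feSmin W hΔ p) ∅),
          s59tops_inv R2 ρ₀ (s59feSmin W hΔ p) (s59topmN0 W hΔ p) ∅ s₀ →
          s₀.lPhi ≤ Module.length 𝒪 (𝒪 ⧸ s₀.etaL)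

/-- **Case (a), assembled**: what is owed in case (a) from S29 ✓, S22 ✓ and the three open
inputs a2, a6, a4 + a5 + a9. -/
theorem s59tasm_owed_good' (hS29 : s59tres_StmtS29)
    (hfin : ∀ (N : ℕ) [NeZero N] (S : Set ℕ), Module.Finite ℤ (CuspForm.heckeAlgebra N 2 S))
    (hMin : s59tasm_StmtMinLevA) (hDef : s59tasm_StmtDefCond) (hR : s59tasm_StmtR2R1) :
    s59topb_StmtOwedGood' := by
  intro p _ hp W hΔ hW hirr hgood M₀ _ hres hM₀ hM₀3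
  classical
  have hpp : p.Prime := Fact.out
  -- the base level
  have hN0ne : s59topmN0 W hΔ p ≠ 0 := s59topm_N0_ne_zero W hΔ p
  haveI : NeZero (s59topmN0 W hΔ p) := ⟨hN0ne⟩
  have hN0 : ∀ ℓ : ℕ, ℓ.Prime → (ℓ ∣ s59topmN0 W hΔ p ↔ ℓ ∈ s59feSmin W hΔ p ∧ ℓ ≠ p) :=
    fun ℓ hℓ => s59topm_N0_dvd_iff W hΔ p ℓ hℓ
  have hNS : ∀ q : ℕ, q.Prime → q ∣ s59topmN0 W hΔ p → q ∈ s59feSmin W hΔ p :=
    fun q hq hd => ((hN0 q hq).1 hd).1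
  have hpSmin : p ∈ s59feSmin W hΔ p := s59fe_p_mem_Smin W hΔ p
  -- a2
  have hres0 : W.IsResiduallyModularOfLevel p (s59topmN0 W hΔ p) :=
    hMin p hp W hΔ hW hirr hgood M₀ hres hM₀ hM₀3
  -- a1
  obtain ⟨𝒪, i1, i2, i3, i4, i5, i6, φ, hφ, hinj, hp𝒪, hK, hBig, hStrong, -, hStrong0⟩ :=
    s59tbig_exists_strong p hfin (s59topmN0 W hΔ p) (s59feSmin W hΔ p) (s59feSigma W hΔ p)
      (fun q hq => (s59fe_prime_of_mem_Sigma W hΔ p hq).ne_zero)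
  have hTW : TWHyp 𝒪 p (s59feBar W hΔ p φ hφ) (s59feSmin W hΔ p ∪ s59feSigma W hΔ p)
      (s59feSmin W hΔ p) := s59fe_twHyp_union W hΔ p φ hφ hp hK hW hirr
  -- a7, first half: the base form
  obtain ⟨f, 𝔪, hf, h𝔪, hp𝔪, hcong, hψ_of⟩ :=
    s59tres_hψ_of_resMod W hΔ p φ hφ hS29 (s59feSmin W hΔ p) hpSmin (s59topmN0 W hΔ p) hN0ne
      hres0
  -- a3
  obtain ⟨χ₀, ψ, hχ₀, hψ0⟩ := s59teig_exists_psi p hp𝒪 (s59topmN0 W hΔ p)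
    (↑(s59feSmin W hΔ p) : Set ℕ) (fun q hq hd => Finset.mem_coe.2 (hNS q hq hd)) hStrong0 f hf
    𝔪 h𝔪 hp𝔪
  -- a7
  have hψ := hψ_of ψ (fun ℓ hℓ hℓN hℓS a n ha hn =>
    hψ0 ℓ hℓ hℓN (fun h => hℓS (Finset.mem_coe.1 h)) a n ha hn)
  -- a8
  obtain ⟨ρ₀, habs₀, hdet₀, htr₀, hunr₀, hcar⟩ := s59tcar_exists p hTW.hp2 hTW.hp𝒪
    (s59feBar W hΔ p φ hφ) hTW.habs (s59feSmin W hΔ p) hpSmin (s59topmN0 W hΔ p) hNS ψ χ₀ hχ₀
    (s59topg_hdet hTW) hψ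
  -- a6
  have hD := hDef p hp W hΔ hW hirr hgood 𝒪 φ hφ hTW
  -- a4 + a5 + a9
  obtain ⟨R2, hbase, hR1⟩ := hR p hp W hΔ hW hirr hgood hres0 𝒪 φ hφ hinj hTW hBig hStrong
    hStrong0 f 𝔪 hf h𝔪 hp𝔪 hcong ψ χ₀ hχ₀ hψ0 hψ ρ₀ habs₀ hdet₀ htr₀ hunr₀ hcar
  exact ⟨𝒪, i1, i2, i3, i4, i5, i6, φ, hφ, s59topmN0 W hΔ p, ψ, R2, ρ₀, hK, hN0,
    s59topm_N0_squarefree W hΔ p, hD, hψ, hcar, hBig, hbase, hR1⟩

/-- **S59 from the assembled case (a)** and (STAGES) for `W` bad at `p`. -/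
theorem s59tasm_result (h58 : s59p_StmtS58) (hS29 : s59tres_StmtS29)
    (hfin : ∀ (N : ℕ) [NeZero N] (S : Set ℕ), Module.Finite ℤ (CuspForm.heckeAlgebra N 2 S))
    (hMin : s59tasm_StmtMinLevA) (hDef : s59tasm_StmtDefCond) (hR : s59tasm_StmtR2R1)
    (hb : s59topw_StmtStagesAt fun W p => ¬ W.IsGoodPrimeFor p)
    (p : ℕ) (hp : p = 3 ∨ p = 5)
    (W : WeierstrassCurve ℤ) (hΔ : W.Δ ≠ 0) (hW : W.IsSemistableModel)
    (hirr : W.ModRepIsIrreducible p)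
    (M₀ : ℕ) [NeZero M₀] (hres₀ : W.IsResiduallyModularOfLevel p M₀)
    (hM₀ : ¬ p ^ 2 ∣ M₀)
    (hM₀3 : ∀ q : ℕ, q.Prime → q ≠ p → ¬ q ^ 3 ∣ M₀) :
    Mlc1IsModularModelOfExactConductorLevel W :=
  s59topb_result h58 (s59tasm_owed_good' hS29 hfin hMin hDef hR) hb p hp W hΔ hW hirr M₀ hres₀
    hM₀ hM₀3

end Fermat.Agent.S59

end
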