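/-
S59, piece R3 = TOP, case (b) (helper80): the conjunct **S33-STRICT** of `s59topo_StmtOwedOrd`
(`S59/TopOrd.lean`), DISCHARGED from helper43's `s59st_datum` (`S59/Strict/Datum.lean`).

* `s59topos_ord_of_isEquiv`, `s59topos_ord_baseChange` : transport of
  `(ofResidualGaloisRep ρ̄).IsOrdinaryAt p` along equivalences / extensions of the coefficient field;
* **`s59topos_strict`** : `(ofResidualGaloisRep ρ̄).IsOrdinaryAt p → s59stTresBar ρ̄ p →
  s59topo_StmtStrict 𝒪 p ρ̄`;
* `s59topos_strict_of_not_peu` : the same from `¬ s59psPeuTriv (ofResidualGaloisRep ρ̄) p`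
  (the case split (b)/(c) proposed by helper43).
-/
import Fermat.Agent.S59.TopOrd
import Fermat.Agent.S59.Strict.Datum
import Fermat.Agent.TW.BC
import Fermat.Agent.TW.Res

set_option autoImplicit false
set_option linter.style.haveILetI false
set_option linter.unusedSectionVars false
set_option linter.unusedVariables false
set_option linter.style.longLine false

noncomputable section

namespace Fermat.Agent.S59

open IsLocalRing Polynomial Fermat.Agent.TW Fermat.Agent.S53

section Transport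

variable {k : Type} [Field k]

/-- an equivalence of residual representations, as an equivalence of adic representations -/
theorem s59topos_isEquiv_adic {ρ₁ ρ₂ : ResidualGaloisRep k} (e : ρ₁.IsEquiv ρ₂) :
    (GaloisRepAdic.ofResidualGaloisRep ρ₁).IsEquiv (GaloisRepAdic.ofResidualGaloisRep ρ₂) := by
  obtain ⟨e⟩ := e
  exact ⟨⟨e.toLinearEquiv, e.map_apply⟩⟩

/-- `IsOrdinaryAt` is invariant under equivalences of residual representations -/
theorem s59topos_ord_of_isEquiv {p : ℕ} {ρ₁ ρ₂ : ResidualGaloisRep k} (e : ρ₁.IsEquiv ρ₂)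
    (h : (GaloisRepAdic.ofResidualGaloisRep ρ₁).IsOrdinaryAt p) :
    (GaloisRepAdic.ofResidualGaloisRep ρ₂).IsOrdinaryAt p :=
  tweq_isOrdinaryAt (s59topos_isEquiv_adic e) p h

/-- `IsOrdinaryAt` is stable under extension of the coefficient field -/
theorem s59topos_ord_baseChange {p : ℕ} {k' : Type} [Field k'] (φ : k →+* k')
    (ρbar : ResidualGaloisRep k) (h : (GaloisRepAdic.ofResidualGaloisRep ρbar).IsOrdinaryAt p) :
    (GaloisRepAdic.ofResidualGaloisRep (ρbar.baseChangeAlong φ)).IsOrdinaryAt p := by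
  have hφ : IsLocalHom φ := ⟨fun a ha => by
    have ha0 : a ≠ 0 := by
      rintro rfl
      rw [map_zero] at ha
      exact not_isUnit_zero ha
    exact isUnit_iff_ne_zero.2 ha0⟩
  exact twbc_isOrdinaryAt φ hφ (GaloisRepAdic.ofResidualGaloisRep ρbar) p h

end Transport

section Strict

variable {𝒪 : Type} [CommRing 𝒪] [IsDomain 𝒪] [IsDiscreteValuationRing 𝒪]
  [IsAdicComplete (maximalIdeal 𝒪) 𝒪] [Finite (ResidueField 𝒪)] [CharZero 𝒪]

/-- **S33-STRICT in the shape of `S59/TopOrd.lean`**, from `s59st_datum`. -/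
theorem s59topos_strict {p : ℕ} (hp : p.Prime) (hp2 : p ≠ 2) (hp𝒪 : (p : 𝒪) ∈ maximalIdeal 𝒪)
    (ρbar : ResidualGaloisRep (ResidueField 𝒪))
    (hord : (GaloisRepAdic.ofResidualGaloisRep ρbar).IsOrdinaryAt p)
    (htres : s59stTresBar ρbar p) : s59topo_StmtStrict 𝒪 p ρbar := by
  intro N _ S θ T _ _ _ _ _ _ _ _ H hpS hNS hpN hp2N hdet hres
  have hres' : (ρbar.baseChangeAlong (ResidueField.map (algebraMap 𝒪 T))).IsEquiv H.ρ.residual := by
    obtain ⟨e⟩ := hres
    exact ⟨e.symm⟩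
  exact s59st_datum hp hp2 hp𝒪 ⟨hpN, hp2N⟩ hNS H
    (s59topos_ord_of_isEquiv hres' (s59topos_ord_baseChange _ ρbar hord))
    (s59st_tresBar_of_isEquiv hres' (s59st_tresBar_baseChange _ ρbar htres))

/-- the same from "not peu ramifié" (M5's condition fails). -/
theorem s59topos_strict_of_not_peu {p : ℕ} (hp : p.Prime) (hp2 : p ≠ 2)
    (hp𝒪 : (p : 𝒪) ∈ maximalIdeal 𝒪) (ρbar : ResidualGaloisRep (ResidueField 𝒪))
    (hord : (GaloisRepAdic.ofResidualGaloisRep ρbar).IsOrdinaryAt p)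
    (hpeu : ¬ s59psPeuTriv (GaloisRepAdic.ofResidualGaloisRep ρbar) p) :
    s59topo_StmtStrict 𝒪 p ρbar :=
  s59topos_strict hp hp2 hp𝒪 ρbar hord (s59st_tresBar_of_not_peuTriv hp ρbar hpeu)

end Strict

/-! ### The curve `W` -/

section Curve

open Fermat.Agent.EC

variable {A : Type} [CommRing A] [IsLocalRing A]

/-- the residual representation of an ordinary representation is ordinary -/
theorem s59topos_ord_residual (ρ : GaloisRepAdic A) (p : ℕ) (h : ρ.IsOrdinaryAt p) :
    (GaloisRepAdic.ofResidualGaloisRep ρ.residual).IsOrdinaryAt p := by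
  have hloc : IsLocalHom (residue A) := inferInstance
  exact twbc_isOrdinaryAt (residue A) hloc ρ p h

variable (W : WeierstrassCurve ℤ) (hΔ : W.Δ ≠ 0) (p : ℕ) [hp : Fact p.Prime]
variable {𝒪 : Type} [CommRing 𝒪] [IsDomain 𝒪] [IsDiscreteValuationRing 𝒪]
  [IsAdicComplete (maximalIdeal 𝒪) 𝒪] [Finite (ResidueField 𝒪)] [CharZero 𝒪]
  (φ : ℤ_[p] →+* 𝒪) (hφ : IsLocalHom φ)

/-- `ρ̄_W` is ordinary at a prime `p ∈ {3, 5}` of multiplicative reduction -/
theorem s59topos_ordBar (hss : W.IsSemistableModel) (hp35 : p = 3 ∨ p = 5)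
    (hbad : (p : ℤ) ∣ W.Δ) :
    (GaloisRepAdic.ofResidualGaloisRep (s59feBar W hΔ p φ hφ)).IsOrdinaryAt p :=
  s59topos_ord_baseChange _ _ (s59topos_ord_residual _ p
    (tateRepInt_isStrictOrdinaryAt W hΔ p hp35 hbad (hss p hp.out hbad)).isOrdinaryAt)

/-- **S33-STRICT for the curve `W`** (case (b)): the conjunct `s59topo_StmtStrict` of
`s59topo_StmtOwedOrd`, from "ρ̄_W is not peu ramifié at `p`". -/
theorem s59topos_strict_W (hss : W.IsSemistableModel) (hp35 : p = 3 ∨ p = 5)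
    (hbad : (p : ℤ) ∣ W.Δ)
    (hpeu : ¬ s59psPeuTriv (GaloisRepAdic.ofResidualGaloisRep (s59feBar W hΔ p φ hφ)) p) :
    s59topo_StmtStrict 𝒪 p (s59feBar W hΔ p φ hφ) := by
  have hp2 : p ≠ 2 := by rcases hp35 with rfl | rfl <;> decide
  exact s59topos_strict_of_not_peu hp.out hp2 (s59fe_p_mem p φ hφ) _
    (s59topos_ordBar W hΔ p φ hφ hss hp35 hbad) hpeu

end Curve

end Fermat.Agent.S59

end
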