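/-
S59, piece SEL / AUG (helper32): the cotangent space of an augmented `𝒪`-algebra.  Mathlib only
(+ the definition `s59selPhiN` of `S59/SelPlan2.lean`).

`𝒪` a commutative ring, `A` a commutative `𝒪`-algebra, `x : A →ₐ[𝒪] 𝒪`, `𝔭 = ker x`,
`Φ = 𝔭.Cotangent` with the `𝒪`-module structure used by `s59p_phiLen`.

* (A1) `s59selaug_toCotangent_smul_alg` : `toCotangent (a • r) = x a • toCotangent r`
       (`s59selaug_toCotangent_mul_left` : element form; `s59selaug_toCotangent_smul` : `a ∈ 𝒪`);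
* (A2) `s59selaug_toCotangent_mul` : `toCotangent ⟨r * s, _⟩ = 0` for `r, s ∈ 𝔭`;
* (A3) `s59selaug_finite` : `Φ` is finite over `𝒪` if `A` is noetherian;
* the universal derivation `s59selaugD x : A →ₗ[𝒪] Φ`, `a ↦ [a - x a]`, with the Leibniz rule
  `s59selaugD_mul` and `s59selaugD_of_mem` (`= toCotangent` on `𝔭`);
* (A4) `s59selaug_toCotangent_mem` : `r ∈ 𝔭 ∩ 𝔪_A ^ (n + 1) ⇒ [r] ∈ 𝔪_𝒪 ^ n Φ` (`x` local);
       `s59selaugD_mem` the same for the universal derivation, `s59selaug_map_pow_mem`;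
* (A5) `s59selaug_phiN_span` : `s59selPhiN 𝒪 x (Ideal.span S)` is the `𝒪`-span of the classes of
       the elements of `S` (`S ⊆ 𝔭`); `s59selaug_mem_span`; `s59selaug_phiN_mono`;
* (A6) `s59selaug_length_add` : `length M = length (M ⧸ N) + length N`.
-/
import Fermat.Agent.S59.SelPlan2

set_option autoImplicit false

namespace Fermat.Agent.S59

open IsLocalRing

section Aug

variable {𝒪 : Type} [CommRing 𝒪] {A : Type} [CommRing A] [Algebra 𝒪 A] (x : A →ₐ[𝒪] 𝒪)

/-- `a - x a ∈ ker x` -/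
theorem s59selaug_sub_mem (a : A) : a - algebraMap 𝒪 A (x a) ∈ RingHom.ker (x : A →+* 𝒪) := by
  rw [RingHom.mem_ker]
  show x (a - algebraMap 𝒪 A (x a)) = 0
  rw [map_sub, AlgHom.commutes, Algebra.algebraMap_self_apply, sub_self]

/-- the `𝒪`-action on the cotangent space is the action through `algebraMap` -/
theorem s59selaug_toCotangent_smul (c : 𝒪) (r : RingHom.ker (x : A →+* 𝒪)) :
    (RingHom.ker (x : A →+* 𝒪)).toCotangent (c • r) =
      c • (RingHom.ker (x : A →+* 𝒪)).toCotangent r :=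
  LinearMap.map_smul_of_tower _ c r

/-- **(A2)** products of two elements of `ker x` die in the cotangent space -/
theorem s59selaug_toCotangent_mul {r s : A} (hr : r ∈ RingHom.ker (x : A →+* 𝒪))
    (hs : s ∈ RingHom.ker (x : A →+* 𝒪)) :
    (RingHom.ker (x : A →+* 𝒪)).toCotangent ⟨r * s, Ideal.mul_mem_right _ _ hr⟩ = 0 := by
  rw [Ideal.toCotangent_eq_zero, pow_two]
  exact Ideal.mul_mem_mul hr hs

/-- **(A1)** `toCotangent (a • r) = x a • toCotangent r` -/
theorem s59selaug_toCotangent_smul_alg (a : A) (r : RingHom.ker (x : A →+* 𝒪)) :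
    (RingHom.ker (x : A →+* 𝒪)).toCotangent (a • r) =
      x a • (RingHom.ker (x : A →+* 𝒪)).toCotangent r := by
  rw [← s59selaug_toCotangent_smul, Ideal.toCotangent_eq, pow_two]
  have h : ((a • r - x a • r : RingHom.ker (x : A →+* 𝒪)) : A) =
      (a - algebraMap 𝒪 A (x a)) * (r : A) := by
    simp [Algebra.smul_def, sub_mul]
  have h' : ((a • r : RingHom.ker (x : A →+* 𝒪)) : A) - ((x a • r : RingHom.ker (x : A →+* 𝒪)) : A) =
      (a - algebraMap 𝒪 A (x a)) * (r : A) := by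
    simpa using h
  rw [h']
  exact Ideal.mul_mem_mul (s59selaug_sub_mem x a) r.2

/-- **(A1)**, element form: `toCotangent ⟨a * r, _⟩ = x a • toCotangent ⟨r, _⟩` -/
theorem s59selaug_toCotangent_mul_left (a : A) {r : A} (hr : r ∈ RingHom.ker (x : A →+* 𝒪)) :
    (RingHom.ker (x : A →+* 𝒪)).toCotangent ⟨a * r, Ideal.mul_mem_left _ a hr⟩ =
      x a • (RingHom.ker (x : A →+* 𝒪)).toCotangent ⟨r, hr⟩ :=
  s59selaug_toCotangent_smul_alg x a ⟨r, hr⟩

/-- the classes of the elements of an ideal generated by a subset `S` of `ker x` lie in the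
`𝒪`-span of the classes of the elements of `S` -/
theorem s59selaug_mem_span (S : Set A) (hS : S ⊆ RingHom.ker (x : A →+* 𝒪)) {r : A}
    (hrS : r ∈ Ideal.span S) :
    ∃ hr : r ∈ RingHom.ker (x : A →+* 𝒪),
      (RingHom.ker (x : A →+* 𝒪)).toCotangent ⟨r, hr⟩ ∈
        Submodule.span 𝒪 {y | ∃ (s : A) (hs : s ∈ RingHom.ker (x : A →+* 𝒪)), s ∈ S ∧
          y = (RingHom.ker (x : A →+* 𝒪)).toCotangent ⟨s, hs⟩} := by
  induction hrS using Submodule.span_induction with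
  | mem s hs => exact ⟨hS hs, Submodule.subset_span ⟨s, hS hs, hs, rfl⟩⟩
  | zero =>
    refine ⟨zero_mem _, ?_⟩
    have : (⟨0, zero_mem _⟩ : RingHom.ker (x : A →+* 𝒪)) = 0 := rfl
    rw [this, map_zero]
    exact zero_mem _
  | add a b _ _ iha ihb =>
    obtain ⟨ha, ha'⟩ := iha
    obtain ⟨hb, hb'⟩ := ihb
    refine ⟨add_mem ha hb, ?_⟩
    have : (⟨a + b, add_mem ha hb⟩ : RingHom.ker (x : A →+* 𝒪)) = ⟨a, ha⟩ + ⟨b, hb⟩ := rfl
    rw [this, map_add]
    exact add_mem ha' hb'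
  | smul c a _ iha =>
    obtain ⟨ha, ha'⟩ := iha
    refine ⟨Ideal.mul_mem_left _ c ha, ?_⟩
    have h := s59selaug_toCotangent_mul_left x c ha
    have e : (⟨c • a, Ideal.mul_mem_left _ c ha⟩ : RingHom.ker (x : A →+* 𝒪)) =
        ⟨c * a, Ideal.mul_mem_left _ c ha⟩ := rfl
    rw [e, h]
    exact Submodule.smul_mem _ _ ha'

/-- **(A3)** the cotangent space of an augmentation of a noetherian algebra is finite over `𝒪` -/
theorem s59selaug_finite [IsNoetherianRing A] :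
    Module.Finite 𝒪 (RingHom.ker (x : A →+* 𝒪)).Cotangent := by
  classical
  obtain ⟨S, hS⟩ := (isNoetherianRing_iff_ideal_fg A).1 inferInstance (RingHom.ker (x : A →+* 𝒪))
  have hSsub : (S : Set A) ⊆ RingHom.ker (x : A →+* 𝒪) := by
    intro s hs
    rw [← hS]
    exact Ideal.subset_span hs
  refine ⟨⟨S.attach.image fun s => (RingHom.ker (x : A →+* 𝒪)).toCotangent
    ⟨s.1, hSsub s.2⟩, ?_⟩⟩
  rw [eq_top_iff]
  rintro y -
  obtain ⟨⟨r, hr⟩, rfl⟩ := Ideal.toCotangent_surjective _ y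
  have hrS : r ∈ Ideal.span (S : Set A) := by rw [hS]; exact hr
  obtain ⟨hr', hmem⟩ := s59selaug_mem_span x (S : Set A) hSsub hrS
  refine Submodule.span_mono ?_ hmem
  rintro _ ⟨s, hs, hsS, rfl⟩
  rw [Finset.coe_image]
  exact ⟨⟨s, hsS⟩, by simp, rfl⟩

/-- the universal derivation `a ↦ [a - x a]` of an augmented algebra -/
def s59selaugD : A →ₗ[𝒪] (RingHom.ker (x : A →+* 𝒪)).Cotangent where
  toFun a := (RingHom.ker (x : A →+* 𝒪)).toCotangent ⟨a - algebraMap 𝒪 A (x a),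
    s59selaug_sub_mem x a⟩
  map_add' a b := by
    rw [← map_add]
    congr 1
    apply Subtype.ext
    simp only [map_add, Submodule.coe_add]
    ring
  map_smul' c a := by
    rw [RingHom.id_apply, ← s59selaug_toCotangent_smul]
    congr 1
    apply Subtype.ext
    show c • a - algebraMap 𝒪 A (x (c • a)) = c • (a - algebraMap 𝒪 A (x a))
    rw [map_smul, smul_eq_mul, map_mul, Algebra.smul_def, Algebra.smul_def, mul_sub]

theorem s59selaugD_apply (a : A) :
    s59selaugD x a = (RingHom.ker (x : A →+* 𝒪)).toCotangent ⟨a - algebraMap 𝒪 A (x a),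
      s59selaug_sub_mem x a⟩ := rfl

theorem s59selaugD_of_mem {r : A} (hr : r ∈ RingHom.ker (x : A →+* 𝒪)) :
    s59selaugD x r = (RingHom.ker (x : A →+* 𝒪)).toCotangent ⟨r, hr⟩ := by
  rw [s59selaugD_apply]
  congr 1
  apply Subtype.ext
  have h0 : x r = 0 := hr
  simp [h0]

/-- the Leibniz rule -/
theorem s59selaugD_mul (a b : A) :
    s59selaugD x (a * b) = x a • s59selaugD x b + x b • s59selaugD x a := by
  have e : a * b - algebraMap 𝒪 A (x (a * b)) =
      (a - algebraMap 𝒪 A (x a)) * (b - algebraMap 𝒪 A (x b)) +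
        (algebraMap 𝒪 A (x a) * (b - algebraMap 𝒪 A (x b)) +
          algebraMap 𝒪 A (x b) * (a - algebraMap 𝒪 A (x a))) := by
    rw [map_mul, map_mul]
    ring
  have h1 := s59selaug_toCotangent_mul x (s59selaug_sub_mem x a) (s59selaug_sub_mem x b)
  have h2 := s59selaug_toCotangent_mul_left x (algebraMap 𝒪 A (x a)) (s59selaug_sub_mem x b)
  have h3 := s59selaug_toCotangent_mul_left x (algebraMap 𝒪 A (x b)) (s59selaug_sub_mem x a)
  rw [AlgHom.commutes, Algebra.algebraMap_self_apply] at h2 h3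
  have e' : (⟨a * b - algebraMap 𝒪 A (x (a * b)), s59selaug_sub_mem x (a * b)⟩ :
      RingHom.ker (x : A →+* 𝒪)) =
      ⟨(a - algebraMap 𝒪 A (x a)) * (b - algebraMap 𝒪 A (x b)),
          Ideal.mul_mem_right _ _ (s59selaug_sub_mem x a)⟩ +
        (⟨algebraMap 𝒪 A (x a) * (b - algebraMap 𝒪 A (x b)),
            Ideal.mul_mem_left _ _ (s59selaug_sub_mem x b)⟩ +
          ⟨algebraMap 𝒪 A (x b) * (a - algebraMap 𝒪 A (x a)),
            Ideal.mul_mem_left _ _ (s59selaug_sub_mem x a)⟩) :=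
    Subtype.ext e
  rw [s59selaugD_apply, e', map_add, map_add, h1, h2, h3, zero_add]
  rfl

section Local

variable [IsLocalRing 𝒪] [IsLocalRing A] [IsLocalHom (x : A →+* 𝒪)]

theorem s59selaug_map_maximalIdeal_le :
    Ideal.map (x : A →+* 𝒪) (maximalIdeal A) ≤ maximalIdeal 𝒪 :=
  ((IsLocalRing.local_hom_TFAE (x : A →+* 𝒪)).out 0 2).mp ‹IsLocalHom (x : A →+* 𝒪)›

/-- an augmentation which is a local homomorphism maps `𝔪_A ^ k` into `𝔪_𝒪 ^ k` -/
theorem s59selaug_map_pow_mem {k : ℕ} {a : A} (ha : a ∈ maximalIdeal A ^ k) :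
    x a ∈ maximalIdeal 𝒪 ^ k := by
  have h1 : (x : A →+* 𝒪) a ∈ Ideal.map (x : A →+* 𝒪) (maximalIdeal A ^ k) :=
    Ideal.mem_map_of_mem _ ha
  rw [Ideal.map_pow] at h1
  exact Ideal.pow_right_mono (s59selaug_map_maximalIdeal_le x) k h1

/-- the universal derivation maps `𝔪_A ^ (n + 1)` into `𝔪_𝒪 ^ n Φ` -/
theorem s59selaugD_mem (n : ℕ) {a : A} (ha : a ∈ maximalIdeal A ^ (n + 1)) :
    s59selaugD x a ∈ (maximalIdeal 𝒪 ^ n) •
      (⊤ : Submodule 𝒪 (RingHom.ker (x : A →+* 𝒪)).Cotangent) := by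
  induction n generalizing a with
  | zero =>
    rw [pow_zero, Ideal.one_eq_top, Submodule.top_smul]
    exact Submodule.mem_top
  | succ n ih =>
    rw [pow_succ] at ha
    refine Submodule.mul_induction_on ha ?_ ?_
    · intro b hb c hc
      rw [s59selaugD_mul]
      refine add_mem ?_ ?_
      · exact Submodule.smul_mem_smul (s59selaug_map_pow_mem x hb) Submodule.mem_top
      · have hc' : x c ∈ maximalIdeal 𝒪 := by
          have := s59selaug_map_pow_mem x (k := 1) (a := c) (by rwa [pow_one])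
          rwa [pow_one] at this
        have h1 : x c • s59selaugD x b ∈ maximalIdeal 𝒪 • ((maximalIdeal 𝒪 ^ n) •
            (⊤ : Submodule 𝒪 (RingHom.ker (x : A →+* 𝒪)).Cotangent)) :=
          Submodule.smul_mem_smul hc' (ih hb)
        rwa [← mul_smul, ← pow_succ'] at h1
    · intro b c hb hc
      rw [map_add]
      exact add_mem hb hc

/-- **(A4)** the class of an element of `ker x ∩ 𝔪_A ^ (n + 1)` lies in `𝔪_𝒪 ^ n Φ` -/
theorem s59selaug_toCotangent_mem (n : ℕ) {r : A} (hr : r ∈ RingHom.ker (x : A →+* 𝒪))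
    (hrn : r ∈ maximalIdeal A ^ (n + 1)) :
    (RingHom.ker (x : A →+* 𝒪)).toCotangent ⟨r, hr⟩ ∈ (maximalIdeal 𝒪 ^ n) •
      (⊤ : Submodule 𝒪 (RingHom.ker (x : A →+* 𝒪)).Cotangent) := by
  rw [← s59selaugD_of_mem x hr]
  exact s59selaugD_mem x n hrn

end Local

/-- **(A6)** additivity of the length along a submodule -/
theorem s59selaug_length_add {M : Type*} [AddCommGroup M] [Module 𝒪 M] (N : Submodule 𝒪 M) :
    Module.length 𝒪 M = Module.length 𝒪 (M ⧸ N) + Module.length 𝒪 N := by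
  rw [add_comm]
  exact Module.length_eq_add_of_exact N.subtype N.mkQ N.injective_subtype N.mkQ_surjective
    (LinearMap.exact_subtype_mkQ N)

end Aug


section PhiN

variable {𝒪 : Type} [CommRing 𝒪] {A : Type} [CommRing A] [Algebra 𝒪 A] (x : A →ₐ[𝒪] 𝒪)

/-- `s59selPhiN` is monotone in the ideal -/
theorem s59selaug_phiN_mono {𝔞 𝔟 : Ideal A} (h : 𝔞 ≤ 𝔟) :
    s59selPhiN 𝒪 x 𝔞 ≤ s59selPhiN 𝒪 x 𝔟 := by
  refine Submodule.span_mono ?_
  rintro _ ⟨r, hr, hra, rfl⟩
  exact ⟨r, hr, h hra, rfl⟩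

/-- membership in `s59selPhiN` of the class of an element of `𝔞 ∩ ker x` -/
theorem s59selaug_mem_phiN {𝔞 : Ideal A} {r : A} (hr : r ∈ RingHom.ker (x : A →+* 𝒪))
    (hra : r ∈ 𝔞) :
    (RingHom.ker (x : A →+* 𝒪)).toCotangent ⟨r, hr⟩ ∈ s59selPhiN 𝒪 x 𝔞 :=
  Submodule.subset_span ⟨r, hr, hra, rfl⟩

/-- **(A5)** for `S ⊆ ker x`, `Φ_N` of the ideal generated by `S` is the `𝒪`-span of the classes
of the elements of `S`. -/
theorem s59selaug_phiN_span (S : Set A) (hS : S ⊆ RingHom.ker (x : A →+* 𝒪)) :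
    s59selPhiN 𝒪 x (Ideal.span S) =
      Submodule.span 𝒪 {y | ∃ (s : A) (hs : s ∈ RingHom.ker (x : A →+* 𝒪)), s ∈ S ∧
        y = (RingHom.ker (x : A →+* 𝒪)).toCotangent ⟨s, hs⟩} := by
  apply le_antisymm
  · refine Submodule.span_le.2 ?_
    rintro _ ⟨r, hr, hrS, rfl⟩
    obtain ⟨_, hmem⟩ := s59selaug_mem_span x S hS hrS
    exact hmem
  · refine Submodule.span_mono ?_
    rintro _ ⟨s, hs, hsS, rfl⟩
    exact ⟨s, hs, Ideal.subset_span hsS, rfl⟩

/-- **(A5)**, form with a generating family indexed by a type -/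
theorem s59selaug_phiN_span_range {ι : Type*} (g : ι → A)
    (hg : ∀ i, g i ∈ RingHom.ker (x : A →+* 𝒪)) :
    s59selPhiN 𝒪 x (Ideal.span (Set.range g)) =
      Submodule.span 𝒪 (Set.range fun i =>
        (RingHom.ker (x : A →+* 𝒪)).toCotangent ⟨g i, hg i⟩) := by
  rw [s59selaug_phiN_span x (Set.range g) (by rintro _ ⟨i, rfl⟩; exact hg i)]
  congr 1
  ext y
  constructor
  · rintro ⟨s, hs, ⟨i, rfl⟩, rfl⟩
    exact ⟨i, rfl⟩
  · rintro ⟨i, rfl⟩
    exact ⟨g i, hg i, ⟨i, rfl⟩, rfl⟩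

end PhiN

end Fermat.Agent.S59
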