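/-
S59 / SEL-CORE (helper74), part 4 ("D3"): the canonical map `g : R' → R` between the universal
deformation rings of type `𝒟₁ ⊇ 𝒟₀`, with `D'.ρ ⊗_g R ≅ D.ρ`; it is SURJECTIVE when `𝒟₀` is
"`𝒟₁` and unramified at `q`" and `𝒟₁` is stable under base change along surjections.
-/
import Fermat.Agent.S59.SelCore

set_option autoImplicit false
set_option linter.unusedSectionVars false
set_option linter.unusedVariables false

noncomputable section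

namespace Fermat.Agent.S59

open IsLocalRing Fermat.Agent.TW Fermat.Agent.S53

section Pi

variable (𝒪 : Type) [CommRing 𝒪] [IsDomain 𝒪] [IsDiscreteValuationRing 𝒪]
  [IsAdicComplete (maximalIdeal 𝒪) 𝒪] [Finite (ResidueField 𝒪)]

/-- **D3**: the canonical local `𝒪`-algebra map `g : R' → R` with `D'.ρ ⊗_g R ≅ D.ρ`. -/
theorem s59selc_exists_pi
    {ρbar : ResidualGaloisRep (ResidueField 𝒪)}
    {𝒟₀ 𝒟₁ : ∀ ⦃A : Type⦄ [CommRing A] [IsLocalRing A] [Algebra 𝒪 A], GaloisRepAdic A → Prop}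
    (h01 : ∀ (A : Type) [CommRing A] [IsLocalRing A] [Algebra 𝒪 A] (ρ : GaloisRepAdic A),
      𝒟₀ ρ → 𝒟₁ ρ)
    (D : GaloisRep.DeformationRingData 𝒪 ρbar 𝒟₀)
    (D' : GaloisRep.DeformationRingData 𝒪 ρbar 𝒟₁) :
    ∃ (g : D'.R →ₐ[𝒪] D.R) (hg : IsLocalHom (g : D'.R →+* D.R)),
      (D'.ρ.baseChangeAlong (g : D'.R →+* D.R) hg).IsEquiv D.ρ := by
  obtain ⟨π, ⟨hπloc, hπe⟩, -⟩ := D'.universal D.R D.residue_surjective D.ρ
    (h01 _ D.ρ D.isOfType) D.residual_isEquiv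
  exact ⟨π, hπloc, hπe⟩

/-- **SEL-SAME** from D3: for every local augmentation `x` of `R`, `x` and `x ∘ g` give the same
lift. -/
theorem s59selc_same_of_pi
    {ρbar : ResidualGaloisRep (ResidueField 𝒪)}
    {𝒟₀ 𝒟₁ : ∀ ⦃A : Type⦄ [CommRing A] [IsLocalRing A] [Algebra 𝒪 A], GaloisRepAdic A → Prop}
    (D : GaloisRep.DeformationRingData 𝒪 ρbar 𝒟₀)
    (D' : GaloisRep.DeformationRingData 𝒪 ρbar 𝒟₁)
    (g : D'.R →ₐ[𝒪] D.R) (hg : IsLocalHom (g : D'.R →+* D.R))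
    (he : (D'.ρ.baseChangeAlong (g : D'.R →+* D.R) hg).IsEquiv D.ρ)
    (x : D.R →ₐ[𝒪] 𝒪) (hx : IsLocalHom (x : D.R →+* 𝒪)) :
    s59selSame 𝒪 D D' x (x.comp g) := by
  have hxg : IsLocalHom ((x : D.R →+* 𝒪).comp (g : D'.R →+* D.R)) :=
    ⟨fun a ha => hg.map_nonunit a (hx.map_nonunit _ ha)⟩
  have hxg' : IsLocalHom ((x.comp g : D'.R →ₐ[𝒪] 𝒪) : D'.R →+* 𝒪) := hxg
  refine ⟨hx, hxg', ?_⟩
  have e0 := s59selc_bc_congr D'.ρ hxg' hxg rfl
  have e1 := s59selc_bc_comp D'.ρ (g : D'.R →+* D.R) hg (x : D.R →+* 𝒪) hx hxg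
  have e2 := s59selc_isEquiv_bc he (x : D.R →+* 𝒪) hx
  exact GaloisRepAdic_isEquiv_trans e0 (GaloisRepAdic_isEquiv_trans
    (GaloisRepAdic_isEquiv_symm e1) e2)

/-- an `𝒪`-algebra map from a local `𝒪`-algebra with residue field that of `𝒪` to `𝒪` is local -/
theorem s59selc_aug_isLocalHom {A : Type} [CommRing A] [IsLocalRing A] [Algebra 𝒪 A]
    (x : A →ₐ[𝒪] 𝒪) : IsLocalHom (x : A →+* 𝒪) :=
  IsLocalHom.of_surjective (x : A →+* 𝒪) (s59selc_aug_surjective 𝒪 x)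

end Pi

end Fermat.Agent.S59

end
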