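import Mathlib

/-!
# S59 / SEL, piece (b) LEN (helper67): the length of a cokernel over a PID is the order of the
determinant

Pure algebra, Mathlib only.  `R` a principal ideal domain.

* `s59sell_ord_prod` : `ord (∏ a i) = ∑ ord (a i)` for nonzero `a i`;
* `s59sell_ord_associated` : associated elements have the same order;
* `s59sell_length_coker` : for `T ∈ M_n(R)` with `det T ≠ 0`,
  `length (Rⁿ / T Rⁿ) = length (R / det T)`  (Smith normal form);
* `s59sell_length_le_of_relations` : an `R`-module generated by `v : ι → M` with the relations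
  `∑ j, T i j • v j = 0` has length `≤ length (R / det T)`;
* `s59sell_length_span_le` : the same for the span of `v` inside a bigger module.
-/

set_option autoImplicit false

open Module Submodule

namespace Fermat.Agent.S59

section Ord

variable {R : Type*} [CommRing R] [IsDomain R]

theorem s59sell_ord_associated {a b : R} (h : Associated a b) :
    Module.length R (R ⧸ Ideal.span {a}) = Module.length R (R ⧸ Ideal.span {b}) := by
  have e : Ideal.span {a} = Ideal.span {b} := Ideal.span_singleton_eq_span_singleton.2 h
  rw [e]

theorem s59sell_ord_prod {ι : Type*} (s : Finset ι) (a : ι → R) (ha : ∀ i ∈ s, a i ≠ 0) :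
    Module.length R (R ⧸ Ideal.span {∏ i ∈ s, a i}) =
      ∑ i ∈ s, Module.length R (R ⧸ Ideal.span {a i}) := by
  classical
  induction s using Finset.induction_on with
  | empty =>
    rw [Finset.prod_empty, Finset.sum_empty, Ideal.span_singleton_one, Module.length_eq_zero_iff]
    exact (Ideal.Quotient.subsingleton_iff).2 rfl
  | insert i s hi IH =>
    rw [Finset.prod_insert hi, Finset.sum_insert hi]
    have h2 : ∏ j ∈ s, a j ∈ nonZeroDivisors R := by
      rw [mem_nonZeroDivisors_iff_ne_zero, Finset.prod_ne_zero_iff]
      exact fun j hj => ha j (Finset.mem_insert_of_mem hj)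
    have := Ring.ord_mul R (a := a i) h2
    rw [Ring.ord, Ring.ord, Ring.ord] at this
    rw [this, IH fun j hj => ha j (Finset.mem_insert_of_mem hj)]

end Ord

section Coker

variable {R : Type*} [CommRing R] [IsDomain R] [IsPrincipalIdealRing R]
variable {ι : Type*} [Fintype ι] [DecidableEq ι]

/-- **LEN**: the length of the cokernel of a square matrix with nonzero determinant over a PID
is the order of the determinant. -/
theorem s59sell_length_coker (T : Matrix ι ι R) (hT : T.det ≠ 0) :
    Module.length R ((ι → R) ⧸ LinearMap.range (Matrix.toLin' T)) =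
      Module.length R (R ⧸ Ideal.span {T.det}) := by
  set f : (ι → R) →ₗ[R] (ι → R) := Matrix.toLin' T with hf
  have hinj : Function.Injective f := by
    rw [← LinearMap.ker_eq_bot, LinearMap.ker_eq_bot']
    intro v hv
    exact Matrix.eq_zero_of_mulVec_eq_zero hT (by simpa [hf, Matrix.toLin'_apply] using hv)
  set N : Submodule R (ι → R) := LinearMap.range f with hN
  let e : (ι → R) ≃ₗ[R] N := LinearEquiv.ofInjective f hinj
  have h : Module.finrank R N = Module.finrank R (ι → R) := e.symm.finrank_eq
  let b : Basis ι R (ι → R) := Pi.basisFun R ι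
  let a := smithNormalFormCoeffs b h
  let b' := smithNormalFormTopBasis b h
  let ab := smithNormalFormBotBasis b h
  have ab_eq := smithNormalFormBotBasis_def b h
  let e' : (ι → R) ≃ₗ[R] N := b'.equiv ab (Equiv.refl _)
  let f' : (ι → R) →ₗ[R] (ι → R) := N.subtype.comp (e' : (ι → R) →ₗ[R] N)
  have ha : ∀ i, f' (b' i) = a i • b' i := by
    intro i
    show (N.subtype (b'.equiv ab (Equiv.refl _) (b' i))) = _
    rw [b'.equiv_apply, Equiv.refl_apply]
    exact ab_eq i
  have hdet' : LinearMap.det f' = ∏ i, a i := by
    rw [← LinearMap.det_toMatrix b']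
    have : LinearMap.toMatrix b' b' f' = Matrix.diagonal a := by
      ext i j
      rw [LinearMap.toMatrix_apply, ha, map_smul, Basis.repr_self, Finsupp.smul_single,
        smul_eq_mul, mul_one]
      by_cases hij : i = j
      · rw [hij, Matrix.diagonal_apply_eq, Finsupp.single_eq_same]
      · rw [Matrix.diagonal_apply_ne _ hij, Finsupp.single_eq_of_ne hij]
    rw [this, Matrix.det_diagonal]
  have hfe : f = N.subtype.comp (e : (ι → R) →ₗ[R] N) := by
    ext v : 1
    rfl
  have hass : Associated T.det (∏ i, a i) := by
    rw [← hdet', ← LinearMap.det_toLin' T, ← hf, hfe]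
    exact LinearMap.associated_det_comp_equiv _ _ _
  rw [s59sell_ord_associated hass, s59sell_ord_prod Finset.univ a
    (fun i _ => smithNormalFormCoeffs_ne_zero b h i),
    (N.quotientEquivPiSpan b h).length_eq, Module.length_pi_of_fintype]

end Coker

section Relations

variable {R : Type*} [CommRing R] [IsDomain R] [IsPrincipalIdealRing R]
variable {ι : Type*} [Fintype ι] [DecidableEq ι]
variable {M : Type*} [AddCommGroup M] [Module R M]

/-- A module generated by `v` with the relations `∑ j, T i j • v j = 0` is a quotient of the
cokernel of `Tᵀ`. -/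
theorem s59sell_length_span_le (T : Matrix ι ι R) (hT : T.det ≠ 0) (v : ι → M)
    (hrel : ∀ i, ∑ j, T i j • v j = 0) :
    Module.length R (Submodule.span R (Set.range v)) ≤ Module.length R (R ⧸ Ideal.span {T.det}) := by
  classical
  -- the surjection `Rⁿ → span v`
  let π₀ : (ι → R) →ₗ[R] M := Fintype.linearCombination R v
  have hrange : LinearMap.range π₀ = Submodule.span R (Set.range v) :=
    Fintype.range_linearCombination R v
  let π : (ι → R) →ₗ[R] Submodule.span R (Set.range v) :=
    π₀.codRestrict _ (fun c => by rw [← hrange]; exact LinearMap.mem_range_self _ c)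
  have hπsurj : Function.Surjective π := by
    rintro ⟨x, hx⟩
    rw [← hrange] at hx
    obtain ⟨c, rfl⟩ := hx
    exact ⟨c, rfl⟩
  -- it kills the range of `Tᵀ`
  have hker : LinearMap.range (Matrix.toLin' T.transpose) ≤ LinearMap.ker π := by
    rintro _ ⟨c, rfl⟩
    rw [LinearMap.mem_ker]
    apply Subtype.ext
    show π₀ (Matrix.toLin' T.transpose c) = 0
    rw [Fintype.linearCombination_apply]
    simp only [Matrix.toLin'_apply, Matrix.mulVec, dotProduct, Matrix.transpose_apply]
    calc ∑ j, (∑ i, T i j * c i) • v j = ∑ j, ∑ i, c i • (T i j • v j) := by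
          refine Finset.sum_congr rfl fun j _ => ?_
          rw [Finset.sum_smul]
          refine Finset.sum_congr rfl fun i _ => ?_
          rw [mul_comm, mul_smul]
      _ = ∑ i, ∑ j, c i • (T i j • v j) := Finset.sum_comm
      _ = ∑ i, c i • ∑ j, T i j • v j := by
          refine Finset.sum_congr rfl fun i _ => ?_
          rw [Finset.smul_sum]
      _ = 0 := by
          refine Finset.sum_eq_zero fun i _ => ?_
          rw [hrel i, smul_zero]
  let π' : ((ι → R) ⧸ LinearMap.range (Matrix.toLin' T.transpose)) →ₗ[R]
      Submodule.span R (Set.range v) := Submodule.liftQ _ π hker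
  have hπ'surj : Function.Surjective π' := by
    intro x
    obtain ⟨c, rfl⟩ := hπsurj x
    exact ⟨Submodule.Quotient.mk c, rfl⟩
  have hTt : T.transpose.det ≠ 0 := by rw [Matrix.det_transpose]; exact hT
  calc Module.length R (Submodule.span R (Set.range v))
      ≤ Module.length R ((ι → R) ⧸ LinearMap.range (Matrix.toLin' T.transpose)) :=
        Module.length_le_of_surjective π' hπ'surj
    _ = Module.length R (R ⧸ Ideal.span {T.transpose.det}) := s59sell_length_coker _ hTt
    _ = Module.length R (R ⧸ Ideal.span {T.det}) := by rw [Matrix.det_transpose]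

end Relations

end Fermat.Agent.S59
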