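/-
S59, piece SEL-LIN (helper64): `stmtSelLin : StmtSelLin 𝒪`.

`#{C ∈ sl₂(𝒪 ⧸ 𝔪ⁿ) : Fr C = q C Fr} ≤ #(𝒪 ⧸ (q − 1)(t² − (q + 1)²))` for `Fr ∈ M₂(𝒪)`,
`det Fr = q` a unit, `t = tr Fr`.

Proof.  In the coordinates `(C₀₀, C₀₁, C₁₀)` of `sl₂`, the map `T C = Fr C Fr^{adj} − q² C` is the
explicit `3 × 3` matrix `s59sell_T Fr`, of determinant `q³ (q − 1) (t² − (q + 1)²)`
(`s59sell_T_det`, by `ring`); `Fr C = q C Fr` implies `T C = 0` (`s59sell_T_mulVec`).
For any square matrix `T` over `𝒪` with `det T ≠ 0`, the kernel of `T` on `(𝒪 ⧸ 𝔪ⁿ)^ι` embeds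
into the cokernel of `T` on `𝒪^ι` by `x ↦ T x̃ / ϖⁿ` (`s59sell_ker_le`), and the cokernel has
`#(𝒪 ⧸ det T)` elements (Smith normal form, `s59sell_coker_card`).
-/
import Fermat.Agent.S59.SelPlan

set_option autoImplicit false

namespace Fermat.Agent.S59

open IsLocalRing

section SelLinCard

variable {𝒪 : Type} [CommRing 𝒪] [IsDomain 𝒪] [IsDiscreteValuationRing 𝒪]

/-- Every nonzero principal ideal of a discrete valuation ring is a power of the maximal ideal. -/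
theorem s59sell_span_eq_pow (a : 𝒪) (ha : a ≠ 0) :
    ∃ k : ℕ, Ideal.span {a} = maximalIdeal 𝒪 ^ k := by
  obtain ⟨ϖ, hϖ⟩ := IsDiscreteValuationRing.exists_irreducible 𝒪
  obtain ⟨k, hk⟩ := IsDiscreteValuationRing.associated_pow_irreducible ha hϖ
  refine ⟨k, ?_⟩
  rw [hϖ.maximalIdeal_eq, Ideal.span_singleton_pow]
  exact Ideal.span_singleton_eq_span_singleton.mpr hk

/-- `#(𝒪 ⧸ 𝔪ᵏ) = #(𝒪 ⧸ 𝔪) ^ k`. -/
theorem s59sell_card_pow (k : ℕ) :
    Nat.card (𝒪 ⧸ maximalIdeal 𝒪 ^ k) = Nat.card (𝒪 ⧸ maximalIdeal 𝒪) ^ k := by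
  have h := cardQuot_pow_of_prime (P := maximalIdeal 𝒪)
    (IsDiscreteValuationRing.not_a_field 𝒪) (i := k)
  simpa [Submodule.cardQuot_apply] using h

/-- `#(𝒪 ⧸ (a b)) = #(𝒪 ⧸ (a)) · #(𝒪 ⧸ (b))`. -/
theorem s59sell_card_mul (a b : 𝒪) (ha : a ≠ 0) (hb : b ≠ 0) :
    Nat.card (𝒪 ⧸ Ideal.span {a * b}) =
      Nat.card (𝒪 ⧸ Ideal.span {a}) * Nat.card (𝒪 ⧸ Ideal.span {b}) := by
  obtain ⟨k, hk⟩ := s59sell_span_eq_pow a ha
  obtain ⟨l, hl⟩ := s59sell_span_eq_pow b hb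
  have hab : Ideal.span {a * b} = maximalIdeal 𝒪 ^ (k + l) := by
    rw [← Ideal.span_singleton_mul_span_singleton, hk, hl, pow_add]
  rw [hab, hk, hl, s59sell_card_pow, s59sell_card_pow, s59sell_card_pow, pow_add]

/-- `#(𝒪 ⧸ (∏ aᵢ)) = ∏ #(𝒪 ⧸ (aᵢ))`. -/
theorem s59sell_card_prod {ι : Type} (s : Finset ι) (a : ι → 𝒪) (ha : ∀ i, a i ≠ 0) :
    Nat.card (𝒪 ⧸ Ideal.span {∏ i ∈ s, a i}) = ∏ i ∈ s, Nat.card (𝒪 ⧸ Ideal.span {a i}) := by
  classical
  induction s using Finset.induction_on with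
  | empty =>
    have h := s59sell_card_pow (𝒪 := 𝒪) 0
    simp [Ideal.span_singleton_one, Ideal.one_eq_top] at h ⊢
  | insert i s hi ih =>
    rw [Finset.prod_insert hi, Finset.prod_insert hi,
      s59sell_card_mul _ _ (ha i) (Finset.prod_ne_zero_iff.mpr fun j _ => ha j), ih]

/-- The quotient by a nonzero element is finite if the residue field is. -/
theorem s59sell_finite_span [Finite (ResidueField 𝒪)] (a : 𝒪) (ha : a ≠ 0) :
    Finite (𝒪 ⧸ Ideal.span {a}) := by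
  obtain ⟨k, hk⟩ := s59sell_span_eq_pow a ha
  rw [hk]
  apply Nat.finite_of_card_ne_zero
  rw [s59sell_card_pow]
  have : Finite (𝒪 ⧸ maximalIdeal 𝒪) := ‹Finite (ResidueField 𝒪)›
  exact pow_ne_zero _ Nat.card_pos.ne'

omit [IsDiscreteValuationRing 𝒪] in
/-- Associated elements have quotients of the same cardinality. -/
theorem s59sell_card_associated {a b : 𝒪} (h : Associated a b) :
    Nat.card (𝒪 ⧸ Ideal.span {a}) = Nat.card (𝒪 ⧸ Ideal.span {b}) := by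
  rw [Ideal.span_singleton_eq_span_singleton.mpr h]

end SelLinCard

section SelLinSmith

variable {𝒪 : Type} [CommRing 𝒪] [IsDomain 𝒪] [IsDiscreteValuationRing 𝒪]

/-- **Cokernel of a square matrix over a DVR** (Smith normal form): the cokernel of a matrix of
nonzero determinant is a product of quotients `𝒪 ⧸ (aᵢ)` with `∏ aᵢ` associated to `det T`. -/
theorem s59sell_coker_equiv {ι : Type} [Fintype ι] [DecidableEq ι] (T : Matrix ι ι 𝒪)
    (hT : T.det ≠ 0) :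
    ∃ a : ι → 𝒪, (∀ i, a i ≠ 0) ∧ Associated T.det (∏ i, a i) ∧
      Nonempty (((ι → 𝒪) ⧸ LinearMap.range (Matrix.toLin' T)) ≃
        (∀ i, 𝒪 ⧸ Ideal.span {a i})) := by
  have hinj : Function.Injective (Matrix.toLin' T) := by
    intro x y hxy
    exact Matrix.mulVec_injective_of_det_ne_zero hT (by simpa [Matrix.toLin'_apply] using hxy)
  let N : Submodule 𝒪 (ι → 𝒪) := LinearMap.range (Matrix.toLin' T)
  let e : (ι → 𝒪) ≃ₗ[𝒪] N := LinearEquiv.ofInjective (Matrix.toLin' T) hinj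
  have hrank : Module.finrank 𝒪 N = Module.finrank 𝒪 (ι → 𝒪) := (LinearEquiv.finrank_eq e).symm
  let b := Pi.basisFun 𝒪 ι
  let bM := Submodule.smithNormalFormTopBasis b hrank
  let bN := Submodule.smithNormalFormBotBasis b hrank
  let a := Submodule.smithNormalFormCoeffs b hrank
  have hdef : ∀ i, (bN i : ι → 𝒪) = a i • bM i := Submodule.smithNormalFormBotBasis_def b hrank
  refine ⟨a, Submodule.smithNormalFormCoeffs_ne_zero b hrank, ?_,
    ⟨(Submodule.quotientEquivPiSpan N b hrank).toEquiv⟩⟩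
  let b' : Module.Basis ι 𝒪 (ι → 𝒪) := bN.map e.symm
  have hb' : ∀ i, Matrix.toLin' T (b' i) = a i • bM i := by
    intro i
    rw [← hdef i]
    have : e (b' i) = bN i := by simp [b']
    rw [← this]
    rfl
  rw [← LinearMap.det_toLin' T, ← Matrix.det_diagonal, ← LinearMap.det_toLin bM]
  refine LinearMap.associated_det_of_eq_comp (b'.equiv bM (Equiv.refl ι)) _ _ ?_
  have hcomp : Matrix.toLin' T = (Matrix.toLin bM bM (Matrix.diagonal a)).comp
      (b'.equiv bM (Equiv.refl ι)).toLinearMap := by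
    refine b'.ext fun i => ?_
    rw [hb' i, LinearMap.comp_apply, LinearEquiv.coe_toLinearMap, Module.Basis.equiv_apply,
      Equiv.refl_apply, Matrix.toLin_self]
    simp [Matrix.diagonal_apply]
  intro x
  exact LinearMap.congr_fun hcomp x

/-- `#coker T = #(𝒪 ⧸ det T)`, and the cokernel is finite. -/
theorem s59sell_coker_card [Finite (ResidueField 𝒪)] {ι : Type} [Fintype ι] [DecidableEq ι]
    (T : Matrix ι ι 𝒪) (hT : T.det ≠ 0) :
    Finite ((ι → 𝒪) ⧸ LinearMap.range (Matrix.toLin' T)) ∧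
      Nat.card ((ι → 𝒪) ⧸ LinearMap.range (Matrix.toLin' T)) =
        Nat.card (𝒪 ⧸ Ideal.span {T.det}) := by
  obtain ⟨a, ha, hass, ⟨E⟩⟩ := s59sell_coker_equiv T hT
  have : ∀ i, Finite (𝒪 ⧸ Ideal.span {a i}) := fun i => s59sell_finite_span (a i) (ha i)
  refine ⟨Finite.of_equiv _ E.symm, ?_⟩
  rw [Nat.card_congr E, Nat.card_pi, s59sell_card_associated hass, s59sell_card_prod _ a ha]

end SelLinSmith

section SelLinKer

variable {𝒪 : Type} [CommRing 𝒪] [IsDomain 𝒪] [IsDiscreteValuationRing 𝒪]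

/-- `𝒪 ⧸ 𝔪ⁿ` is finite if the residue field is. -/
theorem s59sell_finite_quot_pow [Finite (ResidueField 𝒪)] (n : ℕ) :
    Finite (𝒪 ⧸ maximalIdeal 𝒪 ^ n) := by
  apply Nat.finite_of_card_ne_zero
  rw [s59sell_card_pow]
  have : Finite (𝒪 ⧸ maximalIdeal 𝒪) := ‹Finite (ResidueField 𝒪)›
  exact pow_ne_zero _ Nat.card_pos.ne'

/-- A vector killed by `T` modulo `𝔪ⁿ = (ϖⁿ)` has a lift `u` with `T u = ϖⁿ y`. -/
theorem s59sell_lift {ι : Type} [Fintype ι] (T : Matrix ι ι 𝒪) (n : ℕ) (ϖ : 𝒪)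
    (hϖ : Irreducible ϖ) (x : ι → 𝒪 ⧸ maximalIdeal 𝒪 ^ n)
    (hx : (T.map (Ideal.Quotient.mk (maximalIdeal 𝒪 ^ n))).mulVec x = 0) :
    ∃ (u y : ι → 𝒪), (∀ i, Ideal.Quotient.mk (maximalIdeal 𝒪 ^ n) (u i) = x i) ∧
      T.mulVec u = ϖ ^ n • y := by
  have hsurj := Ideal.Quotient.mk_surjective (I := maximalIdeal 𝒪 ^ n)
  choose u hu using fun i => hsurj (x i)
  have hx' : ∀ i, Ideal.Quotient.mk (maximalIdeal 𝒪 ^ n) (T.mulVec u i) = 0 := by
    intro i
    rw [RingHom.map_mulVec]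
    have : (Ideal.Quotient.mk (maximalIdeal 𝒪 ^ n)) ∘ u = x := funext hu
    rw [this, hx]
    rfl
  have hdvd : ∀ i, ϖ ^ n ∣ T.mulVec u i := by
    intro i
    have := Ideal.Quotient.eq_zero_iff_mem.mp (hx' i)
    rw [hϖ.maximalIdeal_eq, Ideal.span_singleton_pow, Ideal.mem_span_singleton] at this
    exact this
  choose y hy using hdvd
  exact ⟨u, y, hu, funext fun i => by simp [hy i]⟩

/-- **Kernel mod `𝔪ⁿ` versus determinant.**  For a square matrix `T` over `𝒪` of nonzero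
determinant, the kernel of `T` on `(𝒪 ⧸ 𝔪ⁿ)^ι` has at most `#(𝒪 ⧸ det T)` elements
(`x ↦ T x̃ / ϖⁿ` embeds it into the cokernel of `T`). -/
theorem s59sell_ker_le [Finite (ResidueField 𝒪)] {ι : Type} [Fintype ι] [DecidableEq ι]
    (T : Matrix ι ι 𝒪) (hT : T.det ≠ 0) (n : ℕ) :
    Nat.card {x : ι → 𝒪 ⧸ maximalIdeal 𝒪 ^ n //
        (T.map (Ideal.Quotient.mk (maximalIdeal 𝒪 ^ n))).mulVec x = 0} ≤
      Nat.card (𝒪 ⧸ Ideal.span {T.det}) := by
  obtain ⟨hfin, hcard⟩ := s59sell_coker_card T hT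
  rw [← hcard]
  obtain ⟨ϖ, hϖ⟩ := IsDiscreteValuationRing.exists_irreducible 𝒪
  choose u y hu hy using fun x : {x : ι → 𝒪 ⧸ maximalIdeal 𝒪 ^ n //
    (T.map (Ideal.Quotient.mk (maximalIdeal 𝒪 ^ n))).mulVec x = 0} =>
      s59sell_lift T n ϖ hϖ x.1 x.2
  refine Nat.card_le_card_of_injective
    (fun x => (Submodule.Quotient.mk (y x) :
      (ι → 𝒪) ⧸ LinearMap.range (Matrix.toLin' T))) ?_
  intro x₁ x₂ h
  have h' : y x₁ - y x₂ ∈ LinearMap.range (Matrix.toLin' T) := (Submodule.Quotient.eq _).mp h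
  obtain ⟨z, hz⟩ := h'
  rw [Matrix.toLin'_apply] at hz
  have hker : T.mulVec (u x₁ - u x₂ - ϖ ^ n • z) = 0 := by
    rw [Matrix.mulVec_sub, Matrix.mulVec_sub, Matrix.mulVec_smul, hy, hy, hz, smul_sub]
    abel
  have hzero := Matrix.eq_zero_of_mulVec_eq_zero hT hker
  apply Subtype.ext
  funext i
  rw [← hu x₁ i, ← hu x₂ i]
  have hi : u x₁ i - u x₂ i = ϖ ^ n * z i := by
    have := congrFun hzero i
    simp only [Pi.sub_apply, Pi.smul_apply, smul_eq_mul, Pi.zero_apply] at this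
    linear_combination this
  rw [← sub_eq_zero, ← map_sub, hi, Ideal.Quotient.eq_zero_iff_mem, hϖ.maximalIdeal_eq,
    Ideal.span_singleton_pow]
  exact Ideal.mem_span_singleton.mpr (dvd_mul_right _ _)

end SelLinKer

section SelLinSl2

/-- The matrix of `C ↦ Fr C Fr^{adj} − (det Fr)² C` on `sl₂`, in the coordinates
`(C₀₀, C₀₁, C₁₀)`. -/
def s59sell_T {R : Type} [CommRing R] (Fr : Matrix (Fin 2) (Fin 2) R) :
    Matrix (Fin 3) (Fin 3) R :=
  !![Fr 0 0 * Fr 1 1 + Fr 0 1 * Fr 1 0 - (Fr 0 0 * Fr 1 1 - Fr 0 1 * Fr 1 0) ^ 2,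
      -(Fr 0 0 * Fr 1 0), Fr 0 1 * Fr 1 1;
    -(2 * Fr 0 0 * Fr 0 1), Fr 0 0 ^ 2 - (Fr 0 0 * Fr 1 1 - Fr 0 1 * Fr 1 0) ^ 2,
      -(Fr 0 1 ^ 2);
    2 * Fr 1 0 * Fr 1 1, -(Fr 1 0 ^ 2),
      Fr 1 1 ^ 2 - (Fr 0 0 * Fr 1 1 - Fr 0 1 * Fr 1 0) ^ 2]

/-- `det T = q³ (q − 1) (t² − (q + 1)²)`, `q = det Fr`, `t = tr Fr`. -/
theorem s59sell_T_det {R : Type} [CommRing R] (Fr : Matrix (Fin 2) (Fin 2) R) :
    (s59sell_T Fr).det =
      Fr.det ^ 3 * ((Fr.det - 1) * (Fr.trace ^ 2 - (Fr.det + 1) ^ 2)) := by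
  rw [Matrix.det_fin_three, Matrix.det_fin_two, Matrix.trace_fin_two]
  simp only [s59sell_T, Matrix.of_apply, Matrix.cons_val', Matrix.cons_val_zero,
    Matrix.cons_val_one, Matrix.cons_val_two, Matrix.empty_val', Matrix.cons_val_fin_one,
    Matrix.head_cons, Matrix.tail_cons, Matrix.head_fin_const]
  ring

/-- An element of `sl₂(A)` with `F C = q C F`, `q = det F`, is killed by `T`. -/
theorem s59sell_T_mulVec {A : Type} [CommRing A] (F C : Matrix (Fin 2) (Fin 2) A) (q : A)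
    (hq : F.det = q) (htr : C.trace = 0) (hC : F * C = q • (C * F)) :
    (s59sell_T F).mulVec ![C 0 0, C 0 1, C 1 0] = 0 := by
  have hd : C 1 1 = -C 0 0 := by
    rw [Matrix.trace_fin_two] at htr
    linear_combination htr
  rw [Matrix.det_fin_two] at hq
  have h00 := congrFun (congrFun hC 0) 0
  have h01 := congrFun (congrFun hC 0) 1
  have h10 := congrFun (congrFun hC 1) 0
  have h11 := congrFun (congrFun hC 1) 1
  simp only [Matrix.mul_apply, Fin.sum_univ_two, Matrix.smul_apply, smul_eq_mul, hd, ← hq]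
    at h00 h01 h10 h11
  funext i
  fin_cases i
  · simp [s59sell_T, Matrix.mulVec, dotProduct, Fin.sum_univ_three]
    linear_combination F 1 1 * h00 - F 1 0 * h01
  · simp [s59sell_T, Matrix.mulVec, dotProduct, Fin.sum_univ_three]
    linear_combination (-F 0 1) * h00 + F 0 0 * h01
  · simp [s59sell_T, Matrix.mulVec, dotProduct, Fin.sum_univ_three]
    linear_combination F 1 1 * h10 - F 1 0 * h11

/-- `T` commutes with ring homomorphisms. -/
theorem s59sell_T_map {R S : Type} [CommRing R] [CommRing S] (f : R →+* S)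
    (Fr : Matrix (Fin 2) (Fin 2) R) : (s59sell_T Fr).map f = s59sell_T (Fr.map f) := by
  ext i j
  fin_cases i <;> fin_cases j <;> simp [s59sell_T, map_ofNat]

end SelLinSl2

section SelLinMain

variable (𝒪 : Type) [CommRing 𝒪] [IsDomain 𝒪] [IsDiscreteValuationRing 𝒪]
  [Finite (ResidueField 𝒪)]

/-- **SEL-LIN.** -/
theorem stmtSelLin : StmtSelLin 𝒪 := by
  intro Fr q n hq hdet hc
  have hTdet : (s59sell_T Fr).det = q ^ 3 * ((q - 1) * (Fr.trace ^ 2 - (q + 1) ^ 2)) := by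
    rw [s59sell_T_det, hdet]
  have hT0 : (s59sell_T Fr).det ≠ 0 := by
    rw [hTdet]
    exact mul_ne_zero (pow_ne_zero _ hq.ne_zero) hc
  have hass : Associated (s59sell_T Fr).det ((q - 1) * (Fr.trace ^ 2 - (q + 1) ^ 2)) := by
    rw [hTdet]
    exact (associated_isUnit_mul_left_iff (hq.pow 3)).mpr (Associated.refl _)
  rw [← s59sell_card_associated hass]
  refine le_trans ?_ (s59sell_ker_le (s59sell_T Fr) hT0 n)
  have hfin : Finite (𝒪 ⧸ maximalIdeal 𝒪 ^ n) := s59sell_finite_quot_pow n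
  have hdet' : (Fr.map (Ideal.Quotient.mk (maximalIdeal 𝒪 ^ n))).det =
      Ideal.Quotient.mk (maximalIdeal 𝒪 ^ n) q := by
    rw [← hdet, RingHom.map_det]
    rfl
  refine Nat.card_le_card_of_injective
    (fun C => ⟨![C.1 0 0, C.1 0 1, C.1 1 0], ?_⟩) ?_
  · rw [s59sell_T_map]
    exact s59sell_T_mulVec _ _ _ hdet' C.2.1 C.2.2
  · intro C D h
    have h' := congrArg Subtype.val h
    have e00 : C.1 0 0 = D.1 0 0 := congrFun h' 0
    have e01 : C.1 0 1 = D.1 0 1 := congrFun h' 1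
    have e10 : C.1 1 0 = D.1 1 0 := congrFun h' 2
    have hC := C.2.1
    have hD := D.2.1
    rw [Matrix.trace_fin_two] at hC hD
    have e11 : C.1 1 1 = D.1 1 1 := by linear_combination hC - hD - e00
    apply Subtype.ext
    ext i j
    fin_cases i <;> fin_cases j
    · exact e00
    · exact e01
    · exact e10
    · exact e11

end SelLinMain

end Fermat.Agent.S59
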