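/-
S59, piece R3 = TOP (helper69, captain), part 10: THE THREE CASES TOGETHER.

Frozen S59 from S58 ✓ and what is owed in the three cases

  (a) `W` good at `p`                              : `s59topb_StmtOwedGood'`   (S59/TopBase.lean),
  (b) `W` bad at `p`, `¬ c W p` (`ρ̄` très ramifié) : `s59topo_StmtOwedOrd`     (S59/TopOrd.lean),
  (c) `W` bad at `p`, `c W p`   (`ρ̄` peu ramifié)  : `s59pstc_StmtOwedC`       (S59/PStep/StagesC.lean),

for ANY predicate `c` (the team's choice: `c W p := s59psPeuTriv ρ̄_W p`).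
-/
import Fermat.Agent.S59.TopOwed
import Fermat.Agent.S59.TopOrd
import Fermat.Agent.S59.PStep.StagesC

set_option autoImplicit false
set_option linter.style.haveILetI false
set_option linter.unusedSectionVars false
set_option linter.unusedVariables false
set_option linter.style.longLine false

noncomputable section

namespace Fermat.Agent.S59

open IsLocalRing Polynomial

/-- (STAGES) at `¬ c₀` from the two cases `¬ c₀ ∧ ¬ c` and `¬ c₀ ∧ c`. -/
theorem s59tall_stages_split (c₀ c : WeierstrassCurve ℤ → ℕ → Prop)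
    (hb : s59topw_StmtStagesAt fun W p => ¬ c₀ W p ∧ ¬ c W p)
    (hc : s59topw_StmtStagesAt fun W p => ¬ c₀ W p ∧ c W p) :
    s59topw_StmtStagesAt fun W p => ¬ c₀ W p := by
  classical
  intro p _ hp W hΔ hW hirr h0 M₀ _ hres hM₀ hM₀3
  by_cases h : c W p
  · exact hc p hp W hΔ hW hirr ⟨h0, h⟩ M₀ hres hM₀ hM₀3
  · exact hb p hp W hΔ hW hirr ⟨h0, h⟩ M₀ hres hM₀ hM₀3

/-- **S59 from the three cases.** -/
theorem s59tall_result (h58 : s59p_StmtS58) (c : WeierstrassCurve ℤ → ℕ → Prop)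
    (ha : s59topb_StmtOwedGood')
    (hb : s59topo_StmtOwedOrd fun W p => ¬ W.IsGoodPrimeFor p ∧ ¬ c W p)
    (hc : s59pstc_StmtOwedC fun W p => ¬ W.IsGoodPrimeFor p ∧ c W p)
    (p : ℕ) (hp : p = 3 ∨ p = 5)
    (W : WeierstrassCurve ℤ) (hΔ : W.Δ ≠ 0) (hW : W.IsSemistableModel)
    (hirr : W.ModRepIsIrreducible p)
    (M₀ : ℕ) [NeZero M₀] (hres₀ : W.IsResiduallyModularOfLevel p M₀)
    (hM₀ : ¬ p ^ 2 ∣ M₀)
    (hM₀3 : ∀ q : ℕ, q.Prime → q ≠ p → ¬ q ^ 3 ∣ M₀) :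
    Mlc1IsModularModelOfExactConductorLevel W :=
  s59topb_result h58 ha
    (s59tall_stages_split (fun W p => W.IsGoodPrimeFor p) c
      (s59topo_stages_ord _ (fun W p h => not_not.1 h.1) hb)
      (s59pstc_stages _ (fun W p h => not_not.1 h.1) hc))
    p hp W hΔ hW hirr M₀ hres₀ hM₀ hM₀3

/-- **S59 from the walls of case (a) and the cases (b), (c).** -/
theorem s59tall_result_walls (h58 : s59p_StmtS58)
    (hfin : ∀ (N : ℕ) [NeZero N] (S : Set ℕ), Module.Finite ℤ (CuspForm.heckeAlgebra N 2 S))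
    (hS29 : s59tres_StmtS29) (hM1 : s59lsq_StmtWall) (hQ : s59topm_StmtLowQ)
    (hP : s59topm_StmtLowPGood) (hraise : LowQ.s59lq_StmtRaise) (hR1 : s59towd_StmtR1)
    (c : WeierstrassCurve ℤ → ℕ → Prop)
    (hb : s59topo_StmtOwedOrd fun W p => ¬ W.IsGoodPrimeFor p ∧ ¬ c W p)
    (hc : s59pstc_StmtOwedC fun W p => ¬ W.IsGoodPrimeFor p ∧ c W p)
    (p : ℕ) (hp : p = 3 ∨ p = 5)
    (W : WeierstrassCurve ℤ) (hΔ : W.Δ ≠ 0) (hW : W.IsSemistableModel)
    (hirr : W.ModRepIsIrreducible p)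
    (M₀ : ℕ) [NeZero M₀] (hres₀ : W.IsResiduallyModularOfLevel p M₀)
    (hM₀ : ¬ p ^ 2 ∣ M₀)
    (hM₀3 : ∀ q : ℕ, q.Prime → q ≠ p → ¬ q ^ 3 ∣ M₀) :
    Mlc1IsModularModelOfExactConductorLevel W :=
  s59tall_result h58 c (s59towd_owed_good hfin hS29 hM1 hQ hP hraise hR1) hb hc
    p hp W hΔ hW hirr M₀ hres₀ hM₀ hM₀3

end Fermat.Agent.S59

end
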