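/-
S59, the TOP chain (captain helper69, NOTES/S59-TOP.md), item **a1 = E-BIG wiring** (helper56).

`s59tbig_exists` : for a prime `p`, a base level `N₀ ≠ 0` and finite sets of primes `Smin`, `SW`,
there is ONE complete discrete valuation ring `𝒪` of characteristic `0` with finite residue field
`k` and a local injective `φ : ℤ_p → 𝒪` such that
* (hK) every monic quadratic polynomial over `𝔽_p` splits in `k` (for every `ι : 𝔽_p → k`), in the
  LITERAL shape of the first conjunct of `s59topb_StmtOwedGood'` (`S59/TopBase.lean`);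
* (E-BIG) `𝒪` is big (`s59p_IsBig`) for the Hecke algebras of ALL the levels
  `N₀ · ∏_{q ∈ Q} q²` (`= s59tops_level N₀ Q`, by `rfl`), `Q ⊆ SW`, away from `Smin ∪ Q`, and
  every residual system `θ` — the LITERAL shape of the conjunct (E-BIG) of
  `s59topb_StmtOwedGood'`.
The finiteness of the Hecke algebras (S22, `Fermat.Agent.S22.result`) is an explicit hypothesis
to keep the imports light: `hfin := fun N _ S => Fermat.Agent.S22.result N 2 S`.
-/
import Fermat.Agent.S59.Eta.BigHecke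

set_option autoImplicit false
set_option linter.unusedVariables false
set_option linter.unusedSectionVars false
set_option linter.style.haveILetI false

noncomputable section

namespace Fermat.Agent.S59

open IsLocalRing Polynomial

/-! ### The quadratics over `𝔽_p` -/

section Quad

variable (p : ℕ) [Fact p.Prime]

/-- the lift `X² + a X + b` of a quadratic over `𝔽_p` -/
def s59tbigF (ab : ZMod p × ZMod p) : ℤ[X] :=
  X ^ 2 + (C ((ab.1.val : ℕ) : ℤ) * X + C ((ab.2.val : ℕ) : ℤ))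

theorem s59tbigF_monic (ab : ZMod p × ZMod p) : (s59tbigF p ab).Monic :=
  monic_X_pow_add (lt_of_le_of_lt degree_linear_le (by norm_num))

/-- the product of the lifts of all the monic quadratics over `𝔽_p` -/
def s59tbigP : ℤ[X] := ∏ ab : ZMod p × ZMod p, s59tbigF p ab

theorem s59tbigP_monic : (s59tbigP p).Monic :=
  monic_prod_of_monic _ _ fun ab _ => s59tbigF_monic p ab

theorem s59tbigF_dvd (ab : ZMod p × ZMod p) : s59tbigF p ab ∣ s59tbigP p :=
  Finset.dvd_prod_of_mem _ (Finset.mem_univ ab)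

/-- a monic quadratic is `X² + a X + b` -/
theorem s59tbig_quad_eq {R : Type*} [CommRing R] (f : R[X]) (hf : f.Monic)
    (hd : f.natDegree = 2) : f = X ^ 2 + (C (f.coeff 1) * X + C (f.coeff 0)) := by
  ext n
  rcases n with _ | _ | _ | n
  · simp
  · simp
  · have h2 : f.coeff 2 = 1 := by
      have := hf.coeff_natDegree
      rwa [hd] at this
    simp [h2]
  · have h3 : f.coeff (n + 3) = 0 := coeff_eq_zero_of_natDegree_lt (by omega)
    rw [h3]
    simp only [coeff_add, coeff_X_pow, coeff_C_mul, coeff_X, coeff_C]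
    simp

/-- a split monic quadratic over a field -/
theorem s59tbig_split_quad {k : Type*} [Field k] (g : k[X]) (hg : g.Monic)
    (hd : g.natDegree = 2) (hs : g.Splits) : ∃ α β : k, g = (X - C α) * (X - C β) := by
  have hcard : g.roots.card = 2 := by rw [← hs.natDegree_eq_card_roots, hd]
  obtain ⟨α, β, hαβ⟩ := Multiset.card_eq_two.mp hcard
  refine ⟨α, β, ?_⟩
  have h := hs.eq_prod_roots_of_monic hg
  rw [hαβ] at h
  rw [h]
  simp

/-- **hK**: if `P = s59tbigP p` splits in a local ring `𝒪` then every monic quadratic over `𝔽_p`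
splits in the residue field. -/
theorem s59tbig_hK (𝒪 : Type*) [CommRing 𝒪] [IsLocalRing 𝒪]
    (hsp : ((s59tbigP p).map (Int.castRingHom 𝒪)).Splits)
    (ι : ZMod p →+* ResidueField 𝒪) (f : (ZMod p)[X]) (hf : f.Monic) (hd : f.natDegree = 2) :
    ∃ α β : ResidueField 𝒪, f.map ι = (X - C α) * (X - C β) := by
  have hmm : (f.map ι).Monic := hf.map ι
  have hdd : (f.map ι).natDegree = 2 := by rw [hf.natDegree_map, hd]
  refine s59tbig_split_quad _ hmm hdd ?_
  -- `f.map ι` is the image of the lift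
  have h1 : (residue 𝒪).comp (Int.castRingHom 𝒪) = Int.castRingHom (ResidueField 𝒪) :=
    RingHom.ext_int _ _
  have hspk : ((s59tbigP p).map (Int.castRingHom (ResidueField 𝒪))).Splits := by
    have := hsp.map (residue 𝒪)
    rwa [Polynomial.map_map, h1] at this
  have hne : (s59tbigP p).map (Int.castRingHom (ResidueField 𝒪)) ≠ 0 :=
    ((s59tbigP_monic p).map _).ne_zero
  have hF := Splits.of_dvd hspk hne
    (Polynomial.map_dvd (Int.castRingHom (ResidueField 𝒪))
      (s59tbigF_dvd p (f.coeff 1, f.coeff 0)))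
  have hcast : ∀ a : ZMod p,
      Int.castRingHom (ResidueField 𝒪) ((a.val : ℕ) : ℤ) = ι a := by
    intro a
    rw [eq_intCast, Int.cast_natCast]
    conv_rhs => rw [← ZMod.natCast_zmod_val a]
    rw [map_natCast]
  have heq : f.map ι = (s59tbigF p (f.coeff 1, f.coeff 0)).map
      (Int.castRingHom (ResidueField 𝒪)) := by
    conv_lhs => rw [s59tbig_quad_eq f hf hd]
    unfold s59tbigF
    simp only [Polynomial.map_add, Polynomial.map_mul, Polynomial.map_pow, Polynomial.map_X,
      Polynomial.map_C, hcast]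
  rw [heq]
  exact hF

end Quad

/-! ### The ring `𝒪` of the top chain -/

/-- **a1 (E-BIG wiring)**: the coefficient ring of the top chain. -/
theorem s59tbig_exists (p : ℕ) [Fact p.Prime]
    (hfin : ∀ (N : ℕ) [NeZero N] (S : Set ℕ), Module.Finite ℤ (CuspForm.heckeAlgebra N 2 S))
    (N0 : ℕ) (hN0 : N0 ≠ 0) (Smin SW : Finset ℕ) (hSW : ∀ q ∈ SW, q ≠ 0) :
    ∃ (𝒪 : Type) (_ : CommRing 𝒪) (_ : IsDomain 𝒪) (_ : IsDiscreteValuationRing 𝒪)
      (_ : IsAdicComplete (maximalIdeal 𝒪) 𝒪) (_ : CharZero 𝒪) (_ : Finite (ResidueField 𝒪))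
      (φ : ℤ_[p] →+* 𝒪) (_ : IsLocalHom φ),
      Function.Injective φ ∧ (p : 𝒪) ∈ maximalIdeal 𝒪 ∧
      (∀ (ι : ZMod p →+* ResidueField 𝒪) (f : (ZMod p)[X]), f.Monic → f.natDegree = 2 →
        ∃ α β : ResidueField 𝒪, f.map ι = (X - C α) * (X - C β)) ∧
      (∀ Q : Finset ℕ, Q ⊆ SW → ∀ (N : ℕ) [NeZero N], N = N0 * ∏ q ∈ Q, (q * q) →
        ∀ θ : CuspForm.heckeAlgebra N 2 (↑(Smin ∪ Q) : Set ℕ) →+* ResidueField 𝒪,
          s59p_IsBig 𝒪 N (↑(Smin ∪ Q) : Set ℕ) θ) := by
  classical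
  have hne : ∀ i : ↥(SW.powerset), N0 * ∏ q ∈ i.1, (q * q) ≠ 0 := by
    intro i
    refine mul_ne_zero hN0 (Finset.prod_ne_zero_iff.mpr fun q hq => ?_)
    have hq' : q ∈ SW := (Finset.mem_powerset.mp i.2) hq
    exact mul_ne_zero (hSW q hq') (hSW q hq')
  haveI : ∀ i : ↥(SW.powerset), NeZero (N0 * ∏ q ∈ i.1, (q * q)) := fun i => ⟨hne i⟩
  obtain ⟨𝒪, i1, i2, i3, i4, i5, i6, φ, i8, hinj, hp, hsp, hbig⟩ :=
    s59big_isBig p (ι := ↥(SW.powerset)) (fun i => N0 * ∏ q ∈ i.1, (q * q))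
      (fun i => (↑(Smin ∪ i.1) : Set ℕ)) (fun i => hfin _ _) (s59tbigP p) (s59tbigP_monic p)
  refine ⟨𝒪, i1, i2, i3, i4, i6, i5, φ, i8, hinj, hp, ?_, ?_⟩
  · intro ι f hf hd
    exact s59tbig_hK p 𝒪 hsp ι f hf hd
  · intro Q hQ N _ hN θ
    subst hN
    exact hbig ⟨Q, Finset.mem_powerset.mpr hQ⟩ θ

end Fermat.Agent.S59
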