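/-
S59, the TOP chain, item **a1 = E-BIG wiring**, form for the P-STEP (helper56; asked by helper72
for `s59eigp_exists_datum`, `S59/Eta/EigP.lean`, hypothesis `hbigP`).

`s59tbig_exists_lev` : for a prime `p`, finite sets of primes `Smin`, `SW`, an ARBITRARY level
function `lev : Finset ℕ → ℕ` (nonzero on the subsets of `SW`; e.g. `s59tops_level N₀` of case
(a) or `s59pstp_level N₀ p` of case (c)) and a base level `N₀ ≠ 0`, there is ONE complete discrete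
valuation ring `𝒪` of characteristic `0` with finite residue field and a local injective
`φ : ℤ_p → 𝒪` with
* (hK)    every monic quadratic over `𝔽_p` splits in `k`;
* (BIG)   `s59p_IsBig 𝒪 N ↑(Smin ∪ Q) θ` for `N = lev Q`, `Q ⊆ SW`;
* (RANGE) the range form at `(lev Q, ↑(Smin ∪ Q))`;
* (RANGE-P) the range form at `(lev Q, ↑(Smin ∪ Q) \ {p})`   (= `hbigP` of E-EIGP);
* the same three at the base level `(N₀, ↑Smin)`, `(N₀, ↑Smin \ {p})`.
-/
import Fermat.Agent.S59.TopBig2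

set_option autoImplicit false
set_option linter.unusedVariables false
set_option linter.unusedSectionVars false
set_option linter.style.haveILetI false
set_option linter.style.longLine false

noncomputable section

namespace Fermat.Agent.S59

open IsLocalRing Polynomial

/-- the levels, indexed by `Bool × Option (powerset SW)` (`none` = the base level) -/
def s59tbig3N (N0 : ℕ) (SW : Finset ℕ) (lev : Finset ℕ → ℕ) :
    Bool × Option ↥(SW.powerset) → ℕ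
  | (_, none) => N0
  | (_, some i) => lev i.1

/-- the sets of primes (`true` = with `p` removed) -/
def s59tbig3S (p : ℕ) (Smin SW : Finset ℕ) : Bool × Option ↥(SW.powerset) → Set ℕ
  | (false, none) => (↑Smin : Set ℕ)
  | (false, some i) => (↑(Smin ∪ i.1) : Set ℕ)
  | (true, none) => (↑Smin : Set ℕ) \ {p}
  | (true, some i) => (↑(Smin ∪ i.1) : Set ℕ) \ {p}

/-- **a1 (E-BIG wiring), form for the P-STEP** -/
theorem s59tbig_exists_lev (p : ℕ) [Fact p.Prime]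
    (hfin : ∀ (N : ℕ) [NeZero N] (S : Set ℕ), Module.Finite ℤ (CuspForm.heckeAlgebra N 2 S))
    (N0 : ℕ) [NeZero N0] (Smin SW : Finset ℕ) (lev : Finset ℕ → ℕ)
    (hlev : ∀ Q : Finset ℕ, Q ⊆ SW → lev Q ≠ 0) :
    ∃ (𝒪 : Type) (_ : CommRing 𝒪) (_ : IsDomain 𝒪) (_ : IsDiscreteValuationRing 𝒪)
      (_ : IsAdicComplete (maximalIdeal 𝒪) 𝒪) (_ : CharZero 𝒪) (_ : Finite (ResidueField 𝒪))
      (φ : ℤ_[p] →+* 𝒪) (_ : IsLocalHom φ),
      Function.Injective φ ∧ (p : 𝒪) ∈ maximalIdeal 𝒪 ∧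
      (∀ (ι : ZMod p →+* ResidueField 𝒪) (f : (ZMod p)[X]), f.Monic → f.natDegree = 2 →
        ∃ α β : ResidueField 𝒪, f.map ι = (X - C α) * (X - C β)) ∧
      -- (BIG)
      (∀ Q : Finset ℕ, Q ⊆ SW → ∀ (N : ℕ) [NeZero N], N = lev Q →
        ∀ θ : CuspForm.heckeAlgebra N 2 (↑(Smin ∪ Q) : Set ℕ) →+* ResidueField 𝒪,
          s59p_IsBig 𝒪 N (↑(Smin ∪ Q) : Set ℕ) θ) ∧
      -- (RANGE)
      (∀ Q : Finset ℕ, Q ⊆ SW → ∀ (N : ℕ) [NeZero N], N = lev Q →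
        ∀ (B : Type) [CommRing B] [IsDomain B] [Algebra 𝒪 B]
          (χ : CuspForm.heckeAlgebra N 2 (↑(Smin ∪ Q) : Set ℕ) →+* B)
          (t : CuspForm.heckeAlgebra N 2 (↑(Smin ∪ Q) : Set ℕ)),
          χ t ∈ Set.range (algebraMap 𝒪 B)) ∧
      -- (RANGE-P)
      (∀ Q : Finset ℕ, Q ⊆ SW → ∀ (N : ℕ) [NeZero N], N = lev Q →
        ∀ (B : Type) [CommRing B] [IsDomain B] [Algebra 𝒪 B]
          (χ : CuspForm.heckeAlgebra N 2 ((↑(Smin ∪ Q) : Set ℕ) \ {p}) →+* B)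
          (t : CuspForm.heckeAlgebra N 2 ((↑(Smin ∪ Q) : Set ℕ) \ {p})),
          χ t ∈ Set.range (algebraMap 𝒪 B)) ∧
      -- the base level
      (∀ θ : CuspForm.heckeAlgebra N0 2 (↑Smin : Set ℕ) →+* ResidueField 𝒪,
        s59p_IsBig 𝒪 N0 (↑Smin : Set ℕ) θ) ∧
      (∀ (B : Type) [CommRing B] [IsDomain B] [Algebra 𝒪 B]
        (χ : CuspForm.heckeAlgebra N0 2 (↑Smin : Set ℕ) →+* B)
        (t : CuspForm.heckeAlgebra N0 2 (↑Smin : Set ℕ)),
        χ t ∈ Set.range (algebraMap 𝒪 B)) ∧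
      ∀ (B : Type) [CommRing B] [IsDomain B] [Algebra 𝒪 B]
        (χ : CuspForm.heckeAlgebra N0 2 ((↑Smin : Set ℕ) \ {p}) →+* B)
        (t : CuspForm.heckeAlgebra N0 2 ((↑Smin : Set ℕ) \ {p})),
        χ t ∈ Set.range (algebraMap 𝒪 B) := by
  classical
  have hN0 : N0 ≠ 0 := NeZero.ne N0
  have hne : ∀ i : Bool × Option ↥(SW.powerset), s59tbig3N N0 SW lev i ≠ 0 := by
    rintro ⟨b, _ | i⟩
    · exact hN0
    · exact hlev i.1 (Finset.mem_powerset.mp i.2)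
  haveI : ∀ i : Bool × Option ↥(SW.powerset), NeZero (s59tbig3N N0 SW lev i) := fun i => ⟨hne i⟩
  haveI : ∀ i : Bool × Option ↥(SW.powerset),
      Module.Finite ℤ (CuspForm.heckeAlgebra (s59tbig3N N0 SW lev i) 2
        (s59tbig3S p Smin SW i)) :=
    fun i => hfin _ _
  obtain ⟨𝒪, i1, i2, i3, i4, i5, i6, φ, i8, hinj, hp, hsp, hbig⟩ :=
    s59big_exists_fam_padic p
      (fun i : Bool × Option ↥(SW.powerset) =>
        CuspForm.heckeAlgebra (s59tbig3N N0 SW lev i) 2 (s59tbig3S p Smin SW i))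
      (s59tbigP p) (s59tbigP_monic p)
  have hR : ∀ Q : Finset ℕ, Q ⊆ SW → ∀ (N : ℕ) [NeZero N], N = lev Q →
      ∀ (B : Type) [CommRing B] [IsDomain B] [Algebra 𝒪 B]
        (χ : CuspForm.heckeAlgebra N 2 (↑(Smin ∪ Q) : Set ℕ) →+* B)
        (t : CuspForm.heckeAlgebra N 2 (↑(Smin ∪ Q) : Set ℕ)),
        χ t ∈ Set.range (algebraMap 𝒪 B) := by
    intro Q hQ N _ hN B _ _ _ χ t
    subst hN
    exact hbig (false, some ⟨Q, Finset.mem_powerset.mpr hQ⟩) B χ t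
  have hRP : ∀ Q : Finset ℕ, Q ⊆ SW → ∀ (N : ℕ) [NeZero N], N = lev Q →
      ∀ (B : Type) [CommRing B] [IsDomain B] [Algebra 𝒪 B]
        (χ : CuspForm.heckeAlgebra N 2 ((↑(Smin ∪ Q) : Set ℕ) \ {p}) →+* B)
        (t : CuspForm.heckeAlgebra N 2 ((↑(Smin ∪ Q) : Set ℕ) \ {p})),
        χ t ∈ Set.range (algebraMap 𝒪 B) := by
    intro Q hQ N _ hN B _ _ _ χ t
    subst hN
    exact hbig (true, some ⟨Q, Finset.mem_powerset.mpr hQ⟩) B χ t
  have hR0 : ∀ (B : Type) [CommRing B] [IsDomain B] [Algebra 𝒪 B]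
      (χ : CuspForm.heckeAlgebra N0 2 (↑Smin : Set ℕ) →+* B)
      (t : CuspForm.heckeAlgebra N0 2 (↑Smin : Set ℕ)),
      χ t ∈ Set.range (algebraMap 𝒪 B) := fun B _ _ _ χ t => hbig (false, none) B χ t
  have hRP0 : ∀ (B : Type) [CommRing B] [IsDomain B] [Algebra 𝒪 B]
      (χ : CuspForm.heckeAlgebra N0 2 ((↑Smin : Set ℕ) \ {p}) →+* B)
      (t : CuspForm.heckeAlgebra N0 2 ((↑Smin : Set ℕ) \ {p})),
      χ t ∈ Set.range (algebraMap 𝒪 B) := fun B _ _ _ χ t => hbig (true, none) B χ t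
  refine ⟨𝒪, i1, i2, i3, i4, i6, i5, φ, i8, hinj, hp, ?_, ?_, hR, hRP, ?_, hR0, hRP0⟩
  · intro ι f hf hd
    exact s59tbig_hK p 𝒪 hsp ι f hf hd
  · intro Q hQ N _ hN θ
    exact s59big_isBig_of_range 𝒪 N _ (hR Q hQ N hN) θ
  · intro θ
    exact s59big_isBig_of_range 𝒪 N0 _ hR0 θ

end Fermat.Agent.S59

end
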