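/-
S59, the TOP chain, item **a1 = E-BIG wiring**, STRONG form WITH THE SPLITTING OF `s59lkP0 p`
(helper22; asked by helper67, note "R1 contract gap: zeta_p / hsp", 07:13Z).

The setups of the K-machine over a big `𝒪` (`s59lk_setupBigW`, `S59/LowK/SetupBigW.lean`) need

  `hsp : ((s59lkP0 p).map (Int.castRingHom 𝒪)).Splits`,   `s59lkP0 p = Φ_p · ∏_{a, b < p} (X² + a X + b)`

(a primitive `p`-th root of unity and the roots of the quadratics in `𝒪`).  The ring `𝒪` of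
`s59tbig_exists_strong` (`S59/TopBig2.lean`, helper56) splits `s59tbigP p` only.  Here E-BIG is
called with the product `s59tbigP p * s59lkP0 p`:

* `s59tbigsp_monic`         : the product is monic;
* `s59tbigsp_splits_left`   : if the product splits over a domain then `s59tbigP p` splits;
* `s59tbigsp_splits_right`  : ... and `s59lkP0 p` splits;
* `s59tbigsp_exists_strong` : `s59tbig_exists_strong` with ONE more conjunct, right after `hK`:
                              `((s59lkP0 p).map (Int.castRingHom 𝒪)).Splits`.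
-/
import Fermat.Agent.S59.TopBig2
import Fermat.Agent.S59.LowK.SetupBigW

set_option autoImplicit false
set_option linter.unusedVariables false
set_option linter.unusedSectionVars false
set_option linter.style.haveILetI false
set_option linter.style.longLine false

noncomputable section

namespace Fermat.Agent.S59

open IsLocalRing Polynomial Fermat.Agent.S59.LowK

/-- the polynomial to split: `s59tbigP p * s59lkP0 p` is monic -/
theorem s59tbigsp_monic (p : ℕ) [Fact p.Prime] : (s59tbigP p * s59lkP0 p).Monic :=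
  (s59tbigP_monic p).mul (s59lkP0_monic p)

section Split

variable {p : ℕ} [Fact p.Prime] {𝒪 : Type} [CommRing 𝒪] [IsDomain 𝒪]

theorem s59tbigsp_map_ne_zero : (s59tbigP p * s59lkP0 p).map (Int.castRingHom 𝒪) ≠ 0 :=
  ((s59tbigsp_monic p).map _).ne_zero

/-- the first factor splits -/
theorem s59tbigsp_splits_left
    (hsp : ((s59tbigP p * s59lkP0 p).map (Int.castRingHom 𝒪)).Splits) :
    ((s59tbigP p).map (Int.castRingHom 𝒪)).Splits := by
  refine hsp.of_dvd s59tbigsp_map_ne_zero ?_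
  rw [Polynomial.map_mul]
  exact dvd_mul_right _ _

/-- the second factor splits -/
theorem s59tbigsp_splits_right
    (hsp : ((s59tbigP p * s59lkP0 p).map (Int.castRingHom 𝒪)).Splits) :
    ((s59lkP0 p).map (Int.castRingHom 𝒪)).Splits := by
  refine hsp.of_dvd s59tbigsp_map_ne_zero ?_
  rw [Polynomial.map_mul]
  exact dvd_mul_left _ _

end Split

/-- **a1 (E-BIG wiring), strong form, with the splitting of `s59lkP0 p`** (the hypothesis `hsp`
of the big setups `s59lk_setupBigW`): the statement of `s59tbig_exists_strong` with ONE more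
conjunct, right after `hK`. -/
theorem s59tbigsp_exists_strong (p : ℕ) [Fact p.Prime]
    (hfin : ∀ (N : ℕ) [NeZero N] (S : Set ℕ), Module.Finite ℤ (CuspForm.heckeAlgebra N 2 S))
    (N0 : ℕ) [NeZero N0] (Smin SW : Finset ℕ) (hSW : ∀ q ∈ SW, q ≠ 0) :
    ∃ (𝒪 : Type) (_ : CommRing 𝒪) (_ : IsDomain 𝒪) (_ : IsDiscreteValuationRing 𝒪)
      (_ : IsAdicComplete (maximalIdeal 𝒪) 𝒪) (_ : CharZero 𝒪) (_ : Finite (ResidueField 𝒪))
      (φ : ℤ_[p] →+* 𝒪) (_ : IsLocalHom φ),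
      Function.Injective φ ∧ (p : 𝒪) ∈ maximalIdeal 𝒪 ∧
      (∀ (ι : ZMod p →+* ResidueField 𝒪) (f : (ZMod p)[X]), f.Monic → f.natDegree = 2 →
        ∃ α β : ResidueField 𝒪, f.map ι = (X - C α) * (X - C β)) ∧
      ((s59lkP0 p).map (Int.castRingHom 𝒪)).Splits ∧
      (∀ Q : Finset ℕ, Q ⊆ SW → ∀ (N : ℕ) [NeZero N], N = N0 * ∏ q ∈ Q, (q * q) →
        ∀ θ : CuspForm.heckeAlgebra N 2 (↑(Smin ∪ Q) : Set ℕ) →+* ResidueField 𝒪,
          s59p_IsBig 𝒪 N (↑(Smin ∪ Q) : Set ℕ) θ) ∧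
      (∀ Q : Finset ℕ, Q ⊆ SW → ∀ (N : ℕ) [NeZero N], N = N0 * ∏ q ∈ Q, (q * q) →
        ∀ (B : Type) [CommRing B] [IsDomain B] [Algebra 𝒪 B]
          (χ : CuspForm.heckeAlgebra N 2 (↑(Smin ∪ Q) : Set ℕ) →+* B)
          (t : CuspForm.heckeAlgebra N 2 (↑(Smin ∪ Q) : Set ℕ)),
          χ t ∈ Set.range (algebraMap 𝒪 B)) ∧
      (∀ θ : CuspForm.heckeAlgebra N0 2 (↑Smin : Set ℕ) →+* ResidueField 𝒪,
        s59p_IsBig 𝒪 N0 (↑Smin : Set ℕ) θ) ∧
      ∀ (B : Type) [CommRing B] [IsDomain B] [Algebra 𝒪 B]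
        (χ : CuspForm.heckeAlgebra N0 2 (↑Smin : Set ℕ) →+* B)
        (t : CuspForm.heckeAlgebra N0 2 (↑Smin : Set ℕ)),
        χ t ∈ Set.range (algebraMap 𝒪 B) := by
  classical
  have hN0 : N0 ≠ 0 := NeZero.ne N0
  have hne : ∀ i : Option ↥(SW.powerset), s59tbigN N0 SW i ≠ 0 := by
    rintro (_ | i)
    · exact hN0
    · refine mul_ne_zero hN0 (Finset.prod_ne_zero_iff.mpr fun q hq => ?_)
      have hq' : q ∈ SW := (Finset.mem_powerset.mp i.2) hq
      exact mul_ne_zero (hSW q hq') (hSW q hq')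
  haveI : ∀ i : Option ↥(SW.powerset), NeZero (s59tbigN N0 SW i) := fun i => ⟨hne i⟩
  haveI : ∀ i : Option ↥(SW.powerset),
      Module.Finite ℤ (CuspForm.heckeAlgebra (s59tbigN N0 SW i) 2 (s59tbigS Smin SW i)) :=
    fun i => hfin _ _
  obtain ⟨𝒪, i1, i2, i3, i4, i5, i6, φ, i8, hinj, hp, hsp, hbig⟩ :=
    s59big_exists_fam_padic p
      (fun i : Option ↥(SW.powerset) =>
        CuspForm.heckeAlgebra (s59tbigN N0 SW i) 2 (s59tbigS Smin SW i))
      (s59tbigP p * s59lkP0 p) (s59tbigsp_monic p)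
  have hstrong : ∀ Q : Finset ℕ, Q ⊆ SW → ∀ (N : ℕ) [NeZero N], N = N0 * ∏ q ∈ Q, (q * q) →
      ∀ (B : Type) [CommRing B] [IsDomain B] [Algebra 𝒪 B]
        (χ : CuspForm.heckeAlgebra N 2 (↑(Smin ∪ Q) : Set ℕ) →+* B)
        (t : CuspForm.heckeAlgebra N 2 (↑(Smin ∪ Q) : Set ℕ)),
        χ t ∈ Set.range (algebraMap 𝒪 B) := by
    intro Q hQ N _ hN B _ _ _ χ t
    subst hN
    exact hbig (some ⟨Q, Finset.mem_powerset.mpr hQ⟩) B χ t
  have hstrong0 : ∀ (B : Type) [CommRing B] [IsDomain B] [Algebra 𝒪 B]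
      (χ : CuspForm.heckeAlgebra N0 2 (↑Smin : Set ℕ) →+* B)
      (t : CuspForm.heckeAlgebra N0 2 (↑Smin : Set ℕ)),
      χ t ∈ Set.range (algebraMap 𝒪 B) := fun B _ _ _ χ t => hbig none B χ t
  refine ⟨𝒪, i1, i2, i3, i4, i6, i5, φ, i8, hinj, hp, ?_, s59tbigsp_splits_right hsp, ?_,
    hstrong, ?_, hstrong0⟩
  · intro ι f hf hd
    exact s59tbig_hK p 𝒪 (s59tbigsp_splits_left hsp) ι f hf hd
  · intro Q hQ N _ hN θ
    exact s59big_isBig_of_range 𝒪 N _ (hstrong Q hQ N hN) θ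
  · intro θ
    exact s59big_isBig_of_range 𝒪 N0 _ hstrong0 θ

end Fermat.Agent.S59

end
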