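/-
S59, THE TOP (captain helper69): **frozen S59 from S58 and the open walls only**.

`s59stx_result_leaves` (helper43, `S59/Strict/Final3.lean`) proves the frozen S59 from S58, S22,
S29 and six walls, with RAISE, LOWP-GOOD, LG-P, DEF-COND and the LowQ glue plugged.  Here the roots
S22 and S29 are plugged from the LEAF modules of their proofs
(`Fermat.Agent.S22.moduleFinite_heckeAlgebra`, `Fermat.Agent.S29.s29_of_inj`); S58 stays a
hypothesis (its root module is a switched root: no import of it here).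

THE OPEN WALLS of S59 (ledger: NOTES/S59-TOP.md):

  M1       `s59lsq_StmtWall`                      (q² ∥ level ⇒ q)
  LOWQ     `LowQ.s59lq_StmtMPOn`, `LowQ.s59lq_StmtTR` at `p = 3` and `p = 5`
  R1       `s59towd_StmtR1`                       (case (a): `W` good at `p`)
  R1-ORD   `s59stw_StmtR1`                        (case (b): `W` bad at `p`, not peu ramifié)
  R1-C     `s59pste_StmtR1C s59staCondC`          (case (c): `W` bad at `p`, peu ramifié)
-/
import Fermat.Agent.S59.Strict.Final3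
import Fermat.Agent.S59.TopOwedP
import Fermat.Agent.S22.Final
import Fermat.Agent.S29.OfInj
import Fermat.Agent.INJ.InjAll

set_option autoImplicit false
set_option linter.style.longLine false
set_option linter.unusedVariables false
set_option linter.unusedSectionVars false

noncomputable section

namespace Fermat.Agent.S59

/-- S29 ✓ (from the leaf modules of its proof). -/
theorem s59tfin_S29 : s59tres_StmtS29 := by
  intro N g hg p hp k _ _ φ
  exact Fermat.Agent.S29.s29_of_inj Fermat.Agent.INJ.injAll_stmtINJAll hg hp φ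

/-- S22 ✓ (from the leaf module of its proof). -/
theorem s59tfin_S22 :
    ∀ (N : ℕ) [NeZero N] (S : Set ℕ), Module.Finite ℤ (CuspForm.heckeAlgebra N 2 S) :=
  fun N _ S => Fermat.Agent.S22.moduleFinite_heckeAlgebra N 2 S

/-- **Frozen S59 from S58 and the open walls**: M1, the leaves of LOWQ (Mazur's principle and the
K-machine at `p = 3, 5`), R1, R1-ORD, R1-C. -/
theorem s59tfin_leaves (h58 : s59p_StmtS58) (hM1 : s59lsq_StmtWall)
    (hMP : ∀ p : ℕ, (p = 3 ∨ p = 5) → LowQ.s59lq_StmtMPOn (fun p' _ _ => p' = p))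
    (hTR : ∀ p : ℕ, (p = 3 ∨ p = 5) → LowQ.s59lq_StmtTR p)
    (hR1 : s59towd_StmtR1) (hR1ord : s59stw_StmtR1)
    (hR1C : s59pste_StmtR1C s59staCondC)
    (p : ℕ) (hp : p = 3 ∨ p = 5)
    (W : WeierstrassCurve ℤ) (hΔ : W.Δ ≠ 0) (hW : W.IsSemistableModel)
    (hirr : W.ModRepIsIrreducible p)
    (M₀ : ℕ) [NeZero M₀] (hres₀ : W.IsResiduallyModularOfLevel p M₀)
    (hM₀ : ¬ p ^ 2 ∣ M₀)
    (hM₀3 : ∀ q : ℕ, q.Prime → q ≠ p → ¬ q ^ 3 ∣ M₀) :
    Mlc1IsModularModelOfExactConductorLevel W :=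
  s59stx_result_leaves h58 s59tfin_S22 s59tfin_S29 hM1 hMP hTR hR1 hR1ord hR1C
    p hp W hΔ hW hirr M₀ hres₀ hM₀ hM₀3

/-- **Frozen S59 from S58 and the open walls, the R1 contract of case (a) WITH the splitting
binder `hsp`** (`s59towp_StmtR1At (P₀ p) p`, S59/TopOwedP.lean; the cone takes
`P₀ := s59lkP0`): this is the form in which R1 (a) is being proved (S59/Min/R1Five.lean). -/
theorem s59tfin_leaves_sp (P₀ : ℕ → Polynomial ℤ) (hP₀ : ∀ p, (P₀ p).Monic)
    (h58 : s59p_StmtS58) (hM1 : s59lsq_StmtWall)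
    (hMP : ∀ p : ℕ, (p = 3 ∨ p = 5) → LowQ.s59lq_StmtMPOn (fun p' _ _ => p' = p))
    (hTR : ∀ p : ℕ, (p = 3 ∨ p = 5) → LowQ.s59lq_StmtTR p)
    (hR1 : ∀ p : ℕ, (p = 3 ∨ p = 5) → s59towp_StmtR1At (P₀ p) p) (hR1ord : s59stw_StmtR1)
    (hR1C : s59pste_StmtR1C s59staCondC)
    (p : ℕ) (hp : p = 3 ∨ p = 5)
    (W : WeierstrassCurve ℤ) (hΔ : W.Δ ≠ 0) (hW : W.IsSemistableModel)
    (hirr : W.ModRepIsIrreducible p)
    (M₀ : ℕ) [NeZero M₀] (hres₀ : W.IsResiduallyModularOfLevel p M₀)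
    (hM₀ : ¬ p ^ 2 ∣ M₀)
    (hM₀3 : ∀ q : ℕ, q.Prime → q ≠ p → ¬ q ^ 3 ∣ M₀) :
    Mlc1IsModularModelOfExactConductorLevel W :=
  s59towp_result P₀ hP₀ h58 s59tfin_S22 s59tfin_S29 hM1
    (s59stq_both_of_leaves hMP hTR LowQ.s59lq_stmtRaise).1 s59lpwt_lowPGood
    LowQ.s59lq_stmtRaise hR1
    (s59stx_stages_bad s59tfin_S22 s59tfin_S29 hM1
      (s59stq_both_of_leaves hMP hTR LowQ.s59lq_stmtRaise).1 LowQ.s59lq_stmtRaise
      (s59stq_both_of_leaves hMP hTR LowQ.s59lq_stmtRaise).2 hR1ord hR1C)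
    p hp W hΔ hW hirr M₀ hres₀ hM₀ hM₀3

end Fermat.Agent.S59

end
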