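/-
S59, THE TOP (captain helper69): **frozen S59 from S58 and the open walls, with R1 (a) at `p = 5`
plugged in** (`s59r1five_result`, helper67 and the R1 team, `S59/Min/R1FiveFinal.lean`).

`s59tfin5_leaves` : frozen S59 ⇐ S58 ✓ +
  M1       `s59lsq_StmtWall`,
  LOWQ     `LowQ.s59lq_StmtMPOn`, `LowQ.s59lq_StmtTR` at `p = 3` and `p = 5`,
  R1 (a) at `p = 3`   `s59towp_StmtR1At (s59lkP0 3) 3`,
  R1-ORD   `s59stw_StmtR1`,
  R1-C     `s59pste_StmtR1C s59staCondC`.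
-/
import Fermat.Agent.S59.TopFinal
import Fermat.Agent.S59.Min.R1FiveFinal

set_option autoImplicit false
set_option linter.style.longLine false
set_option linter.unusedVariables false
set_option linter.unusedSectionVars false

noncomputable section

namespace Fermat.Agent.S59

open Fermat.Agent.S59.LowK

/-- the R1 contract of case (a) at `p = 3` and `p = 5` from its instance at `p = 3`. -/
theorem s59tfin5_r1 (hR1_3 : s59towp_StmtR1At (s59lkP0 3) 3) :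
    ∀ p : ℕ, (p = 3 ∨ p = 5) → s59towp_StmtR1At (s59lkP0 p) p := by
  intro p hp
  rcases hp with rfl | rfl
  · exact hR1_3
  · exact s59r1five_result

/-- **Frozen S59 from S58 and the open walls, R1 (a) at `p = 5` plugged in.** -/
theorem s59tfin5_leaves (h58 : s59p_StmtS58) (hM1 : s59lsq_StmtWall)
    (hMP : ∀ p : ℕ, (p = 3 ∨ p = 5) → LowQ.s59lq_StmtMPOn (fun p' _ _ => p' = p))
    (hTR : ∀ p : ℕ, (p = 3 ∨ p = 5) → LowQ.s59lq_StmtTR p)
    (hR1_3 : s59towp_StmtR1At (s59lkP0 3) 3) (hR1ord : s59stw_StmtR1)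
    (hR1C : s59pste_StmtR1C s59staCondC)
    (p : ℕ) (hp : p = 3 ∨ p = 5)
    (W : WeierstrassCurve ℤ) (hΔ : W.Δ ≠ 0) (hW : W.IsSemistableModel)
    (hirr : W.ModRepIsIrreducible p)
    (M₀ : ℕ) [NeZero M₀] (hres₀ : W.IsResiduallyModularOfLevel p M₀)
    (hM₀ : ¬ p ^ 2 ∣ M₀)
    (hM₀3 : ∀ q : ℕ, q.Prime → q ≠ p → ¬ q ^ 3 ∣ M₀) :
    Mlc1IsModularModelOfExactConductorLevel W :=
  s59tfin_leaves_sp s59lkP0 s59lkP0_monic h58 hM1 hMP hTR (s59tfin5_r1 hR1_3) hR1ord hR1C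
    p hp W hΔ hW hirr M₀ hres₀ hM₀ hM₀3

end Fermat.Agent.S59

end
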