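/-
S59, piece R3 = TOP (helper69, captain), part 2: WILES' INDUCTION OVER A FINITE SET OF PRIMES,
abstract in the state.

`St` is ANY type of "level packages" (for instance: level `N_Σ`, Hecke–Galois datum, universal ring,
surjection `R_Σ ↠ T_Σ`, lattice `L_Σ`, …), `ok Σ s` says that `s` is a package for the set `Σ` of
non-minimal primes, `lPhi s = length Φ_{R_Σ}`, `eta s = η_{L_Σ}` (module congruence ideal).

* `s59topi_induct` : BASE (`ok ∅ s₀`, numerical inequality, `η ≠ 0`: R1 = MIN′) and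
  STEP (`ok Σ s`, `q ∈ Σ_W ∖ Σ` ⇒ `ok (insert q Σ) s'`, `lPhi s' ≤ lPhi s + length 𝒪/c`,
  `eta s' ≤ c · eta s`, `eta s' ≠ 0`: SEL ✓ + R2 = ETA′) give a package for `Σ_W` with the
  numerical inequality `lPhi s ≤ length (𝒪 ⧸ eta s)`.
  The inequality is then consumed by `s59g_end` (GEN + NC-Iso ✓), i.e. by `s59top_rt_of_chain`
  with `n = 0`.
-/
import Fermat.Agent.S59.Glue

set_option autoImplicit false
set_option linter.style.haveILetI false
set_option linter.unusedSectionVars false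
set_option linter.unusedVariables false

noncomputable section

namespace Fermat.Agent.S59

open IsLocalRing

section

variable (𝒪 : Type) [CommRing 𝒪] [IsDomain 𝒪] [IsDiscreteValuationRing 𝒪]

/-- **Wiles' induction over the set `Σ_W` of non-minimal primes** (abstract in the state). -/
theorem s59topi_induct {St : Type} (ok : Finset ℕ → St → Prop) (lPhi : St → ℕ∞)
    (eta : St → Ideal 𝒪) (SW : Finset ℕ)
    (base : ∃ s₀ : St, ok ∅ s₀ ∧ eta s₀ ≠ ⊥ ∧ lPhi s₀ ≤ Module.length 𝒪 (𝒪 ⧸ eta s₀))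
    (step : ∀ (Sg : Finset ℕ) (q : ℕ) (s : St), Sg ⊆ SW → q ∈ SW → q ∉ Sg → ok Sg s →
      eta s ≠ ⊥ →
      ∃ (s' : St) (c : 𝒪), ok (insert q Sg) s' ∧ eta s' ≠ ⊥ ∧
        lPhi s' ≤ lPhi s + Module.length 𝒪 (𝒪 ⧸ Ideal.span {c}) ∧
        eta s' ≤ Ideal.span {c} * eta s) :
    ∃ s : St, ok SW s ∧ eta s ≠ ⊥ ∧ lPhi s ≤ Module.length 𝒪 (𝒪 ⧸ eta s) := by
  classical
  have key : ∀ Sg : Finset ℕ, Sg ⊆ SW →
      ∃ s : St, ok Sg s ∧ eta s ≠ ⊥ ∧ lPhi s ≤ Module.length 𝒪 (𝒪 ⧸ eta s) := by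
    intro Sg
    induction Sg using Finset.induction_on with
    | empty => exact fun _ => base
    | insert q Sg hq ih =>
      intro hsub
      have hSg : Sg ⊆ SW := (Finset.subset_insert q Sg).trans hsub
      have hqW : q ∈ SW := hsub (Finset.mem_insert_self q Sg)
      obtain ⟨s, hs, hne, hle⟩ := ih hSg
      obtain ⟨s', c, hs', hne', hsel, heta⟩ := step Sg q s hSg hqW hq hs hne
      refine ⟨s', hs', hne', ?_⟩
      have hc : c ≠ 0 := by
        intro h0
        apply hne'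
        rw [h0, Ideal.span_singleton_eq_bot.2 rfl, Ideal.bot_mul, le_bot_iff] at heta
        exact heta
      exact s59g_stmtNCStep 𝒪 (lPhi s) (lPhi s') (eta s) (eta s') c hc hne hle hsel heta
  exact key SW (Finset.Subset.refl _)

end

end Fermat.Agent.S59

end
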