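/-
S59, wall R1 (case (a)), the contract SPLIT BY THE PRIME (captain helper69).

`s59towd_StmtR1At p` is the contract `s59towd_StmtR1` (S59/TopOwed.lean) at ONE prime `p`
(literally the same binders, without `p = 3 ∨ p = 5`), and
`s59towd_r1_of_at : s59towd_StmtR1At 3 → s59towd_StmtR1At 5 → s59towd_StmtR1`.
TARGET of the final R1 (a) file at `p = 5`: `s59towd_StmtR1At 5`.
-/
import Fermat.Agent.S59.TopOwed

set_option autoImplicit false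
set_option linter.style.longLine false
set_option linter.unusedVariables false
set_option linter.unusedSectionVars false

noncomputable section

namespace Fermat.Agent.S59

open IsLocalRing Polynomial Fermat.Agent.TW Fermat.Agent.S53

/-- **The R1 contract at the prime `p`** (case (a): `W` good at `p`). -/
def s59towd_StmtR1At (p : ℕ) : Prop :=
  ∀ [Fact p.Prime] (hp2 : p ≠ 2)
    (W : WeierstrassCurve ℤ) (hΔ : W.Δ ≠ 0) (_ : W.IsSemistableModel)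
    (hirr : W.ModRepIsIrreducible p) (_ : W.IsGoodPrimeFor p)
    (N0 : ℕ) [NeZero N0] (_ : ∀ ℓ : ℕ, ℓ.Prime → (ℓ ∣ N0 ↔ ℓ ∈ s59feSmin W hΔ p ∧ ℓ ≠ p))
    (_ : Squarefree N0)
    (f : CuspForm (CongruenceSubgroup.Gamma0 N0) 2) (𝔪 : Ideal (integralClosure ℤ ℂ))
    (_ : f.IsNormalizedEigenform) (_ : 𝔪.IsMaximal) (_ : (p : integralClosure ℤ ℂ) ∈ 𝔪)
    (_ : ∀ ℓ : ℕ, ℓ.Prime → W.IsGoodPrimeFor ℓ → ¬ ℓ ∣ N0 → ℓ ≠ p →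
      ∃ a : integralClosure ℤ ℂ, (a : ℂ) = ModularFormClass.qCoeff f ℓ ∧
        a - ((W.apOfModel ℓ : ℤ) : integralClosure ℤ ℂ) ∈ 𝔪)
    (𝒪 : Type) [CommRing 𝒪] [IsDomain 𝒪] [IsDiscreteValuationRing 𝒪]
    [IsAdicComplete (maximalIdeal 𝒪) 𝒪] [CharZero 𝒪] [Finite (ResidueField 𝒪)]
    (φ : ℤ_[p] →+* 𝒪) (hφ : IsLocalHom φ) (_ : Function.Injective φ)
    (hp𝒪 : (p : 𝒪) ∈ maximalIdeal 𝒪)
    (_ : ∀ (ι : ZMod p →+* ResidueField 𝒪) (g : (ZMod p)[X]), g.Monic → g.natDegree = 2 →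
      ∃ α β : ResidueField 𝒪, g.map ι = (X - C α) * (X - C β))
    (_ : ∀ (B : Type) [CommRing B] [IsDomain B] [Algebra 𝒪 B]
      (χ : CuspForm.heckeAlgebra N0 2 (↑(s59feSmin W hΔ p) : Set ℕ) →+* B)
      (t : CuspForm.heckeAlgebra N0 2 (↑(s59feSmin W hΔ p) : Set ℕ)),
      χ t ∈ Set.range (algebraMap 𝒪 B))
    (ψ : ℕ → 𝒪) (χ₀ : CuspForm.heckeAlgebra N0 2 (↑(s59feSmin W hΔ p) : Set ℕ) →+* 𝒪)
    (_ : ∀ (ℓ : ℕ) (hℓ : ℓ.Prime) (hℓN : ¬ ℓ ∣ N0)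
      (hℓS : ℓ ∉ (↑(s59feSmin W hΔ p) : Set ℕ)),
      χ₀ (CuspForm.heckeAlgebra.T hℓ hℓN hℓS) = ψ ℓ)
    (_ : ∀ ℓ : ℕ, ℓ.Prime → ¬ ℓ ∣ N0 → ℓ ∉ (↑(s59feSmin W hΔ p) : Set ℕ) →
      ∀ (a : integralClosure ℤ ℂ) (n : ℤ), (a : ℂ) = ModularFormClass.qCoeff f ℓ →
        a - (n : integralClosure ℤ ℂ) ∈ 𝔪 → residue 𝒪 (ψ ℓ) = (n : ResidueField 𝒪))
    (_ : ∀ ℓ : ℕ, ℓ.Prime → ℓ ∉ s59feSmin W hΔ p → ¬ ℓ ∣ N0 →
      ∀ P : ValuationSubring (AlgebraicClosure ℚ), P.LiesOverPrime ℓ →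
      ∀ τ : AlgebraicClosure ℚ ≃ₐ[ℚ] AlgebraicClosure ℚ, P.IsFrobeniusAt τ ℓ →
        residue 𝒪 (ψ ℓ) = LinearMap.trace (ResidueField 𝒪) (s59feBar W hΔ p φ hφ).V
          ((s59feBar W hΔ p φ hφ).ρ τ))
    (ϖ : 𝒪) (hϖ : Irreducible ϖ)
    (hψW : s59asmr_CongW p ψ W (s59feSmin W hΔ p ∪ N0.primeFactors))
    (ρ₀ : GaloisRepAdic 𝒪) (_ : ρ₀.DetIsCyclotomic p)
    (_ : ρ₀.residual.IsAbsolutelyIrreducible)
    (_ : ∀ ℓ : ℕ, ℓ.Prime → ℓ ∉ s59feSmin W hΔ p →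
      ∀ P : ValuationSubring (AlgebraicClosure ℚ), P.LiesOverPrime ℓ →
      ∀ φ' : AlgebraicClosure ℚ ≃ₐ[ℚ] AlgebraicClosure ℚ, P.IsFrobeniusAt φ' ℓ →
        LinearMap.trace 𝒪 ρ₀.V (ρ₀.ρ φ') = ψ ℓ)
    (s₀ : S59Stage 𝒪 (s59feBar W hΔ p φ hφ) (twFlat 𝒪 p (s59feSmin W hΔ p) ∅)),
    s59tops_inv (s59asmR2 p hp2 hp𝒪 ψ ϖ hϖ W hΔ hirr (s59feSmin W hΔ p ∪ N0.primeFactors) hψW)
      ρ₀ (s59feSmin W hΔ p) N0 ∅ s₀ →
    s₀.lPhi ≤ Module.length 𝒪 (𝒪 ⧸ s₀.etaL)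

/-- the contract `s59towd_StmtR1` is its two instances `p = 3` and `p = 5`. -/
theorem s59towd_r1_of_at (h3 : s59towd_StmtR1At 3) (h5 : s59towd_StmtR1At 5) :
    s59towd_StmtR1 := by
  intro p inst hp
  rcases hp with rfl | rfl
  · exact @h3 inst
  · exact @h5 inst

/-- conversely, the contract gives its instances. -/
theorem s59towd_at_of_r1 (h : s59towd_StmtR1) (p : ℕ) (hp : p = 3 ∨ p = 5) :
    s59towd_StmtR1At p := by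
  intro inst
  exact @h p inst hp

end Fermat.Agent.S59

end
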